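import Fermat.Agent.Ord.Tower3

/-!
# The action of an automorphism of the constants: main theorem
-/

set_option autoImplicit false
set_option linter.unusedSectionVars false
set_option linter.style.haveILetI false

open Finset IntermediateField Module

namespace Fermat.Agent.Ord

open Fermat.Agent.GoodRed (IsInt Lm)

variable {K k : Type*} [Field K] [Field k] {A : ValuationSubring K} {π : A →+* k}
  {Ω Λ : Type*} [Field Ω] [Algebra K Ω] [Field Λ] [Algebra k Λ]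

variable {R : PreRed A π Ω Λ} {p : ℕ} {w : K} {M : Amb R p w}

section Core

variable {F E : IntermediateField K Ω} {κ₀ κ : IntermediateField k Λ} {f g : Ω} {n : ℕ}

/-- the core computation -/
theorem core (L : SubRed R F κ₀) [CharP k p]
    (hle : F ≤ E) (hEQ : ∀ z ∈ E, z ∈ M.Q)
    {ζ : K} (hζ0 : ζ ≠ 0) {y r s : Ω} {rb sb : Λ} (D : StepData M E κ g y r s rb sb)
    {τ : E →+* E} (hτF : ∀ z : E, (z : Ω) ∈ F → τ z = z)
    (hτg : ((τ ⟨g, D.g_mem⟩ : E) : Ω) = algebraMap K Ω (ζ ^ p) * g)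
    (hτfix : ∀ z : E, τ z = z → (z : Ω) ∈ F)
    (hO : ∀ z : E, (z : Ω) ∈ R.O → ((τ z : E) : Ω) ∈ R.O)
    (hord : ∀ z, τ^[p ^ n] z = z)
    {σ : Ω →+* Ω} {σK : K →+* K} (hσK : ∀ c, σ (algebraMap K Ω c) = algebraMap K Ω (σK c))
    (hσQ : ∀ z ∈ M.Q, σ z ∈ M.Q)
    (hσR : ∀ f z, R.IsRed f z → R.IsRed (σ f) z) {a : ℕ} (ha : σK ζ = ζ ^ a)
    (hσE : ∀ z : E, σ z ∈ E) (hcomm : ∀ z : E, ((τ ⟨σ z, hσE z⟩ : E) : Ω) = σ ((τ z : E) : Ω))
    {e : Ω} (hσW : σ (algebraMap K Ω w) = algebraMap K Ω w * e) (he : R.IsRed e (a : Λ))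
    {h : Ω} (hhF : h ∈ F) (hh1 : R.IsRed h 1) (hσgh : σ g = g ^ a * h)
    {b : Ω} (hb : b ∈ F) {rδ : Ω} (hrδF : rδ ∈ F) (hrδ : rδ ∈ R.O)
    (hheq : h = b ^ p * (1 + algebraMap K Ω w ^ p * rδ)) : Split R p w F h := by
  classical
  have hp := M.hp
  haveI := M.charP_Λ
  have hW := M.W_ne
  have hm0 : 0 < p ^ n := pow_pos hp.pos n
  set W : Ω := algebraMap K Ω w with hWdef
  have hζΩ : algebraMap K Ω ζ ≠ 0 := (map_ne_zero _).2 hζ0
  have hh0 : h ≠ 0 := M.ne_of_isRed hh1 one_ne_zero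
  have hb0 : b ≠ 0 := by
    rintro rfl
    rw [zero_pow hp.ne_zero, zero_mul] at hheq
    exact hh0 hheq
  -- elements of `E`
  let Y : E := ⟨y, D.y_mem⟩
  let Rr : E := ⟨r, D.r_mem⟩
  let W' : E := ⟨W, E.algebraMap_mem w⟩
  have hτW : τ W' = W' := hτF W' (F.algebraMap_mem w)
  set ty : Ω := ((τ Y : E) : Ω) with hty
  set tr : Ω := ((τ Rr : E) : Ω) with htr
  have hy0 : y ≠ 0 := M.ne_of_isRed D.hy one_ne_zero
  have htyO : ty ∈ R.O := hO Y D.hy.mem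
  have htrO : tr ∈ R.O := hO Rr D.hr.mem
  obtain ⟨yb, hyb⟩ := R.exists_isRed_of_mem htyO
  have hyb0 : yb ≠ 0 := by
    rintro rfl
    have h1 := isRed_iterate_zero M hO hm0 hord (p ^ n - 1) hyb
    rw [← Function.iterate_succ_apply, Nat.succ_eq_add_one, Nat.sub_add_cancel hm0, hord] at h1
    exact one_ne_zero (D.hy.unique h1)
  have hty0 : ty ≠ 0 := M.ne_of_isRed hyb hyb0
  -- the equation for `τ y`
  have e1 : algebraMap K Ω (ζ ^ p) * g = ty ^ p + W ^ p * tr := by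
    have h1 : (⟨g, D.g_mem⟩ : E) = Y ^ p + W' ^ p * Rr := Subtype.ext D.g_eq
    have h2 := congrArg τ h1
    rw [map_add, map_mul, map_pow, map_pow, hτW] at h2
    have h3 := congrArg Subtype.val h2
    rw [hτg] at h3
    exact h3
  have hu : r / y ^ p ∈ R.O := (M.isRed_div D.hr (D.hy.pow p) (by
    rw [one_pow]; exact one_ne_zero)).mem
  have hu' : tr / ty ^ p ∈ R.O := by
    obtain ⟨z, hz⟩ := R.exists_isRed_of_mem htrO
    exact (M.isRed_div hz (hyb.pow p) (pow_ne_zero _ hyb0)).mem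
  have hden0 := one_add_pow_ne_zero M hu'
  rw [← hWdef] at hden0
  obtain ⟨vb1, hvb1⟩ := R.exists_isRed_of_mem hu
  obtain ⟨vb2, hvb2⟩ := R.exists_isRed_of_mem hu'
  have hrr : R.IsRed ((r / y ^ p - tr / ty ^ p) / (1 + W ^ p * (tr / ty ^ p))) (vb1 - vb2) := by
    have := M.isRed_div (hvb1.sub hvb2) (isRed_one_add_pow M hu') one_ne_zero
    rwa [div_one] at this
  have hθp : (ty / (y * algebraMap K Ω ζ)) ^ p = 1 + W ^ p *
      ((r / y ^ p - tr / ty ^ p) / (1 + W ^ p * (tr / ty ^ p))) := by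
    have h1 : ζ ^ p ≠ 0 := pow_ne_zero _ hζ0
    have h2 : algebraMap K Ω ζ ^ p * (y ^ p + W ^ p * r) = ty ^ p + W ^ p * tr := by
      rw [← D.g_eq, ← map_pow]; exact e1
    have h3 : (ty / (y * algebraMap K Ω ζ)) ^ p * (1 + W ^ p * (tr / ty ^ p)) =
        1 + W ^ p * (r / y ^ p) := by
      rw [div_pow, mul_pow]
      field_simp
      linear_combination -h2
    have h4 : 1 + W ^ p * ((r / y ^ p - tr / ty ^ p) / (1 + W ^ p * (tr / ty ^ p))) =
        ((1 + W ^ p * (tr / ty ^ p)) + W ^ p * (r / y ^ p - tr / ty ^ p)) /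
          (1 + W ^ p * (tr / ty ^ p)) := by
      rw [add_div, div_self hden0, mul_div_assoc]
    rw [eq_div_of_mul_eq hden0 h3, h4]
    congr 1
    ring
  have hθQ : ty / (y * algebraMap K Ω ζ) ∈ M.Q :=
    M.Q.div_mem (hEQ _ (τ Y).2) (M.Q.mul_mem (hEQ y D.y_mem) (M.alg_mem _))
  obtain ⟨V, -, Vb, hθV, hV, -⟩ := M.exists_root hθQ hrr hθp
  have htyV : ty = y * algebraMap K Ω ζ * (1 + W * V) := by
    rw [← hθV]
    field_simp
  -- the action of `σ`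
  have hσy := hσR _ _ D.hy
  have hσy0 : σ y ≠ 0 := M.ne_of_isRed hσy one_ne_zero
  have hσV := hσR _ _ hV
  have hσty : σ ty = σ y * algebraMap K Ω ζ ^ a * (1 + W * (e * σ V)) := by
    rw [htyV, map_mul, map_mul, map_add, map_one, map_mul, hσK, ha, map_pow, hσW]
    ring
  obtain ⟨e3, he3, hpow3⟩ := one_add_pow_eq M hV a
  have htya : ty ^ a = y ^ a * algebraMap K Ω ζ ^ a * (1 + W * e3) := by
    rw [htyV, mul_pow, mul_pow, hpow3]
  -- the element `s'`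
  have hsy : R.IsRed (s / y) sb := by
    have := M.isRed_div D.hsb D.hy one_ne_zero
    rwa [div_one] at this
  obtain ⟨e2, he2, hpow2⟩ := one_add_pow_eq M hsy a
  set g' : Ω := y + W * s with hg'
  have hg'p : g' ^ p = g := D.root_pow
  have hg'0 : g' ≠ 0 := M.ne_of_isRed D.isRed_root one_ne_zero
  have hg'y : g' = y * (1 + W * (s / y)) := by rw [hg']; field_simp
  have hg'a : g' ^ a = y ^ a * (1 + W * e2) := by rw [hg'y, mul_pow, hpow2]
  have hσs := hσR _ _ D.hsb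
  have hq : R.IsRed (e * σ s / σ y) ((a : Λ) * sb) := by
    have := M.isRed_div (he.mul hσs) hσy one_ne_zero
    rwa [div_one] at this
  have hσg' : σ g' = σ y * (1 + W * (e * σ s / σ y)) := by
    rw [hg', map_add, map_mul, hσW]
    field_simp
  set q : Ω := e * σ s / σ y with hqdef
  set G1 : Ω := σ g' / g' ^ a with hG1
  have hg'a0 : g' ^ a ≠ 0 := pow_ne_zero _ hg'0
  have hg0 : g ≠ 0 := by rw [← hg'p]; exact pow_ne_zero _ hg'0
  have hga0 : g ^ a ≠ 0 := pow_ne_zero _ hg0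
  have hG1p : G1 ^ p = h := by
    rw [hG1, div_pow, ← map_pow, hg'p, ← pow_mul, mul_comm a, pow_mul, hg'p, hσgh]
    field_simp
  have hG1b : (G1 / b) ^ p = 1 + W ^ p * rδ := by
    rw [div_pow, hG1p, hheq]
    field_simp
  have hgE' : g' ∈ M.Q := by
    rw [hg']
    exact M.Q.add_mem (hEQ y D.y_mem) (M.Q.mul_mem (M.alg_mem w) D.s_Q)
  have hG1Q : G1 / b ∈ M.Q := M.Q.div_mem (M.Q.div_mem (hσQ _ hgE') (M.Q.pow_mem hgE' a))
    (hEQ b (hle hb))
  obtain ⟨rδb, hrδb⟩ := R.exists_isRed_of_mem hrδ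
  obtain ⟨sδ, -, sδb, hGs, hsδ, hsδb⟩ := M.exists_root hG1Q hrδb hG1b
  have hG1s : G1 = b * (1 + W * sδ) := by rw [← hGs]; field_simp
  -- `s'`
  have hYσE : σ y ∈ E := hσE Y
  set y1 : Ω := σ y / y ^ a with hy1
  have hya0 : y ^ a ≠ 0 := pow_ne_zero _ hy0
  have hy1E : y1 ∈ E := div_mem hYσE (pow_mem D.y_mem a)
  set s' : Ω := (y1 / b - 1) / W with hs'
  have hs'E : s' ∈ E := div_mem (sub_mem (div_mem hy1E (hle hb)) (one_mem _)) (E.algebraMap_mem w)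
  have hy1s' : y1 = b * (1 + W * s') := by rw [hs']; field_simp; ring
  have h1q0 : 1 + W * q ≠ 0 := one_add_ne_zero M hq.mem
  have h1e20 : 1 + W * e2 ≠ 0 := one_add_ne_zero M he2.mem
  have hrel : (1 + W * sδ) * (1 + W * e2) = (1 + W * s') * (1 + W * q) := by
    have h1 : G1 * (y ^ a * (1 + W * e2)) = σ y * (1 + W * q) := by
      rw [← hσg', ← hg'a, hG1]; field_simp
    have h2 : σ y = y1 * y ^ a := by rw [hy1]; field_simp
    rw [h2, hy1s', hG1s] at h1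
    have h3 : b * y ^ a ≠ 0 := mul_ne_zero hb0 hya0
    apply mul_left_cancel₀ h3
    linear_combination h1
  have hs'eq : s' = (sδ + e2 - q + W * (sδ * e2)) / (1 + W * q) := by
    rw [eq_div_iff h1q0]
    apply mul_left_cancel₀ hW
    linear_combination -hrel
  have hs'r : R.IsRed s' sδb := by
    rw [hs'eq]
    have h1 := M.isRed_div (((hsδ.add he2).sub hq).add (M.isRed_w.mul (hsδ.mul he2)))
      (isRed_one_add M hq.mem) one_ne_zero
    rwa [zero_mul, add_zero, div_one, add_sub_cancel_right] at h1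
  -- almost fixed
  let S' : E := ⟨s', hs'E⟩
  let B' : E := ⟨b, hle hb⟩
  have hτB : τ B' = B' := hτF B' hb
  set ts : Ω := ((τ S' : E) : Ω) with hts
  have htsO : ts ∈ R.O := hO S' hs'r.mem
  have hty1 : σ ty / ty ^ a = b * (1 + W * ts) := by
    have h1 : (⟨σ y, hYσE⟩ : E) = Y ^ a * (B' * (1 + W' * S')) := by
      apply Subtype.ext
      change σ y = y ^ a * (b * (1 + W * s'))
      rw [← hy1s', hy1]; field_simp
    have h2 := congrArg τ h1
    rw [map_mul, map_mul, map_pow, map_add, map_one, map_mul, hτW, hτB] at h2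
    have h3 := congrArg Subtype.val h2
    have h4 : ((τ (⟨σ y, hYσE⟩ : E) : E) : Ω) = σ ty := hcomm Y
    rw [h4] at h3
    have h5 : σ ty = ty ^ a * (b * (1 + W * ts)) := h3
    rw [h5]
    have h6 : ty ^ a ≠ 0 := pow_ne_zero _ hty0
    field_simp
  have hrel2 : (1 + W * ts) * (1 + W * e3) = (1 + W * s') * (1 + W * (e * σ V)) := by
    have h6 : ty ^ a ≠ 0 := pow_ne_zero _ hty0
    have h1 : σ ty = b * (1 + W * ts) * ty ^ a := by rw [← hty1]; field_simp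
    rw [hσty, htya] at h1
    have h2 : σ y = y1 * y ^ a := by rw [hy1]; field_simp
    rw [h2, hy1s'] at h1
    have h3 : b * y ^ a * algebraMap K Ω ζ ^ a ≠ 0 :=
      mul_ne_zero (mul_ne_zero hb0 hya0) (pow_ne_zero _ hζΩ)
    apply mul_left_cancel₀ h3
    linear_combination -h1
  have hdiff : ts - s' = e * σ V - e3 + W * (s' * (e * σ V) - ts * e3) := by
    apply mul_left_cancel₀ hW
    linear_combination hrel2
  obtain ⟨tsb, htsb⟩ := R.exists_isRed_of_mem htsO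
  have hdiffr : R.IsRed (((τ S' - S' : E)) : Ω) 0 := by
    change R.IsRed (ts - s') 0
    rw [hdiff]
    have := ((he.mul hσV).sub he3).add (M.isRed_w.mul
      ((hs'r.mul (he.mul hσV)).sub (htsb.mul he3)))
    rwa [zero_mul, add_zero, sub_self] at this
  -- conclusion
  have hmem := pow_mem_of_almost_fixed M L hO hm0 hord hτfix (z := S') hs'r hdiffr
  have hrδκ : rδb ∈ κ₀ := L.red_mem rδ hrδF rδb hrδb
  have hmem2 := artinSchreier_iterate hp hrδκ hsδb n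
  have hmem3 : sδb ∈ κ₀ := by
    have := sub_mem hmem hmem2
    rwa [sub_sub_cancel] at this
  obtain ⟨v0, hv0F, hv0⟩ := L.lift sδb hmem3
  have h1v0 : 1 + W * v0 ≠ 0 := one_add_ne_zero M hv0.mem
  have hμ : R.IsRed ((sδ - v0) / (1 + W * v0)) 0 := by
    have := M.isRed_div (hsδ.sub hv0) (isRed_one_add M hv0.mem) one_ne_zero
    rwa [sub_self, zero_div] at this
  obtain ⟨m, hm, hm1⟩ := M.pow_one_add hμ
  rw [zero_pow hp.ne_zero, sub_zero] at hm1
  have hY2F : b * (1 + W * v0) ∈ F :=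
    mul_mem hb (add_mem (one_mem _) (mul_mem (F.algebraMap_mem w) hv0F))
  have hY20 : b * (1 + W * v0) ≠ 0 := mul_ne_zero hb0 h1v0
  have hheq2 : h = (b * (1 + W * v0)) ^ p * (1 + W ^ p * m) := by
    rw [← hm, ← mul_pow, ← hG1p, hG1s]
    congr 1
    field_simp
    ring
  refine ⟨b * (1 + W * v0), hY2F, m, ?_, hm1, hheq2⟩
  have h2 : m = (h / (b * (1 + W * v0)) ^ p - 1) / W ^ p := by
    rw [hheq2]
    field_simp
    ring
  rw [h2]
  exact div_mem (sub_mem (div_mem hhF (pow_mem hY2F _)) (one_mem _))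
    (pow_mem (F.algebraMap_mem w) _)

end Core

/-- **the main theorem of the tower** -/
theorem tower_main {x : Ω} {xb t : Λ} {F : IntermediateField K Ω}
    {κ₀ : IntermediateField k Λ} (L : Lvl M x xb t F κ₀) [IsAlgClosed K] [CharZero K]
    [IsAlgClosed k] [CharP k p] (hs : Function.Surjective π)
    (ht : ∀ e : ℕ → Λ, ∑ i ∈ range p, e i ^ p * t ^ i = 0 → ∀ i < p, e i = 0)
    {n : ℕ} {f H h₁ : Ω} (hf : f ∈ F) (hf1 : R.IsRed f 1) {b₁ : ℕ}
    (hfb : f ∈ Lm K x b₁) (hns : ¬ Split R p w F f) (hH : H ∈ M.Q)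
    (hT : M.T f = f * H ^ (p ^ (n + 1)))
    (hLow : ∀ i ≤ n, ∀ j < p ^ i, ∃ b0, ∀ b ≥ b0, ∃ V : Submodule K Ω, FiniteDimensional K V ∧
      finrank K (U x F b) ≤ finrank K V ∧
      ∀ h ∈ V, h ∈ F ∧ f ^ j * h ^ (p ^ i) ∈ Lm K x (p ^ i * b))
    {ζ : K} (hζ : IsPrimitiveRoot ζ (p ^ (n + 1))) {σ : Ω →+* Ω} {σK : K →+* K}
    (hσK : ∀ c, σ (algebraMap K Ω c) = algebraMap K Ω (σK c)) (hσF : ∀ z ∈ F, σ z ∈ F)
    (hσQ : ∀ z ∈ M.Q, σ z ∈ M.Q) (hσR : ∀ f z, R.IsRed f z → R.IsRed (σ f) z)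
    {a : ℕ} (ha : σK ζ = ζ ^ a) (hh₁ : h₁ ∈ F) (hσf : σ f = f ^ a * h₁ ^ (p ^ n)) :
    ∃ ζ' : K, ζ' ^ (p ^ n) = 1 ∧ R.IsRed (algebraMap K Ω ζ' * h₁) 1 ∧
      ∀ b ∈ F, ∀ r ∈ F, r ∈ R.O →
        algebraMap K Ω ζ' * h₁ = b ^ p * (1 + algebraMap K Ω w ^ p * r) →
        Split R p w F (algebraMap K Ω ζ' * h₁) := by
  classical
  have hp := M.hp
  haveI := M.charP_Λ
  obtain ⟨E, κ, g, H', T, hH', hT'⟩ := exists_tow L hs ht hf hf1 hfb hns hH hT hLow n le_rfl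
  rw [show n + 1 - n = 1 by omega, pow_one] at hT'
  obtain ⟨y, r, s, rb, sb, D⟩ := T.exists_stepData hs ht hH' hT'
  have hζN : IsPrimitiveRoot (ζ ^ p) (p ^ n) := hζ.pow (pow_pos hp.pos _) (by rw [pow_succ'])
  have hζp : IsPrimitiveRoot (ζ ^ (p ^ n)) p := hζ.pow (pow_pos hp.pos _) (by rw [pow_succ])
  obtain ⟨τ, hτF, hτg, hτfix⟩ := exists_aut T.hle (pow_pos hp.pos n) T.g_mem hf T.g_pow T.indep
    T.spans hζN
  have hEQ := T.lvl.E_Q
  have hO : ∀ z : E, (z : Ω) ∈ R.O → ((τ z : E) : Ω) ∈ R.O :=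
    T.stab ((algebraMap E Ω).comp τ) (fun z => hEQ _ (τ z).2)
      (fun z hz => congrArg Subtype.val (hτF z hz))
  have hm0 : 0 < p ^ n := pow_pos hp.pos n
  haveI : NeZero (p ^ n) := ⟨hm0.ne'⟩
  have hord : ∀ z, τ^[p ^ n] z = z :=
    iterate_aut T.g_mem T.spans hζN.pow_eq_one hτF hτg T.hle
  -- the element `h`
  have hg0 : g ≠ 0 := M.ne_of_isRed T.g_red one_ne_zero
  have hσg := hσR _ _ T.g_red
  have hσg0 : σ g ≠ 0 := M.ne_of_isRed hσg one_ne_zero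
  have hpw : (σ g) ^ (p ^ n) = (g ^ a * h₁) ^ (p ^ n) := by
    rw [← map_pow, T.g_pow, hσf, mul_pow, ← pow_mul, mul_comm a, pow_mul, T.g_pow]
  have hh₁0 : h₁ ≠ 0 := by
    rintro rfl
    rw [mul_zero, zero_pow hm0.ne'] at hpw
    exact pow_ne_zero _ hσg0 hpw
  have hga0 : g ^ a ≠ 0 := pow_ne_zero _ hg0
  have hd0 : g ^ a * h₁ ≠ 0 := mul_ne_zero hga0 hh₁0
  obtain ⟨ζ', hζ', hζ'e⟩ := exists_root_of_unity (n := p ^ n) hζN (η := σ g / (g ^ a * h₁))
    (by rw [div_pow, hpw, div_self (pow_ne_zero _ hd0)])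
  have hhF : algebraMap K Ω ζ' * h₁ ∈ F := mul_mem (F.algebraMap_mem ζ') hh₁
  have hσgh : σ g = g ^ a * (algebraMap K Ω ζ' * h₁) := by
    rw [hζ'e]; field_simp
  have hh1 : R.IsRed (algebraMap K Ω ζ' * h₁) 1 := by
    have h2 : algebraMap K Ω ζ' * h₁ = σ g / g ^ a := by rw [hσgh]; field_simp
    rw [h2]
    have := M.isRed_div hσg (T.g_red.pow a) (by rw [one_pow]; exact one_ne_zero)
    rwa [one_pow, div_one] at this
  refine ⟨ζ', hζ', hh1, ?_⟩
  intro b hb rδ hrδF hrδ hheq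
  have hζ0 : ζ ≠ 0 := hζ.ne_zero (pow_pos hp.pos _).ne'
  have hσE : ∀ z : E, σ z ∈ E := by
    intro z
    obtain ⟨c, hc, hz⟩ := T.spans z z.2
    rw [hz, map_sum]
    refine sum_mem fun i _ => ?_
    rw [map_mul, map_pow, hσgh]
    exact mul_mem (T.hle (hσF _ (hc i))) (pow_mem (mul_mem (pow_mem T.g_mem _) (T.hle hhF)) _)
  let σE : E →+* E := (σ.comp (algebraMap E Ω)).codRestrict E.toSubfield hσE
  have hσEz : ∀ z : E, σE z = ⟨σ z, hσE z⟩ := fun z => rfl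
  have hσKN : σK (ζ ^ p) = (ζ ^ p) ^ a := by rw [map_pow, ha, ← pow_mul, ← pow_mul, mul_comm]
  have hcomm : ∀ z : E, τ (σE z) = σE (τ z) := by
    intro z
    refine hom_ext_of_spans T.hle T.g_mem T.spans (φ := τ.comp σE) (ψ := σE.comp τ) ?_ ?_ z
    · intro z hz
      change τ (σE z) = σE (τ z)
      rw [hτF z hz]
      exact hτF _ (hσF _ hz)
    · change τ (σE ⟨g, T.g_mem⟩) = σE (τ ⟨g, T.g_mem⟩)
      let G : E := ⟨g, T.g_mem⟩
      let Z : E := ⟨algebraMap K Ω (ζ ^ p), E.algebraMap_mem _⟩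
      let Hh : E := ⟨algebraMap K Ω ζ' * h₁, T.hle hhF⟩
      have h1 : τ G = Z * G := Subtype.ext hτg
      have h2 : σE G = G ^ a * Hh := Subtype.ext hσgh
      have h3 : τ Hh = Hh := hτF Hh hhF
      have h4 : σE Z = Z ^ a := Subtype.ext (by
        change σ (algebraMap K Ω (ζ ^ p)) = (algebraMap K Ω (ζ ^ p)) ^ a
        rw [hσK, hσKN, map_pow])
      change τ (σE G) = σE (τ G)
      rw [h1, h2, map_mul, map_mul, map_pow, h1, h2, h3, h4]
      ring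
  obtain ⟨e, hσW, he⟩ := exists_mul_w M hζp hσK hσR (a := a) (by
    rw [map_pow, ha, ← pow_mul, ← pow_mul, mul_comm])
  exact core L.toSubRed T.hle hEQ hζ0 D hτF hτg hτfix hO hord hσK hσQ hσR ha hσE
    (fun z => congrArg Subtype.val (hcomm z)) hσW he hhF hh1 hσgh hb hrδF hrδ hheq

end Fermat.Agent.Ord
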