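import Fermat.Agent.Ord.SubRed
import Fermat.Agent.Red.ChartGenus

/-!
# Functions whose divisor is divisible by `m`
-/

set_option autoImplicit false
set_option linter.unusedSectionVars false
set_option linter.style.haveILetI false
set_option linter.unusedVariables false

open AlgebraicCurve IntermediateField Module

namespace Fermat.Agent.Ord

open Fermat.Agent.FF Fermat.Agent.Red
open Fermat.Agent.GoodRed (IsInt Lm)

section RR

variable {K : Type*} [Field K] {F : Type*} [Field F] [Algebra K F] [IsAlgClosed K] [CharZero K]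
  [IsFnField K F]

/-- divisors divisible by `m` -/
theorem exists_divisor_of_dvd {m : ℕ} (hm : 0 < m) {f : F}
    (hdiv : ∀ P : Place K F, (m : ℤ) ∣ P.ord f) :
    ∃ E : Divisor K F, (∀ P, (m : ℤ) * E P = P.ord f) ∧ Divisor.degree E = 0 := by
  classical
  have hn' : (m : ℤ) ≠ 0 := by exact_mod_cast hm.ne'
  set E : Divisor K F := (RR.divOf (K := K) f).mapRange (fun a => a / (m : ℤ)) (Int.zero_ediv _)
    with hE
  have h1 : ∀ P, (m : ℤ) * E P = P.ord f := by
    intro P
    rw [hE, Finsupp.mapRange_apply, RR.divOf_apply]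
    exact Int.mul_ediv_cancel' (hdiv P)
  refine ⟨E, h1, ?_⟩
  have h2 : m • E = RR.divOf (K := K) f := by
    ext P
    rw [Finsupp.smul_apply, nsmul_eq_mul, h1, RR.divOf_apply]
  have h4 := congrArg Divisor.degree h2
  rw [map_nsmul, RR.degree_divOf, nsmul_eq_mul] at h4
  exact (mul_eq_zero.1 h4).resolve_left hn'

theorem finrank_riemannRochSpace_eq {x : F} (hx : Transcendental K x) [FiniteDimensional K⟮x⟯ F]
    {D : Divisor K F} (hD : Divisor.degree D = 0) {b : ℕ} (hb : 2 * genusFF K F ≤ b) :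
    finrank K (riemannRochSpace (D + b • RR.poleDiv (K := K) x)) = finrank K (Lm K x b) := by
  haveI : CharZero K⟮x⟯ := charZero_of_injective_algebraMap (algebraMap K K⟮x⟯).injective
  haveI : Algebra.IsSeparable K⟮x⟯ F := inferInstance
  have hn : 0 < finrank K⟮x⟯ F := finrank_pos
  have hbn : b ≤ b * finrank K⟮x⟯ F := Nat.le_mul_of_pos_right b hn
  have hd1 : Divisor.degree (b • RR.poleDiv (K := K) x) = ((b * finrank K⟮x⟯ F : ℕ) : ℤ) := by
    rw [map_nsmul, RR.degree_poleDiv hx, nsmul_eq_mul]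
    push_cast
    ring
  have hd2 : Divisor.degree (D + b • RR.poleDiv (K := K) x) = ((b * finrank K⟮x⟯ F : ℕ) : ℤ) := by
    rw [map_add, hD, zero_add, hd1]
  have h4 := RR.ell_eq_of_lt_degree (D := b • RR.poleDiv (K := K) x) (by rw [hd1]; omega)
  have h5 := RR.ell_eq_of_lt_degree (D := D + b • RR.poleDiv (K := K) x) (by rw [hd2]; omega)
  rw [hd1] at h4
  rw [hd2] at h5
  rw [Lm_eq_riemannRochSpace (FF.transcendental_ne_zero hx)]
  change RR.ell _ = RR.ell _
  omega

theorem mem_Lm_of_ord {x : F} (hx : Transcendental K x) [FiniteDimensional K⟮x⟯ F] {g : F}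
    {b : ℕ} (h : g ≠ 0 → ∀ P : Place K F, 0 ≤ P.ord g + b * max 0 (-P.ord x)) : g ∈ Lm K x b := by
  haveI : CharZero K⟮x⟯ := charZero_of_injective_algebraMap (algebraMap K K⟮x⟯).injective
  haveI : Algebra.IsSeparable K⟮x⟯ F := inferInstance
  rw [Lm_eq_riemannRochSpace (FF.transcendental_ne_zero hx), mem_riemannRochSpace_iff]
  intro P
  by_cases hg : g = 0
  · exact Or.inl hg
  · right
    have := h hg P
    rw [Finsupp.smul_apply, RR.poleDiv_apply, nsmul_eq_mul]
    linarith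

theorem ord_of_mem {D : Divisor K F} {x : F} {b : ℕ} {u : F}
    (hu : u ∈ riemannRochSpace (D + b • RR.poleDiv (K := K) x)) (hu0 : u ≠ 0) (P : Place K F) :
    0 ≤ P.ord u + D P + b * max 0 (-P.ord x) := by
  rw [mem_riemannRochSpace_iff] at hu
  have h1 := (hu P).resolve_left hu0
  rw [Finsupp.add_apply, Finsupp.smul_apply, RR.poleDiv_apply, nsmul_eq_mul] at h1
  linarith

/-- **(Low)** -/
theorem exists_low {x : F} (hx : Transcendental K x) [FiniteDimensional K⟮x⟯ F]
    {m : ℕ} (hm : 0 < m) {f : F} (hf0 : f ≠ 0)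
    (hdiv : ∀ P : Place K F, (m : ℤ) ∣ P.ord f) (j : ℕ) : ∃ b1, ∀ b ≥ b1, ∃ V : Submodule K F,
      FiniteDimensional K V ∧ finrank K (Lm K x b) ≤ finrank K V ∧
      ∀ h ∈ V, f ^ j * h ^ m ∈ Lm K x (m * b) := by
  obtain ⟨D, hD, hdeg⟩ := exists_divisor_of_dvd hm hdiv
  refine ⟨2 * genusFF K F, fun b hb => ⟨riemannRochSpace (j • D + b • RR.poleDiv (K := K) x),
    inferInstance, ?_, fun h hh => ?_⟩⟩
  · rw [finrank_riemannRochSpace_eq hx (by rw [map_nsmul, hdeg, smul_zero]) hb]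
  · refine mem_Lm_of_ord hx fun h0 P => ?_
    have hh0 : h ≠ 0 := by
      rintro rfl
      exact h0 (by rw [zero_pow hm.ne', mul_zero])
    have h1 := ord_of_mem hh hh0 P
    rw [Finsupp.smul_apply, nsmul_eq_mul] at h1
    rw [P.ord_mul (pow_ne_zero _ hf0) (pow_ne_zero _ hh0), ord_pow, ord_pow, ← hD P]
    have h2 : (j : ℤ) * (m * D P) + m * P.ord h + ((m * b : ℕ) : ℤ) * max 0 (-P.ord x) =
        m * (P.ord h + j * D P + b * max 0 (-P.ord x)) := by push_cast; ring
    rw [h2]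
    positivity

end RR

variable {K k : Type*} [Field K] [Field k] {A : ValuationSubring K} {π : A →+* k}
  {F Fk : Type*} [Field F] [Algebra K F] [Field Fk] [Algebra k Fk]
  {R : ConstRed A π F Fk} {x : F} {xb : Fk}
  [IsAlgClosed K] [CharZero K] [IsAlgClosed k] [IsFnField K F] [IsFnField k Fk]

/-- **(U)** -/
theorem exists_unit (hc : GoodRed.IsCoord R x xb) (hπ : Function.Surjective π)
    (hdim : ∃ b0, ∀ b ≥ b0, finrank k (Lm k xb b) ≤ finrank K (Lm K x b))
    {m : ℕ} (hm : 0 < m) {f : F} (hf1 : R.IsRed f 1)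
    (hdiv : ∀ P : Place K F, (m : ℤ) ∣ P.ord f) :
    ∃ u : F, R.IsRed u 1 ∧ ∃ b, u ^ m * f ∈ Lm K x (m * b) := by
  obtain ⟨b0, hb0⟩ := hdim
  haveI := hc.finite
  haveI := hc.finite'
  have hf0 : f ≠ 0 := hf1.ne_zero one_ne_zero
  obtain ⟨D, hD, hdeg⟩ := exists_divisor_of_dvd hm hdiv
  set b := max b0 (2 * genusFF K F) with hb
  obtain ⟨ι', _, ⟨B'⟩⟩ := GoodRed.exists_redBasis (K := k) hc.trans (F := Fk)
  haveI := B'.finiteDimensional_Lm b
  have hV : ∀ u ∈ riemannRochSpace (D + b • RR.poleDiv (K := K) x), u ^ m * f ∈ Lm K x (m * b) := by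
    intro u hu
    refine mem_Lm_of_ord hc.transK fun h0 P => ?_
    have hu0 : u ≠ 0 := by
      rintro rfl
      exact h0 (by rw [zero_pow hm.ne', zero_mul])
    have h1 := ord_of_mem hu hu0 P
    rw [P.ord_mul (pow_ne_zero _ hu0) hf0, ord_pow, ← hD P]
    have h2 : (m : ℤ) * P.ord u + m * D P + ((m * b : ℕ) : ℤ) * max 0 (-P.ord x) =
        m * (P.ord u + D P + b * max 0 (-P.ord x)) := by push_cast; ring
    rw [h2]
    positivity
  have h1W : (1 : Fk) ∈ Lm k xb b :=
    (GoodRed.isFilt hc.trans).mono' (Nat.zero_le b) (by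
      rw [GoodRed.mem_Lm, pow_zero, one_mul]
      exact ⟨isIntegral_one, isIntegral_one⟩)
  obtain ⟨u, hu, hu1⟩ := hc.exists_lift hπ (riemannRochSpace (D + b • RR.poleDiv (K := K) x))
    (Lm k xb b) (fun u hu ub hub => by
      have h1 := hc.mem_Lm (hV u hu) ((hub.pow m).mul hf1)
      rw [mul_one] at h1
      exact mem_Lm_of_pow hm h1)
    (by
      rw [finrank_riemannRochSpace_eq hc.transK hdeg (le_max_right _ _)]
      exact hb0 b (le_max_left _ _)) h1W
  exact ⟨u, hu1, b, hV u hu⟩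

end Fermat.Agent.Ord
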