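import Fermat.Agent.Red.Basic
import Mathlib.Data.Nat.Choose.Sum
import Mathlib.Data.Nat.Choose.Dvd

/-!
# `p`-th powers and the parameter `w` with `w ^ (p - 1) = - p`
-/

set_option autoImplicit false
set_option linter.unusedSectionVars false
set_option linter.style.haveILetI false

open Finset

namespace Fermat.Agent.Ord

/-- the integer `binom(p, j) / p` -/
def cdiv (p j : ℕ) : ℕ := p.choose j / p

theorem mul_cdiv {p j : ℕ} (hp : p.Prime) (h1 : 1 ≤ j) (h2 : j < p) :
    p * cdiv p j = p.choose j :=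
  Nat.mul_div_cancel' (hp.dvd_choose_self (by omega) h2)

theorem cdiv_one {p : ℕ} (hp : p.Prime) : cdiv p 1 = 1 := by
  rw [cdiv, Nat.choose_one_right, Nat.div_self hp.pos]

/-- the polynomial `∑_{1 ≤ j < p} (binom(p,j)/p) w ^ (j-1) y ^ (p-j) s ^ j` -/
def lin {R : Type*} [CommRing R] (p : ℕ) (w y s : R) : R :=
  ∑ j ∈ range (p - 1), (cdiv p (j + 1) : R) * w ^ j * y ^ (p - 1 - j) * s ^ (j + 1)

theorem map_lin {R S : Type*} [CommRing R] [CommRing S] (φ : R →+* S) (p : ℕ) (w y s : R) :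
    φ (lin p w y s) = lin p (φ w) (φ y) (φ s) := by
  simp [lin, map_sum, map_mul, map_pow]

theorem lin_zero {R : Type*} [CommRing R] {p : ℕ} (hp : p.Prime) (y s : R) :
    lin p 0 y s = y ^ (p - 1) * s := by
  obtain ⟨m, hm⟩ : ∃ m, p - 1 = m + 1 := ⟨p - 2, by have := hp.two_le; omega⟩
  rw [lin, hm, sum_range_succ', sum_eq_zero]
  · simp [cdiv_one hp]
  · intro j _
    simp

theorem add_mul_pow {R : Type*} [CommRing R] {p : ℕ} (hp : p.Prime) {w : R}
    (hw : w ^ (p - 1) = -(p : R)) (y s : R) :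
    (y + w * s) ^ p = y ^ p + w ^ p * (s ^ p - lin p w y s) := by
  obtain ⟨m, hm⟩ : ∃ m, p = m + 1 := ⟨p - 1, by have := hp.pos; omega⟩
  rw [add_comm y, add_pow]
  have h1 : ∀ j ∈ range m, (w * s) ^ (j + 1) * y ^ (p - (j + 1)) * (p.choose (j + 1) : R) =
      - (w ^ p * ((cdiv p (j + 1) : R) * w ^ j * y ^ (p - 1 - j) * s ^ (j + 1))) := by
    intro j hj
    rw [mem_range] at hj
    have h2 : (p.choose (j + 1) : R) = (p : R) * (cdiv p (j + 1) : R) := by
      rw [← mul_cdiv hp (by omega) (by omega : j + 1 < p)]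
      push_cast
      ring
    have h3 : (p : R) = - w ^ (p - 1) := by rw [hw, neg_neg]
    have h4 : w ^ p = w ^ (p - 1) * w := by
      rw [← pow_succ]
      congr 1
      omega
    have h5 : p - (j + 1) = p - 1 - j := by omega
    rw [h2, h3, h4, h5, mul_pow, pow_succ w j]
    ring
  have h6 : range (p + 1) = range (m + 1 + 1) := by rw [← hm]
  rw [h6, sum_range_succ, sum_range_succ', sum_congr rfl h1, sum_neg_distrib, ← mul_sum]
  have h7 : lin p w y s = ∑ j ∈ range m, (cdiv p (j + 1) : R) * w ^ j * y ^ (p - 1 - j) *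
      s ^ (j + 1) := by
    rw [lin]
    congr 2
    omega
  rw [h7, ← hm]
  simp only [pow_zero, one_mul, Nat.sub_zero, Nat.choose_zero_right, Nat.cast_one, mul_one,
    Nat.sub_self, Nat.choose_self, mul_pow]
  ring

theorem add_pow_eq {R : Type*} [CommRing R] {p : ℕ} (hp : p.Prime) (y a : R) :
    (y + a) ^ p = y ^ p + a ^ p +
      (p : R) * ∑ j ∈ range (p - 1), (cdiv p (j + 1) : R) * y ^ (p - 1 - j) * a ^ (j + 1) := by
  obtain ⟨m, hm⟩ : ∃ m, p = m + 1 := ⟨p - 1, by have := hp.pos; omega⟩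
  rw [add_comm y, add_pow]
  have h1 : ∀ j ∈ range m, a ^ (j + 1) * y ^ (p - (j + 1)) * (p.choose (j + 1) : R) =
      (p : R) * ((cdiv p (j + 1) : R) * y ^ (p - 1 - j) * a ^ (j + 1)) := by
    intro j hj
    rw [mem_range] at hj
    have h2 : (p.choose (j + 1) : R) = (p : R) * (cdiv p (j + 1) : R) := by
      rw [← mul_cdiv hp (by omega) (by omega : j + 1 < p)]
      push_cast
      ring
    have h5 : p - (j + 1) = p - 1 - j := by omega
    rw [h2, h5]
    ring
  have h6 : range (p + 1) = range (m + 1 + 1) := by rw [← hm]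
  rw [h6, sum_range_succ, sum_range_succ', sum_congr rfl h1, ← mul_sum]
  have h7 : ∑ j ∈ range (p - 1), (cdiv p (j + 1) : R) * y ^ (p - 1 - j) * a ^ (j + 1) =
      ∑ j ∈ range m, (cdiv p (j + 1) : R) * y ^ (p - 1 - j) * a ^ (j + 1) := by
    congr 2
    omega
  rw [h7, ← hm]
  simp only [pow_zero, one_mul, Nat.sub_zero, Nat.choose_zero_right, Nat.cast_one, mul_one,
    Nat.sub_self, Nat.choose_self]
  ring

section Val

variable {K k : Type*} [Field K] [Field k] {A : ValuationSubring K} {π : A →+* k}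

/-- integrality over a valuation ring -/
theorem mem_of_monic_eq {F : Type*} [Field F] (O : ValuationSubring F) {n : ℕ} (hn : 0 < n)
    (a : ℕ → F) (ha : ∀ j < n, a j ∈ O) {s : F}
    (h : s ^ n = ∑ j ∈ range n, a j * s ^ j) : s ∈ O := by
  by_contra hs
  have hs0 : s ≠ 0 := by rintro rfl; exact hs O.zero_mem
  have hi : s⁻¹ ∈ O := (O.mem_or_inv_mem s).resolve_left hs
  apply hs
  obtain ⟨m, rfl⟩ : ∃ m, n = m + 1 := ⟨n - 1, by omega⟩
  have h1 : s = ∑ j ∈ range (m + 1), a j * (s⁻¹) ^ (m - j) := by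
    have h2 : s = s ^ (m + 1) * (s⁻¹) ^ m := by
      rw [pow_succ, mul_assoc, mul_comm s, ← mul_assoc, ← mul_pow, mul_inv_cancel₀ hs0, one_pow,
        one_mul]
    rw [h, sum_mul] at h2
    refine h2.trans (sum_congr rfl fun j hj => ?_)
    rw [mem_range] at hj
    have h3 : (s⁻¹) ^ m = (s⁻¹) ^ j * (s⁻¹) ^ (m - j) := by
      rw [← pow_add]
      congr 1
      omega
    rw [h3, mul_assoc, ← mul_assoc (s ^ j), ← mul_pow, mul_inv_cancel₀ hs0, one_pow, one_mul]
  rw [h1]
  exact sum_mem fun j hj => mul_mem (ha j (mem_range.1 hj)) (pow_mem hi _)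

end Val

section Red

open Fermat.Agent.Red

variable {K k : Type*} [Field K] [Field k] {A : ValuationSubring K} {π : A →+* k}
  {F Fk : Type*} [Field F] [Algebra K F] [Field Fk] [Algebra k Fk]

theorem mem_of_pow_mem {F : Type*} [Field F] (O : ValuationSubring F) {n : ℕ} (hn : 0 < n) {s : F}
    (h : s ^ n ∈ O) : s ∈ O := by
  refine mem_of_monic_eq O hn (fun j => if j = 0 then s ^ n else 0) (fun j _ => ?_) ?_
  · by_cases hj : j = 0
    · simp only [hj, if_true]; exact h
    · simp only [hj, if_false]; exact O.zero_mem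
  · rw [sum_eq_single 0]
    · simp
    · intro j _ hj
      simp [hj]
    · intro h0
      exact absurd (mem_range.2 hn) h0

/-- **The power lemma**: if `g ^ p = 1 + c u` with `0 < v(c) < v(w ^ p)` then the reduction of `u`
is a `p`-th power. -/
theorem exists_pow_eq_red [IsAlgClosed K] (R : ConstRed A π F Fk) {p : ℕ} (hp : p.Prime)
    {w : K} (hw : w ^ (p - 1) = -(p : K)) {c : K} (hc0 : c ≠ 0) (hcA : c ∈ A)
    {m : A} (hm : π m = 0) (hcm : w ^ p = c * m)
    {g u : F} {ub : Fk} (hu : R.IsRed u ub) (hg : g ^ p = 1 + algebraMap K F c * u) :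
    ∃ z : Fk, z ^ p = ub := by
  obtain ⟨c', hc'⟩ := IsAlgClosed.exists_pow_nat_eq c hp.pos
  have hc'0 : c' ≠ 0 := by
    rintro rfl
    rw [zero_pow hp.ne_zero] at hc'
    exact hc0 hc'.symm
  have hc'A : c' ∈ A := mem_of_pow_mem A hp.pos (hc' ▸ hcA)
  set d : K := w / c' with hd
  have hwd : w = c' * d := by rw [hd]; field_simp
  have hdm : d ^ p = m := by
    rw [hwd, mul_pow, hc'] at hcm
    exact mul_left_cancel₀ hc0 hcm
  have hdA : d ∈ A := mem_of_pow_mem A hp.pos (by rw [hdm]; exact m.2)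
  have hdπ : π ⟨d, hdA⟩ = 0 := by
    have h1 : (π ⟨d, hdA⟩) ^ p = 0 := by
      rw [← map_pow]
      have : (⟨d, hdA⟩ : A) ^ p = m := Subtype.ext hdm
      rw [this, hm]
    exact pow_eq_zero_iff hp.ne_zero |>.1 h1
  set s : F := (g - 1) / algebraMap K F c' with hs
  have hc'F : algebraMap K F c' ≠ 0 := (map_ne_zero _).2 hc'0
  have hgs : g = 1 + algebraMap K F c' * s := by
    rw [hs, mul_div_cancel₀ _ hc'F, add_sub_cancel]
  have hcF : algebraMap K F c' ^ p = algebraMap K F c := by rw [← map_pow, hc']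
  have hpF : (p : F) = - (algebraMap K F c' * algebraMap K F d) ^ (p - 1) := by
    have : (p : F) = algebraMap K F (p : K) := by simp
    rw [this, show (p : K) = - w ^ (p - 1) by rw [hw, neg_neg], map_neg, map_pow, hwd, map_mul]
  -- the monic equation of `s`
  have hmon : s ^ p = u + ∑ j ∈ range (p - 1), algebraMap K F
      ((cdiv p (j + 1) : K) * c' ^ j * d ^ (p - 1)) * s ^ (j + 1) := by
    have h1 : (algebraMap K F c) * s ^ p = algebraMap K F c * (u + ∑ j ∈ range (p - 1),
        algebraMap K F ((cdiv p (j + 1) : K) * c' ^ j * d ^ (p - 1)) * s ^ (j + 1)) := by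
      rw [hgs, add_pow_eq hp, one_pow, hpF] at hg
      have h2 : - (algebraMap K F c' * algebraMap K F d) ^ (p - 1) * ∑ j ∈ range (p - 1),
          (cdiv p (j + 1) : F) * 1 ^ (p - 1 - j) * (algebraMap K F c' * s) ^ (j + 1) =
          - (algebraMap K F c * ∑ j ∈ range (p - 1),
            algebraMap K F ((cdiv p (j + 1) : K) * c' ^ j * d ^ (p - 1)) * s ^ (j + 1)) := by
        rw [← hcF, mul_sum, mul_sum, ← sum_neg_distrib]
        refine sum_congr rfl fun j _ => ?_
        have h3 : p = (p - 1) + 1 := by have := hp.pos; omega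
        have h4 : algebraMap K F c' ^ p = algebraMap K F c' ^ (p - 1) * algebraMap K F c' := by
          conv_lhs => rw [h3, pow_succ]
        rw [h4]
        simp only [map_mul, map_pow, map_natCast, one_pow, mul_one]
        ring_nf
      rw [h2, mul_pow, hcF] at hg
      rw [mul_add]
      linear_combination hg
    exact mul_left_cancel₀ ((map_ne_zero _).2 hc0) h1
  have hcoef : ∀ j, (cdiv p (j + 1) : K) * c' ^ j * d ^ (p - 1) ∈ A := fun j =>
    mul_mem (mul_mem (natCast_mem A _) (pow_mem hc'A _)) (pow_mem hdA _)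
  have hcoef0 : ∀ j, π ⟨_, hcoef j⟩ = 0 := by
    intro j
    have h1 : (⟨_, hcoef j⟩ : A) = (cdiv p (j + 1) : A) * ⟨c', hc'A⟩ ^ j * ⟨d, hdA⟩ ^ (p - 1) :=
      Subtype.ext (by push_cast; rfl)
    rw [h1, map_mul, map_pow π ⟨d, hdA⟩, hdπ, zero_pow (by have := hp.two_le; omega), mul_zero]
  have hsO : s ∈ R.O := by
    refine mem_of_monic_eq R.O hp.pos (fun j => if j = 0 then u else
      algebraMap K F ((cdiv p (j - 1 + 1) : K) * c' ^ (j - 1) * d ^ (p - 1))) (fun j _ => ?_) ?_
    · by_cases hj : j = 0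
      · simp only [hj, if_true]; exact hu.mem
      · simp only [hj, if_false]; exact (R.algebraMap_mem_iff _).2 (hcoef _)
    · have h3 : range p = range ((p - 1) + 1) := by
        congr 1
        have := hp.pos
        omega
      rw [h3, sum_range_succ', hmon, add_comm]
      simp only [Nat.add_eq_zero_iff, one_ne_zero, and_false, if_false, if_true, pow_zero, mul_one,
        Nat.add_sub_cancel]
  obtain ⟨z, hz⟩ := R.exists_isRed_of_mem hsO
  refine ⟨z, ?_⟩
  have h1 := hz.pow p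
  have h2 : R.IsRed (u + ∑ j ∈ range (p - 1), algebraMap K F
      ((cdiv p (j + 1) : K) * c' ^ j * d ^ (p - 1)) * s ^ (j + 1))
      (ub + ∑ j ∈ range (p - 1), algebraMap k Fk (π ⟨_, hcoef j⟩) * z ^ (j + 1)) :=
    hu.add (ConstRed.isRed_sum _ fun j _ => (R.isRed_algebraMap (hcoef j)).mul (hz.pow _))
  rw [← hmon] at h2
  rw [h1.unique h2, sum_eq_zero, add_zero]
  intro j _
  rw [hcoef0, map_zero, zero_mul]

end Red

end Fermat.Agent.Ord
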