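import Fermat.Agent.QComp.Kummer
import Fermat.Agent.QComp.NoethIC
import Fermat.Agent.Ord.Pow

/-!
# A class which is trivial modulo `w ^ p` in two charts is trivial
-/

set_option autoImplicit false
set_option linter.unusedSectionVars false
set_option linter.style.haveILetI false

open Polynomial IsLocalRing Finset

namespace Fermat.Agent.Ord

open QComp

attribute [local instance] isIntegrallyClosed_of_valuationRing

theorem isIntegral_of_monic_eq {L : Type*} [Field L] (S : Subring L) {n : ℕ}
    (a : ℕ → L) (ha : ∀ j < n, a j ∈ S) {s : L}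
    (h : s ^ n = ∑ j ∈ range n, a j * s ^ j) : IsIntegral S s := by
  classical
  let q : S[X] := ∑ j ∈ range n, if hj : j < n then C ⟨a j, ha j hj⟩ * X ^ j else 0
  have hq : q.degree < (n : ℕ) := by
    rw [← mem_degreeLT]
    refine Submodule.sum_mem _ fun j hj => ?_
    rw [Finset.mem_range] at hj
    rw [dif_pos hj, mem_degreeLT]
    exact (degree_C_mul_X_pow_le _ _).trans_lt (by exact_mod_cast hj)
  refine ⟨X ^ n - q, monic_X_pow_sub hq, ?_⟩
  rw [eval₂_sub, eval₂_pow, eval₂_X, h, sub_eq_zero, eval₂_finsetSum]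
  refine sum_congr rfl fun j hj => ?_
  rw [Finset.mem_range] at hj
  rw [dif_pos hj, eval₂_mul, eval₂_pow, eval₂_X, eval₂_C]
  rfl

section IC

variable {K E L : Type*} [Field K] [Field E] [Field L] [Algebra K E] [Algebra E L]
variable {R : Type*} [CommRing R] [Algebra R K]

theorem mem_IC_of_isIntegral {t : E} {a : L} (ha : IsIntegral (IC K L R t) a) :
    a ∈ IC K L R t := by
  letI i2 := ((algebraMap E L).comp (ev K R t)).toAlgebra
  letI i3 := (icRingHom K L R t).toAlgebra
  haveI : IsScalarTower R[X] (IC K L R t) L := IsScalarTower.of_algebraMap_eq fun _ => rfl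
  haveI : Algebra.IsIntegral R[X] (IC K L R t) := ⟨fun x => by
    have h1 : IsIntegral R[X] (algebraMap (IC K L R t) L x) := x.2
    exact (isIntegral_algebraMap_iff (B := L) Subtype.coe_injective).1 h1⟩
  exact isIntegral_trans (R := R[X]) (A := IC K L R t) a ha

end IC

section Split

universe u

variable {K E : Type*} {F : Type u} [Field K] [Field E] [Field F] [Algebra K E] [Algebra E F]
  [Algebra K F] [IsScalarTower K E F]
variable {A : Type*} [CommRing A] [IsDomain A] [ValuationRing A] [Algebra A K] [IsFractionRing A K]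

/-- `u ^ p f = y ^ p + w ^ p r` with `u`, `y` reducing to `1` and `r` reducing to `0`, in the chart
of `t`. -/
structure SplitChart (K A : Type*) {E : Type*} {F : Type*} [Field K] [Field E] [Field F]
    [Algebra K E] [Algebra E F] [Algebra K F] [IsScalarTower K E F] [CommRing A] [IsDomain A]
    [ValuationRing A] [Algebra A K] [IsFractionRing A K] (t : E) (p : ℕ) (w : A)
    (f u y r : F) : Prop where
  y_mem : y ∈ IC K F A t
  r_mem : r ∈ IC K F A t
  eq : u ^ p * f = y ^ p + algebraMap K F (algebraMap A K w) ^ p * r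
  u_one : ∀ V : ValuationSubring F, OverGauss K A (algebraMap E F t) V → u - 1 ∈ V.nonunits
  y_one : ∀ V : ValuationSubring F, OverGauss K A (algebraMap E F t) V → y - 1 ∈ V.nonunits
  r_zero : ∀ V : ValuationSubring F, OverGauss K A (algebraMap E F t) V → r ∈ V.nonunits

variable {L : Type*} [Field L] [Algebra F L] [Algebra E L] [Algebra K L]
  [IsScalarTower K E L] [IsScalarTower E F L] [IsScalarTower K F L]

theorem sub_lin_nonunits {p : ℕ} (hp : p.Prime) {V : ValuationSubring L} {w y s : L}
    (hw : w ∈ V.nonunits) (hy : y - 1 ∈ V.nonunits) (hs : s ∈ V) :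
    s - lin p w y s ∈ V.nonunits := by
  have hyV : y ∈ V := by
    have := add_mem (ValuationSubring.nonunits_subset hy) (one_mem V)
    rwa [sub_add_cancel] at this
  obtain ⟨m, hm⟩ : ∃ m, p - 1 = m + 1 := ⟨p - 2, by have := hp.two_le; omega⟩
  have h1 : y ^ (p - 1) - 1 ^ (p - 1) ∈ V.nonunits := pow_sub_pow_nonunits (one_mem V) hy _
  rw [one_pow] at h1
  rw [lin, hm, sum_range_succ']
  have h2 : ∑ j ∈ range m, (cdiv p (j + 1 + 1) : L) * w ^ (j + 1) * y ^ (m + 1 - (j + 1)) *
      s ^ (j + 1 + 1) ∈ V.nonunits := by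
    refine sum_mem fun j _ => ?_
    have h3 : (cdiv p (j + 1 + 1) : L) * w ^ (j + 1) * y ^ (m + 1 - (j + 1)) * s ^ (j + 1 + 1) =
        w * ((cdiv p (j + 1 + 1) : L) * w ^ j * y ^ (m + 1 - (j + 1)) * s ^ (j + 1 + 1)) := by
      ring
    rw [h3]
    exact nonunits_mul_mem hw (mul_mem (mul_mem (mul_mem (natCast_mem V _)
      (pow_mem (ValuationSubring.nonunits_subset hw) _)) (pow_mem hyV _)) (pow_mem hs _))
  have h4 : y ^ (m + 1) * s - s ∈ V.nonunits := by
    rw [← hm]
    have := nonunits_mul_mem h1 hs
    convert this using 1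
    ring
  have h5 := neg_mem (add_mem h4 h2)
  convert h5 using 1
  rw [zero_add, cdiv_one hp]
  simp only [Nat.cast_one, pow_zero, one_mul, pow_one, Nat.sub_zero]
  ring

/-- the label of a component -/
def label (p : ℕ) (s : L) (V : ValuationSubring L) : Set (ZMod p) :=
  {j | s - (j.val : L) ∈ V.nonunits}

theorem isUnit_intCast {p : ℕ} (hpA : (p : A) ∈ maximalIdeal A) {n : ℤ}
    (h : IsCoprime n (p : ℤ)) : IsUnit (n : A) := by
  obtain ⟨a, b, hab⟩ := h
  have h1 : (a : A) * n = 1 - b * p := by
    have := congrArg (Int.cast : ℤ → A) hab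
    push_cast at this
    linear_combination this
  have h2 : IsUnit ((a : A) * n) := by
    rw [h1]
    by_contra hu
    have h3 : (1 : A) - b * p ∈ maximalIdeal A := (mem_maximalIdeal _).2 hu
    have h4 := add_mem h3 (Ideal.mul_mem_left _ (b : A) hpA)
    rw [sub_add_cancel] at h4
    exact (Ideal.ne_top_iff_one _).1 (maximalIdeal.isMaximal A).ne_top h4
  exact isUnit_of_mul_isUnit_right h2

theorem natCast_sub_isUnit {p : ℕ} [Fact p.Prime] (hpA : (p : A) ∈ maximalIdeal A)
    {i j : ZMod p} (hij : i ≠ j) : IsUnit ((i.val : A) - (j.val : A)) := by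
  have h1 : ((i.val : A) - (j.val : A)) = (((i.val : ℤ) - (j.val : ℤ) : ℤ) : A) := by push_cast; rfl
  rw [h1]
  apply isUnit_intCast hpA
  rw [Int.isCoprime_iff_gcd_eq_one]
  have hp : (p : ℤ).natAbs.Prime := by simpa using (Fact.out : p.Prime)
  rw [Int.gcd_comm]
  change Nat.Coprime _ _
  rw [Nat.Prime.coprime_iff_not_dvd hp]
  intro h
  rw [Int.natAbs_dvd_natAbs] at h
  apply hij
  have h2 : (((i.val : ℤ) - (j.val : ℤ) : ℤ) : ZMod p) = 0 :=
    (ZMod.intCast_zmod_eq_zero_iff_dvd _ _).2 h
  push_cast at h2
  rw [ZMod.natCast_zmod_val, ZMod.natCast_zmod_val] at h2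
  exact sub_eq_zero.1 h2

theorem label_nonempty {p : ℕ} [hp : Fact p.Prime] {x : L} {V : ValuationSubring L}
    (hV : OverGauss K A x V) (hpA : (p : A) ∈ maximalIdeal A) {s : L} (hs : s ∈ V)
    (h : s ^ p - s ∈ V.nonunits) : (label p s V).Nonempty := by
  classical
  -- the product of the `s - j`
  have key : ∀ T : Finset (ZMod p), ∏ j ∈ T, (s - (j.val : L)) ∈ V.nonunits →
      ∃ j ∈ T, s - (j.val : L) ∈ V.nonunits := by
    intro T
    induction T using Finset.induction_on with
    | empty =>
      intro h
      rw [Finset.prod_empty, ValuationSubring.mem_nonunits_iff, map_one] at h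
      exact absurd h (lt_irrefl _)
    | insert a T ha ih =>
      intro h
      rw [Finset.prod_insert ha] at h
      rcases nonunits_or_of_mul h with h | h
      · exact ⟨a, Finset.mem_insert_self _ _, h⟩
      · obtain ⟨z, hz, hz'⟩ := ih h
        exact ⟨z, Finset.mem_insert_of_mem hz, hz'⟩
  have hpV : (p : L) ∈ V.nonunits := by
    have := (hV.nonunits_iff (p : A)).2 hpA
    rwa [map_natCast, map_natCast] at this
  -- polynomial identity modulo `p`
  have hpoly : ∃ q : ℤ[X], ∏ j : ZMod p, (X - C (j.val : ℤ)) = X ^ p - X + C (p : ℤ) * q := by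
    have h1 : (∏ j : ZMod p, (X - C (j.val : ℤ)) - (X ^ p - X)).map (Int.castRingHom (ZMod p)) =
        0 := by
      rw [Polynomial.map_sub, Polynomial.map_prod, Polynomial.map_sub, Polynomial.map_pow, map_X,
        sub_eq_zero]
      have hdeg : (X ^ p - X : (ZMod p)[X]).natDegree = p :=
        FiniteField.X_pow_card_sub_X_natDegree_eq (ZMod p) hp.out.one_lt
      have hroots : (X ^ p - X : (ZMod p)[X]).roots = (Finset.univ : Finset (ZMod p)).val := by
        have := FiniteField.roots_X_pow_card_sub_X (ZMod p)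
        rwa [ZMod.card] at this
      have hmonic : (X ^ p - X : (ZMod p)[X]).Monic := monic_X_pow_sub (by
        rw [degree_X]; exact_mod_cast hp.out.one_lt)
      have h3 := prod_multiset_X_sub_C_of_monic_of_roots_card_eq hmonic (by
        rw [hroots, hdeg, Finset.card_val, Finset.card_univ, ZMod.card])
      rw [hroots] at h3
      rw [← h3]
      refine Finset.prod_congr rfl fun j _ => ?_
      rw [Polynomial.map_sub, map_X, map_C, eq_intCast, Int.cast_natCast, ZMod.natCast_zmod_val]
    have h2 : C (p : ℤ) ∣ (∏ j : ZMod p, (X - C (j.val : ℤ)) - (X ^ p - X)) := by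
      rw [C_dvd_iff_dvd_coeff]
      intro i
      have h3 := congrArg (fun q => coeff q i) h1
      rw [coeff_map, coeff_zero] at h3
      exact (ZMod.intCast_zmod_eq_zero_iff_dvd _ _).1 h3
    obtain ⟨q, hq⟩ := h2
    exact ⟨q, by linear_combination hq⟩
  obtain ⟨q, hq⟩ := hpoly
  have h1 := congrArg (fun g => aeval s g) hq
  simp only [map_prod, map_sub, map_add, map_mul, map_pow, aeval_X, aeval_C] at h1
  obtain ⟨j, -, hj⟩ := key Finset.univ (by
    have h2 : ∏ j : ZMod p, (s - (j.val : L)) = s ^ p - s + (p : L) * aeval s q := by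
      rw [← map_natCast (algebraMap ℤ L) p]
      exact_mod_cast h1
    rw [h2]
    refine add_mem h (nonunits_mul_mem hpV ?_)
    rw [aeval_eq_sum_range]
    exact sum_mem fun i _ => by
      rw [zsmul_eq_mul]
      exact mul_mem (intCast_mem V _) (pow_mem hs _))
  exact ⟨j, hj⟩

theorem label_unique {p : ℕ} [hp : Fact p.Prime] {x : L} {V : ValuationSubring L}
    (hV : OverGauss K A x V) (hpA : (p : A) ∈ maximalIdeal A) {s : L} {i j : ZMod p}
    (hi : i ∈ label p s V) (hj : j ∈ label p s V) : i = j := by
  by_contra hij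
  have h1 : s - (j.val : L) - (s - (i.val : L)) ∈ V.nonunits := sub_mem hj hi
  have h2 : algebraMap K L (algebraMap A K ((i.val : A) - (j.val : A))) ∈ V.nonunits := by
    convert h1 using 1
    simp only [map_sub, map_natCast]
    ring
  rw [hV.nonunits_iff, mem_maximalIdeal, mem_nonunits_iff] at h2
  exact h2 (natCast_sub_isUnit hpA hij)

theorem label_congr {p : ℕ} {V : ValuationSubring L} {s s' : L} (h : s - s' ∈ V.nonunits) :
    label p s V = label p s' V := by
  ext j
  constructor
  · intro hj
    have := sub_mem hj h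
    change _ ∈ V.nonunits at this
    have h2 : s' - (j.val : L) = s - (j.val : L) - (s - s') := by ring
    change s' - (j.val : L) ∈ V.nonunits
    rw [h2]; exact this
  · intro hj
    have := add_mem hj h
    have h2 : s - (j.val : L) = s' - (j.val : L) + (s - s') := by ring
    change s - (j.val : L) ∈ V.nonunits
    rw [h2]; exact this

variable {t : E} {p : ℕ} {w : A} {f u y r : F}

theorem SplitChart.pow_eq (h : SplitChart K A t p w f u y r) (hp : p.Prime)
    (hw : w ^ (p - 1) = -(p : A)) (hw0 : w ≠ 0) {θ : L} (hθ : θ ^ p = algebraMap F L f) {s : L}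
    (hs : algebraMap F L u * θ = algebraMap F L y + algebraMap K L (algebraMap A K w) * s) :
    s ^ p = lin p (algebraMap K L (algebraMap A K w)) (algebraMap F L y) s + algebraMap F L r := by
  have hW : (algebraMap K L (algebraMap A K w)) ^ (p - 1) = -(p : L) := by
    rw [← map_pow, ← map_pow, hw]; simp
  have hW0 : algebraMap K L (algebraMap A K w) ≠ 0 := by
    rw [Ne, map_eq_zero, map_eq_zero_iff _ (IsFractionRing.injective A K)]
    exact hw0
  have h1 := congrArg (· ^ p) hs
  simp only [mul_pow, add_mul_pow hp hW, hθ] at h1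
  have h2 := congrArg (algebraMap F L) h.eq
  rw [map_mul, map_pow, map_add, map_mul, map_pow, map_pow,
    ← IsScalarTower.algebraMap_apply K F L] at h2
  rw [h2] at h1
  have h3 := mul_left_cancel₀ (pow_ne_zero p hW0) (add_left_cancel h1)
  rw [h3]
  ring

theorem SplitChart.mem (h : SplitChart K A t p w f u y r) (hp : p.Prime)
    (hw : w ^ (p - 1) = -(p : A)) (hw0 : w ≠ 0) {θ : L} (hθ : θ ^ p = algebraMap F L f) {s : L}
    (hs : algebraMap F L u * θ = algebraMap F L y + algebraMap K L (algebraMap A K w) * s) :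
    s ∈ IC K L A t := by
  apply mem_IC_of_isIntegral
  have hy : algebraMap F L y ∈ IC K L A t := algebraMap_mem_IC_iff.2 h.y_mem
  have hr : algebraMap F L r ∈ IC K L A t := algebraMap_mem_IC_iff.2 h.r_mem
  refine isIntegral_of_monic_eq (IC K L A t) (n := p) (fun j => if j = 0 then algebraMap F L r else
    (cdiv p (j - 1 + 1) : L) * algebraMap K L (algebraMap A K w) ^ (j - 1) *
      algebraMap F L y ^ (p - 1 - (j - 1))) (fun j _ => ?_) ?_
  · by_cases hj : j = 0
    · simp only [hj, if_true]; exact hr
    · simp only [hj, if_false]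
      exact mul_mem (mul_mem (natCast_mem _ _) (pow_mem (algebraMap_A_mem_IC w) _)) (pow_mem hy _)
  · have h3 : range p = range ((p - 1) + 1) := by
      congr 1
      have := hp.pos
      omega
    rw [h3, sum_range_succ', h.pow_eq hp hw hw0 hθ hs]
    simp only [Nat.add_eq_zero_iff, one_ne_zero, and_false, if_false, if_true, pow_zero, mul_one,
      Nat.add_sub_cancel]
    rfl

theorem SplitChart.label_nonempty (h : SplitChart K A t p w f u y r) [hp : Fact p.Prime]
    (hw : w ^ (p - 1) = -(p : A)) (hw0 : w ≠ 0) (hwm : w ∈ maximalIdeal A)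
    (hpA : (p : A) ∈ maximalIdeal A) {θ : L} (hθ : θ ^ p = algebraMap F L f) {s : L}
    (hs : algebraMap F L u * θ = algebraMap F L y + algebraMap K L (algebraMap A K w) * s)
    {V : ValuationSubring L} (hV : OverGauss K A (algebraMap E L t) V) :
    (label p s V).Nonempty := by
  have hsV : s ∈ V := hV.IC_le (h.mem hp.out hw hw0 hθ hs)
  refine Ord.label_nonempty hV hpA hsV ?_
  rw [h.pow_eq hp.out hw hw0 hθ hs]
  have hVF := comap_overGauss (F := F) hV
  have h1 : algebraMap F L y - 1 ∈ V.nonunits := by
    have := h.y_one _ hVF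
    rw [mem_nonunits_comap, map_sub, map_one] at this
    exact this
  have h2 : algebraMap F L r ∈ V.nonunits := by
    have := h.r_zero _ hVF
    rwa [mem_nonunits_comap] at this
  have h3 := sub_lin_nonunits hp.out ((hV.nonunits_iff w).2 hwm) h1 hsV
  have h4 := add_mem (neg_mem h3) h2
  convert h4 using 1
  ring

/-- **A Kummer class which is trivial modulo `w ^ p` in two compatible charts is trivial.** -/
theorem exists_pow_of_split [IsAlgClosed K] [CharZero K] [FiniteDimensional E F]
    (ht : IsGen K t) {ϖ : A} (hϖ : IsRankOne A ϖ) (hp : p.Prime)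
    (hwm : w ∈ maximalIdeal A) (hw : w ^ (p - 1) = -(p : A)) {u' y' r' : F}
    (h : SplitChart K A t p w f u y r) (h' : SplitChart K A t⁻¹ p w f u' y' r')
    (hc : ∀ V : ValuationSubring F, OverGauss K A (algebraMap E F t) V →
      (u * y' - u' * y) / algebraMap K F (algebraMap A K w) ∈ V.nonunits) :
    ∃ g : F, g ^ p = f := by
  haveI : Fact p.Prime := ⟨hp⟩
  haveI : CharZero A := ⟨fun a b h => by
    have := congrArg (algebraMap A K) h
    simpa using this⟩
  have hpA : (p : A) ∈ maximalIdeal A := by
    have h1 : w ^ (p - 1) ∈ maximalIdeal A :=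
      Ideal.pow_mem_of_mem _ hwm _ (by have := hp.two_le; omega)
    rw [hw] at h1
    simpa using h1
  have hw0 : w ≠ 0 := by
    rintro rfl
    rw [zero_pow (by have := hp.two_le; omega)] at hw
    have h1 : (p : A) = 0 := neg_eq_zero.1 hw.symm
    exact hp.ne_zero (by exact_mod_cast h1)
  by_contra hne
  push Not at hne
  haveI : Fact (Irreducible (X ^ p - C f)) := ⟨X_pow_sub_C_irreducible_of_prime hp hne⟩
  let L := AdjoinRoot (X ^ p - C f)
  haveI : CharZero E := charZero_of_injective_algebraMap (algebraMap K E).injective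
  haveI : FiniteDimensional F L := (AdjoinRoot.powerBasis (X_pow_sub_C_ne_zero hp.pos f)).finite
  haveI : FiniteDimensional E L := FiniteDimensional.trans E F L
  haveI : IsScalarTower K E L := by
    refine IsScalarTower.of_algebraMap_eq fun a => ?_
    rw [IsScalarTower.algebraMap_apply K F L, IsScalarTower.algebraMap_apply E F L,
      ← IsScalarTower.algebraMap_apply K E F]
  let θ : L := AdjoinRoot.root _
  have hθ : θ ^ p = algebraMap F L f := by
    have h1 := AdjoinRoot.eval₂_root (X ^ p - C f)
    rw [eval₂_sub, eval₂_pow, eval₂_X, eval₂_C, sub_eq_zero] at h1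
    exact h1
  set W : L := algebraMap K L (algebraMap A K w) with hW
  have hW0 : W ≠ 0 := by
    rw [hW, Ne, map_eq_zero, map_eq_zero_iff _ (IsFractionRing.injective A K)]
    exact hw0
  obtain ⟨s, hs⟩ : ∃ s : L, algebraMap F L u * θ = algebraMap F L y + W * s :=
    ⟨(algebraMap F L u * θ - algebraMap F L y) / W, by rw [mul_div_cancel₀ _ hW0]; ring⟩
  obtain ⟨s', hs'⟩ : ∃ s' : L, algebraMap F L u' * θ = algebraMap F L y' + W * s' :=
    ⟨(algebraMap F L u' * θ - algebraMap F L y') / W, by rw [mul_div_cancel₀ _ hW0]; ring⟩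
  have hx0 : algebraMap E F t ≠ 0 := by rw [Ne, map_eq_zero]; exact ht.ne_zero
  have hxL0 : algebraMap E L t ≠ 0 := by rw [Ne, map_eq_zero]; exact ht.ne_zero
  have hinv : ∀ V : ValuationSubring L, OverGauss K A (algebraMap E L t) V →
      OverGauss K A (algebraMap E L t⁻¹) V := fun V hV => by
    rw [map_inv₀]; exact hV.inv hxL0
  have hinvF : ∀ V : ValuationSubring F, OverGauss K A (algebraMap E F t) V →
      OverGauss K A (algebraMap E F t⁻¹) V := fun V hV => by
    rw [map_inv₀]; exact hV.inv hx0
  have hsI : s ∈ IC K L A t := h.mem hp hw hw0 hθ hs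
  have hsI' : s' ∈ IC K L A t⁻¹ := h'.mem hp hw hw0 hθ hs'
  -- the labels in the two charts agree
  have hlab : ∀ V : ValuationSubring L, OverGauss K A (algebraMap E L t) V →
      label p s V = label p s' V := by
    intro V hV
    apply label_congr
    have hsV : s ∈ V := hV.IC_le hsI
    have hsV' : s' ∈ V := (hinv V hV).IC_le hsI'
    have hVF := comap_overGauss (F := F) hV
    have h1 : algebraMap F L u - 1 ∈ V.nonunits := by
      have := h.u_one _ hVF
      rw [mem_nonunits_comap, map_sub, map_one] at this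
      exact this
    have h1' : algebraMap F L u' - 1 ∈ V.nonunits := by
      have := h'.u_one _ (hinvF _ hVF)
      rw [mem_nonunits_comap, map_sub, map_one] at this
      exact this
    have h2 : (algebraMap F L u * algebraMap F L y' - algebraMap F L u' * algebraMap F L y) / W ∈
        V.nonunits := by
      have := hc _ hVF
      rw [mem_nonunits_comap, map_div₀, map_sub, map_mul, map_mul,
        ← IsScalarTower.algebraMap_apply K F L] at this
      exact this
    have h3 : (algebraMap F L u * algebraMap F L y' - algebraMap F L u' * algebraMap F L y) / W =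
        algebraMap F L u' * s - algebraMap F L u * s' := by
      rw [div_eq_iff hW0]
      linear_combination (algebraMap F L u') * hs - (algebraMap F L u) * hs'
    rw [h3] at h2
    have h4 := nonunits_mul_mem h1 hsV'
    have h5 := nonunits_mul_mem h1' hsV
    have h6 := sub_mem (add_mem h2 h4) h5
    convert h6 using 1
    ring
  have key : ∀ {t' : E} {s'' : L}, s'' ∈ IC K L A t' →
      (∀ V : ValuationSubring L, OverGauss K A (algebraMap E L t) V →
        OverGauss K A (algebraMap E L t') V) →
      (∀ V : ValuationSubring L, OverGauss K A (algebraMap E L t) V →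
        label p s V = label p s'' V) →
      ∀ V V' : ValuationSubring L, OverGauss K A (algebraMap E L t) V →
      OverGauss K A (algebraMap E L t) V' → ∀ P : Ideal (IC K L A t'), P.IsMaximal →
      Thru V (IC K L A t') P → Thru V' (IC K L A t') P → label p s V = label p s V' := by
    intro t' s'' hs'' htt hll V V' hV hV' P hP h1 h1'
    obtain ⟨i, hi⟩ := h.label_nonempty hw hw0 hwm hpA hθ hs hV
    obtain ⟨j, hj⟩ := h.label_nonempty hw hw0 hwm hpA hθ hs hV'
    have hij : i = j := by
      by_contra hij
      have hi' : i ∈ label p s'' V := hll V hV ▸ hi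
      have hj' : j ∈ label p s'' V' := hll V' hV' ▸ hj
      have ec : ∀ n : ℕ, (((⟨s'', hs''⟩ - (n : IC K L A t') : IC K L A t')) : L) =
          s'' - (n : L) := fun n => by push_cast; rfl
      have h2 := h1 (⟨s'', hs''⟩ - (i.val : IC K L A t')) (by rw [ec]; exact hi')
      have h3 := h1' (⟨s'', hs''⟩ - (j.val : IC K L A t')) (by rw [ec]; exact hj')
      have h4 : ((j.val : IC K L A t') - (i.val : IC K L A t')) ∈ P := by
        have := P.sub_mem h2 h3
        convert this using 1
        ring
      have h5 : IsUnit ((j.val : IC K L A t') - (i.val : IC K L A t')) := by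
        have h6 := natCast_sub_isUnit hpA (Ne.symm hij)
        let φ : A →+* IC K L A t' := (icRingHom K L A t').comp C
        have h7 := h6.map φ
        rwa [map_sub, map_natCast, map_natCast] at h7
      exact hP.ne_top (P.eq_top_of_isUnit_mem h4 h5)
    subst hij
    have e1 : label p s V = {i} := Set.eq_singleton_iff_unique_mem.2
      ⟨hi, fun l hl => label_unique hV hpA hl hi⟩
    have e2 : label p s V' = {i} := Set.eq_singleton_iff_unique_mem.2
      ⟨hj, fun l hl => label_unique hV' hpA hl hj⟩
    rw [e1, e2]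
  have hconst := connected (K := K) (L := L) ht
    (fun a ha => exists_algebraMap_of_isIntegral a ha) hϖ (label p s)
    (fun V V' hV hV' P hP h1 h1' => key hsI (fun _ h => h) (fun _ _ => rfl) V V' hV hV' P hP h1 h1')
    (fun V V' hV hV' P hP h1 h1' => key hsI' hinv hlab V V' hV hV' P hP h1 h1')
  obtain ⟨V, hV⟩ := exists_overGauss (L := L) (A := A) ht
  haveI : NeZero (p : K) := ⟨by exact_mod_cast hp.ne_zero⟩
  obtain ⟨ζ, hζ⟩ := HasEnoughRootsOfUnity.exists_primitiveRoot K p
  have hσ0 : (X ^ p - C f).eval₂ ((AdjoinRoot.ofAlgHom F (X ^ p - C f)).toRingHom)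
      (algebraMap K L ζ * θ) = 0 := by
    rw [eval₂_sub, eval₂_pow, eval₂_X, eval₂_C, mul_pow, ← map_pow, hζ.pow_eq_one, map_one,
      one_mul, hθ, sub_eq_zero]
    rfl
  let σ : L →ₐ[F] L := AdjoinRoot.liftAlgHom (X ^ p - C f) (AdjoinRoot.ofAlgHom F (X ^ p - C f))
    (algebraMap K L ζ * θ) hσ0
  have hσθ : σ θ = algebraMap K L ζ * θ := AdjoinRoot.liftAlgHom_root _ _ _ _
  have hV1 : OverGauss K A (algebraMap E L t) (V.comap (σ : L →+* L)) := by
    refine OverGauss.comap (σ.restrictScalars K) ?_
    have h1 : (σ.restrictScalars K) (algebraMap E L t) = algebraMap E L t := by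
      rw [IsScalarTower.algebraMap_apply E F L]
      exact σ.commutes _
    rw [h1]
    exact hV
  have heq := hconst V _ hV hV1
  obtain ⟨i, hi⟩ := h.label_nonempty hw hw0 hwm hpA hθ hs hV
  have hi1 : i ∈ label p s (V.comap (σ : L →+* L)) := heq ▸ hi
  change s - _ ∈ V.nonunits at hi
  change s - _ ∈ (V.comap (σ : L →+* L)).nonunits at hi1
  rw [mem_nonunits_comap, map_sub, map_natCast] at hi1
  have hσK : ∀ a : K, (σ : L →+* L) (algebraMap K L a) = algebraMap K L a := fun a =>
    (σ.restrictScalars K).commutes a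
  have hσF : ∀ a : F, (σ : L →+* L) (algebraMap F L a) = algebraMap F L a := fun a =>
    σ.commutes a
  -- the difference of the labels
  set e : K := (ζ - 1) / algebraMap A K w with he
  have hwK0 : algebraMap A K w ≠ 0 := (map_ne_zero_iff _ (IsFractionRing.injective A K)).2 hw0
  have hζe : ζ = 1 + algebraMap A K w * e := by rw [he]; field_simp; ring
  have hdiff : (σ : L →+* L) s - s = algebraMap K L e * (algebraMap F L u * θ) := by
    have h1 := congrArg (σ : L →+* L) hs
    have h2 : (σ : L →+* L) θ = algebraMap K L ζ * θ := hσθ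
    rw [map_mul, map_add, map_mul, hσF, hσF, hW, hσK, ← hW, h2] at h1
    have h3 : W * ((σ : L →+* L) s - s) = W * (algebraMap K L e * (algebraMap F L u * θ)) := by
      have h4 : algebraMap K L ζ = 1 + W * algebraMap K L e := by
        rw [hζe, map_add, map_one, map_mul]
      rw [h4] at h1
      linear_combination hs - h1
    exact mul_left_cancel₀ hW0 h3
  have hsV : s ∈ V := hV.IC_le hsI
  have hWV : W ∈ V.nonunits := (hV.nonunits_iff w).2 hwm
  have hVF := comap_overGauss (F := F) hV
  have hy1 : algebraMap F L y - 1 ∈ V.nonunits := by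
    have := h.y_one _ hVF
    rw [mem_nonunits_comap, map_sub, map_one] at this
    exact this
  have h5 : algebraMap K L e * (algebraMap F L u * θ) ∈ V.nonunits := by
    rw [← hdiff]
    have := sub_mem hi1 hi
    convert this using 1
    ring
  have h6 : algebraMap K L e ∈ V.nonunits := by
    rcases nonunits_or_of_mul h5 with h7 | h7
    · exact h7
    · exfalso
      rw [hs] at h7
      have h8 := nonunits_mul_mem hWV hsV
      have h9 := sub_mem (sub_mem h7 h8) hy1
      have h10 : algebraMap F L y + W * s - W * s - (algebraMap F L y - 1) = 1 := by ring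
      rw [h10, ValuationSubring.mem_nonunits_iff, map_one] at h9
      exact lt_irrefl _ h9
  -- but `e` is a unit
  have he0 : algebraMap K L e ≠ 0 := by
    rw [Ne, map_eq_zero, he, div_eq_zero_iff, not_or]
    refine ⟨?_, hwK0⟩
    rw [sub_eq_zero]
    rintro rfl
    exact hp.one_lt.ne' (hζ.unique IsPrimitiveRoot.one)
  have hWp : W ^ (p - 1) = -(p : L) := by
    rw [hW, ← map_pow, ← map_pow, hw]; simp
  have h7 : (algebraMap K L e) ^ p = lin p W 1 (algebraMap K L e) := by
    have h8 : (1 + W * algebraMap K L e) ^ p = 1 := by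
      have h9 : 1 + W * algebraMap K L e = algebraMap K L ζ := by
        rw [hζe, map_add, map_one, map_mul]
      rw [h9, ← map_pow, hζ.pow_eq_one, map_one]
    rw [add_mul_pow hp hWp, one_pow] at h8
    have h9 : W ^ p * ((algebraMap K L e) ^ p - lin p W 1 (algebraMap K L e)) = 0 := by
      linear_combination h8
    exact sub_eq_zero.1 ((mul_eq_zero.1 h9).resolve_left (pow_ne_zero _ hW0))
  obtain ⟨m, hm⟩ : ∃ m, p - 1 = m + 1 := ⟨p - 2, by have := hp.two_le; omega⟩
  have hpm : p = m + 1 + 1 := by have := hp.pos; omega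
  have h8 : (1 : L) = (algebraMap K L e) ^ (m + 1) -
      ∑ j ∈ range m, (cdiv p (j + 1 + 1) : L) * W ^ (j + 1) * (algebraMap K L e) ^ (j + 1) := by
    have h9 : algebraMap K L e * 1 = algebraMap K L e * ((algebraMap K L e) ^ (m + 1) -
        ∑ j ∈ range m, (cdiv p (j + 1 + 1) : L) * W ^ (j + 1) *
          (algebraMap K L e) ^ (j + 1)) := by
      rw [lin, hm, sum_range_succ'] at h7
      simp only [cdiv_one hp, Nat.cast_one, pow_zero, one_mul, pow_one, zero_add, one_pow,
        mul_one] at h7
      have h10 : algebraMap K L e ^ p = algebraMap K L e * algebraMap K L e ^ (m + 1) :=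
        (congrArg (fun n => algebraMap K L e ^ n) hpm).trans (pow_succ' _ _)
      rw [h10] at h7
      rw [mul_sub, h7, mul_sum]
      have h11 : ∀ j ∈ range m, (cdiv p (j + 1 + 1) : L) * W ^ (j + 1) *
          algebraMap K L e ^ (j + 1 + 1) = algebraMap K L e * ((cdiv p (j + 1 + 1) : L) *
            W ^ (j + 1) * algebraMap K L e ^ (j + 1)) := fun j _ => by ring
      rw [sum_congr rfl h11]
      ring
    exact mul_left_cancel₀ he0 h9
  have h9 : (1 : L) ∈ V.nonunits := by
    rw [h8]
    refine sub_mem ?_ (sum_mem fun j _ => ?_)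
    · rw [pow_succ']
      exact nonunits_mul_mem h6 (pow_mem (ValuationSubring.nonunits_subset h6) _)
    · have h10 : (cdiv p (j + 1 + 1) : L) * W ^ (j + 1) * algebraMap K L e ^ (j + 1) =
          algebraMap K L e * ((cdiv p (j + 1 + 1) : L) * W ^ (j + 1) * algebraMap K L e ^ j) := by
        ring
      rw [h10]
      exact nonunits_mul_mem h6 (mul_mem (mul_mem (natCast_mem V _)
        (pow_mem (ValuationSubring.nonunits_subset hWV) _))
        (pow_mem (ValuationSubring.nonunits_subset h6) _))
  rw [ValuationSubring.mem_nonunits_iff, map_one] at h9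
  exact lt_irrefl _ h9

end Split

end Fermat.Agent.Ord
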