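import Fermat.Agent.Ord.SChart
import Fermat.Agent.Ord.Split
import Fermat.Agent.QComp.ICAux

/-!
# A Kummer class which is trivial modulo `w ^ p` at the generic point is trivial
-/

set_option autoImplicit false
set_option linter.unusedSectionVars false
set_option linter.style.haveILetI false

open Finset Module IntermediateField Polynomial IsLocalRing

namespace Fermat.Agent.Ord

open Fermat.Agent.Red Fermat.Agent.QComp
open Fermat.Agent.GoodRed (IsInt Lm)

variable {K k : Type*} [Field K] [Field k] {A : ValuationSubring K} {π : A →+* k}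
  {F Fk : Type*} [Field F] [Algebra K F] [Field Fk] [Algebra k Fk]
  {R : ConstRed A π F Fk} {x : F} {xb : Fk}

theorem ev_eq_aeval_subtype (q : A[X]) : ev K A x q = aeval x (q.map A.subtype) :=
  ev_eq_aeval (K := K) (R := A) x q

theorem prim_of_map_ne_zero (R : ConstRed A π F Fk) {q : A[X]} (hq : q.map π ≠ 0) : Prim q := by
  by_contra h
  apply hq
  ext i
  rw [coeff_map, coeff_zero, R.pi_eq_zero_iff]
  exact fun hu => h ⟨i, hu⟩

theorem gaussRing_le (hc : GoodRed.IsCoord R x xb) {V : ValuationSubring F}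
    (hV : OverGauss K A x V) {g : F} (hg : g ∈ K⟮x⟯) (hgO : g ∈ R.O) : g ∈ V := by
  rcases eq_or_ne g 0 with rfl | hg0
  · exact V.zero_mem
  obtain ⟨c, hc0, p, q, hp, hq, hf'⟩ := GoodRed.exists_rep hc.isRed hc.trans hg hg0
  have h1 : R.IsRed (aeval x (p.map A.subtype) / aeval x (q.map A.subtype))
      (aeval xb (p.map π) / aeval xb (q.map π)) :=
    (GoodRed.isRed_aeval hc.isRed p).div (GoodRed.isRed_aeval hc.isRed q)
      (GoodRed.aeval_ne_zero hc.trans hq)
  have h2 : aeval xb (p.map π) / aeval xb (q.map π) ≠ 0 :=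
    div_ne_zero (GoodRed.aeval_ne_zero hc.trans hp) (GoodRed.aeval_ne_zero hc.trans hq)
  have h3 : algebraMap K F c ∈ R.O := by
    have h4 := mul_mem hgO (h1.inv h2).mem
    rw [hf', mul_assoc, mul_inv_cancel₀ (h1.ne_zero h2), mul_one] at h4
    exact h4
  rw [R.algebraMap_mem_iff] at h3
  rw [hf', div_eq_mul_inv, ← ev_eq_aeval_subtype, ← ev_eq_aeval_subtype]
  exact mul_mem ((hV.mem_iff c).2 ⟨⟨c, h3⟩, rfl⟩)
    (mul_mem (hV.ev_mem p) (hV.inv_mem q (prim_of_map_ne_zero R hq)))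

/-- a valuation ring over the Gauss valuation contains the valuation ring of the reduction -/
theorem O_le_of_overGauss (hc : GoodRed.IsCoord R x xb) {V : ValuationSubring F}
    (hV : OverGauss K A x V) {f : F} (hf : f ∈ R.O) : f ∈ V := by
  obtain ⟨p, hp, hpa⟩ := hc.isIntegral_gaussRing hf
  let g : GoodRed.gaussRing R x →+* V :=
    (algebraMap (GoodRed.gaussRing R x) F).codRestrict V.toSubring
      (fun q => gaussRing_le hc hV (q : K⟮x⟯).2 q.2)
  have hg : (algebraMap V F).comp g = algebraMap (GoodRed.gaussRing R x) F := rfl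
  have hint : IsIntegral V f := by
    refine ⟨p.map g, hp.map g, ?_⟩
    rw [eval₂_map, hg]
    exact hpa
  obtain ⟨y, hy⟩ := IsIntegrallyClosed.isIntegral_iff.1 hint
  rw [← hy]
  exact y.2

theorem nonunits_of_isRed_zero (hc : GoodRed.IsCoord R x xb) {V : ValuationSubring F}
    (hV : OverGauss K A x V) {f : F} (hf : R.IsRed f 0) : f ∈ V.nonunits := by
  rcases eq_or_ne f 0 with rfl | hf0
  · exact zero_mem _
  obtain ⟨c, hc0, z, hz, hcz⟩ := R.exists_isRed_mul hf0
  have hcF : algebraMap K F c ≠ 0 := (_root_.map_ne_zero _).2 hc0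
  have h1 : algebraMap K F c⁻¹ = f * (algebraMap K F c * f)⁻¹ := by
    rw [map_inv₀]; field_simp
  have h2 : R.IsRed (algebraMap K F c⁻¹) 0 := by
    rw [h1]
    have := hf.mul (hcz.inv hz)
    rwa [zero_mul] at this
  have h3 : c⁻¹ ∈ A := (R.algebraMap_mem_iff _).1 h2.mem
  have h4 : π ⟨c⁻¹, h3⟩ = 0 := by
    have h5 := (R.isRed_algebraMap h3).unique h2
    exact (map_eq_zero _).1 h5
  have h5 : algebraMap K F (algebraMap A K ⟨c⁻¹, h3⟩) ∈ V.nonunits := by
    rw [hV.nonunits_iff, mem_maximalIdeal, mem_nonunits_iff]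
    exact (R.pi_eq_zero_iff _).1 h4
  have h6 : f = algebraMap K F (algebraMap A K ⟨c⁻¹, h3⟩) * (algebraMap K F c * f) := by
    change f = algebraMap K F c⁻¹ * (algebraMap K F c * f)
    rw [← mul_assoc, ← map_mul, inv_mul_cancel₀ hc0, map_one, one_mul]
  rw [h6]
  exact nonunits_mul_mem h5 (O_le_of_overGauss hc hV hcz.mem)

/-- integral elements over `K[x]` in `O` are integral over `A[x]` -/
theorem mem_IC_of_mem_O (hc : GoodRed.IsCoord R x xb) {f : F} (hf : f ∈ R.O)
    (hint : IsInt K x f) : f ∈ IC K F A x := by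
  obtain ⟨d, q, h⟩ := hc.exists_equation hf hint
  refine ⟨X ^ d + ∑ i ∈ Finset.range d, C (q i) * X ^ i, ?_, ?_⟩
  · apply monic_X_pow_add
    refine (degree_sum_le _ _).trans_lt ?_
    refine (Finset.sup_lt_iff (WithBot.bot_lt_coe d)).2 fun i hi => ?_
    refine (degree_C_mul_X_pow_le i _).trans_lt ?_
    exact WithBot.coe_lt_coe.2 (Finset.mem_range.1 hi)
  · rw [eval₂_add, eval₂_X_pow, eval₂_finsetSum, ← h]
    congr 1
    refine Finset.sum_congr rfl fun i _ => ?_
    rw [eval₂_mul, eval₂_C, eval₂_X_pow, ← ev_eq_aeval_subtype]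
    rfl

variable [IsAlgClosed K] [CharZero K] [IsAlgClosed k] [FF.IsFnField K F] [FF.IsFnField k Fk]

theorem isInt_of_mem_Lm {b : ℕ} {f : F} (h : f ∈ Lm K x b) : IsInt K x f :=
  (GoodRed.mem_Lm.1 h).1

/-- **(S)** A class which is trivial modulo `w ^ p` at the generic point of the special fibre is
trivial. -/
theorem pow_of_split (hc : GoodRed.IsCoord R x xb) (hπ : Function.Surjective π)
    (hdim : ∃ b0, ∀ b ≥ b0, finrank k (Lm k xb b) ≤ finrank K (Lm K x b))
    (hdim' : ∃ b0, ∀ b ≥ b0, finrank k (Lm k xb⁻¹ b) ≤ finrank K (Lm K x⁻¹ b))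
    {ϖ : A} (hϖ : IsRankOne A ϖ) {p : ℕ} [CharP k p] (hp : p.Prime) {w : A}
    (hw : w ^ (p - 1) = -(p : A)) (hπw : π w = 0) {f Y m : F} (hf1 : R.IsRed f 1)
    (hdiv : ∀ P : AlgebraicCurve.Place K F, (p : ℤ) ∣ P.ord f)
    (hf : f = Y ^ p * (1 + algebraMap K F w ^ p * m)) (hm : R.IsRed m 0) :
    ∃ g : F, g ^ p = f := by
  obtain ⟨u, y, r, s, b, hu, hy, hr, hs, hyL, hrL, heq, hys⟩ :=
    exists_chart hc hπ hdim hp hw hπw hf1 hdiv hf hm
  obtain ⟨u', y', r', s', b', hu', hy', hr', hs', hyL', hrL', heq', hys'⟩ :=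
    exists_chart hc.inv hπ hdim' hp hw hπw hf1 hdiv hf hm
  haveI := hc.finite
  have hx : Transcendental K x := hc.transK
  have hw0 : (w : K) ≠ 0 := by
    intro h0
    have h1 := congrArg Subtype.val hw
    push_cast at h1
    rw [h0, zero_pow (by have := hp.two_le; omega)] at h1
    exact (Nat.cast_ne_zero.2 hp.ne_zero : (p : K) ≠ 0) (neg_eq_zero.1 h1.symm)
  have hWne : algebraMap K F (w : K) ≠ 0 := (_root_.map_ne_zero _).2 hw0
  have hwm : w ∈ maximalIdeal A := by
    rw [mem_maximalIdeal, mem_nonunits_iff]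
    exact (R.pi_eq_zero_iff w).1 hπw
  have sub_one : ∀ {g : F}, R.IsRed g 1 → R.IsRed (g - 1) 0 := fun h => by
    have := h.sub R.isRed_one
    rwa [sub_self] at this
  refine exists_pow_of_split (K := K) (A := A) (E := K⟮x⟯) (t := tg K x) (w := w) (f := f)
    (u := u) (y := y) (r := r) (u' := u') (y' := y') (r' := r') (isGen_tg hx) hϖ hp hwm hw
    ⟨?_, ?_, heq, ?_, ?_, ?_⟩ ⟨?_, ?_, heq', ?_, ?_, ?_⟩ ?_
  · rw [IC_tg]; exact mem_IC_of_mem_O hc hy.mem (isInt_of_mem_Lm hyL)
  · rw [IC_tg]; exact mem_IC_of_mem_O hc hr.mem (isInt_of_mem_Lm hrL)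
  · intro V hV
    rw [algebraMap_tg] at hV
    exact nonunits_of_isRed_zero hc hV (sub_one hu)
  · intro V hV
    rw [algebraMap_tg] at hV
    exact nonunits_of_isRed_zero hc hV (sub_one hy)
  · intro V hV
    rw [algebraMap_tg] at hV
    exact nonunits_of_isRed_zero hc hV hr
  · rw [IC_tg_inv]; exact mem_IC_of_mem_O hc.inv hy'.mem (isInt_of_mem_Lm hyL')
  · rw [IC_tg_inv]; exact mem_IC_of_mem_O hc.inv hr'.mem (isInt_of_mem_Lm hrL')
  · intro V hV
    rw [map_inv₀, algebraMap_tg] at hV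
    exact nonunits_of_isRed_zero hc.inv hV (sub_one hu')
  · intro V hV
    rw [map_inv₀, algebraMap_tg] at hV
    exact nonunits_of_isRed_zero hc.inv hV (sub_one hy')
  · intro V hV
    rw [map_inv₀, algebraMap_tg] at hV
    exact nonunits_of_isRed_zero hc.inv hV hr'
  · intro V hV
    rw [algebraMap_tg] at hV
    have h1 : (u * y' - u' * y) / algebraMap K F (algebraMap A K w) = u * s' - u' * s := by
      change (u * y' - u' * y) / algebraMap K F (w : K) = _
      rw [div_eq_iff hWne]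
      linear_combination u * hys' - u' * hys
    rw [h1]
    refine nonunits_of_isRed_zero hc hV ?_
    have := (hu.mul hs').sub (hu'.mul hs)
    rwa [mul_zero, sub_zero] at this

end Fermat.Agent.Ord
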