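import Fermat.Agent.Ord.Kum
import Fermat.Agent.Ord.Main
import Fermat.Agent.Ord.RRU
import Fermat.Agent.Ord.SBase
import Fermat.Agent.QComp.InstD
import Fermat.Agent.JZ.Galois
import Fermat.Agent.FFM.Arith

/-!
# Inertia acts on the kernel of reduction of the ordinary part by the cyclotomic character
-/

set_option autoImplicit false
set_option linter.unusedSectionVars false
set_option linter.style.haveILetI false

noncomputable section

open AlgebraicCurve ModularCurve Module Fermat.Agent.Red Fermat.Agent.ModFn IntermediateField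

namespace Fermat.Agent.Ord

open Fermat.Agent.GoodRed (IsInt Lm)

local notation "Qb" => AlgebraicClosure ℚ

variable {N : ℕ} [NeZero N] {p : ℕ} [hpF : Fact p.Prime]
  {A : ValuationSubring (AlgebraicClosure ℚ)} {k : Type*} [Field k] {π : A →+* k}

/-! ### the element `w` -/

theorem w_mem {w : Qb} (hw : w ^ (p - 1) = -(p : Qb)) : w ∈ A :=
  mem_of_pow_mem A (by have := hpF.out.two_le; omega) (hw ▸ neg_mem (natCast_mem A p))

theorem w_red [CharP k p] {w : Qb} (hw : w ^ (p - 1) = -(p : Qb)) (h : w ∈ A) :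
    π ⟨w, h⟩ = 0 := by
  have h1 : (⟨w, h⟩ : A) ^ (p - 1) = -(p : A) := Subtype.ext (by push_cast; exact hw)
  have h2 := congrArg π h1
  rw [map_pow, map_neg, map_natCast, CharP.cast_eq_zero, neg_zero] at h2
  exact pow_eq_zero_iff (by have := hpF.out.two_le; omega) |>.1 h2

theorem exists_w (p : ℕ) [hpF : Fact p.Prime] : ∃ w : Qb, w ^ (p - 1) = -(p : Qb) :=
  IsAlgClosed.exists_pow_nat_eq _ (by have := hpF.out.two_le; omega)

/-! ### the ambient structure and the action of inertia -/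

theorem isRed_gauss_iff {hA : A.LiesOverPrime p} {hπ : ∀ a : A, π a = 0 ↔ ¬ IsUnit a}
    {hs : Function.Surjective π} {hN : ¬ p ∣ N} {f : modularFunctionFieldBar N}
    {z : modularFunctionFieldFullC k N} :
    (gaussPre hπ).IsRed (f : LaurentSeries Qb) (z : LaurentSeries k) ↔
      (redX N hA hπ hs hN).IsRed f z := by
  rw [isRed_gaussPre, isRed_redX]

theorem mem_Lm_jB {f : modularFunctionFieldBar N} {b : ℕ} :
    (f : LaurentSeries Qb) ∈ Lm Qb (jqModC Qb)⁻¹ b ↔ f ∈ Lm Qb (jB N)⁻¹ b :=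
  mem_Lm_coe (E := modularFunctionFieldBar N) (x := (jB N)⁻¹) (f := f) (b := b)

theorem inertia_act {σ : Qb ≃ₐ[ℚ] Qb} (hπ : ∀ a : A, π a = 0 ↔ ¬ IsUnit a)
    (hσ : σ ∈ A.inertiaSubgroupIn ℚ) : ∃ sA : A →+* A, (∀ a : A, ((sA a : A) : Qb) = σ a) ∧
      ∀ a : A, π (sA a) = π a := by
  obtain ⟨hσD, hσF⟩ := (Frob.mem_inertiaSubgroupIn_iff A σ).1 hσ
  refine ⟨((σ : Qb →+* Qb).comp A.subtype).codRestrict A.toSubring
    (fun a => (Frob.apply_mem_iff hσD).2 a.2), fun a => rfl, fun a => ?_⟩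
  rw [← sub_eq_zero, ← map_sub, hπ]
  have h1 := hσF a a.2
  rw [ValuationSubring.mem_nonunits_iff_exists_mem_maximalIdeal] at h1
  obtain ⟨h2, h3⟩ := h1
  exact (IsLocalRing.mem_maximalIdeal _).1 h3

theorem isFrac_coeffMap {σ : Qb ≃ₐ[ℚ] Qb} {sA : A →+* A}
    (hsA : ∀ a : A, ((sA a : A) : Qb) = σ a) {f : LaurentSeries Qb} (hf : IsFrac A f) :
    IsFrac A (coeffMap (σ : Qb →+* Qb) f) := by
  obtain ⟨a, b, hb, h1⟩ := hf
  have hι : ∀ c : LaurentSeries A,
      iotaA A (coeffMap sA c) = coeffMap (σ : Qb →+* Qb) (iotaA A c) := by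
    intro c
    ext n
    simp only [coeffMap_coeff]
    exact hsA _
  refine ⟨coeffMap sA a, coeffMap sA b, ?_, ?_⟩
  · intro h
    have h2 := hι b
    rw [h, map_zero] at h2
    exact iotaA_ne_zero hb ((map_eq_zero _).1 h2.symm)
  · rw [hι, hι, ← map_mul, h1]

/-! ### Hecke operators -/

theorem T_iterate_galois (σ : Qb ≃ₐ[ℚ] Qb) (M : ℕ) (y : JZero N) :
    (heckeOperatorBar N ⟨p, hpF.out⟩)^[M] (σ • y) =
      σ • (heckeOperatorBar N ⟨p, hpF.out⟩)^[M] y :=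
  (Function.Commute.iterate_left (f := ⇑(heckeOperatorBar N ⟨p, hpF.out⟩))
    (g := fun y : JZero N => σ • y)
    (fun y => JZ.heckeOperatorBar_smul ⟨p, hpF.out⟩ σ y) M) y

theorem T_iterate_nsmul (a : ℕ) (M : ℕ) (y : JZero N) :
    (heckeOperatorBar N ⟨p, hpF.out⟩)^[M] (a • y) =
      a • (heckeOperatorBar N ⟨p, hpF.out⟩)^[M] y :=
  (Function.Commute.iterate_left (f := ⇑(heckeOperatorBar N ⟨p, hpF.out⟩))
    (g := fun y : JZero N => a • y)
    (fun y => map_nsmul (heckeOperatorBar N ⟨p, hpF.out⟩) a y) M) y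

/-! ### the units -/

section Unit

variable {hA : A.LiesOverPrime p}
  {hπ : ∀ a : A, π a = 0 ↔ ¬ IsUnit a} {hs : Function.Surjective π} {hN : ¬ p ∣ N}

theorem exists_unit_jB {m : ℕ} (hm : 0 < m) {f : modularFunctionFieldBar N} {y : JZero N}
    (hf : KC m f y) (hf1 : (redX N hA hπ hs hN).IsRed f 1) :
    ∃ u : modularFunctionFieldBar N, (redX N hA hπ hs hN).IsRed u 1 ∧
      ∃ b, f * u ^ m ∈ Lm Qb (jB N)⁻¹ b := by
  haveI := charP_of_liesOverPrime hA hπ
  haveI : IsAlgClosed k := isAlgClosed_of_surjective hs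
  haveI := isFnField_bar N
  haveI := isFnField_fullC (k := k) N p hN
  have hc := (isCoord_jB hA hπ hs hN).inv
  obtain ⟨u, hu, b, hb⟩ := exists_unit hc hs (dim_of_chart hc (chart_jB_inv hA hπ hs hN) (by
      rw [inv_inv, inv_inv]
      exact chart_jB hA hπ hs hN) hs) hm hf1 hf.dvd
  exact ⟨u, hu, _, mul_comm f (u ^ m) ▸ hb⟩

end Unit

/-- transport of (Low) to the ambient field -/
theorem low_map {K Ω : Type*} [Field K] [Field Ω] [Algebra K Ω] (E : IntermediateField K Ω)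
    (x f : E) {m j : ℕ} (h : ∃ b1, ∀ b ≥ b1, ∃ V : Submodule K E, FiniteDimensional K V ∧
      finrank K (Lm K x b) ≤ finrank K V ∧ ∀ h ∈ V, f ^ j * h ^ m ∈ Lm K x (m * b)) :
    ∃ b0, ∀ b ≥ b0, ∃ V : Submodule K Ω, FiniteDimensional K V ∧
      finrank K (U (x : Ω) E b) ≤ finrank K V ∧
      ∀ h ∈ V, h ∈ E ∧ (f : Ω) ^ j * h ^ m ∈ Lm K (x : Ω) (m * b) := by
  obtain ⟨b1, hb1⟩ := h
  refine ⟨b1, fun b hb => ?_⟩
  obtain ⟨V, hV, hle, hmem⟩ := hb1 b hb
  refine ⟨V.map E.val.toLinearMap, inferInstance, ?_, ?_⟩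
  · rw [finrank_U E x b]
    refine hle.trans_eq ?_
    exact (Submodule.equivMapOfInjective E.val.toLinearMap
      (fun a b h => Subtype.ext h) V).finrank_eq
  · rintro _ ⟨h, hh, rfl⟩
    exact ⟨h.2, mem_Lm_coe.2 (hmem h hh)⟩

theorem exists_low_jB {m : ℕ} (hm : 0 < m) {f : modularFunctionFieldBar N} {y : JZero N}
    (hf : KC m f y) (hA : A.LiesOverPrime p)
    (hπ : ∀ a : A, π a = 0 ↔ ¬ IsUnit a) (hs : Function.Surjective π) (hN : ¬ p ∣ N) (j : ℕ) :
    ∃ b1, ∀ b ≥ b1, ∃ V : Submodule Qb (modularFunctionFieldBar N), FiniteDimensional Qb V ∧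
      finrank Qb (Lm Qb (jB N)⁻¹ b) ≤ finrank Qb V ∧
      ∀ h ∈ V, f ^ j * h ^ m ∈ Lm Qb (jB N)⁻¹ (m * b) := by
  haveI := isFnField_bar N
  have hc := (isCoord_jB hA hπ hs hN).inv
  haveI := hc.finite
  exact exists_low hc.transK hm hf.ne_zero hf.dvd j

/-! ### the ambient structure -/

section Main

variable [NeZero p]

/-- the ambient structure for the `M`-th iterate of the Hecke operator -/
def ambN [IsAlgClosed k] [CharP k p] (hA : A.LiesOverPrime p)
    (hπ : ∀ a : A, π a = 0 ↔ ¬ IsUnit a) {w : Qb} (hw : w ^ (p - 1) = -(p : Qb)) {ζ : Qbˣ}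
    (hζ : PrimU p ζ) {M : ℕ} (hM : 0 < M) : Amb (gaussPre hπ) p w :=
  ambSer hπ (FFM.rankOne_of_liesOverPrime hA) hpF.out (perf_of_isAlgClosed hpF.out.pos) w
    (w_mem hw) (w_red hw) hw ζ hζ M hM

theorem ambN_T [IsAlgClosed k] [CharP k p] {hA : A.LiesOverPrime p}
    {hπ : ∀ a : A, π a = 0 ↔ ¬ IsUnit a} {w : Qb} {hw : w ^ (p - 1) = -(p : Qb)} {ζ : Qbˣ}
    {hζ : PrimU p ζ} {M : ℕ} {hM : 0 < M} (f : LaurentSeries Qb) :
    (ambN hA hπ hw hζ hM).T f = (TT p ζ)^[M] f := rfl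

theorem mem_ambN_Q [IsAlgClosed k] [CharP k p] {hA : A.LiesOverPrime p}
    {hπ : ∀ a : A, π a = 0 ↔ ¬ IsUnit a} {w : Qb} {hw : w ^ (p - 1) = -(p : Qb)} {ζ : Qbˣ}
    {hζ : PrimU p ζ} {M : ℕ} {hM : 0 < M} {f : LaurentSeries Qb} :
    f ∈ (ambN hA hπ hw hζ hM).Q ↔ IsFrac A f := Iff.rfl

/-- the base level for `ambN` -/
theorem lvlN [IsAlgClosed k] [CharP k p] (hA : A.LiesOverPrime p)
    (hπ : ∀ a : A, π a = 0 ↔ ¬ IsUnit a) (hs : Function.Surjective π) (hN : ¬ p ∣ N)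
    {w : Qb} (hw : w ^ (p - 1) = -(p : Qb)) {ζ : Qbˣ} (hζ : PrimU p ζ) {M : ℕ} (hM : 0 < M) :
    Lvl (ambN hA hπ hw hζ hM) (jqModC Qb)⁻¹ (jqModC k)⁻¹ (jqModC k)⁻¹
      (modularFunctionFieldBar N) (modularFunctionFieldFullC k N) :=
  baseLvl hA hπ hs hN _ (fun _ hf => hf) (fun _ hf => hf)

theorem indepN [CharP k p] : ∀ e : ℕ → LaurentSeries k,
    ∑ i ∈ Finset.range p, e i ^ p * ((jqModC k)⁻¹) ^ i = 0 → ∀ i < p, e i = 0 := by
  haveI : CharP (LaurentSeries k) p :=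
    charP_of_injective_algebraMap (algebraMap k (LaurentSeries k)).injective p
  exact indep_pow order_jqModC_inv hpF.out.pos

/-- Kummer functions of periodic classes of exponent `p` with trivial reduction are `p`-th powers
up to `w ^ p` -/
theorem exists_form [IsAlgClosed k] [CharP k p] (hA : A.LiesOverPrime p)
    (hπ : ∀ a : A, π a = 0 ↔ ¬ IsUnit a) (hs : Function.Surjective π) (hN : ¬ p ∣ N)
    {w : Qb} (hw : w ^ (p - 1) = -(p : Qb)) {ζ : Qbˣ} (hζ : PrimU p ζ) {M : ℕ} (hM : 0 < M)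
    {h : modularFunctionFieldBar N} {δ : JZero N} (hδ : KC p h δ)
    (hT : (heckeOperatorBar N ⟨p, hpF.out⟩)^[M] δ = δ)
    (h1 : (gaussPre hπ).IsRed (h : LaurentSeries Qb) 1) :
    ∃ b ∈ modularFunctionFieldBar N, ∃ r ∈ modularFunctionFieldBar N, r ∈ (gaussPre hπ).O ∧
      (h : LaurentSeries Qb) = b ^ p * (1 + algebraMap Qb (LaurentSeries Qb) w ^ p * r) := by
  have hp := hpF.out
  have h1' : (redX N hA hπ hs hN).IsRed h 1 := isRed_gauss_iff.1 h1
  obtain ⟨u, hu, b1, hb1⟩ := exists_unit_jB hp.pos hδ h1'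
  have hu' : (gaussPre hπ).IsRed (u : LaurentSeries Qb) 1 :=
    (isRed_gauss_iff (z := (1 : modularFunctionFieldFullC k N))).2 hu
  have hu0 : u ≠ 0 := hu.ne_zero one_ne_zero
  have hg := hδ.mul_pow hp.pos hu0
  have hg1 : (gaussPre hπ).IsRed ((h * u ^ p : modularFunctionFieldBar N) : LaurentSeries Qb) 1 := by
    have := h1.mul (hu'.pow p)
    rw [one_pow, one_mul] at this
    exact this
  obtain ⟨c, hc0, hc⟩ := hg.iterate_eq hp.pos hN hζ hT
  obtain ⟨b, y, r, hy, hr, hy1, hrO, heq⟩ := (lvlN hA hπ hs hN hw hζ hM).exists_normalForm hs indepN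
    (g := ((h * u ^ p : modularFunctionFieldBar N) : LaurentSeries Qb))
    (H := (c : LaurentSeries Qb)) (b1 := b1) (mem_U.2 ⟨mem_Lm_jB.2 hb1, (h * u ^ p).2⟩) hg1
    (isFrac_bar hA π c.2) hc
  have M₀ := ambN hA hπ hw hζ hM
  have hyF : y ∈ modularFunctionFieldBar N := (mem_U.1 hy).2
  have hrF : r ∈ modularFunctionFieldBar N := (mem_U.1 hr).2
  have hy0 : y ≠ 0 := M₀.ne_of_isRed hy1 one_ne_zero
  have hu0' : (u : LaurentSeries Qb) ≠ 0 := fun h => hu0 (Subtype.ext h)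
  refine ⟨y / u, (modularFunctionFieldBar N).div_mem hyF u.2, r / y ^ p,
    (modularFunctionFieldBar N).div_mem hrF (pow_mem hyF _), ?_, ?_⟩
  · obtain ⟨rb, hrb⟩ := (gaussPre hπ).exists_isRed_of_mem hrO
    exact (M₀.isRed_div hrb (hy1.pow p) (by rw [one_pow]; exact one_ne_zero)).mem
  · have e1 : (h : LaurentSeries Qb) * (u : LaurentSeries Qb) ^ p =
        y ^ p + algebraMap Qb (LaurentSeries Qb) w ^ p * r := heq
    rw [div_pow]
    field_simp
    linear_combination e1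

/-- the splitting property at the base level -/
def SProp (N : ℕ) [NeZero N] (hA : A.LiesOverPrime p) (hπ : ∀ a : A, π a = 0 ↔ ¬ IsUnit a)
    (hs : Function.Surjective π) (hN : ¬ p ∣ N) (w : Qb) : Prop :=
  ∀ f Y m : modularFunctionFieldBar N, (redX N hA hπ hs hN).IsRed f 1 →
    (∀ P : Place Qb (modularFunctionFieldBar N), (p : ℤ) ∣ P.ord f) →
    f = Y ^ p * (1 + algebraMap Qb (modularFunctionFieldBar N) w ^ p * m) →
    (redX N hA hπ hs hN).IsRed m 0 → ∃ g : modularFunctionFieldBar N, g ^ p = f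

theorem SProp.exists_pow {hA : A.LiesOverPrime p} {hπ : ∀ a : A, π a = 0 ↔ ¬ IsUnit a}
    {hs : Function.Surjective π} {hN : ¬ p ∣ N} {w : Qb} (hS : SProp N hA hπ hs hN w)
    {f : modularFunctionFieldBar N} (hf1 : (redX N hA hπ hs hN).IsRed f 1)
    (hdiv : ∀ P : Place Qb (modularFunctionFieldBar N), (p : ℤ) ∣ P.ord f)
    (h : Split (gaussPre hπ) p w (modularFunctionFieldBar N) (f : LaurentSeries Qb)) :
    ∃ g : modularFunctionFieldBar N, g ^ p = f := by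
  obtain ⟨Y, hY, m, hm, hm0, heq⟩ := h
  refine hS f ⟨Y, hY⟩ ⟨m, hm⟩ hf1 hdiv (Subtype.ext heq) ?_
  exact (isRed_gauss_iff (f := ⟨m, hm⟩) (z := (0 : modularFunctionFieldFullC k N))).1 hm0

/-- **Inertia acts on the kernel of reduction of the ordinary part by the cyclotomic character** -/
theorem b3_aux (hA : A.LiesOverPrime p)
    (hπ : ∀ a : A, π a = 0 ↔ ¬ IsUnit a) (hs : Function.Surjective π) (hN : ¬ p ∣ N)
    {w : Qb} (hw : w ^ (p - 1) = -(p : Qb)) (hS : SProp N hA hπ hs hN w)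
    {M : ℕ} (hM : 0 < M) {σ : Qb ≃ₐ[ℚ] Qb} (hσ : σ ∈ A.inertiaSubgroupIn ℚ) {a : ℕ} (n : ℕ) :
    ∀ y : JZero N, redJ hA hπ hs hN y = 0 → p ^ n • y = 0 →
      (heckeOperatorBar N ⟨p, hpF.out⟩)^[M] y = y → (∀ ζ : Qb, ζ ^ (p ^ n) = 1 → σ ζ = ζ ^ a) →
      σ • y = a • y := by
  haveI := charP_of_liesOverPrime hA hπ
  haveI : IsAlgClosed k := isAlgClosed_of_surjective hs
  haveI := isFnField_bar N
  have hp := hpF.out
  induction n with
  | zero =>
    intro y _ hy _ _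
    rw [pow_zero, one_smul] at hy
    rw [hy]
    exact (smul_zero (A := JZero N) σ).trans (smul_zero a).symm
  | succ n ih =>
    intro y hr hy hTy ha
    have ha' : ∀ ζ : Qb, ζ ^ (p ^ n) = 1 → σ ζ = ζ ^ a := fun ζ hζ => ha ζ (by
      rw [pow_succ, pow_mul, hζ, one_pow])
    have hm : 0 < p ^ (n + 1) := pow_pos hp.pos _
    have hm' : 0 < p ^ n := pow_pos hp.pos _
    -- the Kummer function
    obtain ⟨f0, hf0, hf01⟩ := KC.exists_red hA hπ hs hN hm hy hr
    obtain ⟨u, hu, b1, hb1⟩ := exists_unit_jB hm hf0 hf01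
    have hu0 : u ≠ 0 := hu.ne_zero one_ne_zero
    set f := f0 * u ^ p ^ (n + 1) with hfdef
    have hf : KC (p ^ (n + 1)) f y := hf0.mul_pow hm hu0
    have hf1 : (redX N hA hπ hs hN).IsRed f 1 := by
      have := hf01.mul (hu.pow (p ^ (n + 1)))
      rwa [one_pow, one_mul] at this
    have hfdiv : ∀ P : Place Qb (modularFunctionFieldBar N), (p : ℤ) ∣ P.ord f := fun P =>
      dvd_trans (by push_cast; exact dvd_pow_self _ (Nat.succ_ne_zero n)) (hf.dvd P)
    by_cases hsp : Split (gaussPre hπ) p w (modularFunctionFieldBar N) (f : LaurentSeries Qb)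
    · have h1 : KC p f (p ^ n • y) := KC.nsmul (m := p) (m' := p ^ n) (by
        rw [← pow_succ']; exact hf)
      exact ih y hr ((h1.eq_zero_iff hp.pos).2 (hS.exists_pow hf1 hfdiv hsp)) hTy ha'
    -- the induction hypothesis
    have ihp : σ • (p • y) = a • (p • y) := by
      refine ih (p • y) (by rw [map_nsmul, hr, smul_zero]) ?_ ?_ ha'
      · rw [← mul_smul, ← pow_succ]; exact hy
      · rw [T_iterate_nsmul, hTy]
    have hfn : KC (p ^ n) f (p • y) := KC.nsmul (m := p ^ n) (m' := p) (by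
      rw [← pow_succ]; exact hf)
    obtain ⟨h₁, hh₁0, hσf⟩ := (hfn.pow a).exists_of_eq hm' (ihp ▸ hfn.galois hm' σ)
    -- the eigenfunction
    obtain ⟨ζ₀, hζ₀⟩ := HasEnoughRootsOfUnity.exists_primitiveRoot Qb p
    obtain ⟨ζ, hζ⟩ := HasEnoughRootsOfUnity.exists_primitiveRoot Qb (p ^ (n + 1))
    have hζ₀u : PrimU p (Units.mk0 ζ₀ (hζ₀.ne_zero hp.ne_zero)) :=
      PrimU.of_isPrimitiveRoot hζ₀
    obtain ⟨H, hH0, hH⟩ := hf.iterate_eq hm hN hζ₀u hTy
    obtain ⟨sA, hsA, hsk⟩ := inertia_act hπ hσ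
    have hsR : ∀ (g : LaurentSeries Qb) (z : LaurentSeries k), (gaussPre hπ).IsRed g z →
        (gaussPre hπ).IsRed (coeffMap (σ : Qb →+* Qb) g) z := by
      intro g z hg
      have h1 := QComp.gRed_galois sA hsA (RingHom.id k) hsk (isRed_gaussPre.1 hg)
      rw [coeffMap_id] at h1
      exact isRed_gaussPre.2 h1
    obtain ⟨ζ', hζ', hh1, key⟩ := tower_main (lvlN hA hπ hs hN hw hζ₀u hM) hs indepN
      (f := (f : LaurentSeries Qb)) (H := (H : LaurentSeries Qb)) (h₁ := (h₁ : LaurentSeries Qb))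
      (n := n) f.2
      ((isRed_gauss_iff (z := (1 : modularFunctionFieldFullC k N))).2 hf1)
      (mem_Lm_jB.2 hb1) hsp (isFrac_bar hA π H.2) hH
      (fun i hi j hj => low_map (modularFunctionFieldBar N) (jB N)⁻¹ f
        (exists_low_jB (pow_pos hp.pos i) (KC.nsmul (m := p ^ i) (m' := p ^ (n + 1 - i)) (by
          rw [← pow_add, Nat.add_sub_cancel' (by omega)]; exact hf)) hA hπ hs hN j))
      hζ (σ := coeffMap (σ : Qb →+* Qb)) (σK := (σ : Qb →+* Qb))
      (fun c => by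
        rw [algebraMap_eq_C, algebraMap_eq_C]
        exact coeffMap_single_zero _ _)
      (fun z hz => (arithmeticRingAut (modularFunctionFieldFull N) σ ⟨z, hz⟩).2)
      (fun z hz => isFrac_coeffMap hsA hz) hsR (ha ζ hζ.pow_eq_one) h₁.2
      (congrArg Subtype.val hσf)
    -- the function of `σ • y - a • y`
    set h : modularFunctionFieldBar N := algebraMap Qb (modularFunctionFieldBar N) ζ' * h₁ with hh
    have hpow : h ^ p ^ n = arithmeticRingAut (modularFunctionFieldFull N) σ f / f ^ a := by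
      rw [hσf, hh, mul_pow, ← map_pow, hζ', map_one, one_mul,
        mul_div_cancel_left₀ _ (pow_ne_zero _ hf.ne_zero)]
    have hδ : KC p h (σ • y - a • y) := by
      refine KC.of_pow_mul (m := p) (m' := p ^ n) hm'.ne' ?_
      rw [hpow, ← pow_succ']
      exact (hf.galois hm σ).div (hf.pow a)
    have hTδ : (heckeOperatorBar N ⟨p, hpF.out⟩)^[M] (σ • y - a • y) = σ • y - a • y := by
      rw [iterate_map_sub, T_iterate_galois, T_iterate_nsmul, hTy]
    have hh1' : (gaussPre hπ).IsRed (h : LaurentSeries Qb) 1 := hh1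
    obtain ⟨b, hb, r, hr, hrO, heq⟩ := exists_form hA hπ hs hN hw hζ₀u hM hδ hTδ hh1'
    have hsplit := key b hb r hr hrO heq
    have h2 := hS.exists_pow (f := h) (isRed_gauss_iff.1 hh1') hδ.dvd hsplit
    exact sub_eq_zero.1 ((hδ.eq_zero_iff hp.pos).2 h2)

end Main

/-- the splitting property holds -/
theorem sProp (hA : A.LiesOverPrime p)
    (hπ : ∀ a : A, π a = 0 ↔ ¬ IsUnit a) (hs : Function.Surjective π) (hN : ¬ p ∣ N)
    {w : Qb} (hw : w ^ (p - 1) = -(p : Qb)) : SProp N hA hπ hs hN w := by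
  intro f Y m hf1 hdiv hf hm
  haveI := charP_of_liesOverPrime hA hπ
  haveI : IsAlgClosed k := isAlgClosed_of_surjective hs
  haveI := isFnField_bar N
  haveI := isFnField_fullC (k := k) N p hN
  have hc := (isCoord_jB hA hπ hs hN).inv
  have hC := chart_jB_inv hA hπ hs hN
  have hC' : Chart (redX N hA hπ hs hN) ((jB N)⁻¹)⁻¹ ((RedQ.xj k N)⁻¹)⁻¹ := by
    rw [inv_inv, inv_inv]
    exact chart_jB hA hπ hs hN
  refine pow_of_split hc hs (dim_of_chart hc hC hC' hs) (dim_of_chart hc.inv hC' ?_ hs)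
    (QComp.isRankOne_q hA) hpF.out (w := ⟨w, w_mem hw⟩) (Subtype.ext ?_) (w_red hw _) hf1 hdiv hf hm
  · rw [inv_inv, inv_inv]
    exact hC
  · push_cast
    exact hw

/-- **Inertia acts on the kernel of reduction of the ordinary part by the cyclotomic character** -/
theorem b3 (hA : A.LiesOverPrime p)
    (hπ : ∀ a : A, π a = 0 ↔ ¬ IsUnit a) (hs : Function.Surjective π) (hN : ¬ p ∣ N)
    {M : ℕ} (hM : 0 < M) {σ : Qb ≃ₐ[ℚ] Qb} (hσ : σ ∈ A.inertiaSubgroupIn ℚ) {a n : ℕ}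
    {y : JZero N} (hr : redJ hA hπ hs hN y = 0) (hy : p ^ n • y = 0)
    (hT : (heckeOperatorBar N ⟨p, hpF.out⟩)^[M] y = y)
    (ha : ∀ ζ : Qb, ζ ^ (p ^ n) = 1 → σ ζ = ζ ^ a) : σ • y = a • y := by
  haveI : NeZero p := ⟨hpF.out.ne_zero⟩
  obtain ⟨w, hw⟩ := exists_w p
  exact b3_aux hA hπ hs hN hw (sProp hA hπ hs hN hw) hM hσ n y hr hy hT ha

end Fermat.Agent.Ord
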