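import Mathlib.FieldTheory.Relrank
import Mathlib.FieldTheory.Finite.Basic
import Mathlib.FieldTheory.IntermediateField.Adjoin.Basic
import Mathlib.RingTheory.PowerBasis
import Mathlib.RingTheory.RootsOfUnity.PrimitiveRoots

/-!
# Simple extensions inside a large field
-/

set_option autoImplicit false
set_option linter.unusedSectionVars false
set_option linter.style.haveILetI false

open Finset IntermediateField Polynomial

namespace Fermat.Agent.Ord

section Ext

variable {K Ω : Type*} [Field K] [Field Ω] [Algebra K Ω]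

/-- the simple extension `E(s)` -/
def ext (E : IntermediateField K Ω) (s : Ω) : IntermediateField K Ω :=
  (IntermediateField.adjoin E {s}).restrictScalars K

theorem mem_ext {E : IntermediateField K Ω} {s z : Ω} :
    z ∈ ext E s ↔ z ∈ IntermediateField.adjoin E {s} := Iff.rfl

theorem le_ext (E : IntermediateField K Ω) (s : Ω) : E ≤ ext E s := fun z hz =>
  (IntermediateField.adjoin E {s}).algebraMap_mem ⟨z, hz⟩

theorem self_mem_ext (E : IntermediateField K Ω) (s : Ω) : s ∈ ext E s :=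
  IntermediateField.mem_adjoin_simple_self E s

/-- `1, s, …, s ^ (n - 1)` are linearly independent over `E` -/
def Indep (E : IntermediateField K Ω) (s : Ω) (n : ℕ) : Prop :=
  ∀ c : ℕ → Ω, (∀ i, c i ∈ E) → ∑ i ∈ range n, c i * s ^ i = 0 → ∀ i < n, c i = 0

/-- every element of `E'` is a combination of `1, s, …, s ^ (n - 1)` over `E` -/
def Spans (E E' : IntermediateField K Ω) (s : Ω) (n : ℕ) : Prop :=
  ∀ z ∈ E', ∃ c : ℕ → Ω, (∀ i, c i ∈ E) ∧ z = ∑ i ∈ range n, c i * s ^ i

variable {E : IntermediateField K Ω} {s : Ω} {p : ℕ} {q : ℕ → Ω}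

theorem exists_monic (hq : ∀ i, q i ∈ E) (hs : s ^ p = ∑ i ∈ range p, q i * s ^ i) :
    ∃ Q : E[X], Q.Monic ∧ Q.natDegree = p ∧ aeval s Q = 0 := by
  obtain ⟨c, hc⟩ : ∃ c : ℕ → E, ∀ i, (c i : Ω) = - q i :=
    ⟨fun i => ⟨-q i, neg_mem (hq i)⟩, fun i => rfl⟩
  have hdeg : (∑ i ∈ range p, C (c i) * X ^ i : E[X]).degree < p := by
    refine (degree_sum_le _ _).trans_lt ?_
    refine (Finset.sup_lt_iff (WithBot.bot_lt_coe p)).2 fun i hi => ?_
    refine (degree_C_mul_X_pow_le i _).trans_lt ?_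
    exact WithBot.coe_lt_coe.2 (Finset.mem_range.1 hi)
  refine ⟨X ^ p + ∑ i ∈ range p, C (c i) * X ^ i, monic_X_pow_add hdeg, ?_, ?_⟩
  · rw [natDegree_add_eq_left_of_degree_lt (by rwa [degree_X_pow]), natDegree_X_pow]
  · rw [map_add, map_pow, aeval_X, map_sum, hs, ← sum_add_distrib]
    refine sum_eq_zero fun i _ => ?_
    rw [map_mul, aeval_C, map_pow, aeval_X]
    have : algebraMap E Ω (c i) = - q i := hc i
    rw [this]
    ring

theorem spans_ext (hq : ∀ i, q i ∈ E) (hs : s ^ p = ∑ i ∈ range p, q i * s ^ i) :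
    Spans E (ext E s) s p := by
  intro z hz
  obtain ⟨Q, hQ, hQd, hQs⟩ := exists_monic hq hs
  have halg : IsAlgebraic E s := ⟨Q, hQ.ne_zero, hQs⟩
  rw [mem_ext, ← IntermediateField.mem_toSubalgebra,
    IntermediateField.adjoin_simple_toSubalgebra_of_isAlgebraic halg,
    Algebra.adjoin_singleton_eq_range_aeval] at hz
  obtain ⟨P, rfl⟩ := hz
  have h1 : aeval s P = aeval s (P %ₘ Q) := by
    conv_lhs => rw [← modByMonic_add_div P Q]
    rw [map_add, map_mul, hQs, zero_mul, add_zero]
  have h2 : (P %ₘ Q).degree < p := by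
    have := degree_modByMonic_lt P hQ
    rwa [degree_eq_natDegree hQ.ne_zero, hQd] at this
  refine ⟨fun i => (((P %ₘ Q).coeff i : E) : Ω), fun i => ((P %ₘ Q).coeff i).2, ?_⟩
  change aeval s P = _
  rw [h1, aeval_def, eval₂_eq_sum_range' _ (n := p)]
  · rfl
  · by_cases h3 : P %ₘ Q = 0
    · rw [h3, natDegree_zero]
      by_contra h4
      have h5 : p = 0 := by omega
      rw [h3, h5] at h2
      rw [degree_zero] at h2
      have h6 : Q = 1 := by
        apply hQ.natDegree_eq_zero.1
        omega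
      rw [h6, map_one] at hQs
      exact one_ne_zero hQs
    · exact (natDegree_lt_iff_degree_lt h3).2 h2

theorem natDegree_minpoly (hq : ∀ i, q i ∈ E) (hs : s ^ p = ∑ i ∈ range p, q i * s ^ i)
    (hi : Indep E s p) : IsIntegral E s ∧ (minpoly E s).natDegree = p := by
  obtain ⟨Q, hQ, hQd, hQs⟩ := exists_monic hq hs
  have hint : IsIntegral E s := ⟨Q, hQ, hQs⟩
  refine ⟨hint, le_antisymm ?_ ?_⟩
  · rw [← hQd]
    exact natDegree_le_of_dvd (minpoly.dvd E s hQs) hQ.ne_zero
  · by_contra hlt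
    push Not at hlt
    have h1 := minpoly.aeval E s
    rw [aeval_def, eval₂_eq_sum_range' _ hlt] at h1
    have h2 := hi (fun i => (((minpoly E s).coeff i : E) : Ω))
      (fun i => ((minpoly E s).coeff i).2) h1 _ hlt
    have h3 : (minpoly E s).coeff (minpoly E s).natDegree = 1 := minpoly.monic hint
    rw [h3] at h2
    exact one_ne_zero h2

theorem relfinrank_ext (hq : ∀ i, q i ∈ E) (hs : s ^ p = ∑ i ∈ range p, q i * s ^ i)
    (hi : Indep E s p) : relfinrank E (ext E s) = p := by
  obtain ⟨hint, hd⟩ := natDegree_minpoly hq hs hi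
  rw [relfinrank_eq_finrank_of_le (le_ext E s), ← hd, ← IntermediateField.adjoin.finrank hint]
  rfl

end Ext

section Sum

theorem sum_range_mul' {M : Type*} [AddCommMonoid M] (n p : ℕ) (F : ℕ → M) :
    ∑ j ∈ range (n * p), F j = ∑ m ∈ range p, ∑ l ∈ range n, F (l * p + m) := by
  induction n with
  | zero => simp
  | succ n ih =>
    rw [Nat.succ_mul, sum_range_add, ih, ← sum_add_distrib]
    refine sum_congr rfl fun m _ => ?_
    rw [sum_range_succ]

end Sum

section Tower

variable {K Ω : Type*} [Field K] [Field Ω] [Algebra K Ω] {E E' E'' : IntermediateField K Ω}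

theorem Indep.trans {g g' : Ω} {n p : ℕ} (hg : g' ^ p = g) (hgE : g ∈ E') (hle : E ≤ E')
    (h1 : Indep E g n) (h2 : Indep E' g' p) : Indep E g' (n * p) := by
  intro c hc h0 j hj
  rw [sum_range_mul'] at h0
  have h3 : ∑ m ∈ range p, (∑ l ∈ range n, c (l * p + m) * g ^ l) * g' ^ m = 0 := by
    rw [← h0]
    refine sum_congr rfl fun m _ => ?_
    rw [sum_mul]
    refine sum_congr rfl fun l _ => ?_
    rw [mul_assoc, ← hg, ← pow_mul, ← pow_add, mul_comm p l]
  have hp : 0 < p := Nat.pos_of_ne_zero fun h => by subst h; simp at hj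
  have h4 := h2 (fun m => ∑ l ∈ range n, c (l * p + m) * g ^ l)
    (fun m => sum_mem fun l _ => mul_mem (hle (hc _)) (pow_mem hgE _)) h3 (j % p)
    (Nat.mod_lt _ hp)
  have h5 := h1 (fun l => c (l * p + j % p)) (fun l => hc _) h4 (j / p)
    (Nat.div_lt_of_lt_mul (by rwa [mul_comm]))
  have h6 : j / p * p + j % p = j := Nat.div_add_mod' j p
  rwa [h6] at h5

theorem Spans.trans {g g' : Ω} {n p : ℕ} (hg : g' ^ p = g) (h1 : Spans E E' g n)
    (h2 : Spans E' E'' g' p) : Spans E E'' g' (n * p) := by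
  intro z hz
  obtain ⟨c, hc, rfl⟩ := h2 z hz
  choose d hd hdc using fun m => h1 (c m) (hc m)
  rcases Nat.eq_zero_or_pos p with rfl | hp
  · exact ⟨0, fun _ => zero_mem _, by simp⟩
  refine ⟨fun j => d (j % p) (j / p), fun j => hd _ _, ?_⟩
  rw [sum_range_mul']
  refine sum_congr rfl fun m hm => ?_
  have hm' := mem_range.1 hm
  rw [hdc m, sum_mul]
  refine sum_congr rfl fun l _ => ?_
  have e1 : (l * p + m) % p = m := by
    rw [add_comm, Nat.add_mul_mod_self_right, Nat.mod_eq_of_lt hm']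
  have e2 : (l * p + m) / p = l := by
    rw [add_comm, Nat.add_mul_div_right _ _ hp, Nat.div_eq_of_lt hm', zero_add]
  change _ = d ((l * p + m) % p) ((l * p + m) / p) * g' ^ (l * p + m)
  rw [e1, e2, mul_assoc, ← hg, ← pow_mul, ← pow_add, mul_comm p l]

/-- Kummer automorphisms -/
theorem exists_aut (hle : E ≤ E') {g f : Ω} {n : ℕ} (hn : 0 < n) (hgE : g ∈ E') (hfE : f ∈ E)
    (hg : g ^ n = f) (hI : Indep E g n) (hS : Spans E E' g n) {ζ : K}
    (hζ : IsPrimitiveRoot ζ n) :
    ∃ τ : E' →+* E', (∀ z : E', (z : Ω) ∈ E → τ z = z) ∧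
      ((τ ⟨g, hgE⟩ : E') : Ω) = algebraMap K Ω ζ * g ∧ ∀ z : E', τ z = z → (z : Ω) ∈ E := by
  classical
  letI : Algebra E E' := (IntermediateField.inclusion hle).toRingHom.toAlgebra
  have halg : ∀ a : E, ((algebraMap E E' a : E') : Ω) = a := fun a => rfl
  let G : E' := ⟨g, hgE⟩
  have hli : LinearIndependent E (fun i : Fin n => G ^ (i : ℕ)) := by
    rw [Fintype.linearIndependent_iff]
    intro c hc i
    have h1 := hI (fun j => if h : j < n then ((c ⟨j, h⟩ : E) : Ω) else 0) (fun j => by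
      by_cases h : j < n
      · simp only [h, dif_pos]; exact (c ⟨j, h⟩).2
      · simp only [h, dif_neg, not_false_eq_true]; exact zero_mem _) (by
      have h2 := congrArg (Subtype.val) hc
      rw [AddSubmonoidClass.coe_finsetSum] at h2
      rw [Finset.sum_range, ← show ((0 : E') : Ω) = 0 from rfl, ← h2]
      refine sum_congr rfl fun j _ => ?_
      rw [dif_pos j.2, Algebra.smul_def]
      rfl) i i.2
    rw [dif_pos i.2] at h1
    exact Subtype.ext h1
  have hsp : ⊤ ≤ Submodule.span E (Set.range fun i : Fin n => G ^ (i : ℕ)) := by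
    intro z _
    obtain ⟨c, hc, hz⟩ := hS z z.2
    have h1 : z = ∑ i : Fin n, (⟨c i, hc i⟩ : E) • G ^ (i : ℕ) := by
      apply Subtype.ext
      rw [hz, Finset.sum_range, AddSubmonoidClass.coe_finsetSum]
      refine sum_congr rfl fun i _ => ?_
      rw [Algebra.smul_def]
      rfl
    rw [h1]
    exact Submodule.sum_mem _ fun i _ => Submodule.smul_mem _ _ (Submodule.subset_span ⟨i, rfl⟩)
  let pb : PowerBasis E E' :=
    { gen := G
      dim := n
      basis := Module.Basis.mk hli hsp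
      basis_eq_pow := fun i => by rw [Module.Basis.mk_apply] }
  have hmin : minpoly E G = X ^ n - C (⟨f, hfE⟩ : E) := by
    have h1 : (minpoly E pb.gen).natDegree = n := pb.natDegree_minpoly
    have h2 : aeval G (X ^ n - C (⟨f, hfE⟩ : E)) = 0 := by
      rw [map_sub, map_pow, aeval_X, aeval_C, sub_eq_zero]
      exact Subtype.ext hg
    have h3 := minpoly.dvd E G h2
    exact eq_of_monic_of_dvd_of_natDegree_le (minpoly.monic pb.isIntegral_gen)
      (monic_X_pow_sub_C _ hn.ne') h3 (by rw [natDegree_X_pow_sub_C]; exact h1.ge) |>.symm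
  let Z : E' := ⟨algebraMap K Ω ζ, E'.algebraMap_mem ζ⟩
  have hZn : Z ^ n = 1 := Subtype.ext (by
    change algebraMap K Ω ζ ^ n = 1
    rw [← map_pow, hζ.pow_eq_one, map_one])
  have hroot : aeval (Z * G) (minpoly E pb.gen) = 0 := by
    change aeval (Z * G) (minpoly E G) = 0
    rw [hmin, map_sub, map_pow, aeval_X, aeval_C, mul_pow, hZn, one_mul, sub_eq_zero]
    exact Subtype.ext hg
  let τ := pb.lift (Z * G) hroot
  have hτG : τ G = Z * G := pb.lift_gen _ hroot
  refine ⟨(τ : E' →+* E'), fun z hz => ?_, ?_, ?_⟩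
  · have h1 : z = algebraMap E E' ⟨z, hz⟩ := Subtype.ext rfl
    rw [h1]
    exact τ.commutes _
  · change ((τ G : E') : Ω) = _
    rw [hτG]
    rfl
  · intro z hz
    obtain ⟨c, hc, hzc⟩ := hS z z.2
    have h1 : z = ∑ i ∈ range n, algebraMap E E' ⟨c i, hc i⟩ * G ^ i := by
      apply Subtype.ext
      rw [hzc, AddSubmonoidClass.coe_finsetSum]
      rfl
    have h2 : τ z = ∑ i ∈ range n, algebraMap E E' ⟨c i, hc i⟩ * (Z ^ i * G ^ i) := by
      conv_lhs => rw [h1]
      rw [map_sum]
      refine sum_congr rfl fun i _ => ?_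
      rw [map_mul, AlgHom.commutes, map_pow, hτG, mul_pow]
    have hz' : τ z = z := hz
    have h3 : ∑ i ∈ range n, (c i * (algebraMap K Ω ζ ^ i - 1)) * g ^ i = 0 := by
      have h4 := congrArg Subtype.val (h2.symm.trans hz')
      rw [hzc, AddSubmonoidClass.coe_finsetSum] at h4
      have h5 : ∑ i ∈ range n, (c i * (algebraMap K Ω ζ ^ i - 1)) * g ^ i =
          ∑ i ∈ range n, c i * (algebraMap K Ω ζ ^ i * g ^ i) - ∑ i ∈ range n, c i * g ^ i := by
        rw [← sum_sub_distrib]
        exact sum_congr rfl fun i _ => by ring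
      rw [h5, sub_eq_zero]
      exact h4
    have h4 := hI (fun i => c i * (algebraMap K Ω ζ ^ i - 1)) (fun i =>
      mul_mem (hc i) (sub_mem (pow_mem (E.algebraMap_mem ζ) i) (one_mem _))) h3
    have h5 : ∀ i < n, i ≠ 0 → c i = 0 := by
      intro i hi hi0
      rcases mul_eq_zero.1 (h4 i hi) with h | h
      · exact h
      · exfalso
        rw [sub_eq_zero, ← map_pow, ← map_one (algebraMap K Ω)] at h
        have h6 := (algebraMap K Ω).injective h
        have h7 := (hζ.pow_eq_one_iff_dvd i).1 h6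
        exact hi0 (Nat.eq_zero_of_dvd_of_lt h7 hi)
    rw [hzc, sum_eq_single 0]
    · rw [pow_zero, mul_one]; exact hc 0
    · intro i hi hi0
      rw [h5 i (mem_range.1 hi) hi0, zero_mul]
    · intro h; exact absurd (mem_range.2 hn) h

end Tower

section AS

variable {k Λ : Type*} [Field k] [Field Λ] [Algebra k Λ] {κ : IntermediateField k Λ} {p : ℕ}

/-- **Artin–Schreier** -/
theorem indep_artinSchreier (hp : p.Prime) [CharP Λ p] {s r : Λ} (hr : r ∈ κ)
    (hs : s ^ p = s + r) (hsκ : s ∉ κ) : Indep κ s p := by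
  classical
  haveI : Fact p.Prime := ⟨hp⟩
  intro c hc h0
  by_contra hne
  push Not at hne
  obtain ⟨i0, hi0, hci0⟩ := hne
  -- the polynomial relation
  let P : κ[X] := ∑ i ∈ range p, C ⟨c i, hc i⟩ * X ^ i
  have hPs : aeval s P = 0 := by
    rw [map_sum, ← h0]
    refine sum_congr rfl fun i _ => ?_
    rw [map_mul, aeval_C, map_pow, aeval_X]
    rfl
  have hPc : P.coeff i0 = ⟨c i0, hc i0⟩ := by
    simp only [P, finsetSum_coeff, coeff_C_mul, coeff_X_pow]
    rw [sum_eq_single i0]
    · simp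
    · intro j _ hj
      rw [if_neg (Ne.symm hj), mul_zero]
    · intro h; exact absurd (mem_range.2 hi0) h
  have hP0 : P ≠ 0 := by
    intro h
    rw [h, coeff_zero] at hPc
    exact hci0 (congrArg Subtype.val hPc).symm
  have hPd : P.natDegree < p := by
    have h1 : P.degree < p := by
      refine (degree_sum_le _ _).trans_lt ?_
      refine (Finset.sup_lt_iff (WithBot.bot_lt_coe p)).2 fun i hi => ?_
      refine (degree_C_mul_X_pow_le i _).trans_lt ?_
      exact WithBot.coe_lt_coe.2 (Finset.mem_range.1 hi)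
    exact (natDegree_lt_iff_degree_lt hP0).2 h1
  obtain ⟨r', hr'⟩ : ∃ r' : κ, algebraMap κ Λ r' = r := ⟨⟨r, hr⟩, rfl⟩
  let Q : κ[X] := X ^ p - X - C r'
  have hQs : aeval s Q = 0 := by
    simp only [Q, map_sub, map_pow, aeval_X, aeval_C]
    rw [hs, hr']; ring
  have hQeq : Q = X ^ p - (X + C r') := by simp only [Q]; ring
  have hQm : Q.Monic := by
    rw [hQeq]
    exact monic_X_pow_sub (by
      rw [degree_X_add_C]
      exact_mod_cast (by have := hp.two_le; omega : 1 < p))
  have hQd : Q.natDegree = p := by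
    rw [hQeq, natDegree_sub_eq_left_of_natDegree_lt, natDegree_X_pow]
    rw [natDegree_X_add_C, natDegree_X_pow]
    exact hp.one_lt
  have hint : IsIntegral κ s := ⟨Q, hQm, hQs⟩
  set m := minpoly κ s with hm
  have hmd : m.natDegree < p := (natDegree_le_of_dvd (minpoly.dvd κ s hPs) hP0).trans_lt hPd
  have hmQ : m ∣ Q := minpoly.dvd κ s hQs
  -- `Q` splits in `Λ`
  let QΛ : Λ[X] := Q.map (algebraMap κ Λ)
  have hQΛm : QΛ.Monic := hQm.map _
  have hQΛd : QΛ.natDegree = p := by rw [natDegree_map, hQd]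
  have hQev : ∀ z : Λ, QΛ.eval z = z ^ p - z - r := by
    intro z
    simp only [QΛ, Q, Polynomial.map_sub, Polynomial.map_pow, map_X, map_C, eval_sub, eval_pow,
      eval_X, eval_C]
    rw [hr']
  let S : Finset Λ := (range p).image fun i : ℕ => s + (i : Λ)
  have hScard : S.card = p := by
    rw [Finset.card_image_of_injOn, card_range]
    intro a ha b hb hab
    have h1 : (a : Λ) = b := add_left_cancel hab
    have ha' : a ∈ Set.Iio p := by simpa using ha
    have hb' : b ∈ Set.Iio p := by simpa using hb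
    exact CharP.natCast_injOn_Iio Λ p ha' hb' h1
  have hSroots : S.val ≤ QΛ.roots := by
    rw [Multiset.le_iff_subset S.nodup]
    intro z hz
    obtain ⟨i, -, rfl⟩ := Finset.mem_image.1 (Finset.mem_def.2 hz)
    rw [mem_roots hQΛm.ne_zero, IsRoot, hQev, add_pow_char, hs]
    have h1 : ((i : Λ)) ^ p = i := by
      have := Subfield.mem_bot_iff_pow_eq_self (p := p) (F := Λ) (x := (i : Λ))
      exact this.1 (natCast_mem _ i)
    rw [h1]; ring
  have hsplits : QΛ.Splits := by
    rw [splits_iff_card_roots, hQΛd]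
    apply le_antisymm
    · rw [← hQΛd]; exact card_roots' _
    · have := Multiset.card_le_card hSroots
      rwa [Finset.card_val, hScard] at this
  let mΛ : Λ[X] := m.map (algebraMap κ Λ)
  have hmm : m.Monic := minpoly.monic hint
  have hmΛm : mΛ.Monic := hmm.map _
  have hmΛs : mΛ.Splits := hsplits.of_dvd hQΛm.ne_zero (Polynomial.map_dvd _ hmQ)
  have hmΛd : mΛ.natDegree = m.natDegree := natDegree_map _
  have h1 := hmΛs.nextCoeff_eq_neg_sum_roots_of_monic hmΛm
  have hcard : mΛ.roots.card = m.natDegree := by rw [← hmΛs.natDegree_eq_card_roots, hmΛd]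
  have h2 : ∀ z ∈ mΛ.roots, z - s ∈ κ := by
    intro z hz
    have h3 : QΛ.eval z = 0 := by
      rw [mem_roots hmΛm.ne_zero] at hz
      obtain ⟨G, hG⟩ := Polynomial.map_dvd (algebraMap κ Λ) hmQ
      have h4 : QΛ = mΛ * G := hG
      rw [h4, eval_mul, IsRoot.def.1 hz, zero_mul]
    rw [hQev] at h3
    have h4 : (z - s) ^ p = z - s := by
      rw [sub_pow_char, hs]
      linear_combination h3
    have h5 := (Subfield.mem_bot_iff_pow_eq_self (p := p) (F := Λ) (x := z - s)).2 h4
    exact (bot_le : (⊥ : Subfield Λ) ≤ κ.toSubfield) h5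
  have h3 : mΛ.roots.sum = (m.natDegree : Λ) * s + (mΛ.roots.map fun z => z - s).sum := by
    rw [Multiset.sum_map_sub, Multiset.map_id', Multiset.map_const', Multiset.sum_replicate,
      hcard, nsmul_eq_mul]
    ring
  have h4 : mΛ.nextCoeff ∈ κ := by
    have : mΛ.nextCoeff = algebraMap κ Λ m.nextCoeff :=
      nextCoeff_map (algebraMap κ Λ).injective m
    rw [this]
    exact (m.nextCoeff).2
  have h5 : (mΛ.roots.map fun z => z - s).sum ∈ κ := by
    refine κ.toSubfield.multiset_sum_mem _ fun z hz => ?_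
    obtain ⟨y, hy, rfl⟩ := Multiset.mem_map.1 hz
    exact h2 y hy
  have h6 : (m.natDegree : Λ) * s ∈ κ := by
    have h7 : (m.natDegree : Λ) * s = - mΛ.nextCoeff - (mΛ.roots.map fun z => z - s).sum := by
      rw [h1, neg_neg, h3]; ring
    rw [h7]
    exact sub_mem (neg_mem h4) h5
  have h7 : (m.natDegree : Λ) ≠ 0 := by
    intro h
    have h8 := (CharP.cast_eq_zero_iff Λ p _).1 h
    have h9 := Nat.eq_zero_of_dvd_of_lt h8 hmd
    have h10 : 0 < m.natDegree := minpoly.natDegree_pos hint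
    omega
  apply hsκ
  have h8 : s = (m.natDegree : Λ)⁻¹ * ((m.natDegree : Λ) * s) := by
    rw [← mul_assoc, inv_mul_cancel₀ h7, one_mul]
  rw [h8]
  exact mul_mem (inv_mem (_root_.natCast_mem _ _)) h6

end AS

end Fermat.Agent.Ord
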