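import Fermat.Agent.Ord.Solve

/-!
# The ambient field: contraction operator and normal forms
-/

set_option autoImplicit false
set_option linter.unusedSectionVars false
set_option linter.style.haveILetI false

open Finset

namespace Fermat.Agent.Ord

variable {K k : Type*} [Field K] [Field k] {A : ValuationSubring K} {π : A →+* k}
  {Ω Λ : Type*} [Field Ω] [Algebra K Ω] [Field Λ] [Algebra k Λ]

/-- An ambient field with a partial reduction, a multiplicative operator which contracts to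
`p`-th powers, and a Henselian subring. -/
structure Amb (R : PreRed A π Ω Λ) (p : ℕ) (w : K) where
  hp : p.Prime
  perf : ∀ a : k, ∃ b : k, b ^ p = a
  wA : w ∈ A
  w_ne : w ≠ 0
  w_red : ∀ h : w ∈ A, π ⟨w, h⟩ = 0
  w_pow : w ^ (p - 1) = -(p : K)
  inv : ∀ (f : Ω) (z : Λ), R.IsRed f z → z ≠ 0 → R.IsRed f⁻¹ z⁻¹
  Q : Subfield Ω
  alg_mem : ∀ c : K, algebraMap K Ω c ∈ Q
  closed : ∀ f ∈ Q, ∀ n : ℕ, 0 < n → ∀ c : ℕ → Ω, (∀ j < n, c j ∈ R.O) →
    f ^ n = ∑ j ∈ range n, c j * f ^ j → f ∈ R.O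
  B : Subring Ω
  B_O : B ≤ R.O
  B_Q : ∀ f ∈ B, f ∈ Q
  B_alg : ∀ a : A, algebraMap K Ω a ∈ B
  B_closed : ∀ f ∈ Q, ∀ n : ℕ, 0 < n → ∀ c : ℕ → Ω, (∀ j < n, c j ∈ B) →
    f ^ n = ∑ j ∈ range n, c j * f ^ j → f ∈ B
  hensel : ∀ y ∈ B, ∀ r ∈ B, R.IsRed y 1 →
    ∃ s ∈ B, s ^ p = lin p (algebraMap K Ω w) y s + r
  T : Ω →* Ω
  T_Q : ∀ f ∈ Q, T f ∈ Q
  contr : ∀ c : A, π c = 0 → ∀ u ub, R.IsRed u ub → ∃ u' ub',
    T (1 + algebraMap K Ω c * u) = 1 + algebraMap K Ω c * u' ∧ R.IsRed u' (ub' ^ p)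

namespace Amb

variable {R : PreRed A π Ω Λ} {p : ℕ} {w : K} (M : Amb R p w)

include M

theorem T_ne_zero {f : Ω} (hf : f ≠ 0) : M.T f ≠ 0 := by
  intro h
  have h1 : M.T (f * f⁻¹) = 1 := by rw [mul_inv_cancel₀ hf, map_one]
  rw [map_mul, h, zero_mul] at h1
  exact zero_ne_one h1

theorem T_div (f g : Ω) (hg : g ≠ 0) : M.T (f / g) = M.T f / M.T g := by
  rw [eq_div_iff (M.T_ne_zero hg), ← map_mul, div_mul_cancel₀ _ hg]

theorem isRed_div {f g : Ω} {z z' : Λ} (hf : R.IsRed f z) (hg : R.IsRed g z') (hz : z' ≠ 0) :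
    R.IsRed (f / g) (z / z') := by
  rw [div_eq_mul_inv, div_eq_mul_inv]
  exact hf.mul (M.inv _ _ hg hz)

theorem pi_w : π ⟨w, M.wA⟩ = 0 := M.w_red _

theorem isRed_w : R.IsRed (algebraMap K Ω w) 0 := by
  have h1 := R.isRed_coe ⟨w, M.wA⟩
  rwa [M.pi_w, map_zero] at h1

theorem W_ne : algebraMap K Ω w ≠ 0 := (map_ne_zero _).2 M.w_ne

theorem W_pow : (algebraMap K Ω w) ^ (p - 1) = -(p : Ω) := by
  rw [← map_pow, M.w_pow]; simp

theorem two_le : 2 ≤ p := M.hp.two_le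

theorem ne_of_isRed {f : Ω} {z : Λ} (h : R.IsRed f z) (hz : z ≠ 0) : f ≠ 0 := by
  rintro rfl
  exact hz (h.unique R.isRed_zero)

/-- **The power lemma** -/
theorem exists_pow_eq [IsAlgClosed K] {c : K} (hc0 : c ≠ 0) (hcA : c ∈ A)
    {m : A} (hm : π m = 0) (hcm : w ^ p = c * m)
    {g u : Ω} {ub : Λ} (hu : R.IsRed u ub) (hgQ : g ∈ M.Q)
    (hg : g ^ p = 1 + algebraMap K Ω c * u) : ∃ z : Λ, z ^ p = ub := by
  have hp := M.hp
  obtain ⟨c', hc'⟩ := IsAlgClosed.exists_pow_nat_eq c hp.pos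
  have hc'0 : c' ≠ 0 := by
    rintro rfl
    rw [zero_pow hp.ne_zero] at hc'
    exact hc0 hc'.symm
  have hc'A : c' ∈ A := mem_of_pow_mem A hp.pos (hc' ▸ hcA)
  set d : K := w / c' with hd
  have hwd : w = c' * d := by rw [hd]; field_simp
  have hdm : d ^ p = m := by
    rw [hwd, mul_pow, hc'] at hcm
    exact mul_left_cancel₀ hc0 hcm
  have hdA : d ∈ A := mem_of_pow_mem A hp.pos (by rw [hdm]; exact m.2)
  have hdπ : π ⟨d, hdA⟩ = 0 := by
    have h1 : (π ⟨d, hdA⟩) ^ p = 0 := by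
      rw [← map_pow]
      have : (⟨d, hdA⟩ : A) ^ p = m := Subtype.ext hdm
      rw [this, hm]
    exact pow_eq_zero_iff hp.ne_zero |>.1 h1
  set s : Ω := (g - 1) / algebraMap K Ω c' with hs
  have hc'F : algebraMap K Ω c' ≠ 0 := (map_ne_zero _).2 hc'0
  have hsQ : s ∈ M.Q := M.Q.div_mem (M.Q.sub_mem hgQ M.Q.one_mem) (M.alg_mem _)
  have hgs : g = 1 + algebraMap K Ω c' * s := by
    rw [hs, mul_div_cancel₀ _ hc'F, add_sub_cancel]
  have hcF : algebraMap K Ω c' ^ p = algebraMap K Ω c := by rw [← map_pow, hc']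
  have hpF : (p : Ω) = - (algebraMap K Ω c' * algebraMap K Ω d) ^ (p - 1) := by
    have : (p : Ω) = algebraMap K Ω (p : K) := by simp
    rw [this, show (p : K) = - w ^ (p - 1) by rw [M.w_pow, neg_neg], map_neg, map_pow, hwd, map_mul]
  -- the monic equation of `s`
  have hmon : s ^ p = u + ∑ j ∈ range (p - 1), algebraMap K Ω
      ((cdiv p (j + 1) : K) * c' ^ j * d ^ (p - 1)) * s ^ (j + 1) := by
    have h1 : (algebraMap K Ω c) * s ^ p = algebraMap K Ω c * (u + ∑ j ∈ range (p - 1),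
        algebraMap K Ω ((cdiv p (j + 1) : K) * c' ^ j * d ^ (p - 1)) * s ^ (j + 1)) := by
      rw [hgs, add_pow_eq hp, one_pow, hpF] at hg
      have h2 : - (algebraMap K Ω c' * algebraMap K Ω d) ^ (p - 1) * ∑ j ∈ range (p - 1),
          (cdiv p (j + 1) : Ω) * 1 ^ (p - 1 - j) * (algebraMap K Ω c' * s) ^ (j + 1) =
          - (algebraMap K Ω c * ∑ j ∈ range (p - 1),
            algebraMap K Ω ((cdiv p (j + 1) : K) * c' ^ j * d ^ (p - 1)) * s ^ (j + 1)) := by
        rw [← hcF, mul_sum, mul_sum, ← sum_neg_distrib]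
        refine sum_congr rfl fun j _ => ?_
        have h3 : p = (p - 1) + 1 := by have := hp.pos; omega
        have h4 : algebraMap K Ω c' ^ p = algebraMap K Ω c' ^ (p - 1) * algebraMap K Ω c' := by
          conv_lhs => rw [h3, pow_succ]
        rw [h4]
        simp only [map_mul, map_pow, map_natCast, one_pow, mul_one]
        ring_nf
      rw [h2, mul_pow, hcF] at hg
      rw [mul_add]
      linear_combination hg
    exact mul_left_cancel₀ ((map_ne_zero _).2 hc0) h1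
  have hcoef : ∀ j, (cdiv p (j + 1) : K) * c' ^ j * d ^ (p - 1) ∈ A := fun j =>
    mul_mem (mul_mem (natCast_mem A _) (pow_mem hc'A _)) (pow_mem hdA _)
  have hcoef0 : ∀ j, π ⟨_, hcoef j⟩ = 0 := by
    intro j
    have h1 : (⟨_, hcoef j⟩ : A) = (cdiv p (j + 1) : A) * ⟨c', hc'A⟩ ^ j * ⟨d, hdA⟩ ^ (p - 1) :=
      Subtype.ext (by push_cast; rfl)
    rw [h1, map_mul, map_pow π ⟨d, hdA⟩, hdπ, zero_pow (by have := hp.two_le; omega), mul_zero]
  have hsO : s ∈ R.O := by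
    refine M.closed s hsQ p hp.pos (fun j => if j = 0 then u else
      algebraMap K Ω ((cdiv p (j - 1 + 1) : K) * c' ^ (j - 1) * d ^ (p - 1))) (fun j _ => ?_) ?_
    · by_cases hj : j = 0
      · simp only [hj, if_true]; exact hu.mem
      · simp only [hj, if_false]; exact (R.isRed_coe ⟨_, hcoef _⟩).mem
    · have h3 : range p = range ((p - 1) + 1) := by
        congr 1
        have := hp.pos
        omega
      rw [h3, sum_range_succ', hmon, add_comm]
      simp only [Nat.add_eq_zero_iff, one_ne_zero, and_false, if_false, if_true, pow_zero, mul_one,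
        Nat.add_sub_cancel]
  obtain ⟨z, hz⟩ := R.exists_isRed_of_mem hsO
  refine ⟨z, ?_⟩
  have h1 := hz.pow p
  have h2 : R.IsRed (u + ∑ j ∈ range (p - 1), algebraMap K Ω
      ((cdiv p (j + 1) : K) * c' ^ j * d ^ (p - 1)) * s ^ (j + 1))
      (ub + ∑ j ∈ range (p - 1), algebraMap k Λ (π ⟨_, hcoef j⟩) * z ^ (j + 1)) :=
    hu.add (PreRed.isRed_sum _ fun j _ => (R.isRed_coe ⟨_, hcoef j⟩).mul (hz.pow _))
  rw [← hmon] at h2
  rw [h1.unique h2, sum_eq_zero, add_zero]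
  intro j _
  rw [hcoef0, map_zero, zero_mul]

/-- roots of the equation `s ^ p = lin p w y s + r` are integral -/
theorem mem_of_lin {s y r : Ω} (hs : s ∈ M.Q) (hy : y ∈ R.O) (hr : r ∈ R.O)
    (h : s ^ p = lin p (algebraMap K Ω w) y s + r) : s ∈ R.O := by
  have hp := M.hp
  have hw : algebraMap K Ω w ∈ R.O := M.isRed_w.mem
  refine M.closed s hs p hp.pos (fun j => if j = 0 then r else
      (cdiv p (j - 1 + 1) : Ω) * algebraMap K Ω w ^ (j - 1) * y ^ (p - 1 - (j - 1)))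
      (fun j _ => ?_) ?_
  · by_cases hj : j = 0
    · simp only [hj, if_true]; exact hr
    · simp only [hj, if_false]
      exact mul_mem (mul_mem (natCast_mem _ _) (pow_mem hw _)) (pow_mem hy _)
  · have h3 : range p = range ((p - 1) + 1) := by
      congr 1
      have := hp.pos
      omega
    rw [h3, sum_range_succ', h]
    simp only [Nat.add_eq_zero_iff, one_ne_zero, and_false, if_false, if_true, pow_zero, mul_one,
      Nat.add_sub_cancel]
    rfl

theorem isRed_lin {y s : Ω} {yb sb : Λ} (hy : R.IsRed y yb) (hs : R.IsRed s sb) :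
    R.IsRed (lin p (algebraMap K Ω w) y s) (yb ^ (p - 1) * sb) := by
  rw [← lin_zero M.hp]
  exact PreRed.isRed_sum _ fun j _ => ((((by
    have := R.isRed_coe (cdiv p (j + 1) : A)
    simpa using this : R.IsRed (cdiv p (j + 1) : Ω) (cdiv p (j + 1) : Λ))).mul
      (M.isRed_w.pow j)).mul (hy.pow _)).mul (hs.pow _)

/-- `p`-th roots of `1 + w ^ p r` are of the form `1 + w v` -/
theorem exists_root {g r : Ω} {rb : Λ} (hg : g ∈ M.Q) (hr : R.IsRed r rb)
    (h : g ^ p = 1 + algebraMap K Ω w ^ p * r) :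
    ∃ v ∈ M.Q, ∃ vb, g = 1 + algebraMap K Ω w * v ∧ R.IsRed v vb ∧ vb ^ p = vb + rb := by
  have hW := M.W_ne
  set v : Ω := (g - 1) / algebraMap K Ω w with hv
  have hvQ : v ∈ M.Q := M.Q.div_mem (M.Q.sub_mem hg M.Q.one_mem) (M.alg_mem _)
  have hgv : g = 1 + algebraMap K Ω w * v := by
    rw [hv, mul_div_cancel₀ _ hW, add_sub_cancel]
  have h1 : v ^ p = lin p (algebraMap K Ω w) 1 v + r := by
    rw [hgv, add_mul_pow M.hp M.W_pow, one_pow] at h
    have := mul_left_cancel₀ (pow_ne_zero p hW) (add_left_cancel h)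
    linear_combination this
  have hvO := M.mem_of_lin hvQ R.isRed_one.mem hr.mem h1
  obtain ⟨vb, hvb⟩ := R.exists_isRed_of_mem hvO
  refine ⟨v, hvQ, vb, hgv, hvb, ?_⟩
  have h2 := (M.isRed_lin R.isRed_one hvb).add hr
  rw [← h1] at h2
  rw [(hvb.pow p).unique h2, one_pow, one_mul]

/-- powers of `1 + w v` -/
theorem pow_one_add {v : Ω} {vb : Λ} (hv : R.IsRed v vb) :
    ∃ r, (1 + algebraMap K Ω w * v) ^ p = 1 + algebraMap K Ω w ^ p * r ∧
      R.IsRed r (vb ^ p - vb) := by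
  refine ⟨v ^ p - lin p (algebraMap K Ω w) 1 v, ?_, ?_⟩
  · rw [add_mul_pow M.hp M.W_pow, one_pow]
  · have := (hv.pow p).sub (M.isRed_lin R.isRed_one hv)
    rwa [one_pow, one_mul] at this

theorem charP_Λ [CharP k p] : CharP Λ p := R.charP_alg p

/-- an element of `A` is comparable with `w ^ p` -/
theorem dichotomy (hπ : ∀ a : A, π a = 0 ↔ ¬ IsUnit a) {c : A} (hc : c ≠ 0) :
    (∃ m : A, π m = 0 ∧ w ^ p = c * m) ∨ (∃ d : A, (c : K) = w ^ p * d) := by
  have hwp : w ^ p ≠ 0 := pow_ne_zero _ M.w_ne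
  have hc0 : (c : K) ≠ 0 := fun h => hc (Subtype.ext h)
  rcases A.mem_or_inv_mem ((c : K) / w ^ p) with h | h
  · right
    exact ⟨⟨_, h⟩, by rw [mul_div_cancel₀ _ hwp]⟩
  · by_cases hu : IsUnit (⟨_, h⟩ : A)
    · right
      obtain ⟨b, hb⟩ := hu.exists_right_inv
      have hb' : ((c : K) / w ^ p)⁻¹ * (b : K) = 1 := congrArg Subtype.val hb
      refine ⟨b, ?_⟩
      rw [inv_div] at hb'
      field_simp at hb'
      exact hb'.symm
    · left
      refine ⟨⟨_, h⟩, (hπ _).2 hu, ?_⟩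
      change w ^ p = (c : K) * ((c : K) / w ^ p)⁻¹
      field_simp

/-- **Normal form.** -/
theorem normalForm [IsAlgClosed K] [CharP k p] {V W : Submodule K Ω} {Wb : Submodule k Λ}
    (hV : R.OrthOn V) (hW : R.OrthOn W) (hVW : V ^ p ≤ W)
    (hVb : ∀ z ∈ Wb, ∃ f ∈ V, R.IsRed f z)
    (hWb : ∀ f ∈ W, ∀ z : Λ, R.IsRed f (z ^ p) → z ∈ Wb)
    (hVQ : ∀ f ∈ V, f ∈ M.Q) {g H : Ω} (hg : g ∈ W)
    (hg1 : R.IsRed g 1) (hH : H ∈ M.Q) (hT : M.T g = g * H ^ p) :
    ∃ y ∈ V, R.IsRed y 1 ∧ ∃ r ∈ W, r ∈ R.O ∧ g = y ^ p + algebraMap K Ω w ^ p * r := by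
  classical
  have hp := M.hp
  haveI : Fact p.Prime := ⟨hp⟩
  haveI := R.charP_alg p
  have hπ := R.pi_eq_zero_iff
  obtain ⟨y, hyV, hyO, c, r, ρ, hr, hrW, hgeq, hor⟩ := PreRed.solve hp M.perf hV hW hVW hg hg1.mem
  obtain ⟨yb, hyb⟩ := R.exists_isRed_of_mem hyO
  have hno : c ≠ 0 → ∀ z : Λ, ρ ≠ z ^ p := by
    intro hc z hz
    rcases hor with h | h
    · exact hc h
    · obtain ⟨f, hf, hfz⟩ := hVb z (hWb r hrW z (hz ▸ hr))
      exact h f hf z hfz hz
  have hy1 : c = 0 ∨ π c = 0 → yb = 1 := by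
    intro hc
    have h1 := (hyb.pow p).add ((R.isRed_coe c).mul hr)
    rw [← hgeq] at h1
    have h2 := h1.unique hg1
    have h3 : π c = 0 := by
      rcases hc with h | h
      · rw [h, map_zero]
      · exact h
    rw [h3, map_zero, zero_mul, add_zero] at h2
    have h4 : (yb - 1) ^ p = 0 := by rw [sub_pow_char, one_pow, h2, sub_self]
    exact sub_eq_zero.1 (pow_eq_zero_iff hp.ne_zero |>.1 h4)
  by_cases hc : c = 0
  · refine ⟨y, hyV, hy1 (Or.inl hc) ▸ hyb, 0, W.zero_mem, R.isRed_zero.mem, ?_⟩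
    rw [hgeq, hc]
    simp
  rcases M.dichotomy hπ hc with ⟨m, hm, hcm⟩ | ⟨d, hd⟩
  · exfalso
    have hc0 : (c : K) ≠ 0 := fun h => hc (Subtype.ext h)
    by_cases hπc : π c = 0
    · have hyb1 := hy1 (Or.inr hπc)
      rw [hyb1] at hyb
      have hy0 : y ≠ 0 := M.ne_of_isRed hyb one_ne_zero
      have hyp := hyb.pow p
      rw [one_pow] at hyp
      set r' : Ω := r / y ^ p with hr'
      have hr'red : R.IsRed r' ρ := by
        have := M.isRed_div hr hyp one_ne_zero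
        rwa [div_one] at this
      have hgy : g / y ^ p = 1 + algebraMap K Ω c * r' := by
        rw [hr', hgeq]; field_simp
      obtain ⟨u', ub', hu', hub'⟩ := M.contr c hπc r' ρ hr'red
      have hTy := M.T_ne_zero hy0
      have h1 : M.T (g / y ^ p) = g * H ^ p / M.T y ^ p := by
        rw [M.T_div _ _ (pow_ne_zero _ hy0), hT, map_pow]
      set z : Ω := y * H / M.T y with hz
      have hg0 : g ≠ 0 := M.ne_of_isRed hg1 one_ne_zero
      have hE : R.IsRed (1 + algebraMap K Ω c * r') 1 := by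
        have := R.isRed_one.add ((R.isRed_coe c).mul hr'red)
        rwa [hπc, map_zero, zero_mul, add_zero] at this
      have hE0 := M.ne_of_isRed hE one_ne_zero
      have hzp : z ^ p = 1 + algebraMap K Ω c * ((u' - r') / (1 + algebraMap K Ω c * r')) := by
        have h2 : z ^ p * (1 + algebraMap K Ω c * r') = 1 + algebraMap K Ω c * u' := by
          rw [← hu', ← hgy, h1, hz, div_pow, mul_pow]
          field_simp
        rw [eq_div_of_mul_eq hE0 h2]
        field_simp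
        ring
      have hzQ : z ∈ M.Q := M.Q.div_mem (M.Q.mul_mem (hVQ y hyV) hH) (M.T_Q y (hVQ y hyV))
      have hred : R.IsRed ((u' - r') / (1 + algebraMap K Ω c * r')) (ub' ^ p - ρ) := by
        have := M.isRed_div (hub'.sub hr'red) hE one_ne_zero
        rwa [div_one] at this
      obtain ⟨z', hz'⟩ := M.exists_pow_eq hc0 c.2 hm hcm hred hzQ hzp
      apply hno hc (ub' - z')
      rw [sub_pow_char, hz']
      ring
    · have h1 := (hyb.pow p).add ((R.isRed_coe c).mul hr)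
      rw [← hgeq] at h1
      have h2 := h1.unique hg1
      obtain ⟨γ, hγ⟩ := M.perf (π c)
      have hγ0 : γ ≠ 0 := by
        rintro rfl
        rw [zero_pow hp.ne_zero] at hγ
        exact hπc hγ.symm
      have hγ0' : algebraMap k Λ γ ≠ 0 := (map_ne_zero _).2 hγ0
      apply hno hc ((1 - yb) / algebraMap k Λ γ)
      rw [div_pow, sub_pow_char, one_pow, ← map_pow, hγ, eq_div_iff ((map_ne_zero _).2 hπc)]
      linear_combination h2
  · have hπc : π c = 0 := by
      have h1 : c = ⟨w, M.wA⟩ ^ p * d := Subtype.ext (by push_cast; exact hd)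
      rw [h1, map_mul, map_pow, M.pi_w, zero_pow hp.ne_zero, zero_mul]
    refine ⟨y, hyV, hy1 (Or.inr hπc) ▸ hyb, algebraMap K Ω d * r, ?_, ?_, ?_⟩
    · rw [← Algebra.smul_def]
      exact W.smul_mem _ hrW
    · exact ((R.isRed_coe d).mul hr).mem
    · rw [hgeq, hd, map_mul, map_pow]
      ring

end Amb

end Fermat.Agent.Ord
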