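import Fermat.Agent.Ord.Ser
import Fermat.Agent.Ord.Amb

/-!
# The ambient structure on Laurent series
-/

set_option autoImplicit false
set_option linter.unusedSectionVars false
set_option linter.style.haveILetI false

noncomputable section

open Finset ModularCurve Fermat.Agent.ModFn Fermat.Agent.Red

namespace Fermat.Agent.Ord

variable {K k : Type*} [Field K] [Field k] {A : ValuationSubring K} {π : A →+* k} {p : ℕ}

/-- the Gauss reduction on Laurent series -/
def gaussPre (hπ : ∀ a : A, π a = 0 ↔ ¬ IsUnit a) :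
    PreRed A π (LaurentSeries K) (LaurentSeries k) where
  O :=
    { carrier := {f | ∃ z, GRed π f z}
      mul_mem' := by
        rintro f g ⟨z, hz⟩ ⟨w, hw⟩
        exact ⟨z * w, hz.mul hw⟩
      one_mem' := ⟨1, gRed_one π⟩
      add_mem' := by
        rintro f g ⟨z, hz⟩ ⟨w, hw⟩
        exact ⟨z + w, hz.add hw⟩
      zero_mem' := ⟨0, gRed_zero π⟩
      neg_mem' := by
        rintro f ⟨z, hz⟩
        exact ⟨-z, hz.neg⟩ }
  red :=
    { toFun := fun f => f.2.choose
      map_one' := GRed.unique (Exists.choose_spec _) (gRed_one π)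
      map_mul' := fun f g => GRed.unique (Exists.choose_spec _)
        (f.2.choose_spec.mul g.2.choose_spec)
      map_zero' := GRed.unique (Exists.choose_spec _) (gRed_zero π)
      map_add' := fun f g => GRed.unique (Exists.choose_spec _)
        (f.2.choose_spec.add g.2.choose_spec) }
  pi_eq_zero_iff := hπ
  algebraMap_mem a := ⟨_, gRed_algebraMap π a⟩
  red_algebraMap a := GRed.unique (Exists.choose_spec _) (gRed_algebraMap π a)

theorem isRed_gaussPre {hπ : ∀ a : A, π a = 0 ↔ ¬ IsUnit a} {f : LaurentSeries K}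
    {z : LaurentSeries k} : (gaussPre hπ).IsRed f z ↔ GRed π f z := by
  constructor
  · rintro ⟨h, rfl⟩
    exact (h : ∃ z, GRed π f z).choose_spec
  · intro h
    have h3 : ∃ z, GRed π f z := ⟨z, h⟩
    exact ⟨h3, GRed.unique h3.choose_spec h⟩

theorem mem_gaussPre {hπ : ∀ a : A, π a = 0 ↔ ¬ IsUnit a} {f : LaurentSeries K} :
    f ∈ (gaussPre hπ).O ↔ ∃ z, GRed π f z := Iff.rfl

variable (A) in
/-- the field of fractions of `A((q))` in `K((q))` -/
def fracField : Subfield (LaurentSeries K) where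
  carrier := {f | IsFrac A f}
  mul_mem' h h' := h.mul h'
  one_mem' := isFrac_one A
  add_mem' h h' := h.add h'
  zero_mem' := isFrac_zero A
  neg_mem' h := h.neg
  inv_mem' _ h := h.inv

theorem mem_fracField {f : LaurentSeries K} : f ∈ fracField A ↔ IsFrac A f := Iff.rfl

variable (A) in
/-- `A[[q]] → K((q))` -/
def psHom : PowerSeries A →+* LaurentSeries K := (iotaA A).comp (HahnSeries.ofPowerSeries ℤ A)

variable (A) in
/-- the subring `A[[q]]` -/
def psRing : Subring (LaurentSeries K) := (psHom A).range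

theorem mem_psRing {f : LaurentSeries K} : f ∈ psRing A ↔ ∃ x : PowerSeries A, psHom A x = f :=
  Iff.rfl

theorem gRed_psHom (x : PowerSeries A) :
    GRed π (psHom A x) (rhoA π (HahnSeries.ofPowerSeries ℤ A x)) :=
  gRed_iota π _

theorem psHom_C (a : A) :
    psHom A (PowerSeries.C a) = algebraMap K (LaurentSeries K) a := by
  rw [psHom, RingHom.comp_apply, HahnSeries.ofPowerSeries_C, iotaA, coeffMap_single_zero,
    algebraMap_eq_C]
  rfl

/-- series without polar part are power series -/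
theorem exists_ofPowerSeries {R : Type*} [CommRing R] (y : LaurentSeries R)
    (h : ∀ n : ℤ, n < 0 → y.coeff n = 0) :
    ∃ x : PowerSeries R, HahnSeries.ofPowerSeries ℤ R x = y := by
  refine ⟨PowerSeries.mk fun n => y.coeff n, ?_⟩
  ext n
  rcases lt_or_ge n 0 with hn | hn
  · rw [ofPowerSeries_coeff_of_neg _ hn, h n hn]
  · lift n to ℕ using hn
    rw [HahnSeries.ofPowerSeries_apply_coeff, PowerSeries.coeff_mk]

/-- `K[[q]]` is integrally closed -/
theorem coeff_neg_of_monic {f : LaurentSeries K} {n : ℕ} (c : ℕ → LaurentSeries K)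
    (hc : ∀ j < n, ∃ x : PowerSeries K, HahnSeries.ofPowerSeries ℤ K x = c j)
    (h : f ^ n = ∑ j ∈ Finset.range n, c j * f ^ j) {m : ℤ} (hm : m < 0) : f.coeff m = 0 := by
  choose! x hx using hc
  have hint : IsIntegral (PowerSeries K) f := by
    refine ⟨Polynomial.X ^ n - ∑ j ∈ Finset.range n,
      Polynomial.C (x j) * Polynomial.X ^ j, ?_, ?_⟩
    · apply Polynomial.monic_X_pow_sub
      refine lt_of_le_of_lt (Polynomial.degree_sum_le _ _) ?_
      rw [Finset.sup_lt_iff (by exact_mod_cast WithBot.bot_lt_coe n)]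
      intro j hj
      rw [Finset.mem_range] at hj
      exact lt_of_le_of_lt (Polynomial.degree_C_mul_X_pow_le _ _) (by exact_mod_cast hj)
    · rw [Polynomial.eval₂_sub, Polynomial.eval₂_X_pow, Polynomial.eval₂_finsetSum, sub_eq_zero,
        h]
      refine Finset.sum_congr rfl fun j hj => ?_
      rw [Polynomial.eval₂_mul, Polynomial.eval₂_C, Polynomial.eval₂_X_pow,
        ← hx j (Finset.mem_range.1 hj)]
      rfl
  obtain ⟨y, hy⟩ := IsIntegrallyClosed.isIntegral_iff.1 hint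
  rw [← hy]
  exact ofPowerSeries_coeff_of_neg _ hm

theorem iota_ofPowerSeries (x : PowerSeries A) :
    psHom A x = HahnSeries.ofPowerSeries ℤ K (PowerSeries.map A.subtype x) := by
  rw [psHom, RingHom.comp_apply]
  ext n
  rw [coeffMap_coeff]
  rcases lt_or_ge n 0 with hn | hn
  · rw [ofPowerSeries_coeff_of_neg _ hn, ofPowerSeries_coeff_of_neg _ hn, map_zero]
  · lift n to ℕ using hn
    rw [HahnSeries.ofPowerSeries_apply_coeff, HahnSeries.ofPowerSeries_apply_coeff,
      PowerSeries.coeff_map]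

theorem psRing_closed (hr : FFM.RankOne A) {f : LaurentSeries K} (hf : IsFrac A f) {n : ℕ}
    (c : ℕ → LaurentSeries K) (hc : ∀ j < n, c j ∈ psRing A)
    (h : f ^ n = ∑ j ∈ Finset.range n, c j * f ^ j) : f ∈ psRing A := by
  choose! x hx using hc
  have hneg : ∀ m : ℤ, m < 0 → f.coeff m = 0 := fun m hm =>
    coeff_neg_of_monic c (fun j hj => ⟨_, by rw [← iota_ofPowerSeries, hx j hj]⟩) h hm
  have hint : (iotaA A).IsIntegralElem f := by
    refine ⟨Polynomial.X ^ n - ∑ j ∈ Finset.range n,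
      Polynomial.C (HahnSeries.ofPowerSeries ℤ A (x j)) * Polynomial.X ^ j, ?_, ?_⟩
    · apply Polynomial.monic_X_pow_sub
      refine lt_of_le_of_lt (Polynomial.degree_sum_le _ _) ?_
      rw [Finset.sup_lt_iff (by exact_mod_cast WithBot.bot_lt_coe n)]
      intro j hj
      rw [Finset.mem_range] at hj
      exact lt_of_le_of_lt (Polynomial.degree_C_mul_X_pow_le _ _) (by exact_mod_cast hj)
    · rw [Polynomial.eval₂_sub, Polynomial.eval₂_X_pow, Polynomial.eval₂_finsetSum, sub_eq_zero,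
        h]
      refine Finset.sum_congr rfl fun j hj => ?_
      rw [Polynomial.eval₂_mul, Polynomial.eval₂_C, Polynomial.eval₂_X_pow,
        ← hx j (Finset.mem_range.1 hj)]
      rfl
  obtain ⟨y, hy⟩ := exists_iota_of_isFrac hr hf hint
  obtain ⟨z, hz⟩ := exists_ofPowerSeries y fun m hm => by
    apply Subtype.ext
    have h1 := hneg m hm
    rw [← hy, coeffMap_coeff] at h1
    exact h1
  exact ⟨z, by rw [← hy, ← hz]; rfl⟩

/-- the iterated Hecke norm as a monoid homomorphism -/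
def TTHom [NeZero p] {ζ : Kˣ} (hζ : PrimU p ζ) (M : ℕ) : LaurentSeries K →* LaurentSeries K where
  toFun := (TT p ζ)^[M]
  map_one' := TT_iterate_one ζ M
  map_mul' f g := TT_iterate_mul hζ f g M

@[simp] theorem TTHom_apply [NeZero p] {ζ : Kˣ} (hζ : PrimU p ζ) (M : ℕ) (f : LaurentSeries K) :
    TTHom hζ M f = (TT p ζ)^[M] f := rfl

/-- **The ambient structure on Laurent series** -/
def ambSer [NeZero p] [IsAlgClosed K] [CharZero K] [CharP k p] (hπ : ∀ a : A, π a = 0 ↔ ¬ IsUnit a)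
    (hr : FFM.RankOne A) (hp : p.Prime) (perf : ∀ a : k, ∃ b, b ^ p = a) (w : K) (wA : w ∈ A)
    (w_red : ∀ h : w ∈ A, π ⟨w, h⟩ = 0) (w_pow : w ^ (p - 1) = -(p : K)) (ζ : Kˣ)
    (hζ : PrimU p ζ) (Mit : ℕ) (hM : 0 < Mit) : Amb (gaussPre hπ) p w where
  hp := hp
  perf := perf
  wA := wA
  w_ne := by
    rintro rfl
    have h2 := hp.two_le
    rw [zero_pow (by omega)] at w_pow
    exact hp.ne_zero (by exact_mod_cast neg_eq_zero.1 w_pow.symm)
  w_red := w_red
  w_pow := w_pow
  inv := fun f z h hz => isRed_gaussPre.2 ((isRed_gaussPre.1 h).inv hz)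
  Q := fracField A
  alg_mem := fun c => isFrac_cst A c
  closed := fun f hf n hn c hc h => by
    choose! cb hcb using hc
    exact gRed_of_monic hr hf hn c cb hcb h
  B := psRing A
  B_O := by
    rintro f ⟨x, rfl⟩
    exact ⟨_, gRed_psHom x⟩
  B_Q := by
    rintro f ⟨x, rfl⟩
    exact isFrac_iota A _
  B_alg := fun a => ⟨PowerSeries.C a, psHom_C a⟩
  B_closed := fun f hf n _ c hc h => psRing_closed hr hf c hc h
  hensel := by
    rintro y ⟨Y, rfl⟩ r ⟨X, rfl⟩ hy
    have h1 : rhoA π (HahnSeries.ofPowerSeries ℤ A Y) = 1 :=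
      (gRed_psHom Y).unique (isRed_gaussPre.1 hy)
    have h2 : π (PowerSeries.constantCoeff Y) ≠ 0 := by
      have h3 := congrArg (fun x : LaurentSeries k => x.coeff 0) h1
      simp only [coeffMap_coeff, HahnSeries.coeff_one, if_true] at h3
      have h4 : (HahnSeries.ofPowerSeries ℤ A Y).coeff 0 = PowerSeries.constantCoeff Y := by
        have := HahnSeries.ofPowerSeries_apply_coeff (Γ := ℤ) Y 0
        rw [Nat.cast_zero] at this
        rw [this, PowerSeries.coeff_zero_eq_constantCoeff]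
      rw [h4] at h3
      rw [h3]
      exact one_ne_zero
    obtain ⟨s, hs⟩ := exists_hensel hπ hp (w_red wA) Y X h2
    refine ⟨psHom A s, ⟨s, rfl⟩, ?_⟩
    rw [← map_pow, hs, map_add, map_lin, psHom_C]
  T := TTHom hζ Mit
  T_Q := fun f hf => by
    haveI : Fact p.Prime := ⟨hp⟩
    exact IsFrac.TT_iterate hζ hf Mit
  contr := fun c hc u ub hu => by
    haveI : Fact p.Prime := ⟨hp⟩
    obtain ⟨u', h1, h2⟩ := TT_contract_iterate hζ hc (isRed_gaussPre.1 hu) Mit
    obtain ⟨z, hz⟩ := exists_pow_eq_qExpand_iterate perf ub hM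
    exact ⟨u', z, h1, isRed_gaussPre.2 (hz ▸ h2)⟩

@[simp] theorem ambSer_T [NeZero p] [IsAlgClosed K] [CharZero K] [CharP k p]
    {hπ : ∀ a : A, π a = 0 ↔ ¬ IsUnit a} {hr : FFM.RankOne A} {hp : p.Prime}
    {perf : ∀ a : k, ∃ b, b ^ p = a} {w : K} {wA : w ∈ A}
    {w_red : ∀ h : w ∈ A, π ⟨w, h⟩ = 0} {w_pow : w ^ (p - 1) = -(p : K)} {ζ : Kˣ}
    {hζ : PrimU p ζ} {Mit : ℕ} {hM : 0 < Mit} (f : LaurentSeries K) :
    (ambSer hπ hr hp perf w wA w_red w_pow ζ hζ Mit hM).T f = (TT p ζ)^[Mit] f := rfl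

theorem mem_ambSer_Q [NeZero p] [IsAlgClosed K] [CharZero K] [CharP k p]
    {hπ : ∀ a : A, π a = 0 ↔ ¬ IsUnit a} {hr : FFM.RankOne A} {hp : p.Prime}
    {perf : ∀ a : k, ∃ b, b ^ p = a} {w : K} {wA : w ∈ A}
    {w_red : ∀ h : w ∈ A, π ⟨w, h⟩ = 0} {w_pow : w ^ (p - 1) = -(p : K)} {ζ : Kˣ}
    {hζ : PrimU p ζ} {Mit : ℕ} {hM : 0 < Mit} {f : LaurentSeries K} :
    f ∈ (ambSer hπ hr hp perf w wA w_red w_pow ζ hζ Mit hM).Q ↔ IsFrac A f := Iff.rfl

theorem mem_ambSer_B [NeZero p] [IsAlgClosed K] [CharZero K] [CharP k p]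
    {hπ : ∀ a : A, π a = 0 ↔ ¬ IsUnit a} {hr : FFM.RankOne A} {hp : p.Prime}
    {perf : ∀ a : k, ∃ b, b ^ p = a} {w : K} {wA : w ∈ A}
    {w_red : ∀ h : w ∈ A, π ⟨w, h⟩ = 0} {w_pow : w ^ (p - 1) = -(p : K)} {ζ : Kˣ}
    {hζ : PrimU p ζ} {Mit : ℕ} {hM : 0 < Mit} {f : LaurentSeries K} :
    f ∈ (ambSer hπ hr hp perf w wA w_red w_pow ζ hζ Mit hM).B ↔
      ∃ x : PowerSeries A, psHom A x = f := Iff.rfl

end Fermat.Agent.Ord
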