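import Fermat.Agent.Ord.Lvl
import Fermat.Agent.Ord.SerAmb
import Fermat.Agent.Red.GenusEq

/-!
# The base level of the tower
-/

set_option autoImplicit false
set_option linter.unusedSectionVars false
set_option linter.style.haveILetI false

noncomputable section

open Finset ModularCurve Fermat.Agent.ModFn Fermat.Agent.Red IntermediateField

namespace Fermat.Agent.Ord

/-! ### orders -/

section Order

variable {k : Type*} [Field k]

theorem order_jqModC_inv : ((jqModC k)⁻¹).order = 1 := by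
  have h0 := jqModC_ne_zero_of_nontrivial k
  have h1 := HahnSeries.order_mul h0 (inv_ne_zero h0)
  rw [mul_inv_cancel₀ h0, HahnSeries.order_one, ModFn.order_jqModC] at h1
  omega

theorem indep_pow {t : LaurentSeries k} (ht : t.order = 1) {p : ℕ} (hp : 0 < p)
    (e : ℕ → LaurentSeries k) (h : ∑ i ∈ range p, e i ^ p * t ^ i = 0) :
    ∀ i < p, e i = 0 := by
  classical
  by_contra hcon
  push Not at hcon
  obtain ⟨i, hi, hei⟩ := hcon
  have ht0 : t ≠ 0 := by
    rintro rfl
    rw [HahnSeries.order_zero] at ht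
    exact absurd ht (by norm_num)
  obtain ⟨i₀, hi₀, hmin⟩ := Finset.exists_min_image ((range p).filter fun i => e i ≠ 0)
    (fun i => (e i ^ p * t ^ i).order) ⟨i, by simp [hi, hei]⟩
  rw [Finset.mem_filter, Finset.mem_range] at hi₀
  have hord : ∀ i, e i ≠ 0 → (e i ^ p * t ^ i).order = p * (e i).order + i := by
    intro i hi
    rw [HahnSeries.order_mul (pow_ne_zero _ hi) (pow_ne_zero _ ht0), HahnSeries.order_pow,
      HahnSeries.order_pow, ht]
    simp
  have hne : e i₀ ^ p * t ^ i₀ ≠ 0 := mul_ne_zero (pow_ne_zero _ hi₀.2) (pow_ne_zero _ ht0)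
  have h1 := congrArg (fun x : LaurentSeries k => x.coeff (e i₀ ^ p * t ^ i₀).order) h
  simp only [HahnSeries.coeff_sum, HahnSeries.coeff_zero] at h1
  rw [Finset.sum_eq_single i₀] at h1
  · exact hne (HahnSeries.coeff_order_eq_zero.1 h1)
  · intro j hj hji
    rw [Finset.mem_range] at hj
    by_cases hej : e j = 0
    · rw [hej, zero_pow hp.ne', zero_mul, HahnSeries.coeff_zero]
    · apply HahnSeries.coeff_eq_zero_of_lt_order
      have h2 := hmin j (by rw [Finset.mem_filter, Finset.mem_range]; exact ⟨hj, hej⟩)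
      rw [hord _ hi₀.2, hord _ hej] at h2 ⊢
      refine lt_of_le_of_ne h2 fun h3 => hji ?_
      have h4 : ((j : ℤ) - i₀) = p * ((e i₀).order - (e j).order) := by
        have := h3
        linarith
      have h5 : (p : ℤ) ∣ (j : ℤ) - i₀ := ⟨_, h4⟩
      have h6 : |(j : ℤ) - i₀| < p := by
        rw [abs_lt]
        constructor <;> [have := hi₀.1; have := hi₀.1] <;> omega
      have h7 := Int.eq_zero_of_abs_lt_dvd h5 h6
      omega
  · intro h2
    exact absurd (Finset.mem_range.2 hi₀.1) h2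

end Order

/-! ### `1 / j` as a power series -/

section JInv

theorem jNum_mul_inv : jNum * PowerSeries.invOfUnit jNum 1 = 1 :=
  PowerSeries.mul_invOfUnit _ _ (by rw [constantCoeff_jNum]; rfl)

/-- the power series `1 / j` -/
def jInvPS (R : Type*) [CommRing R] : PowerSeries R :=
  PowerSeries.X * (PowerSeries.invOfUnit jNum 1).map (Int.castRingHom R)

theorem jqModC_mul_jInvPS (R : Type*) [CommRing R] :
    jqModC R * HahnSeries.ofPowerSeries ℤ R (jInvPS R) = 1 := by
  rw [jqModC, jInvPS, map_mul, HahnSeries.ofPowerSeries_X]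
  have h1 : HahnSeries.ofPowerSeries ℤ R (jNum.map (Int.castRingHom R)) *
      HahnSeries.ofPowerSeries ℤ R ((PowerSeries.invOfUnit jNum 1).map (Int.castRingHom R)) =
        1 := by
    rw [← map_mul, ← map_mul, jNum_mul_inv, map_one, map_one]
  calc HahnSeries.single (-1 : ℤ) 1 * HahnSeries.ofPowerSeries ℤ R
        (jNum.map (Int.castRingHom R)) * (HahnSeries.single 1 1 *
          HahnSeries.ofPowerSeries ℤ R ((PowerSeries.invOfUnit jNum 1).map (Int.castRingHom R)))
      = (HahnSeries.single (-1 : ℤ) 1 * HahnSeries.single 1 1) *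
        (HahnSeries.ofPowerSeries ℤ R (jNum.map (Int.castRingHom R)) *
          HahnSeries.ofPowerSeries ℤ R
            ((PowerSeries.invOfUnit jNum 1).map (Int.castRingHom R))) := by ring
    _ = 1 := by
      rw [h1, mul_one, HahnSeries.single_mul_single]
      norm_num

theorem jqModC_inv_mem_psRing {K : Type*} [Field K] (A : ValuationSubring K) :
    (jqModC K)⁻¹ ∈ psRing A := by
  refine ⟨jInvPS A, ?_⟩
  have h1 : jqModC K * psHom A (jInvPS A) = 1 := by
    have h2 := congrArg (iotaA A) (jqModC_mul_jInvPS A)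
    rw [map_mul, map_one, iotaA, ModFn.coeffMap_jqModC] at h2
    exact h2
  exact eq_inv_of_mul_eq_one_right h1

end JInv

/-! ### `p`-bases -/

section PBasis

variable {k : Type*} [Field k] {Λ : Type*} [Field Λ] [Algebra k Λ] {p : ℕ}

/-- elements of the form `∑ e_i ^ p t ^ i` -/
def PB (κ : IntermediateField k Λ) (t : Λ) (p : ℕ) (z : Λ) : Prop :=
  ∃ e : ℕ → Λ, (∀ i, e i ∈ κ) ∧ z = ∑ i ∈ range p, e i ^ p * t ^ i

variable {κ : IntermediateField k Λ} {t : Λ} [hp : Fact p.Prime] [CharP Λ p]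

theorem PB.add {z z' : Λ} (h : PB κ t p z) (h' : PB κ t p z') : PB κ t p (z + z') := by
  obtain ⟨e, he, rfl⟩ := h
  obtain ⟨e', he', rfl⟩ := h'
  refine ⟨fun i => e i + e' i, fun i => κ.add_mem (he i) (he' i), ?_⟩
  rw [← Finset.sum_add_distrib]
  refine Finset.sum_congr rfl fun i _ => ?_
  rw [add_pow_char, add_mul]

theorem PB.pow_mul {z c : Λ} (h : PB κ t p z) (hc : c ∈ κ) : PB κ t p (c ^ p * z) := by
  obtain ⟨e, he, rfl⟩ := h
  refine ⟨fun i => c * e i, fun i => κ.mul_mem hc (he i), ?_⟩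
  rw [Finset.mul_sum]
  refine Finset.sum_congr rfl fun i _ => ?_
  rw [mul_pow]
  ring

theorem PB.t_mul {z : Λ} (ht : t ∈ κ) (h : PB κ t p z) : PB κ t p (t * z) := by
  obtain ⟨e, he, rfl⟩ := h
  obtain ⟨m, hm⟩ : ∃ m, p = m + 1 := ⟨p - 1, by have := hp.out.pos; omega⟩
  refine ⟨fun i => if i = 0 then e m * t else e (i - 1), fun i => ?_, ?_⟩
  · by_cases hi : i = 0
    · simp only [hi, if_true]
      exact κ.mul_mem (he m) ht
    · simp only [hi, if_false]
      exact he _
  · have h1 : range p = range (m + 1) := by rw [hm]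
    rw [h1, Finset.sum_range_succ, Finset.sum_range_succ']
    simp only [Nat.succ_ne_zero, if_false, if_true, Nat.add_sub_cancel, pow_zero, mul_one]
    rw [mul_add, Finset.mul_sum]
    have h2 : t * (e m ^ p * t ^ m) = (e m * t) ^ p := by
      have h3 : t ^ p = t * t ^ m := by
        conv_lhs => rw [hm]
        rw [pow_succ']
      rw [mul_pow, h3]
      ring
    rw [h2]
    congr 1
    refine Finset.sum_congr rfl fun i _ => ?_
    rw [pow_succ]
    ring

theorem PB.of_pow {c : Λ} (hc : c ∈ κ) : PB κ t p (c ^ p) := by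
  refine ⟨fun i => if i = 0 then c else 0, fun i => ?_, ?_⟩
  · by_cases hi : i = 0
    · simp only [hi, if_true]; exact hc
    · simp only [hi, if_false]; exact κ.zero_mem
  · rw [Finset.sum_eq_single 0]
    · simp
    · intro i _ hi
      simp [hi, hp.out.ne_zero]
    · intro h
      exact absurd (Finset.mem_range.2 hp.out.pos) h

theorem PB.mul {z z' : Λ} (ht : t ∈ κ) (h : PB κ t p z) (h' : PB κ t p z') :
    PB κ t p (z * z') := by
  obtain ⟨e, he, rfl⟩ := h
  rw [Finset.sum_mul]
  have key : ∀ s : Finset ℕ, PB κ t p (∑ i ∈ s, e i ^ p * t ^ i * z') := by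
    intro s
    classical
    induction s using Finset.induction_on with
    | empty =>
      rw [Finset.sum_empty]
      have := PB.of_pow (t := t) (p := p) κ.zero_mem
      rwa [zero_pow hp.out.ne_zero] at this
    | insert i s hi ih =>
      rw [Finset.sum_insert hi]
      refine PB.add ?_ ih
      rw [mul_assoc]
      refine PB.pow_mul ?_ (he i)
      clear hi ih
      induction i with
      | zero => rw [pow_zero, one_mul]; exact h'
      | succ i ih => rw [pow_succ', mul_assoc]; exact PB.t_mul ht ih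
  exact key _

/-- the elements `∑ e_i ^ p t ^ i` form a subfield -/
def pbField (κ : IntermediateField k Λ) (p : ℕ) [hp : Fact p.Prime] [CharP Λ p] {t : Λ}
    (ht : t ∈ κ) (hk : ∀ a : k, ∃ b : k, b ^ p = a) : IntermediateField k Λ where
  carrier := {z | PB κ t p z}
  mul_mem' h h' := PB.mul ht h h'
  add_mem' h h' := PB.add h h'
  algebraMap_mem' a := by
    obtain ⟨b, rfl⟩ := hk a
    rw [map_pow]
    exact PB.of_pow (κ.algebraMap_mem b)
  inv_mem' := by
    intro z hz
    by_cases h0 : z = 0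
    · rw [h0, inv_zero]
      have := PB.of_pow (t := t) (p := p) κ.zero_mem
      rwa [zero_pow hp.out.ne_zero] at this
    have hzκ : z ∈ κ := by
      obtain ⟨e, he, rfl⟩ := hz
      exact sum_mem fun i _ => κ.mul_mem (pow_mem (he i) _) (pow_mem ht _)
    have h1 : z⁻¹ = (z⁻¹) ^ p * z ^ (p - 1) := by
      obtain ⟨m, hm⟩ : ∃ m, p = m + 1 := ⟨p - 1, by have := hp.out.pos; omega⟩
      have h2 : p - 1 = m := by omega
      rw [h2]
      conv_rhs => rw [hm]
      rw [pow_succ, mul_right_comm, ← mul_pow, inv_mul_cancel₀ h0, one_pow, one_mul]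
    have h3 : PB κ t p (z ^ (p - 1)) := by
      induction p - 1 with
      | zero =>
        rw [pow_zero]
        have := PB.of_pow (t := t) (p := p) κ.one_mem
        rwa [one_pow] at this
      | succ n ih => rw [pow_succ]; exact PB.mul ht ih hz
    rw [h1]
    exact PB.pow_mul h3 (κ.inv_mem hzκ)

theorem mem_pbField {ht : t ∈ κ} {hk : ∀ a : k, ∃ b : k, b ^ p = a} {z : Λ} :
    z ∈ pbField κ p ht hk ↔ PB κ t p z := Iff.rfl

/-- a separating coordinate is a `p`-basis -/
theorem pbasis_of_separable (ht : t ∈ κ) (hk : ∀ a : k, ∃ b : k, b ^ p = a)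
    [Algebra.IsSeparable k⟮(⟨t, ht⟩ : κ)⟯ κ] {z : Λ} (hz : z ∈ κ) : PB κ t p z := by
  haveI : CharP κ p := by
    have h1 : Function.Injective (algebraMap κ Λ) := (algebraMap κ Λ).injective
    exact (RingHom.charP_iff (algebraMap κ Λ) h1 p).2 inferInstance
  haveI : ExpChar κ p := ExpChar.prime hp.out
  haveI : CharP k⟮(⟨t, ht⟩ : κ)⟯ p :=
    (RingHom.charP_iff (algebraMap k⟮(⟨t, ht⟩ : κ)⟯ κ)
      (algebraMap k⟮(⟨t, ht⟩ : κ)⟯ κ).injective p).2 inferInstance
  haveI : ExpChar k⟮(⟨t, ht⟩ : κ)⟯ p := ExpChar.prime hp.out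
  have h1 := IntermediateField.adjoin_simple_eq_adjoin_pow_expChar_of_isSeparable'
    k⟮(⟨t, ht⟩ : κ)⟯ κ (⟨z, hz⟩ : κ) p
  have h2 : (⟨z, hz⟩ : κ) ∈ k⟮(⟨t, ht⟩ : κ)⟯⟮(⟨z, hz⟩ : κ) ^ p⟯ := by
    rw [← h1]
    exact IntermediateField.mem_adjoin_simple_self _ _
  -- the subfield of `κ`
  have h3 : ∀ y ∈ k⟮(⟨t, ht⟩ : κ)⟯, PB κ t p (y : Λ) := by
    intro y hy
    have h4 : k⟮(⟨t, ht⟩ : κ)⟯ ≤ (pbField κ p ht hk).comap κ.val := by
      rw [IntermediateField.adjoin_simple_le_iff]
      change PB κ t p t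
      have := PB.t_mul ht (PB.of_pow (t := t) (p := p) κ.one_mem)
      rwa [one_pow, mul_one] at this
    exact h4 hy
  have h5 : ∀ y ∈ k⟮(⟨t, ht⟩ : κ)⟯⟮(⟨z, hz⟩ : κ) ^ p⟯, PB κ t p (y : Λ) := by
    intro y hy
    induction hy using IntermediateField.adjoin_induction with
    | mem y hy =>
      rw [Set.mem_singleton_iff] at hy
      rw [hy]
      exact PB.of_pow hz
    | algebraMap y => exact h3 _ y.2
    | add y y' _ _ h h' => exact PB.add h h'
    | inv y _ h => exact (pbField κ p ht hk).inv_mem h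
    | mul y y' _ _ h h' => exact PB.mul ht h h'
  exact h5 _ h2

end PBasis

/-! ### the base level -/

section Base

local notation "Qb" => AlgebraicClosure ℚ

variable {N : ℕ} [NeZero N] {p : ℕ} [hpF : Fact p.Prime]
  {A : ValuationSubring (AlgebraicClosure ℚ)} {k : Type*} [Field k] {π : A →+* k}

theorem subRed_base (hA : A.LiesOverPrime p) (hπ : ∀ a : A, π a = 0 ↔ ¬ IsUnit a)
    (hs : Function.Surjective π) (hN : ¬ p ∣ N) :
    SubRed (gaussPre hπ) (modularFunctionFieldBar N) (modularFunctionFieldFullC k N) where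
  red_mem := fun f hf z hz => by
    rw [← gaussRes_bar N hA hπ hs hN]
    exact ⟨f, hf, isRed_gaussPre.1 hz⟩
  lift := fun z hz => by
    obtain ⟨f, hf, h⟩ := fullC_le_gaussRes π hs N hz
    exact ⟨f, hf, isRed_gaussPre.2 h⟩
  scale := fun f hf hf0 => by
    obtain ⟨c, z, hc, hz, h⟩ :=
      (gaussField_laurentBaseChange π hpF.out hA N).exists_scale hf hf0
    exact ⟨c, hc, z, hz, isRed_gaussPre.2 h⟩

theorem isFrac_bar (hA : A.LiesOverPrime p) (π : A →+* k) {f : LaurentSeries Qb}
    (hf : f ∈ modularFunctionFieldBar N) : IsFrac A f := by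
  by_cases hf0 : f = 0
  · rw [hf0]; exact isFrac_zero A
  obtain ⟨c, z, hc, hz, h⟩ :=
    (gaussField_laurentBaseChange π hpF.out hA N).exists_scale hf hf0
  have h1 := (isFrac_cst A c⁻¹).mul (isFrac_of_gRed h)
  rwa [← mul_assoc, ← map_mul, inv_mul_cancel₀ hc, map_one, one_mul] at h1

theorem perf_of_isAlgClosed [IsAlgClosed k] (hp : 0 < p) : ∀ a : k, ∃ b, b ^ p = a :=
  fun a => IsAlgClosed.exists_pow_nat_eq a hp

/-- the dimension estimate in the chart of a coordinate -/
theorem dim_of_chart {K F Fk : Type*} [Field K] [Field F] [Algebra K F] [Field Fk] [Algebra k Fk]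
    {A : ValuationSubring K} {π : A →+* k} {R : ConstRed A π F Fk} {x : F} {xb : Fk}
    [IsAlgClosed K] [CharZero K] [IsAlgClosed k] [FF.IsFnField K F] [FF.IsFnField k Fk]
    (hc : GoodRed.IsCoord R x xb) (hC : Chart R x xb) (hC' : Chart R x⁻¹ xb⁻¹)
    (hπ : Function.Surjective π) :
    ∃ b0, ∀ b ≥ b0, Module.finrank k (GoodRed.Lm k xb b) ≤ Module.finrank K (GoodRed.Lm K x b) := by
  obtain ⟨m0, h0⟩ := exists_redSpace_Lm hc hC.lift hC'.lift hπ
  haveI := hc.finite
  obtain ⟨ι, _, ⟨B⟩⟩ := GoodRed.exists_redBasis (K := K) hc.transK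
  refine ⟨m0, fun b hb => ?_⟩
  have := B.finiteDimensional_Lm b
  haveI := hc.finite'
  obtain ⟨ι', _, ⟨B'⟩⟩ := GoodRed.exists_redBasis (K := k) hc.trans
  have := B'.finiteDimensional_Lm b
  exact finrank_le_of_lift _ _ fun z hz => h0 b hb hz

theorem finrank_pos_of_isCoord {K F Fk : Type*} [Field K] [Field F] [Algebra K F] [Field Fk]
    [Algebra k Fk] {A : ValuationSubring K} {π : A →+* k} {R : ConstRed A π F Fk} {x : F} {xb : Fk}
    (hc : GoodRed.IsCoord R x xb) : 0 < Module.finrank K⟮x⟯ F := by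
  haveI := hc.finite
  exact Module.finrank_pos

/-- **The base level.** -/
theorem baseLvl [IsAlgClosed k] [CharP k p] (hA : A.LiesOverPrime p)
    (hπ : ∀ a : A, π a = 0 ↔ ¬ IsUnit a) (hs : Function.Surjective π) (hN : ¬ p ∣ N) {w : Qb}
    (M : Amb (gaussPre hπ) p w) (hQ : ∀ f, IsFrac A f → f ∈ M.Q)
    (hB : ∀ f, f ∈ psRing A → f ∈ M.B) :
    Lvl M (jqModC Qb)⁻¹ (jqModC k)⁻¹ (jqModC k)⁻¹ (modularFunctionFieldBar N)
      (modularFunctionFieldFullC k N) := by
  haveI := isFnField_bar N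
  haveI := isFnField_fullC (k := k) N p hN
  have hc := (isCoord_jB hA hπ hs hN).inv
  have hsr := subRed_base hA hπ hs hN
  have hxb : (((RedQ.xj k N)⁻¹ : modularFunctionFieldFullC k N) : LaurentSeries k) =
    (jqModC k)⁻¹ := rfl
  haveI hcP : CharP (LaurentSeries k) p :=
    charP_of_injective_algebraMap (algebraMap k (LaurentSeries k)).injective p
  haveI hsep := RedQ.isSeparable_charP N k p hN
  have hmem : (jqModC k)⁻¹ ∈ modularFunctionFieldFullC k N :=
    (modularFunctionFieldFullC k N).inv_mem (RedQ.xj k N).2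
  refine
    { toSubRed := hsr
      x_mem := (modularFunctionFieldBar N).inv_mem (jqModC_mem_bar N)
      xb_mem := hmem
      x_B := hB _ (jqModC_inv_mem_psRing A)
      isRed_x := isRed_gaussPre.2 ((gRed_jq π).inv (jqModC_ne_zero_of_nontrivial k))
      trans := ?_
      E_Q := fun f hf => hQ f (isFrac_bar hA π hf)
      fin := ?_
      fin_eq := ?_
      pbasis := fun z hz => ?_
      dim := ?_ }
  · intro h
    exact hc.trans ((isAlgebraic_algebraMap_iff
      (algebraMap (modularFunctionFieldFullC k N) (LaurentSeries k)).injective).1 h)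
  · have h1 := finrank_adjoin_sub (modularFunctionFieldBar N) (jB N)⁻¹
    have h2 : ((jB N)⁻¹ : modularFunctionFieldBar N) = ((jqModC Qb)⁻¹ : LaurentSeries Qb) := rfl
    rw [h2] at h1
    rw [← h1]
    exact finrank_pos_of_isCoord hc
  · have h1 := finrank_adjoin_sub (modularFunctionFieldBar N) (jB N)⁻¹
    have h2 : ((jB N)⁻¹ : modularFunctionFieldBar N) = ((jqModC Qb)⁻¹ : LaurentSeries Qb) := rfl
    rw [h2] at h1
    have h3 := finrank_adjoin_sub (modularFunctionFieldFullC k N) (RedQ.xj k N)⁻¹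
    rw [hxb] at h3
    rw [← h1, ← h3]
    exact hc.finrank_eq
  · haveI : Algebra.IsSeparable k⟮(⟨(jqModC k)⁻¹, hmem⟩ : modularFunctionFieldFullC k N)⟯
        (modularFunctionFieldFullC k N) := by
      have h1 : (⟨(jqModC k)⁻¹, hmem⟩ : modularFunctionFieldFullC k N) = (RedQ.xj k N)⁻¹ := rfl
      rw [h1, RR.adjoin_simple_inv' (K := k) (RedQ.xj k N)]
      exact hsep
    exact pbasis_of_separable hmem (perf_of_isAlgClosed hpF.out.pos) hz
  · obtain ⟨b0, h0⟩ := dim_of_chart hc (chart_jB_inv hA hπ hs hN) (by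
      rw [inv_inv, inv_inv]
      exact chart_jB hA hπ hs hN) hs
    refine ⟨b0, fun b hb => ?_⟩
    have h1 := finrank_U (modularFunctionFieldBar N) (jB N)⁻¹ b
    have h2 := finrank_U (modularFunctionFieldFullC k N) (RedQ.xj k N)⁻¹ b
    have h3 : ((jB N)⁻¹ : modularFunctionFieldBar N) = ((jqModC Qb)⁻¹ : LaurentSeries Qb) := rfl
    rw [h3] at h1
    rw [hxb] at h2
    rw [h1, h2]
    exact h0 b hb

end Base

end Fermat.Agent.Ord
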