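import Mathlib.Algebra.Algebra.Operations
import Mathlib.LinearAlgebra.Finsupp.LinearCombination
import Mathlib.Algebra.BigOperators.Intervals

/-!
# Extension of filtrations to simple extensions
-/

set_option autoImplicit false
set_option linter.unusedSectionVars false
set_option linter.style.haveILetI false

open Finset

namespace Fermat.Agent.Ord

variable {L Ω : Type*} [Field L] [Field Ω] [Algebra L Ω]

/-- multiplicative filtrations by subspaces -/
structure Fil (W : ℕ → Submodule L Ω) : Prop where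
  mono : Monotone W
  mul : ∀ {a b : ℕ} {f g : Ω}, f ∈ W a → g ∈ W b → f * g ∈ W (a + b)
  one : (1 : Ω) ∈ W 0

namespace Fil

variable {W : ℕ → Submodule L Ω}

theorem pow (hW : Fil W) {a : ℕ} {f : Ω} (hf : f ∈ W a) (n : ℕ) : f ^ n ∈ W (n * a) := by
  induction n with
  | zero => rw [pow_zero, Nat.zero_mul]; exact hW.one
  | succ n ih =>
    rw [pow_succ, Nat.succ_mul]
    exact hW.mul ih hf

theorem const (hW : Fil W) (c : L) (a : ℕ) : algebraMap L Ω c ∈ W a := by
  rw [Algebra.algebraMap_eq_smul_one]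
  exact (W a).smul_mem _ (hW.mono (Nat.zero_le a) hW.one)

theorem natCast (hW : Fil W) (n a : ℕ) : (n : Ω) ∈ W a := by
  have := hW.const (n : L) a
  rwa [map_natCast] at this

theorem pow_le (hW : Fil W) (a n : ℕ) : W a ^ n ≤ W (n * a) := by
  induction n with
  | zero =>
    rw [Submodule.pow_zero, Nat.zero_mul, Submodule.one_le]
    exact hW.one
  | succ n ih =>
    rw [Submodule.pow_succ, Nat.succ_mul, Submodule.mul_le]
    intro f hf g hg
    exact hW.mul (ih hf) hg

end Fil

/-- the `i`-th coefficient space -/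
def Wt (W : ℕ → Submodule L Ω) (a b i : ℕ) : Submodule L Ω := if i * a ≤ b then W (b - i * a) else ⊥

variable {W : ℕ → Submodule L Ω} {a p : ℕ} {s : Ω}

theorem Wt_of_le {b i : ℕ} (h : i * a ≤ b) : Wt W a b i = W (b - i * a) := if_pos h

theorem Wt_zero (b : ℕ) : Wt W a b 0 = W b := by
  rw [Wt_of_le (by rw [Nat.zero_mul]; exact Nat.zero_le _), Nat.zero_mul, Nat.sub_zero]

theorem Wt_mono (hW : Fil W) {b b' : ℕ} (h : b ≤ b') (i : ℕ) : Wt W a b i ≤ Wt W a b' i := by
  by_cases h1 : i * a ≤ b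
  · rw [Wt_of_le h1, Wt_of_le (h1.trans h)]
    exact hW.mono (by omega)
  · rw [Wt, if_neg h1]
    exact bot_le

theorem Wt_mul (hW : Fil W) {b c i : ℕ} {f g : Ω} (hf : f ∈ Wt W a b i) (hg : g ∈ W c) :
    f * g ∈ Wt W a (b + c) i := by
  by_cases h1 : i * a ≤ b
  · rw [Wt_of_le h1] at hf
    rw [Wt_of_le (by omega)]
    have := hW.mul hf hg
    rwa [show b - i * a + c = b + c - i * a by omega] at this
  · rw [Wt, if_neg h1, Submodule.mem_bot] at hf
    rw [hf, zero_mul]
    exact Submodule.zero_mem _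

theorem Wt_succ {b i : ℕ} {f : Ω} (hf : f ∈ Wt W a b i) : f ∈ Wt W a (b + a) (i + 1) := by
  by_cases h1 : i * a ≤ b
  · rw [Wt_of_le h1] at hf
    have h2 : (i + 1) * a ≤ b + a := by rw [Nat.succ_mul]; omega
    rw [Wt_of_le h2]
    have h3 : b + a - (i + 1) * a = b - i * a := by rw [Nat.succ_mul]; omega
    rwa [h3]
  · rw [Wt, if_neg h1, Submodule.mem_bot] at hf
    rw [hf]
    exact Submodule.zero_mem _

/-- the extended filtration -/
def extW (W : ℕ → Submodule L Ω) (p a : ℕ) (s : Ω) (b : ℕ) : Submodule L Ω where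
  carrier := {f | ∃ c : ℕ → Ω, (∀ i < p, c i ∈ Wt W a b i) ∧ f = ∑ i ∈ range p, c i * s ^ i}
  zero_mem' := ⟨0, fun _ _ => Submodule.zero_mem _, by simp⟩
  add_mem' := by
    rintro f g ⟨c, hc, rfl⟩ ⟨d, hd, rfl⟩
    refine ⟨c + d, fun i hi => Submodule.add_mem _ (hc i hi) (hd i hi), ?_⟩
    rw [← sum_add_distrib]
    exact sum_congr rfl fun i _ => by rw [Pi.add_apply, add_mul]
  smul_mem' := by
    rintro r f ⟨c, hc, rfl⟩
    refine ⟨r • c, fun i hi => Submodule.smul_mem _ _ (hc i hi), ?_⟩
    rw [smul_sum]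
    exact sum_congr rfl fun i _ => by rw [Pi.smul_apply, smul_mul_assoc]

theorem mem_extW {b : ℕ} {f : Ω} : f ∈ extW W p a s b ↔
    ∃ c : ℕ → Ω, (∀ i < p, c i ∈ Wt W a b i) ∧ f = ∑ i ∈ range p, c i * s ^ i := Iff.rfl

theorem le_extW (hp : 0 < p) (b : ℕ) : W b ≤ extW W p a s b := by
  intro f hf
  refine ⟨fun i => if i = 0 then f else 0, fun i _ => ?_, ?_⟩
  · by_cases h : i = 0
    · subst h
      simp only [if_true]
      rw [Wt_zero]
      exact hf
    · simp only [h, if_false]
      exact Submodule.zero_mem _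
  · rw [sum_eq_single 0]
    · simp
    · intro i _ hi; simp [hi]
    · intro h; exact absurd (mem_range.2 hp) h

theorem extW_mono (hW : Fil W) : Monotone (extW W p a s) := by
  rintro b b' h f ⟨c, hc, rfl⟩
  exact ⟨c, fun i hi => Wt_mono hW h i (hc i hi), rfl⟩

/-- multiplication by `s` -/
theorem extW_shift (hW : Fil W) (hp : 0 < p) {q : ℕ → Ω} (hq : ∀ i < p, q i ∈ W ((p - i) * a))
    (hs : s ^ p = ∑ i ∈ range p, q i * s ^ i) {b : ℕ} {f : Ω} (hf : f ∈ extW W p a s b) :
    s * f ∈ extW W p a s (b + a) := by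
  obtain ⟨c, hc, rfl⟩ := hf
  obtain ⟨m, rfl⟩ : ∃ m, p = m + 1 := ⟨p - 1, by omega⟩
  refine ⟨fun i => (if i = 0 then 0 else c (i - 1)) + c m * q i, fun i hi => ?_, ?_⟩
  · refine Submodule.add_mem _ ?_ ?_
    · rcases i with _ | i
      · simp only [if_true]
        exact Submodule.zero_mem _
      · simp only [Nat.succ_ne_zero, if_false, Nat.add_sub_cancel]
        exact Wt_succ (hc i (by omega))
    · by_cases h1 : m * a ≤ b
      · have h2 := hc m (by omega)
        rw [Wt_of_le h1] at h2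
        have h3 := hW.mul h2 (hq i hi)
        have h4 : m * a + a = i * a + (m + 1 - i) * a := by
          rw [← Nat.succ_mul, ← Nat.add_mul]
          congr 1
          omega
        rw [Wt_of_le (by omega)]
        rwa [show b - m * a + (m + 1 - i) * a = b + a - i * a by omega] at h3
      · have h2 := hc m (by omega)
        rw [Wt, if_neg h1, Submodule.mem_bot] at h2
        rw [h2, zero_mul]
        exact Submodule.zero_mem _
  · simp only [add_mul, sum_add_distrib]
    have e1 : ∑ x ∈ range (m + 1), (if x = 0 then 0 else c (x - 1)) * s ^ x =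
        ∑ x ∈ range m, c x * s ^ (x + 1) := by
      rw [sum_range_succ']
      simp
    have e2 : ∑ x ∈ range (m + 1), c m * q x * s ^ x = c m * s ^ (m + 1) := by
      rw [hs, mul_sum]
      exact sum_congr rfl fun i _ => by ring
    rw [e1, e2, sum_range_succ, mul_add, mul_sum]
    congr 1
    · exact sum_congr rfl fun i _ => by ring
    · ring

theorem extW_shift_pow (hW : Fil W) (hp : 0 < p) {q : ℕ → Ω} (hq : ∀ i < p, q i ∈ W ((p - i) * a))
    (hs : s ^ p = ∑ i ∈ range p, q i * s ^ i) {b : ℕ} {f : Ω} (hf : f ∈ extW W p a s b) (n : ℕ) :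
    s ^ n * f ∈ extW W p a s (b + n * a) := by
  induction n with
  | zero => rw [pow_zero, one_mul, Nat.zero_mul, Nat.add_zero]; exact hf
  | succ n ih =>
    have := extW_shift hW hp hq hs ih
    rwa [← mul_assoc, ← pow_succ', Nat.add_assoc, ← Nat.succ_mul] at this

theorem extW_mul_left (hW : Fil W) {b c : ℕ} {f g : Ω} (hf : f ∈ W c)
    (hg : g ∈ extW W p a s b) : f * g ∈ extW W p a s (c + b) := by
  obtain ⟨d, hd, rfl⟩ := hg
  refine ⟨fun i => d i * f, fun i hi => ?_, ?_⟩
  · rw [Nat.add_comm]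
    exact Wt_mul hW (hd i hi) hf
  · rw [mul_sum]
    exact sum_congr rfl fun i _ => by ring

theorem fil_extW (hW : Fil W) (hp : 0 < p) {q : ℕ → Ω} (hq : ∀ i < p, q i ∈ W ((p - i) * a))
    (hs : s ^ p = ∑ i ∈ range p, q i * s ^ i) : Fil (extW W p a s) where
  mono := extW_mono hW
  one := le_extW hp 0 hW.one
  mul := by
    intro b b' f g hf hg
    obtain ⟨c, hc, rfl⟩ := hf
    rw [sum_mul]
    refine Submodule.sum_mem _ fun i hi => ?_
    have hi' := hc i (mem_range.1 hi)
    by_cases h1 : i * a ≤ b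
    · rw [Wt_of_le h1] at hi'
      have h2 := extW_mul_left hW hi' (extW_shift_pow hW hp hq hs hg i)
      rw [mul_assoc]
      rwa [show b - i * a + (b' + i * a) = b + b' by omega] at h2
    · rw [Wt, if_neg h1, Submodule.mem_bot] at hi'
      rw [hi', zero_mul, zero_mul]
      exact Submodule.zero_mem _

theorem self_mem_extW (hW : Fil W) (hp : 1 < p) : s ∈ extW W p a s a := by
  refine ⟨fun i => if i = 1 then 1 else 0, fun i _ => ?_, ?_⟩
  · by_cases h : i = 1
    · subst h
      simp only [if_true]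
      rw [Wt_of_le (by omega)]
      simpa using hW.one
    · simp only [h, if_false]
      exact Submodule.zero_mem _
  · rw [sum_eq_single 1]
    · simp
    · intro i _ hi; simp [hi]
    · intro h; exact absurd (mem_range.2 hp) h

end Fermat.Agent.Ord
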