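import Fermat.Agent.Top.SupportFinal
import Fermat.Agent.Red.JRed
import Fermat.Agent.QComp.ModGal
import Fermat.Agent.Ord.BaseLvl

/-!
# Kummer functions of torsion classes
-/

set_option autoImplicit false
set_option linter.unusedSectionVars false
set_option linter.style.haveILetI false

noncomputable section

open AlgebraicCurve ModularCurve Fermat.Agent.Top

namespace Fermat.Agent.Ord

section KC

variable {K F : Type*} [Field K] [Field F] [Algebra K F] [IsAlgClosed K] [FF.IsFnField K F]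

/-- `f` is a Kummer function of the class `y`: `div f = m D`, `y = [D]`. -/
def KC (m : ℕ) (f : F) (y : Pic0 K F) : Prop :=
  f ≠ 0 ∧ ∃ D : Divisor.degZero (K := K) (F := F),
    (∀ v : Place K F, (m : ℤ) * (D : Divisor K F) v = v.ord f) ∧ Pic0.mk D = y

variable {m m' : ℕ} {f g : F} {y z : Pic0 K F}

theorem KC.ne_zero (h : KC m f y) : f ≠ 0 := h.1

theorem KC.dvd (h : KC m f y) (v : Place K F) : (m : ℤ) ∣ v.ord f := by
  obtain ⟨-, D, hD, -⟩ := h
  exact ⟨_, (hD v).symm⟩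

theorem KC.exists_units (h : KC m f y) [NeZero m] : ∃ u : kummerSubgroup K F m,
    ((u : Fˣ) : F) = f ∧ kummerToPic K F m (Additive.ofMul u) = y := by
  obtain ⟨h0, D, hD, hy⟩ := h
  refine ⟨⟨Units.mk0 f h0, fun v => ⟨_, (hD v).symm⟩⟩, rfl, ?_⟩
  rw [← hy]
  exact kummerToPic_eq_mk m hD

theorem KC.of_units [NeZero m] (u : kummerSubgroup K F m) :
    KC m ((u : Fˣ) : F) (kummerToPic K F m (Additive.ofMul u)) :=
  ⟨Units.ne_zero _, ⟨rootDiv m ((u : Fˣ) : F), Divisor.mem_degZero.2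
    (degree_rootDiv (NeZero.pos m) u.2)⟩, mul_rootDiv u.2, rfl⟩

theorem KC.exists [NeZero m] (hy : m • y = 0) : ∃ f, KC m f y := by
  obtain ⟨u, hu⟩ := exists_kummerToPic_eq (K := K) (F := F) m (x := y) (by
    rw [Pic0.mem_torsion, natCast_zsmul]
    exact hy)
  have := KC.of_units (K := K) (F := F) u.toMul
  exact ⟨_, hu ▸ this⟩

theorem KC.of_dvd (hm : 0 < m) (hf : f ≠ 0) (h : ∀ v : Place K F, (m : ℤ) ∣ v.ord f) :
    ∃ y : Pic0 K F, KC m f y := by
  haveI : NeZero m := ⟨hm.ne'⟩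
  exact ⟨_, KC.of_units (K := K) (F := F) (⟨Units.mk0 f hf, h⟩ : kummerSubgroup K F m)⟩

theorem KC.unique (hm : 0 < m) (h : KC m f y) (h' : KC m f z) : y = z := by
  obtain ⟨-, D, hD, rfl⟩ := h
  obtain ⟨-, D', hD', rfl⟩ := h'
  have hm' : (m : ℤ) ≠ 0 := by exact_mod_cast hm.ne'
  congr 1
  apply Subtype.ext
  ext v
  exact mul_left_cancel₀ hm' ((hD v).trans (hD' v).symm)

theorem KC.mul (h : KC m f y) (h' : KC m g z) : KC m (f * g) (y + z) := by
  obtain ⟨h0, D, hD, rfl⟩ := h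
  obtain ⟨h0', D', hD', rfl⟩ := h'
  refine ⟨mul_ne_zero h0 h0', D + D', fun v => ?_, rfl⟩
  rw [v.ord_mul h0 h0', ← hD, ← hD', ← mul_add]
  rfl

theorem KC.one : KC m (1 : F) (0 : Pic0 K F) :=
  ⟨one_ne_zero, 0, fun v => by rw [v.ord_one]; exact mul_zero _, rfl⟩

theorem KC.inv (h : KC m f y) : KC m f⁻¹ (-y) := by
  obtain ⟨h0, D, hD, rfl⟩ := h
  refine ⟨inv_ne_zero h0, -D, fun v => ?_, rfl⟩
  rw [v.ord_inv, ← hD, ← mul_neg]
  rfl

theorem KC.pow (h : KC m f y) (j : ℕ) : KC m (f ^ j) (j • y) := by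
  induction j with
  | zero => rw [pow_zero, zero_nsmul]; exact KC.one
  | succ j ih => rw [pow_succ, succ_nsmul]; exact ih.mul h

theorem KC.div (h : KC m f y) (h' : KC m g z) : KC m (f / g) (y - z) := by
  rw [div_eq_mul_inv, sub_eq_add_neg]
  exact h.mul h'.inv

/-- a Kummer function of a multiple -/
theorem KC.nsmul (h : KC (m * m') f y) : KC m f (m' • y) := by
  obtain ⟨h0, D, hD, rfl⟩ := h
  refine ⟨h0, m' • D, fun v => ?_, rfl⟩
  rw [← hD]
  have : ((m' • D : Divisor.degZero (K := K) (F := F)) : Divisor K F) v =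
      m' * (D : Divisor K F) v := by
    change (m' • (D : Divisor K F)) v = _
    rw [Finsupp.smul_apply, nsmul_eq_mul]
  rw [this]
  push_cast
  ring

theorem KC.pow_mul (h : KC m f y) (hm' : m' ≠ 0) : KC (m * m') (f ^ m') y := by
  obtain ⟨h0, D, hD, rfl⟩ := h
  refine ⟨pow_ne_zero _ h0, D, fun v => ?_, rfl⟩
  rw [FF.ord_pow, ← hD]
  push_cast
  ring

theorem KC.of_pow_mul (hm' : m' ≠ 0) (h : KC (m * m') (f ^ m') y) : KC m f y := by
  obtain ⟨h0, D, hD, rfl⟩ := h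
  refine ⟨fun h => h0 (by rw [h, zero_pow hm']), D, fun v => ?_, rfl⟩
  have h1 := hD v
  rw [FF.ord_pow] at h1
  push_cast at h1
  have h2 : ((m' : ℤ)) ≠ 0 := by exact_mod_cast hm'
  apply mul_left_cancel₀ h2
  rw [← h1]
  ring

theorem KC.eq_zero_iff (hm : 0 < m) (h : KC m f y) : y = 0 ↔ ∃ g : F, g ^ m = f := by
  haveI : NeZero m := ⟨hm.ne'⟩
  obtain ⟨u, hu, rfl⟩ := h.exists_units
  rw [kummerToPic_eq_zero_iff]
  constructor
  · rintro ⟨g, hg⟩
    refine ⟨(g : F), ?_⟩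
    rw [← hu, ← Units.val_pow_eq_pow_val, hg]
    rfl
  · rintro ⟨g, hg⟩
    have hg0 : g ≠ 0 := by
      rintro rfl
      rw [zero_pow hm.ne'] at hg
      exact h.ne_zero hg.symm
    exact ⟨Units.mk0 g hg0, Units.ext (by
      rw [Units.val_pow_eq_pow_val, Units.val_mk0, hg, ← hu]
      rfl)⟩

theorem KC.of_pow (hm : 0 < m) (hg : g ≠ 0) : KC m (g ^ m) (0 : Pic0 K F) := by
  have h1 : ∀ v : Place K F, (m : ℤ) ∣ v.ord (g ^ m) := fun v => by
    rw [FF.ord_pow]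
    exact dvd_mul_right _ _
  obtain ⟨y, hy⟩ := KC.of_dvd hm (pow_ne_zero m hg) h1
  have h2 := (hy.eq_zero_iff hm).2 ⟨g, rfl⟩
  rwa [h2] at hy

theorem KC.mul_pow (hm : 0 < m) (h : KC m f y) (hg : g ≠ 0) : KC m (f * g ^ m) y := by
  have := h.mul (KC.of_pow (K := K) hm hg)
  rwa [add_zero] at this

theorem KC.exists_of_eq (hm : 0 < m) (h : KC m f y) (h' : KC m g y) :
    ∃ c : F, c ≠ 0 ∧ g = f * c ^ m := by
  have h1 := h'.div h
  rw [sub_self] at h1
  obtain ⟨c, hc⟩ := (h1.eq_zero_iff hm).1 rfl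
  refine ⟨c, ?_, ?_⟩
  · rintro rfl
    rw [zero_pow hm.ne'] at hc
    exact h1.ne_zero hc.symm
  · rw [hc, mul_div_cancel₀ _ h.ne_zero]

theorem KC.smul [NeZero m] (s : SemilinearAut K F) (h : KC m f y) : KC m (s • f) (s • y) := by
  obtain ⟨h0, D, hD, rfl⟩ := h
  have hs0 : s • f ≠ 0 := by
    intro h
    apply h0
    have h1 := congrArg (fun x => s⁻¹ • x) h
    simpa using h1
  refine ⟨hs0, SemilinearAut.degZeroSMulHom s D, fun v => ?_,
    (SemilinearAut.pic0_smul_mk s D).symm⟩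
  rw [SemilinearAut.coe_degZeroSMulHom, SemilinearAut.divisor_smul_apply, hD]
  have h1 := SemilinearAut.ord_smul s (s⁻¹ • v) f
  rw [smul_inv_smul] at h1
  exact h1.symm

end KC

section Modular

local notation "Qb" => AlgebraicClosure ℚ

variable {N : ℕ} [NeZero N] {p : ℕ} [hpF : Fact p.Prime]

theorem isPrimitiveRoot_of_primU {ζ : Qbˣ} (hζ : PrimU p ζ) : IsPrimitiveRoot ζ p := by
  refine ⟨hζ.1, fun l hl => ?_⟩
  have h1 := hζ.2 (l : ℤ) (by rw [zpow_natCast]; exact hl)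
  exact_mod_cast h1

/-- the Hecke operator on Kummer functions -/
theorem KC.hecke [NeZero p] {m : ℕ} (hm : 0 < m) (hN : ¬ p ∣ N) {ζ : Qbˣ} (hζ : PrimU p ζ)
    {f : modularFunctionFieldBar N} {y : JZero N} (h : KC m f y) :
    ∃ f' : modularFunctionFieldBar N, (f' : LaurentSeries Qb) = TT p ζ f ∧
      KC m f' (heckeOperatorBar N ⟨p, hpF.out⟩ y) := by
  haveI : NeZero m := ⟨hm.ne'⟩
  obtain ⟨u, hu, rfl⟩ := h.exists_units
  obtain ⟨ζ', u', hζ', hu', hT⟩ := kummerHeckeInput N m ⟨p, hpF.out⟩ hN u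
  refine ⟨_, ?_, hT ▸ KC.of_units u'⟩
  rw [← isHeckeNorm_iff hζ, ← hu]
  exact IsHeckeNorm.congr_root hζ' (isPrimitiveRoot_of_primU hζ) hu'

theorem KC.hecke_iterate [NeZero p] {m : ℕ} (hm : 0 < m) (hN : ¬ p ∣ N) {ζ : Qbˣ}
    (hζ : PrimU p ζ) {f : modularFunctionFieldBar N} {y : JZero N} (h : KC m f y) (M : ℕ) :
    ∃ f' : modularFunctionFieldBar N, (f' : LaurentSeries Qb) = (TT p ζ)^[M] f ∧
      KC m f' ((heckeOperatorBar N ⟨p, hpF.out⟩)^[M] y) := by
  induction M with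
  | zero => exact ⟨f, rfl, h⟩
  | succ M ih =>
    obtain ⟨f', h1, h2⟩ := ih
    obtain ⟨f'', h3, h4⟩ := h2.hecke hm hN hζ
    refine ⟨f'', ?_, ?_⟩
    · rw [h3, h1, Function.iterate_succ_apply']
    · rw [Function.iterate_succ_apply']
      exact h4

/-- the eigenfunction property of Kummer functions of periodic classes -/
theorem KC.iterate_eq [NeZero p] {m : ℕ} (hm : 0 < m) (hN : ¬ p ∣ N) {ζ : Qbˣ}
    (hζ : PrimU p ζ) {f : modularFunctionFieldBar N} {y : JZero N} (h : KC m f y) {M : ℕ}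
    (hM : (heckeOperatorBar N ⟨p, hpF.out⟩)^[M] y = y) :
    ∃ c : modularFunctionFieldBar N, c ≠ 0 ∧
      (TT p ζ)^[M] (f : LaurentSeries Qb) = f * (c : LaurentSeries Qb) ^ m := by
  obtain ⟨f', h1, h2⟩ := h.hecke_iterate hm hN hζ M
  rw [hM] at h2
  obtain ⟨c, hc, h3⟩ := h.exists_of_eq hm h2
  refine ⟨c, hc, ?_⟩
  rw [← h1, h3]
  rfl

/-- Galois equivariance of Kummer functions -/
theorem KC.galois {m : ℕ} (hm : 0 < m) (σ : Qb ≃ₐ[ℚ] Qb) {f : modularFunctionFieldBar N}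
    {y : JZero N} (h : KC m f y) : KC m (arithmeticRingAut (modularFunctionFieldFull N) σ f)
      (σ • y) := by
  haveI : NeZero m := ⟨hm.ne'⟩
  exact KC.smul (arithmeticGalois (modularFunctionFieldFull N) σ) h

end Modular

/-! ### reductions -/

section Red

open Fermat.Agent.Red

variable {K k : Type*} [Field K] [Field k] {A : ValuationSubring K} {π : A →+* k}
  {F Fk : Type*} [Field F] [Algebra K F] [Field Fk] [Algebra k Fk]
  {R : ConstRed A π F Fk} [IsAlgClosed K] [FF.IsFnField K F] [IsAlgClosed k] [FF.IsFnField k Fk]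

/-- Kummer functions of classes with trivial reduction can be normalised to reduce to `1` -/
theorem exists_isRed_one (S : Spec R) {m : ℕ} (hm : 0 < m) {f : F} (hf0 : f ≠ 0)
    {D : Divisor K F} (hD : ∀ v : Place K F, (m : ℤ) * D v = v.ord f)
    (hr : Divisor.IsPrincipal (Finsupp.mapDomain S.r D)) :
    ∃ g : F, g ≠ 0 ∧ R.IsRed (f * g ^ m) 1 := by
  obtain ⟨c, hc, z, hz, hfz⟩ := R.exists_isRed_mul hf0
  obtain ⟨b, hb0, hb⟩ := hr
  have hcF : algebraMap K F c ≠ 0 := (map_ne_zero _).2 hc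
  have h1 : ∀ Q : Place k Fk, Q.ord z = m * Q.ord b := by
    intro Q
    have h2 := S.ord_eq _ z hfz hz (m • D) (fun P => by
      rw [P.ord_mul hcF hf0, FF.ord_algebraMap, zero_add, ← hD, Finsupp.smul_apply,
        nsmul_eq_mul]) Q
    rw [← h2, ← hb Q]
    have h3 : Finsupp.mapDomain S.r (m • D) = m • Finsupp.mapDomain S.r D :=
      map_nsmul (Finsupp.mapDomain.addMonoidHom S.r) m D
    rw [h3, Finsupp.smul_apply, nsmul_eq_mul]
  have h4 : ∀ Q : Place k Fk, Q.ord (z / b ^ m) = 0 := by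
    intro Q
    rw [div_eq_mul_inv, Q.ord_mul hz (inv_ne_zero (pow_ne_zero _ hb0)), Q.ord_inv, FF.ord_pow,
      h1 Q]
    ring
  obtain ⟨a, ha⟩ := RR.exists_algebraMap_eq_of_forall_ord_nonneg (fun Q => (h4 Q).ge)
  obtain ⟨a', ha'⟩ := IsAlgClosed.exists_pow_nat_eq a hm
  obtain ⟨c', hc'⟩ := IsAlgClosed.exists_pow_nat_eq c hm
  have hzb : z = (algebraMap k Fk a' * b) ^ m := by
    rw [mul_pow, ← map_pow, ha', ha, div_mul_cancel₀ _ (pow_ne_zero _ hb0)]
  have hab : algebraMap k Fk a' * b ≠ 0 := by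
    intro h
    rw [h, zero_pow hm.ne'] at hzb
    exact hz hzb
  obtain ⟨B, hB⟩ := R.exists_isRed (algebraMap k Fk a' * b)
  have hB0 : B ≠ 0 := hB.ne_zero hab
  have hc'0 : c' ≠ 0 := by
    rintro rfl
    rw [zero_pow hm.ne'] at hc'
    exact hc hc'.symm
  refine ⟨algebraMap K F c' / B, div_ne_zero ((map_ne_zero _).2 hc'0) hB0, ?_⟩
  have h5 := hfz.div (hB.pow m) (pow_ne_zero _ hab)
  rw [← hzb, div_self hz] at h5
  have h6 : f * (algebraMap K F c' / B) ^ m = algebraMap K F c * f / B ^ m := by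
    rw [div_pow, ← map_pow, hc']
    ring
  rw [h6]
  exact h5

end Red

section RedX

open Fermat.Agent.Red

local notation "Qb" => AlgebraicClosure ℚ

variable {N : ℕ} [NeZero N] {p : ℕ} [hpF : Fact p.Prime]
  {A : ValuationSubring (AlgebraicClosure ℚ)} {k : Type*} [Field k] {π : A →+* k}
  (hA : A.LiesOverPrime p)
  (hπ : ∀ a : A, π a = 0 ↔ ¬ IsUnit a) (hs : Function.Surjective π) (hN : ¬ p ∣ N)

theorem KC.exists_red {m : ℕ} (hm : 0 < m) {y : JZero N} (hy : m • y = 0)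
    (hr : redJ hA hπ hs hN y = 0) :
    ∃ f : modularFunctionFieldBar N, KC m f y ∧ (redX N hA hπ hs hN).IsRed f 1 := by
  haveI := charP_of_liesOverPrime hA hπ
  haveI : IsAlgClosed k := isAlgClosed_of_surjective hs
  haveI := isFnField_bar N
  haveI := isFnField_fullC (k := k) N p hN
  haveI : NeZero m := ⟨hm.ne'⟩
  obtain ⟨f, hf⟩ := KC.exists (K := Qb) hy
  obtain ⟨hf0, D, hD, hDy⟩ := hf
  rw [← hDy, redJ_mk, pic0_mk_eq_zero, coe_degZeroHom] at hr
  obtain ⟨g, hg0, hg⟩ := exists_isRed_one (specX hA hπ hs hN) hm hf0 hD hr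
  exact ⟨f * g ^ m, KC.mul_pow hm ⟨hf0, D, hD, hDy⟩ hg0, hg⟩

end RedX

end Fermat.Agent.Ord
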