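import Fermat.Agent.Ord.SubRed

/-!
# Levels of the tower
-/

set_option autoImplicit false
set_option linter.unusedSectionVars false
set_option linter.style.haveILetI false

open Finset IntermediateField Polynomial

namespace Fermat.Agent.Ord

open Fermat.Agent.GoodRed (IsInt Lm)

variable {K k : Type*} [Field K] [Field k] {A : ValuationSubring K} {π : A →+* k}
  {Ω Λ : Type*} [Field Ω] [Algebra K Ω] [Field Λ] [Algebra k Λ]

/-- A subfield with a constant reduction without defect in the coordinate `x` -/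
structure Lvl0 {R : PreRed A π Ω Λ} {p : ℕ} {w : K} (M : Amb R p w) (x : Ω) (xb t : Λ)
    (E : IntermediateField K Ω) (κ : IntermediateField k Λ) : Prop extends SubRed R E κ where
  x_mem : x ∈ E
  xb_mem : xb ∈ κ
  x_B : x ∈ M.B
  isRed_x : R.IsRed x xb
  trans : Transcendental k xb
  E_Q : ∀ f ∈ E, f ∈ M.Q
  fin : 0 < relfinrank K⟮x⟯ E
  fin_eq : relfinrank K⟮x⟯ E = relfinrank k⟮xb⟯ κ
  pbasis : ∀ z ∈ κ, ∃ e : ℕ → Λ, (∀ i, e i ∈ κ) ∧ z = ∑ i ∈ range p, e i ^ p * t ^ i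

/-- A level: a subfield with good reduction (in the coordinate `x`) -/
structure Lvl {R : PreRed A π Ω Λ} {p : ℕ} {w : K} (M : Amb R p w) (x : Ω) (xb t : Λ)
    (E : IntermediateField K Ω) (κ : IntermediateField k Λ) : Prop extends
    Lvl0 M x xb t E κ where
  dim : ∃ b0, ∀ b ≥ b0, Module.finrank k (U xb κ b) ≤ Module.finrank K (U x E b)

namespace Lvl0

variable {R : PreRed A π Ω Λ} {p : ℕ} {w : K} {M : Amb R p w} {x : Ω} {xb t : Λ}
  {E : IntermediateField K Ω} {κ : IntermediateField k Λ} (L : Lvl0 M x xb t E κ)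

include L

theorem isCoord : GoodRed.IsCoord (L.constRed M.inv) ⟨x, L.x_mem⟩ ⟨xb, L.xb_mem⟩ where
  isRed := SubRed.isRed_constRed.2 L.isRed_x
  trans := by
    intro h
    apply L.trans
    exact h.algebraMap (A := Λ)
  finite := by
    apply Module.finite_of_finrank_pos
    rw [Red.finrank_adjoin_sub]
    exact L.fin
  finite' := by
    apply Module.finite_of_finrank_pos
    rw [Red.finrank_adjoin_sub, ← L.fin_eq]
    exact L.fin
  finrank_eq := by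
    rw [Red.finrank_adjoin_sub, Red.finrank_adjoin_sub]
    exact L.fin_eq

theorem isCoord' : Red.IsCoord (L.constRed M.inv) ⟨x, L.x_mem⟩ ⟨xb, L.xb_mem⟩ where
  isRed := L.isCoord.isRed
  transcendental := L.isCoord.trans
  finiteDimensional := L.isCoord.finite
  finiteDimensionalk := L.isCoord.finite'
  finrank_eq := L.isCoord.finrank_eq

theorem red_U {f : Ω} {z : Λ} {b : ℕ} (hf : f ∈ U x E b) (hz : R.IsRed f z) : z ∈ U xb κ b := by
  have hf1 := (mem_U.1 hf).1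
  have hf2 := (mem_U.1 hf).2
  have hzκ := L.red_mem f hf2 z hz
  have h0 : (L.constRed M.inv).IsRed ⟨f, hf2⟩ ⟨z, hzκ⟩ := SubRed.isRed_constRed.2 hz
  have h1 : (⟨f, hf2⟩ : E) ∈ Lm K (⟨x, L.x_mem⟩ : E) b :=
    (mem_Lm_coe (E := E) (x := ⟨x, L.x_mem⟩) (f := ⟨f, hf2⟩) (b := b)).1 hf1
  have h2 : (⟨z, hzκ⟩ : κ) ∈ Lm k (⟨xb, L.xb_mem⟩ : κ) b :=
    GoodRed.IsCoord.mem_Lm L.isCoord h1 h0
  have h3 : z ∈ Lm k xb b :=
    (mem_Lm_coe (E := κ) (x := ⟨xb, L.xb_mem⟩) (f := ⟨z, hzκ⟩) (b := b)).2 h2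
  exact mem_U.2 ⟨h3, hzκ⟩

theorem isInt_B {f : Ω} (hf : f ∈ E) (hO : f ∈ R.O) (hint : IsInt K x f) : f ∈ M.B := by
  classical
  obtain ⟨d, q, h⟩ := L.isCoord.exists_equation (f := ⟨f, hf⟩) hO
    ((isInt_coe (x := ⟨x, L.x_mem⟩) (f := ⟨f, hf⟩)).1 hint)
  have h1 := congrArg Subtype.val h
  push_cast at h1
  rcases Nat.eq_zero_or_pos d with hd | hd
  · subst hd
    simp only [pow_zero, range_zero, sum_empty, add_zero] at h1
    exact absurd h1 one_ne_zero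
  have hc : ∀ j, (((aeval (⟨x, L.x_mem⟩ : E)) ((q j).map A.subtype) : E) : Ω) ∈ M.B := by
    intro j
    have e1 : (((aeval (⟨x, L.x_mem⟩ : E)) ((q j).map A.subtype) : E) : Ω) =
        aeval x ((q j).map A.subtype) :=
      (Polynomial.aeval_algebraMap_apply Ω (⟨x, L.x_mem⟩ : E) _).symm
    rw [e1, aeval_def, eval₂_map, eval₂_eq_sum_range]
    exact sum_mem fun i _ => mul_mem (M.B_alg _) (pow_mem L.x_B _)
  refine M.B_closed f (L.E_Q f hf) d hd (fun j => -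
    (((aeval (⟨x, L.x_mem⟩ : E)) ((q j).map A.subtype) : E) : Ω)) (fun j _ => neg_mem (hc j)) ?_
  rw [eq_neg_of_add_eq_zero_left h1, ← sum_neg_distrib]
  exact sum_congr rfl fun i _ => by ring

theorem finiteDimensional [IsAlgClosed K] (b : ℕ) :
    FiniteDimensional K (Lm K (⟨x, L.x_mem⟩ : E) b) := by
  haveI := L.isCoord.finite
  obtain ⟨ι, _, ⟨B⟩⟩ := GoodRed.exists_redBasis (K := K) L.isCoord.transK
  exact B.finiteDimensional_Lm b

theorem finiteDimensionalk [IsAlgClosed k] (b : ℕ) :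
    FiniteDimensional k (Lm k (⟨xb, L.xb_mem⟩ : κ) b) := by
  haveI := L.isCoord.finite'
  obtain ⟨ι, _, ⟨B⟩⟩ := GoodRed.exists_redBasis (K := k) L.isCoord.trans
  exact B.finiteDimensional_Lm b

theorem orthOn [IsAlgClosed K] (b : ℕ) : R.OrthOn (U x E b) := by
  haveI := L.finiteDimensional b
  obtain ⟨r, v, u, h, hs⟩ := L.isCoord'.exists_orth (Lm K (⟨x, L.x_mem⟩ : E) b)
    (Module.Finite.iff_fg.1 inferInstance)
  refine ⟨r, fun i => (v i : Ω), fun i => (u i : Λ), ⟨fun i => SubRed.isRed_constRed.1 (h.isRed i),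
    ?_⟩, ?_⟩
  · exact h.indep.map' κ.val.toLinearMap (LinearMap.ker_eq_bot.2 fun a b h => Subtype.ext h)
  · rw [← map_Lm E ⟨x, L.x_mem⟩ b, ← hs, Submodule.map_span, ← Set.range_comp]
    rfl

theorem exists_lift [IsAlgClosed K] [IsAlgClosed k] (hs : Function.Surjective π) {b : ℕ}
    (hb : Module.finrank k (U xb κ b) ≤ Module.finrank K (U x E b)) {z : Λ}
    (hz : z ∈ U xb κ b) : ∃ f ∈ U x E b, R.IsRed f z := by
  haveI := L.finiteDimensional b
  haveI := L.finiteDimensionalk b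
  have e1 : Module.finrank k (U xb κ b) = Module.finrank k (Lm k (⟨xb, L.xb_mem⟩ : κ) b) :=
    finrank_U κ ⟨xb, L.xb_mem⟩ b
  have e2 : Module.finrank K (U x E b) = Module.finrank K (Lm K (⟨x, L.x_mem⟩ : E) b) :=
    finrank_U E ⟨x, L.x_mem⟩ b
  have hz1 := (mem_U.1 hz).1
  have hz2 := (mem_U.1 hz).2
  have h1 : (⟨z, hz2⟩ : κ) ∈ Lm k (⟨xb, L.xb_mem⟩ : κ) b :=
    (mem_Lm_coe (E := κ) (x := ⟨xb, L.xb_mem⟩) (f := ⟨z, hz2⟩) (b := b)).1 hz1
  have h2 : Module.finrank k (Lm k (⟨xb, L.xb_mem⟩ : κ) b) ≤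
      Module.finrank K (Lm K (⟨x, L.x_mem⟩ : E) b) := (e1.symm.le.trans hb).trans e2.le
  obtain ⟨f, hf, hfz⟩ := GoodRed.IsCoord.exists_lift L.isCoord hs (Lm K (⟨x, L.x_mem⟩ : E) b)
    (Lm k (⟨xb, L.xb_mem⟩ : κ) b) (fun f hf fb hfb => GoodRed.IsCoord.mem_Lm L.isCoord hf hfb)
    h2 h1
  have h3 : (f : Ω) ∈ Lm K x b :=
    (mem_Lm_coe (E := E) (x := ⟨x, L.x_mem⟩) (f := f) (b := b)).2 hf
  exact ⟨f, mem_U.2 ⟨h3, f.2⟩, SubRed.isRed_constRed.1 hfz⟩

theorem mem_of_pow [CharP k p] (ht : ∀ e : ℕ → Λ, ∑ i ∈ range p, e i ^ p * t ^ i = 0 →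
    ∀ i < p, e i = 0) {z : Λ} (hz : z ^ p ∈ κ) : z ∈ κ := by
  classical
  haveI : Fact p.Prime := ⟨M.hp⟩
  haveI := R.charP_alg p
  obtain ⟨e, he, heq⟩ := L.pbasis _ hz
  obtain ⟨m, hm⟩ : ∃ m, p = m + 1 := ⟨p - 1, by have := M.hp.pos; omega⟩
  have h1 := ht (fun i => if i = 0 then e 0 - z else e i) (by
    have h2 : range p = range (m + 1) := by rw [hm]
    rw [h2, sum_range_succ'] at heq ⊢
    simp only [Nat.succ_ne_zero, if_false, if_true, pow_zero, mul_one] at heq ⊢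
    rw [sub_pow_char, heq]
    ring) 0 M.hp.pos
  simp only [if_true] at h1
  rw [← sub_eq_zero.1 h1]
  exact he 0

end Lvl0

namespace Lvl

variable {R : PreRed A π Ω Λ} {p : ℕ} {w : K} {M : Amb R p w} {x : Ω} {xb t : Λ}
  {E : IntermediateField K Ω} {κ : IntermediateField k Λ} (L : Lvl M x xb t E κ)

include L

/-- normal forms at a level -/
theorem exists_normalForm [IsAlgClosed K] [IsAlgClosed k] [CharP k p]
    (hs : Function.Surjective π) (ht : ∀ e : ℕ → Λ, ∑ i ∈ range p, e i ^ p * t ^ i = 0 →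
    ∀ i < p, e i = 0) {g H : Ω} {b1 : ℕ} (hg : g ∈ U x E b1)
    (hg1 : R.IsRed g 1) (hH : H ∈ M.Q) (hT : M.T g = g * H ^ p) :
    ∃ (b : ℕ) (y r : Ω), y ∈ U x E b ∧ r ∈ U x E (p * b) ∧ R.IsRed y 1 ∧ r ∈ R.O ∧
      g = y ^ p + algebraMap K Ω w ^ p * r := by
  obtain ⟨b0, hb0⟩ := L.dim
  set b := max b0 b1 with hb
  have hpb : b1 ≤ p * b := (le_max_right _ _).trans (Nat.le_mul_of_pos_left _ M.hp.pos)
  obtain ⟨y, hy, hy1, r, hr, hrO, h⟩ := M.normalForm (V := U x E b) (W := U x E (p * b))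
    (Wb := U xb κ b) (L.orthOn b) (L.orthOn (p * b)) (U_pow_le p)
    (fun z hz => L.exists_lift hs (hb0 b (le_max_left _ _)) hz)
    (fun f hf z hz => by
      have h1 := L.red_U hf hz
      exact ⟨mem_Lm_of_pow M.hp.pos h1.1, L.mem_of_pow ht h1.2⟩)
    (fun f hf => L.E_Q f hf.2) (U_mono hpb hg) hg1 hH hT
  exact ⟨b, y, r, hy, hr, hy1, hrO, h⟩

end Lvl

end Fermat.Agent.Ord
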