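import Fermat.Agent.Red.Basic
import Fermat.Agent.QComp.Prim
import Mathlib.RingTheory.MvPolynomial.Basic
import Mathlib.Algebra.MvPolynomial.Expand
import Mathlib.RingTheory.Nakayama
import Mathlib.FieldTheory.IsAlgClosed.Basic
import Mathlib.RingTheory.Ideal.GoingUp

/-!
# Zeros of systems `X_k ^ p + Q_k = f_k` with `Q_k` of degree `≤ p` and coefficients in the
maximal ideal of a valuation ring
-/

set_option autoImplicit false
set_option linter.unusedSectionVars false
set_option linter.style.haveILetI false

open MvPolynomial Finset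

namespace Fermat.Agent.Ord

/-- Extension of homomorphisms to algebraically closed fields along integral injections. -/
theorem exists_comp_eq_of_isIntegral {S R M : Type*} [CommRing S] [CommRing R] [Field M]
    [IsAlgClosed M] (φ : S →+* R) (hφ : Function.Injective φ) (hint : φ.IsIntegral)
    (ψ : S →+* M) : ∃ χ : R →+* M, χ.comp φ = ψ := by
  letI : Algebra S R := φ.toAlgebra
  haveI : Algebra.IsIntegral S R := ⟨hint⟩
  haveI : (RingHom.ker ψ).IsPrime := RingHom.ker_isPrime ψ
  obtain ⟨Q, -, hQ, hQc⟩ := Ideal.exists_ideal_over_prime_of_isIntegral (R := S) (S := R)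
    (RingHom.ker ψ) ⊥ (by
      intro x hx
      rw [Ideal.mem_comap, Ideal.mem_bot] at hx
      have : x = 0 := hφ (by rw [map_zero]; exact hx)
      rw [this]; exact Ideal.zero_mem _)
  have hle : RingHom.ker ψ ≤ Ideal.comap φ Q := by
    intro x hx
    rw [← hQc] at hx
    exact hx
  have hge : Ideal.comap φ Q ≤ RingHom.ker ψ := by
    intro x hx
    rw [← hQc]
    exact hx
  let φ' : S ⧸ RingHom.ker ψ →+* R ⧸ Q := Ideal.quotientMap Q φ hle
  have hφ' : Function.Injective φ' := Ideal.quotientMap_injective' hge
  letI : Algebra (S ⧸ RingHom.ker ψ) (R ⧸ Q) := φ'.toAlgebra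
  let ψ' : S ⧸ RingHom.ker ψ →+* M := RingHom.kerLift ψ
  have hψ' : Function.Injective ψ' := RingHom.kerLift_injective ψ
  letI : Algebra (S ⧸ RingHom.ker ψ) M := ψ'.toAlgebra
  haveI : FaithfulSMul (S ⧸ RingHom.ker ψ) (R ⧸ Q) :=
    (faithfulSMul_iff_algebraMap_injective _ _).2 hφ'
  haveI : FaithfulSMul (S ⧸ RingHom.ker ψ) M :=
    (faithfulSMul_iff_algebraMap_injective _ _).2 hψ'
  haveI : Algebra.IsIntegral (S ⧸ RingHom.ker ψ) (R ⧸ Q) := by
    constructor
    intro x
    obtain ⟨x, rfl⟩ := Ideal.Quotient.mk_surjective x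
    obtain ⟨q, hq, hq0⟩ := hint x
    refine ⟨q.map (Ideal.Quotient.mk _), hq.map _, ?_⟩
    rw [Polynomial.eval₂_map]
    have h1 : (algebraMap (S ⧸ RingHom.ker ψ) (R ⧸ Q)).comp
        (Ideal.Quotient.mk (RingHom.ker ψ)) = (Ideal.Quotient.mk Q).comp φ := by
      ext y; rfl
    rw [h1, ← Polynomial.hom_eval₂, hq0, map_zero]
  haveI : Algebra.IsAlgebraic (S ⧸ RingHom.ker ψ) (R ⧸ Q) := inferInstance
  let χ' : (R ⧸ Q) →ₐ[S ⧸ RingHom.ker ψ] M :=
    IsAlgClosed.lift (R := S ⧸ RingHom.ker ψ) (S := R ⧸ Q) (M := M)
  refine ⟨(χ' : (R ⧸ Q) →+* M).comp (Ideal.Quotient.mk Q), RingHom.ext fun x => ?_⟩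
  have h2 := χ'.commutes (Ideal.Quotient.mk _ x)
  exact h2

/-- integrality of finite extensions, in terms of generators -/
theorem isIntegral_of_closure {S R : Type*} [CommRing S] [CommRing R] (φ : S →+* R)
    (s : Finset R) (h : ∀ x, x ∈ AddSubgroup.closure {y | ∃ g : S, ∃ i ∈ s, y = φ g * i}) :
    φ.IsIntegral := by
  letI : Algebra S R := φ.toAlgebra
  haveI : Module.Finite S R := by
    refine ⟨⟨s, ?_⟩⟩
    rw [eq_top_iff]
    intro x _
    have h1 := h x
    induction h1 using AddSubgroup.closure_induction with
    | mem y hy =>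
      obtain ⟨g, i, hi, rfl⟩ := hy
      have : φ g * i = g • i := rfl
      rw [this]
      exact Submodule.smul_mem _ _ (Submodule.subset_span hi)
    | zero => exact Submodule.zero_mem _
    | add x y _ _ hx hy => exact Submodule.add_mem _ (hx trivial) (hy trivial)
    | neg x _ hx => exact Submodule.neg_mem _ (hx trivial)
  exact fun x => Algebra.IsIntegral.isIntegral (R := S) x

variable {K k : Type*} [Field K] [Field k] {A : ValuationSubring K} {π : A →+* k}
  {ι : Type*} [Fintype ι]

/-- in a finite family of elements of `A`, not all zero, one divides all the others -/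
theorem exists_dvd_all (A : ValuationSubring K) {ι : Type*} (s : Finset ι) (c : ι → A)
    (h : s.Nonempty) : ∃ i ∈ s, ∀ j ∈ s, c i ∣ c j := by
  classical
  induction h using Finset.Nonempty.cons_induction with
  | singleton a => exact ⟨a, mem_singleton_self a, fun j hj => by rw [mem_singleton.1 hj]⟩
  | cons a s ha hs ih =>
    obtain ⟨i, his, hi⟩ := ih
    rcases ValuationRing.dvd_total (c a) (c i) with h | h
    · refine ⟨a, mem_cons_self _ _, fun j hj => ?_⟩
      rcases mem_cons.1 hj with rfl | hj
      · exact dvd_rfl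
      · exact h.trans (hi j hj)
    · refine ⟨i, mem_cons.2 (Or.inr his), fun j hj => ?_⟩
      rcases mem_cons.1 hj with rfl | hj
      · exact h
      · exact hi j hj

/-- a polynomial over a valuation ring is a constant times a primitive polynomial. -/
theorem exists_primitive_mv {G : MvPolynomial ι A} (hG : G ≠ 0) :
    ∃ c : A, c ≠ 0 ∧ ∃ G' : MvPolynomial ι A, G = C c * G' ∧ ∃ d, G'.coeff d = 1 := by
  classical
  have hne : G.support.Nonempty := by
    rw [Finset.nonempty_iff_ne_empty, Ne, MvPolynomial.support_eq_empty]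
    exact hG
  obtain ⟨i, his, hi⟩ := exists_dvd_all A G.support (fun d => G.coeff d) hne
  choose! q hq using hi
  refine ⟨G.coeff i, MvPolynomial.mem_support_iff.1 his,
    ∑ d ∈ G.support, monomial d (q d), ?_, i, ?_⟩
  · conv_lhs => rw [G.as_sum]
    rw [mul_sum]
    refine sum_congr rfl fun d hd => ?_
    rw [C_mul_monomial, ← hq d hd]
  · rw [coeff_sum, Finset.sum_eq_single i]
    · rw [coeff_monomial, if_pos rfl]
      have h1 := hq i his
      have h2 : G.coeff i ≠ 0 := MvPolynomial.mem_support_iff.1 his
      exact mul_left_cancel₀ h2 (h1.symm.trans (mul_one _).symm)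
    · intro d _ hd
      rw [coeff_monomial, if_neg hd]
    · intro h; exact absurd his h

section Main

variable (hA : ∀ a : A, π a = 0 ↔ ¬ IsUnit a) {p : ℕ} (hp : 0 < p) (Q : ι → MvPolynomial ι A)
  (hQd : ∀ i, (Q i).totalDegree ≤ p) (hQ : ∀ i, map π (Q i) = 0)

/-- the substitution `X_i ↦ X_i ^ p + Q_i` -/
noncomputable def subst (p : ℕ) (Q : ι → MvPolynomial ι A) :
    MvPolynomial ι A →ₐ[A] MvPolynomial ι A := aeval fun i => X i ^ p + Q i

include hQ in
theorem map_subst (G : MvPolynomial ι A) :
    map π (subst p Q G) = expand p (map π G) := by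
  induction G using MvPolynomial.induction_on with
  | C a => simp [subst]
  | add f g hf hg => rw [map_add, map_add, hf, hg, map_add, map_add]
  | mul_X f i hf =>
    rw [map_mul, map_mul, hf, map_mul, map_mul]
    congr 1
    rw [subst, aeval_X, map_add, hQ i, add_zero, map_pow, map_X, expand_X]

include hp hQ in
theorem subst_injective : Function.Injective (subst p Q) := by
  rw [injective_iff_map_eq_zero]
  intro G hG
  by_contra hne
  obtain ⟨c, hc, G', rfl, d, hd⟩ := exists_primitive_mv hne
  rw [map_mul] at hG
  have h1 : subst p Q (C c) = C c := by simp [subst]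
  rw [h1] at hG
  rcases mul_eq_zero.1 hG with h | h
  · exact hc (C_eq_zero.1 h)
  · have h2 := map_subst (π := π) (p := p) Q hQ G'
    rw [h, map_zero] at h2
    have h3 : map π G' = 0 := (expand_injective hp) (by rw [map_zero]; exact h2.symm)
    have h4 := congrArg (coeff d) h3
    rw [coeff_map, hd, map_one, coeff_zero] at h4
    exact one_ne_zero h4

theorem mem_smul_of_map_eq_zero (hA : ∀ a : A, π a = 0 ↔ ¬ IsUnit a) {m : ℕ}
    {h : MvPolynomial ι A} (hm : h.totalDegree ≤ m) (h0 : map π h = 0) :
    h ∈ IsLocalRing.maximalIdeal A • restrictTotalDegree ι A m := by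
  classical
  rw [h.as_sum]
  refine Submodule.sum_mem _ fun d hd => ?_
  have h1 : monomial d (coeff d h) = (coeff d h) • (monomial d (1 : A)) := by
    rw [smul_monomial, smul_eq_mul, mul_one]
  rw [h1]
  refine Submodule.smul_mem_smul ?_ ?_
  · rw [IsLocalRing.mem_maximalIdeal, mem_nonunits_iff, ← hA]
    have := congrArg (coeff d) h0
    rwa [coeff_map, coeff_zero] at this
  · rw [mem_restrictTotalDegree]
    refine (totalDegree_monomial_le d 1).trans ?_
    exact (le_totalDegree hd).trans hm

include hQd in
theorem totalDegree_subst_monomial_le (β : ι →₀ ℕ) :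
    (subst p Q (monomial β 1)).totalDegree ≤ p * β.degree := by
  classical
  have h1 : subst p Q (monomial β 1) = ∏ i, (X i ^ p + Q i) ^ β i := by
    rw [subst, aeval_monomial, map_one, one_mul, Finsupp.prod_fintype]
    intro i; rw [pow_zero]
  rw [h1]
  refine (totalDegree_finsetProd _ _).trans ?_
  rw [Finsupp.degree_eq_sum, mul_sum]
  refine sum_le_sum fun i _ => ?_
  refine (totalDegree_pow _ _).trans ?_
  rw [mul_comm]
  refine Nat.mul_le_mul_right _ ?_
  refine (totalDegree_add _ _).trans (max_le ?_ (hQd i))
  refine (totalDegree_pow _ _).trans ?_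
  rw [totalDegree_X, mul_one]

include hA hp hQd hQ in
theorem subst_isIntegral : (subst p Q : MvPolynomial ι A →+* MvPolynomial ι A).IsIntegral := by
  classical
  -- the reduced monomials
  let red : Finset (MvPolynomial ι A) :=
    (Finset.univ : Finset (ι → Fin p)).image fun μ =>
      monomial (Finsupp.equivFunOnFinite.symm fun i => (μ i : ℕ)) (1 : A)
  apply isIntegral_of_closure _ red
  let N : Submodule A (MvPolynomial ι A) :=
    { carrier := {x | x ∈ AddSubgroup.closure {y | ∃ g : MvPolynomial ι A, ∃ i ∈ red,
        y = (subst p Q : MvPolynomial ι A →+* MvPolynomial ι A) g * i}}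
      zero_mem' := by
        change (0 : MvPolynomial ι A) ∈ AddSubgroup.closure _
        exact AddSubgroup.zero_mem _
      add_mem' := fun hx hy => by
        change _ ∈ AddSubgroup.closure _ at hx hy ⊢
        exact AddSubgroup.add_mem _ hx hy
      smul_mem' := by
        intro c x hx
        change x ∈ AddSubgroup.closure _ at hx
        change c • x ∈ AddSubgroup.closure _
        induction hx using AddSubgroup.closure_induction with
        | mem y hy =>
          obtain ⟨g, i, hi, rfl⟩ := hy
          refine AddSubgroup.subset_closure ⟨c • g, i, hi, ?_⟩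
          change c • (subst p Q g * i) = subst p Q (c • g) * i
          rw [map_smul, smul_mul_assoc]
        | zero => rw [smul_zero]; exact AddSubgroup.zero_mem _
        | add x y _ _ hx hy => rw [smul_add]; exact AddSubgroup.add_mem _ hx hy
        | neg x _ hx => rw [smul_neg]; exact AddSubgroup.neg_mem _ hx }
  have key : ∀ m, restrictTotalDegree ι A m ≤ N := by
    intro m
    apply Submodule.le_of_le_smul_of_le_jacobson_bot (I := IsLocalRing.maximalIdeal A)
    · exact Module.Finite.iff_fg.1 inferInstance
    · rw [IsLocalRing.jacobson_eq_maximalIdeal ⊥ bot_ne_top]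
    · intro h hh
      rw [mem_restrictTotalDegree] at hh
      rw [h.as_sum]
      refine Submodule.sum_mem _ fun γ hγ => ?_
      have hγm : γ.degree ≤ m := (le_totalDegree hγ).trans hh
      have h1 : monomial γ (coeff γ h) = (coeff γ h) • (monomial γ (1 : A)) := by
        rw [smul_monomial, smul_eq_mul, mul_one]
      rw [h1]
      refine Submodule.smul_mem _ _ ?_
      -- write `γ = μ + p β`
      let μ : ι → Fin p := fun i => ⟨γ i % p, Nat.mod_lt _ hp⟩
      let μ' : ι →₀ ℕ := Finsupp.equivFunOnFinite.symm fun i => (μ i : ℕ)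
      let β : ι →₀ ℕ := Finsupp.equivFunOnFinite.symm fun i => γ i / p
      have hγ' : γ = μ' + p • β := by
        ext i
        simp only [μ', β, μ, Finsupp.coe_add, Pi.add_apply, Finsupp.equivFunOnFinite_symm_apply_apply,
          Finsupp.coe_smul, Pi.smul_apply, smul_eq_mul]
        exact (Nat.mod_add_div (γ i) p).symm
      have hdeg : γ.degree = μ'.degree + p * β.degree := by
        rw [hγ', map_add, map_nsmul, smul_eq_mul]
      have h2 : monomial γ (1 : A) = subst p Q (monomial β 1) * monomial μ' 1 +
          (monomial γ (1 : A) - subst p Q (monomial β 1) * monomial μ' 1) := by ring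
      rw [h2]
      refine Submodule.add_mem _ (Submodule.mem_sup_left ?_) (Submodule.mem_sup_right ?_)
      · change _ ∈ AddSubgroup.closure _
        refine AddSubgroup.subset_closure ⟨monomial β 1, monomial μ' 1, ?_, rfl⟩
        exact Finset.mem_image.2 ⟨μ, Finset.mem_univ _, rfl⟩
      · apply mem_smul_of_map_eq_zero hA
        · refine (totalDegree_sub _ _).trans (max_le ?_ ?_)
          · exact (totalDegree_monomial_le _ _).trans hγm
          · refine (totalDegree_mul _ _).trans ?_
            refine (Nat.add_le_add (totalDegree_subst_monomial_le Q hQd β)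
              (totalDegree_monomial_le μ' 1)).trans ?_
            have h9 : (μ'.sum fun _ => id) = μ'.degree := rfl
            rw [h9]
            omega
        · rw [map_sub, map_mul, map_subst Q hQ, map_monomial, map_monomial, map_monomial, map_one,
            expand_monomial, monomial_mul, one_mul, hγ', add_comm, sub_self]
  intro x
  exact key x.totalDegree ((mem_restrictTotalDegree _ _ _).2 le_rfl)

include hA hp hQd hQ in
/-- **Existence of solutions.** -/
theorem exists_zero [IsAlgClosed K] (f : ι → A) :
    ∃ t : ι → A, ∀ i, t i ^ p + eval t (Q i) = f i := by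
  classical
  let ψ : MvPolynomial ι A →+* K := eval₂Hom A.subtype fun i => (f i : K)
  obtain ⟨χ, hχ⟩ := exists_comp_eq_of_isIntegral
    (subst p Q : MvPolynomial ι A →+* MvPolynomial ι A)
    (subst_injective hp Q hQ) (subst_isIntegral hA hp Q hQd hQ) ψ
  have hχC : ∀ a : A, χ (C a) = a := by
    intro a
    have h1 := congrArg (fun g => g (C a)) hχ
    simp only [RingHom.comp_apply] at h1
    have h2 : (subst p Q : MvPolynomial ι A →+* MvPolynomial ι A) (C a) = C a := by
      change subst p Q (C a) = C a
      simp [subst]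
    rw [h2] at h1
    rw [h1]
    simp [ψ]
  have hχX : ∀ i, χ (X i ^ p + Q i) = f i := by
    intro i
    have h1 := congrArg (fun g => g (X i)) hχ
    simp only [RingHom.comp_apply] at h1
    have h2 : (subst p Q : MvPolynomial ι A →+* MvPolynomial ι A) (X i) = X i ^ p + Q i := by
      change subst p Q (X i) = _
      simp [subst]
    rw [h2] at h1
    rw [h1]
    simp [ψ]
  -- the coordinates are integral
  have hint : ∀ i, χ (X i) ∈ A := by
    intro i
    obtain ⟨q, hq, hq0⟩ := subst_isIntegral hA hp Q hQd hQ (X i)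
    have h1 : Polynomial.eval₂ ψ (χ (X i)) q = 0 := by
      rw [← hχ, ← Polynomial.hom_eval₂, hq0, map_zero]
    have hψ : ∀ g, ψ g ∈ A := by
      intro g
      induction g using MvPolynomial.induction_on with
      | C a => simp [ψ]
      | add f g hf hg => rw [map_add]; exact add_mem hf hg
      | mul_X g j hg =>
        rw [map_mul]
        refine mul_mem hg ?_
        simp [ψ]
    let ψ' : MvPolynomial ι A →+* A := ψ.codRestrict A.toSubring hψ
    have h2 : IsIntegral A (χ (X i)) := by
      refine ⟨q.map ψ', hq.map _, ?_⟩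
      rw [Polynomial.eval₂_map]
      exact h1
    haveI := QComp.isIntegrallyClosed_of_valuationRing A
    obtain ⟨a, ha⟩ := IsIntegrallyClosed.isIntegral_iff.1 h2
    rw [← ha]
    exact a.2
  refine ⟨fun i => ⟨χ (X i), hint i⟩, fun i => ?_⟩
  apply Subtype.ext
  have hev : ∀ g : MvPolynomial ι A,
      ((eval (fun i => (⟨χ (X i), hint i⟩ : A)) g : A) : K) = χ g := by
    intro g
    induction g using MvPolynomial.induction_on with
    | C a => rw [eval_C, hχC]
    | add f g hf hg => rw [map_add, map_add, ← hf, ← hg]; rfl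
    | mul_X g j hg => rw [map_mul, map_mul, ← hg, eval_X]; rfl
  have h3 := hχX i
  rw [map_add, map_pow] at h3
  rw [← h3, ← hev (Q i)]
  rfl

end Main

end Fermat.Agent.Ord
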