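import Fermat.Agent.Ord.Pow
import Fermat.Agent.Ord.Zero
import Fermat.Agent.Red.Lattice
import Mathlib.Data.Nat.Choose.Multinomial

/-!
# Reductions with several components and approximation by `p`-th powers
-/

set_option autoImplicit false
set_option linter.unusedSectionVars false
set_option linter.style.haveILetI false

open Finset

namespace Fermat.Agent.Ord

/-- A reduction of `F / K` along `π : A → k` with values in a (reduced) `k`-algebra `κ`; the ring
`O` is a finite intersection of valuation rings. -/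
structure PreRed {K k : Type*} [Field K] [Field k] (A : ValuationSubring K) (π : A →+* k)
    (F κ : Type*) [Field F] [Algebra K F] [CommRing κ] [Algebra k κ] where
  /-- the ring of integral elements -/
  O : Subring F
  /-- the reduction map -/
  red : O →+* κ
  pi_eq_zero_iff : ∀ a : A, π a = 0 ↔ ¬ IsUnit a
  algebraMap_mem : ∀ a : A, algebraMap K F (a : K) ∈ O
  red_algebraMap : ∀ a : A,
    red ⟨algebraMap K F (a : K), algebraMap_mem a⟩ = algebraMap k κ (π a)

namespace PreRed

variable {K k : Type*} [Field K] [Field k] {A : ValuationSubring K} {π : A →+* k}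
  {F κ : Type*} [Field F] [Algebra K F] [CommRing κ] [Algebra k κ] (R : PreRed A π F κ)

/-- `y` is integral and reduces to `z` -/
def IsRed (y : F) (z : κ) : Prop := ∃ h : y ∈ R.O, R.red ⟨y, h⟩ = z

variable {R}

theorem IsRed.mem {y : F} {z : κ} (h : R.IsRed y z) : y ∈ R.O := h.1

theorem IsRed.unique {y : F} {z z' : κ} (h : R.IsRed y z) (h' : R.IsRed y z') : z = z' := by
  obtain ⟨h1, h2⟩ := h
  obtain ⟨h1', h2'⟩ := h'
  rw [← h2, ← h2']

theorem IsRed.add {y y' : F} {z z' : κ} (h : R.IsRed y z) (h' : R.IsRed y' z') :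
    R.IsRed (y + y') (z + z') := by
  obtain ⟨h1, rfl⟩ := h
  obtain ⟨h1', rfl⟩ := h'
  exact ⟨add_mem h1 h1', by rw [← map_add]; rfl⟩

theorem IsRed.mul {y y' : F} {z z' : κ} (h : R.IsRed y z) (h' : R.IsRed y' z') :
    R.IsRed (y * y') (z * z') := by
  obtain ⟨h1, rfl⟩ := h
  obtain ⟨h1', rfl⟩ := h'
  exact ⟨mul_mem h1 h1', by rw [← map_mul]; rfl⟩

theorem IsRed.neg {y : F} {z : κ} (h : R.IsRed y z) : R.IsRed (-y) (-z) := by
  obtain ⟨h1, rfl⟩ := h
  exact ⟨neg_mem h1, by rw [← map_neg]; rfl⟩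

theorem IsRed.sub {y y' : F} {z z' : κ} (h : R.IsRed y z) (h' : R.IsRed y' z') :
    R.IsRed (y - y') (z - z') := by
  rw [sub_eq_add_neg, sub_eq_add_neg]
  exact h.add h'.neg

variable (R) in
theorem isRed_zero : R.IsRed 0 0 := ⟨zero_mem _, map_zero R.red⟩

variable (R) in
theorem isRed_one : R.IsRed 1 1 := ⟨one_mem _, map_one R.red⟩

theorem IsRed.pow {y : F} {z : κ} (h : R.IsRed y z) (n : ℕ) : R.IsRed (y ^ n) (z ^ n) := by
  obtain ⟨h1, rfl⟩ := h
  exact ⟨pow_mem h1 n, by rw [← map_pow]; rfl⟩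

variable (R) in
theorem isRed_coe (a : A) : R.IsRed (algebraMap K F a) (algebraMap k κ (π a)) :=
  ⟨R.algebraMap_mem a, R.red_algebraMap a⟩

variable (R) in
theorem exists_isRed_of_mem {y : F} (h : y ∈ R.O) : ∃ z, R.IsRed y z := ⟨_, h, rfl⟩

theorem isRed_sum {ι : Type*} (s : Finset ι) {y : ι → F} {z : ι → κ}
    (h : ∀ i ∈ s, R.IsRed (y i) (z i)) : R.IsRed (∑ i ∈ s, y i) (∑ i ∈ s, z i) := by
  classical
  induction s using Finset.induction_on with
  | empty => simpa using R.isRed_zero
  | insert a s ha ih =>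
    rw [sum_insert ha, sum_insert ha]
    exact (h a (mem_insert_self _ _)).add (ih fun i hi => h i (mem_insert_of_mem hi))

theorem isRed_prod {ι : Type*} (s : Finset ι) {y : ι → F} {z : ι → κ}
    (h : ∀ i ∈ s, R.IsRed (y i) (z i)) : R.IsRed (∏ i ∈ s, y i) (∏ i ∈ s, z i) := by
  classical
  induction s using Finset.induction_on with
  | empty => simpa using R.isRed_one
  | insert a s ha ih =>
    rw [prod_insert ha, prod_insert ha]
    exact (h a (mem_insert_self _ _)).mul (ih fun i hi => h i (mem_insert_of_mem hi))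

variable (R) in
theorem mem_of_mem {c : K} {f : F} {z : κ} (hf : R.IsRed f z) (hz : z ≠ 0)
    (h : algebraMap K F c * f ∈ R.O) : c ∈ A := by
  by_contra hc
  have hc0 : c ≠ 0 := by rintro rfl; exact hc A.zero_mem
  have hi : c⁻¹ ∈ A := (A.mem_or_inv_mem c).resolve_left hc
  have hi0 : π ⟨c⁻¹, hi⟩ = 0 := by
    rw [R.pi_eq_zero_iff]
    intro hu
    obtain ⟨b, hb⟩ := hu.exists_right_inv
    have hb' : c⁻¹ * (b : K) = 1 := congrArg Subtype.val hb
    have : (b : K) = c := by field_simp at hb'; exact hb'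
    exact hc (this ▸ b.2)
  obtain ⟨z', hz'⟩ := R.exists_isRed_of_mem h
  have h1 := (R.isRed_coe ⟨c⁻¹, hi⟩).mul hz'
  rw [hi0, map_zero, zero_mul] at h1
  have h2 : algebraMap K F ((⟨c⁻¹, hi⟩ : A) : K) * (algebraMap K F c * f) = f := by
    change algebraMap K F c⁻¹ * (algebraMap K F c * f) = f
    rw [← mul_assoc, ← map_mul, inv_mul_cancel₀ hc0, map_one, one_mul]
  rw [h2] at h1
  exact hz (hf.unique h1)

/-- a valuation ring with residue map is a reduction -/
def ofConstRed {Fk : Type*} [Field Fk] [Algebra k Fk] (R : Red.ConstRed A π F Fk) :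
    PreRed A π F Fk where
  O := R.O.toSubring
  red := R.red
  pi_eq_zero_iff := R.pi_eq_zero_iff
  algebraMap_mem a := (R.algebraMap_mem_iff a).2 a.2
  red_algebraMap := R.red_algebraMap

theorem isRed_ofConstRed {Fk : Type*} [Field Fk] [Algebra k Fk] {R : Red.ConstRed A π F Fk}
    {y : F} {z : Fk} : (ofConstRed R).IsRed y z ↔ R.IsRed y z := Iff.rfl

/-- A family of integral elements whose reductions are linearly independent. -/
structure Orth (R : PreRed A π F κ) {ι : Type*} (y : ι → F) (z : ι → κ) : Prop where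
  isRed : ∀ i, R.IsRed (y i) (z i)
  indep : LinearIndependent k z

namespace Orth

variable {ι : Type*} {y : ι → F} {z : ι → κ} (h : Orth R y z)

include h

theorem isRed_sum' (s : Finset ι) (c : ι → A) :
    R.IsRed (∑ i ∈ s, algebraMap K F (c i) * y i) (∑ i ∈ s, algebraMap k κ (π (c i)) * z i) :=
  PreRed.isRed_sum s fun i _ => (R.isRed_coe (c i)).mul (h.isRed i)

/-- a nonzero combination is a constant times a combination with nonzero reduction -/
theorem exists_scale_sum (s : Finset ι) (c : ι → K) (hc : ∃ i ∈ s, c i ≠ 0) :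
    ∃ i ∈ s, c i ≠ 0 ∧ (∀ j ∈ s, c j / c i ∈ A) ∧ ∃ g : F, ∃ ρ : κ, ρ ≠ 0 ∧ R.IsRed g ρ ∧
      ∑ l ∈ s, algebraMap K F (c l) * y l = algebraMap K F (c i) * g := by
  classical
  obtain ⟨i, his, hi0, hi⟩ := Red.exists_max A s c hc
  refine ⟨i, his, hi0, hi, _, _, ?_,
    h.isRed_sum' s (fun l => if hl : l ∈ s then ⟨c l / c i, hi l hl⟩ else 0), ?_⟩
  · intro h4
    have h5 : ∑ l ∈ s, (π (if hl : l ∈ s then ⟨c l / c i, hi l hl⟩ else 0)) • z l = 0 := by
      rw [← h4]
      exact Finset.sum_congr rfl fun l _ => Algebra.smul_def _ _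
    have h6 := linearIndependent_iff'.mp h.indep s _ h5 i his
    rw [dif_pos his] at h6
    have h7 : (⟨c i / c i, hi i his⟩ : A) = 1 := Subtype.ext (div_self hi0)
    rw [h7, map_one] at h6
    exact one_ne_zero h6
  · rw [Finset.mul_sum]
    refine Finset.sum_congr rfl fun l hl => ?_
    rw [dif_pos hl]
    change _ = algebraMap K F (c i) * (algebraMap K F (c l / c i) * y l)
    rw [← mul_assoc, ← map_mul, mul_div_cancel₀ _ hi0]

theorem mem_of_sum_mem (s : Finset ι) (c : ι → K)
    (hc : ∑ i ∈ s, algebraMap K F (c i) * y i ∈ R.O) : ∀ i ∈ s, c i ∈ A := by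
  classical
  intro j hjs
  by_cases hj0 : c j = 0
  · rw [hj0]; exact A.zero_mem
  obtain ⟨i, his, hi0, hi, g, ρ, hρ, hg, heq⟩ := h.exists_scale_sum s c ⟨j, hjs, hj0⟩
  rw [heq] at hc
  have h1 := R.mem_of_mem hg hρ hc
  have h2 := mul_mem (hi j hjs) h1
  rwa [div_mul_cancel₀ _ hi0] at h2

theorem linearIndependent : LinearIndependent K y := by
  classical
  rw [linearIndependent_iff']
  intro s c hc j hjs
  by_contra hj0
  obtain ⟨i, his, hi0, hi, g, ρ, hρ, hg, heq⟩ := h.exists_scale_sum s c ⟨j, hjs, hj0⟩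
  have h3 : ∑ l ∈ s, algebraMap K F (c l) * y l = 0 := by
    rw [← hc]
    exact Finset.sum_congr rfl fun l _ => (Algebra.smul_def _ _).symm
  rw [h3] at heq
  have hg0 : g = 0 := by
    rcases mul_eq_zero.1 heq.symm with h | h
    · exact absurd ((map_eq_zero _).1 h) hi0
    · exact h
  rw [hg0] at hg
  exact hρ (hg.unique R.isRed_zero)

theorem comp {κ' : Type*} (g : κ' → ι) (hg : Function.Injective g) :
    Orth R (y ∘ g) (z ∘ g) :=
  ⟨fun i => h.isRed (g i), h.indep.comp g hg⟩

/-- coordinates of integral elements are integral -/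
theorem exists_coord [Fintype ι] {f : F} (hf : f ∈ Submodule.span K (Set.range y))
    (hfO : f ∈ R.O) : ∃ c : ι → A, f = ∑ i, algebraMap K F (c i) * y i := by
  obtain ⟨c, hc⟩ := (Submodule.mem_span_range_iff_exists_fun K).1 hf
  have h1 : ∑ i, algebraMap K F (c i) * y i = f := by
    rw [← hc]
    exact Finset.sum_congr rfl fun l _ => (Algebra.smul_def _ _).symm
  have h2 := h.mem_of_sum_mem univ c (by rw [h1]; exact hfO)
  exact ⟨fun i => ⟨c i, h2 i (mem_univ i)⟩, h1.symm⟩

theorem red_mem_span [Fintype ι] {f : F} {ρ : κ} (hf : f ∈ Submodule.span K (Set.range y))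
    (hfρ : R.IsRed f ρ) : ρ ∈ Submodule.span k (Set.range z) := by
  obtain ⟨c, hc⟩ := h.exists_coord hf hfρ.mem
  have h1 := h.isRed_sum' univ c
  rw [← hc] at h1
  rw [hfρ.unique h1]
  refine Submodule.sum_mem _ fun i _ => ?_
  rw [← Algebra.smul_def]
  exact Submodule.smul_mem _ _ (Submodule.subset_span ⟨i, rfl⟩)

theorem exists_of_mem_span [Fintype ι] (hπ : Function.Surjective π) {ρ : κ}
    (hρ : ρ ∈ Submodule.span k (Set.range z)) :
    ∃ f ∈ Submodule.span K (Set.range y), R.IsRed f ρ := by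
  obtain ⟨c, hc⟩ := (Submodule.mem_span_range_iff_exists_fun k).1 hρ
  choose a ha using fun i => hπ (c i)
  refine ⟨∑ i, algebraMap K F (a i) * y i, ?_, ?_⟩
  · refine Submodule.sum_mem _ fun i _ => ?_
    rw [← Algebra.smul_def]
    exact Submodule.smul_mem _ _ (Submodule.subset_span ⟨i, rfl⟩)
  · have h1 := h.isRed_sum' univ a
    have h2 : ∑ i, algebraMap k κ (π (a i)) * z i = ρ := by
      rw [← hc]
      exact Finset.sum_congr rfl fun i _ => by rw [ha, Algebra.smul_def]
    rwa [h2] at h1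

end Orth

/-- `V` has an orthonormal basis -/
def OrthOn (R : PreRed A π F κ) (V : Submodule K F) : Prop :=
  ∃ (r : ℕ) (v : Fin r → F) (u : Fin r → κ), Orth R v u ∧
    Submodule.span K (Set.range v) = V

theorem OrthOn.fg {V : Submodule K F} (h : R.OrthOn V) : V.FG := by
  obtain ⟨r, v, u, -, rfl⟩ := h
  exact Submodule.fg_span (Set.finite_range v)

/-- every finite dimensional subspace has an orthonormal basis -/
def HasOrth (R : PreRed A π F κ) : Prop := ∀ V : Submodule K F, V.FG → R.OrthOn V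

theorem hasOrth_ofConstRed {Fk : Type*} [Field Fk] [Algebra k Fk] {R : Red.ConstRed A π F Fk}
    {x : F} {xb : Fk} (hx : Red.IsCoord R x xb) : (ofConstRed R).HasOrth := by
  intro V hV
  obtain ⟨r, v, u, h, hs⟩ := hx.exists_orth V hV
  exact ⟨r, v, u, ⟨h.isRed, h.indep⟩, hs⟩

/-- extension of orthonormal families to orthonormal bases -/
theorem OrthOn.exists_extend {W : Submodule K F} (hW : R.OrthOn W) {n : ℕ} {e : Fin n → F}
    {eb : Fin n → κ} (he : Orth R e eb) (heW : ∀ i, e i ∈ W) :
    ∃ (J : Type) (_ : Fintype J) (E : J → F) (Eb : J → κ) (i : Fin n → J),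
      Function.Injective i ∧ Orth R E Eb ∧ (∀ l, E (i l) = e l) ∧ (∀ l, Eb (i l) = eb l) ∧
      Submodule.span K (Set.range E) = W := by
  classical
  have hWfg := hW.fg
  obtain ⟨m, w, wb, hw, hwW⟩ := hW
  let v : Fin n ⊕ Fin m → F := Sum.elim e w
  let vb : Fin n ⊕ Fin m → κ := Sum.elim eb wb
  have hs : LinearIndepOn k vb (Set.range Sum.inl) := by
    rw [LinearIndepOn, ← linearIndependent_equiv (Equiv.ofInjective Sum.inl Sum.inl_injective)]
    exact he.indep
  obtain ⟨b, -, hsb, hspan, hli⟩ := exists_linearIndepOn_extension hs (Set.subset_univ _)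
  have hebspan : ∀ l, eb l ∈ Submodule.span k (Set.range wb) := fun l =>
    hw.red_mem_span (by rw [hwW]; exact heW l) (he.isRed l)
  have horth : Orth R (fun x : b => v x) (fun x : b => vb x) := by
    refine ⟨fun x => ?_, hli⟩
    rcases x with ⟨x | x, hx⟩
    · exact he.isRed x
    · exact hw.isRed x
  have hrange : Submodule.span k (Set.range fun x : b => vb x) = Submodule.span k (Set.range wb) := by
    apply le_antisymm
    · rw [Submodule.span_le]
      rintro _ ⟨⟨x | x, hx⟩, rfl⟩
      · exact hebspan x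
      · exact Submodule.subset_span ⟨x, rfl⟩
    · rw [Submodule.span_le]
      rintro _ ⟨x, rfl⟩
      have h1 : wb x ∈ vb '' Set.univ := ⟨Sum.inr x, trivial, rfl⟩
      have h2 := hspan h1
      have h3 : vb '' b = Set.range fun x : b => vb x := by
        ext y; simp
      rwa [h3] at h2
  have hcard : Fintype.card b = m := by
    have h1 := finrank_span_eq_card horth.indep
    rw [hrange, finrank_span_eq_card hw.indep, Fintype.card_fin] at h1
    exact h1.symm
  refine ⟨b, inferInstance, fun x => v x, fun x => vb x, fun l => ⟨Sum.inl l, hsb ⟨l, rfl⟩⟩,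
    fun l l' h => Sum.inl_injective (congrArg Subtype.val h), horth, fun l => rfl, fun l => rfl, ?_⟩
  have hle : Submodule.span K (Set.range fun x : b => v x) ≤ W := by
    rw [Submodule.span_le]
    rintro _ ⟨⟨x | x, hx⟩, rfl⟩
    · exact heW x
    · rw [← hwW]
      exact Submodule.subset_span ⟨x, rfl⟩
  haveI : Module.Finite K W := Module.Finite.iff_fg.2 hWfg
  apply Submodule.eq_of_le_of_finrank_eq hle
  rw [finrank_span_eq_card horth.linearIndependent, hcard]
  have h1 := finrank_span_eq_card hw.linearIndependent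
  rw [hwW, Fintype.card_fin] at h1
  exact h1.symm

end PreRed

end Fermat.Agent.Ord
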