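import Fermat.Agent.Ord.PreRed

/-!
# Best approximation by `p`-th powers
-/

set_option autoImplicit false
set_option linter.unusedSectionVars false
set_option linter.style.haveILetI false

open Finset

namespace Fermat.Agent.Ord

namespace PreRed

variable {K k : Type*} [Field K] [Field k] {A : ValuationSubring K} {π : A →+* k}
  {F κ : Type*} [Field F] [Algebra K F] [CommRing κ] [Algebra k κ] {R : PreRed A π F κ}

/-- **General approximation lemma**: `f = ∑ t_k ^ p e_k + ∑ μ_α t ^ α w_α + c r` where the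
reduction of `r` is not in the span of the reductions of the `e_k` (or `c = 0`). -/
theorem solveGen [IsAlgClosed K] {p : ℕ} (hp : 0 < p) {n : ℕ}
    {e : Fin n → F} {eb : Fin n → κ} (he : Orth R e eb) {W : Submodule K F} (hW : R.OrthOn W)
    (heW : ∀ i, e i ∈ W) (T : Finset (Fin n → ℕ)) (hT : ∀ α ∈ T, ∑ i, α i ≤ p)
    (μ : (Fin n → ℕ) → A) (hμ : ∀ α ∈ T, π (μ α) = 0) (w : (Fin n → ℕ) → F)
    (hw : ∀ α ∈ T, w α ∈ W) (hwO : ∀ α ∈ T, w α ∈ R.O) {f : F} (hf : f ∈ W) (hfO : f ∈ R.O) :
    ∃ (t : Fin n → A) (c : A) (r : F) (ρ : κ), R.IsRed r ρ ∧ r ∈ W ∧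
      f = ∑ i, algebraMap K F (t i ^ p : A) * e i +
        ∑ α ∈ T, algebraMap K F (μ α * ∏ i, t i ^ α i : A) * w α + algebraMap K F c * r ∧
      (c = 0 ∨ ρ ∉ Submodule.span k (Set.range eb)) := by
  classical
  obtain ⟨J, _, E, Eb, i, hi, hE, hiE, hiEb, hspan⟩ := hW.exists_extend he heW
  let φ : A →+* F := (algebraMap K F).comp A.subtype
  -- coordinates
  obtain ⟨fc, hfc⟩ := hE.exists_coord (by rw [hspan]; exact hf) hfO
  have hwc : ∀ α : Fin n → ℕ, ∃ a : J → A, α ∈ T → w α = ∑ j, algebraMap K F (a j) * E j := by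
    intro α
    by_cases hα : α ∈ T
    · obtain ⟨a, ha⟩ := hE.exists_coord (by rw [hspan]; exact hw α hα) (hwO α hα)
      exact ⟨a, fun _ => ha⟩
    · exact ⟨0, fun h => absurd h hα⟩
  choose a ha using hwc
  -- the system
  let Q : Fin n → MvPolynomial (Fin n) A := fun l => ∑ α ∈ T,
    MvPolynomial.monomial (Finsupp.equivFunOnFinite.symm α) (μ α * a α (i l))
  obtain ⟨t, ht⟩ := exists_zero (π := π) (p := p) R.pi_eq_zero_iff hp Q (by
      intro l
      refine (MvPolynomial.totalDegree_finsetSum _ _).trans (Finset.sup_le fun α hα => ?_)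
      refine (MvPolynomial.totalDegree_monomial_le _ _).trans ?_
      rw [Finsupp.sum_fintype _ _ (fun _ => rfl)]
      exact hT α hα) (by
      intro l
      rw [map_sum]
      refine sum_eq_zero fun α hα => ?_
      rw [MvPolynomial.map_monomial, map_mul, hμ α hα, zero_mul, map_zero]) (fun l => fc (i l))
  have heval : ∀ l, MvPolynomial.eval t (Q l) = ∑ α ∈ T, μ α * (∏ i, t i ^ α i) * a α (i l) := by
    intro l
    rw [map_sum]
    refine sum_congr rfl fun α _ => ?_
    rw [MvPolynomial.eval_monomial, Finsupp.prod_fintype _ _ (fun _ => pow_zero _)]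
    simp only [Finsupp.equivFunOnFinite_symm_apply_apply]
    ring
  -- the remainder
  let g : J → A := fun j => fc j - (∑ l, if i l = j then t l ^ p else 0) -
    ∑ α ∈ T, μ α * (∏ i, t i ^ α i) * a α j
  have hg : ∀ l, g (i l) = 0 := by
    intro l
    have h1 : (∑ l', if i l' = i l then t l' ^ p else 0) = t l ^ p := by
      rw [sum_eq_single l]
      · rw [if_pos rfl]
      · intro l' _ hl'
        rw [if_neg fun h => hl' (hi h)]
      · intro h; exact absurd (mem_univ l) h
    change fc (i l) - _ - _ = 0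
    rw [h1, ← ht l, heval l]
    ring
  have hfeq : f = ∑ i, algebraMap K F (t i ^ p : A) * e i +
      ∑ α ∈ T, algebraMap K F (μ α * ∏ i, t i ^ α i : A) * w α +
      ∑ j, algebraMap K F (g j) * E j := by
    have h1 : ∑ l, algebraMap K F (t l ^ p : A) * e l =
        ∑ j, algebraMap K F ((∑ l, if i l = j then t l ^ p else 0 : A) : K) * E j := by
      have h2 : ∀ j, algebraMap K F ((∑ l, if i l = j then t l ^ p else 0 : A) : K) * E j =
          ∑ l, if i l = j then algebraMap K F (t l ^ p : A) * E j else 0 := by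
        intro j
        rw [show algebraMap K F ((∑ l, if i l = j then t l ^ p else 0 : A) : K) =
          φ (∑ l, if i l = j then t l ^ p else 0) from rfl, map_sum, sum_mul]
        refine sum_congr rfl fun l _ => ?_
        by_cases h : i l = j
        · rw [if_pos h, if_pos h]; rfl
        · rw [if_neg h, if_neg h, map_zero, zero_mul]
      rw [sum_congr rfl fun j _ => h2 j, sum_comm]
      refine sum_congr rfl fun l _ => ?_
      rw [sum_ite_eq, if_pos (mem_univ _), hiE]
    have h3 : ∑ α ∈ T, algebraMap K F (μ α * ∏ i, t i ^ α i : A) * w α =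
        ∑ j, algebraMap K F ((∑ α ∈ T, μ α * (∏ i, t i ^ α i) * a α j : A) : K) * E j := by
      have h2 : ∀ j, algebraMap K F ((∑ α ∈ T, μ α * (∏ i, t i ^ α i) * a α j : A) : K) * E j =
          ∑ α ∈ T, algebraMap K F (μ α * ∏ i, t i ^ α i : A) * (algebraMap K F (a α j) * E j) := by
        intro j
        rw [show algebraMap K F ((∑ α ∈ T, μ α * (∏ i, t i ^ α i) * a α j : A) : K) =
          φ (∑ α ∈ T, μ α * (∏ i, t i ^ α i) * a α j) from rfl, map_sum, sum_mul]
        refine sum_congr rfl fun α _ => ?_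
        rw [map_mul φ, mul_assoc]
        rfl
      rw [sum_congr rfl fun j _ => h2 j, sum_comm]
      refine sum_congr rfl fun α hα => ?_
      rw [← mul_sum, ← ha α hα]
    rw [h1, h3, hfc, ← sum_add_distrib, ← sum_add_distrib]
    refine sum_congr rfl fun j _ => ?_
    rw [← add_mul, ← add_mul, ← map_add, ← map_add]
    congr 2
    simp only [g]
    push_cast
    ring
  by_cases hall : ∀ j, g j = 0
  · refine ⟨t, 0, 0, 0, R.isRed_zero, W.zero_mem, ?_, Or.inl rfl⟩
    rw [mul_zero, add_zero]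
    conv_lhs => rw [hfeq]
    rw [sum_eq_zero (s := univ) (f := fun j => algebraMap K F (g j) * E j), add_zero]
    intro j _
    rw [hall]; simp
  · push Not at hall
    obtain ⟨j1, hj1⟩ := hall
    obtain ⟨j0, -, hj0⟩ := exists_dvd_all A univ g ⟨j1, mem_univ _⟩
    choose q hq using fun j => hj0 j (mem_univ j)
    have hg0 : g j0 ≠ 0 := fun h => hj1 (by rw [hq j1, h, zero_mul])
    have hq0 : q j0 = 1 := mul_left_cancel₀ hg0 ((hq j0).symm.trans (mul_one _).symm)
    have hqi : ∀ l, q (i l) = 0 := by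
      intro l
      have h1 := hq (i l)
      rw [hg l] at h1
      exact (mul_eq_zero.1 h1.symm).resolve_left hg0
    refine ⟨t, g j0, ∑ j, algebraMap K F (q j) * E j, ∑ j, algebraMap k κ (π (q j)) * Eb j,
      hE.isRed_sum' univ q, ?_, ?_, Or.inr ?_⟩
    · rw [← hspan]
      refine Submodule.sum_mem _ fun j _ => ?_
      rw [← Algebra.smul_def]
      exact Submodule.smul_mem _ _ (Submodule.subset_span ⟨j, rfl⟩)
    · conv_lhs => rw [hfeq]
      congr 1
      rw [mul_sum]
      refine sum_congr rfl fun j _ => ?_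
      rw [← mul_assoc, ← map_mul, hq j]
      rfl
    · intro hρ
      have hj0i : j0 ∉ Set.range i := by
        rintro ⟨l, rfl⟩
        rw [hqi l] at hq0
        exact zero_ne_one hq0
      have hnot := hE.indep.notMem_span_image (s := {j0}ᶜ) (x := j0) (by simp)
      apply hnot
      have h1 : Eb j0 = (∑ j, algebraMap k κ (π (q j)) * Eb j) -
          ∑ j ∈ univ.erase j0, algebraMap k κ (π (q j)) * Eb j := by
        rw [← add_sum_erase univ _ (mem_univ j0), hq0, map_one, map_one, one_mul,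
          add_sub_cancel_right]
      rw [h1]
      refine Submodule.sub_mem _ ?_ (Submodule.sum_mem _ fun j hj => ?_)
      · refine Submodule.span_mono ?_ hρ
        rintro _ ⟨l, rfl⟩
        refine ⟨i l, ?_, hiEb l⟩
        rintro h
        exact hj0i ⟨l, h⟩
      · rw [← Algebra.smul_def]
        exact Submodule.smul_mem _ _ (Submodule.subset_span ⟨j, (mem_erase.1 hj).1, rfl⟩)

theorem charP_alg [Nontrivial κ] (_ : PreRed A π F κ) (p : ℕ) [CharP k p] : CharP κ p :=
  charP_of_injective_algebraMap (algebraMap k κ).injective p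

/-- `p`-th powers of an orthonormal family are orthonormal. -/
theorem Orth.pow [Nontrivial κ] [IsReduced κ] {p : ℕ} (hp : p.Prime) [CharP k p]
    (hk : ∀ a : k, ∃ b : k, b ^ p = a) {n : ℕ} {e : Fin n → F} {eb : Fin n → κ}
    (he : Orth R e eb) : Orth R (fun i => e i ^ p) (fun i => eb i ^ p) := by
  haveI : Fact p.Prime := ⟨hp⟩
  haveI := R.charP_alg p
  refine ⟨fun i => (he.isRed i).pow p, ?_⟩
  rw [Fintype.linearIndependent_iff]
  intro c hc i
  choose b hb using hk
  have h1 : (∑ i, b (c i) • eb i) ^ p = 0 := by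
    rw [sum_pow_char p, ← hc]
    refine sum_congr rfl fun i _ => ?_
    rw [smul_pow, hb]
  have h2 : ∑ i, b (c i) • eb i = 0 := IsReduced.eq_zero _ ⟨p, h1⟩
  have h3 := Fintype.linearIndependent_iff.1 he.indep _ h2 i
  rw [← hb (c i), h3, zero_pow hp.ne_zero]

theorem dvd_multinomial {p : ℕ} (hp : p.Prime) {n : ℕ} {α : Fin n → ℕ}
    (hα : ∑ i, α i = p) (h : ∀ i, α i ≠ p) : p ∣ Nat.multinomial univ α := by
  have h1 := Nat.multinomial_spec univ α
  rw [hα] at h1
  have h2 : p ∣ p.factorial := Nat.dvd_factorial hp.pos le_rfl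
  rw [← h1] at h2
  rcases (Nat.Prime.dvd_mul hp).1 h2 with h3 | h3
  · exfalso
    obtain ⟨i, -, hi⟩ := (Prime.dvd_finsetProd_iff hp.prime _).1 h3
    have h4 := (Nat.Prime.dvd_factorial hp).1 hi
    have h5 : α i ≤ p := by
      rw [← hα]
      exact single_le_sum (fun _ _ => Nat.zero_le _) (mem_univ i)
    exact h i (le_antisymm h5 h4)
  · exact h3

theorem prod_pow_mem_pow {V : Submodule K F} {n : ℕ} {e : Fin n → F} (he : ∀ i, e i ∈ V)
    (s : Finset (Fin n)) (α : Fin n → ℕ) : ∏ i ∈ s, e i ^ α i ∈ V ^ ∑ i ∈ s, α i := by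
  classical
  induction s using Finset.induction_on with
  | empty => simp
  | insert a s ha ih =>
    rw [prod_insert ha, sum_insert ha, pow_add]
    exact Submodule.mul_mem_mul (Submodule.pow_mem_pow V (he a) _) ih

theorem sum_piAntidiag_split {M : Type*} [AddCommMonoid M] {p : ℕ} (hp : 0 < p) {n : ℕ}
    (G : (Fin n → ℕ) → M) : ∑ α ∈ (univ : Finset (Fin n)).piAntidiag p, G α =
      ∑ i, G (Pi.single i p) +
        ∑ α ∈ ((univ : Finset (Fin n)).piAntidiag p).filter (fun α => ∀ i, α i ≠ p), G α := by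
  classical
  rw [← sum_filter_not_add_sum_filter _ (fun α : Fin n → ℕ => ∀ i, α i ≠ p)]
  congr 1
  rw [← sum_image (s := univ) (g := fun i => (Pi.single i p : Fin n → ℕ)) (f := G)]
  · refine sum_congr ?_ fun _ _ => rfl
    ext α
    rw [mem_filter, mem_piAntidiag, mem_image]
    constructor
    · rintro ⟨⟨h1, -⟩, h2⟩
      push Not at h2
      obtain ⟨l, hl⟩ := h2
      refine ⟨l, mem_univ _, ?_⟩
      ext j
      by_cases hj : j = l
      · rw [hj, Pi.single_eq_same, hl]
      · rw [Pi.single_eq_of_ne hj]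
        rw [← add_sum_erase univ _ (mem_univ l), hl] at h1
        have h3 : ∑ x ∈ univ.erase l, α x = 0 := by omega
        exact (sum_eq_zero_iff.1 h3 j (mem_erase.2 ⟨hj, mem_univ _⟩)).symm
    · rintro ⟨l, -, rfl⟩
      refine ⟨⟨by simp, fun i _ => mem_univ i⟩, ?_⟩
      push Not
      exact ⟨l, by simp⟩
  · intro i _ j _ hij
    by_contra hne
    have h1 := congrFun hij i
    simp only [Pi.single_eq_same, Pi.single_eq_of_ne hne] at h1
    omega

theorem multinomial_single {n : ℕ} (i : Fin n) (p : ℕ) :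
    Nat.multinomial univ (Pi.single i p : Fin n → ℕ) = 1 := by
  classical
  have h1 := Nat.multinomial_spec univ (Pi.single i p : Fin n → ℕ)
  have h2 : ∏ j, ((Pi.single i p : Fin n → ℕ) j).factorial = p.factorial := by
    rw [prod_eq_single i]
    · rw [Pi.single_eq_same]
    · intro j _ hj
      rw [Pi.single_eq_of_ne hj, Nat.factorial_zero]
    · intro h; exact absurd (mem_univ i) h
  rw [h2, sum_pi_single' , if_pos (mem_univ i)] at h1
  exact Nat.eq_of_mul_eq_mul_left (Nat.factorial_pos p) (h1.trans (mul_one _).symm)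

/-- **Approximation by `p`-th powers.** -/
theorem solve [IsAlgClosed K] [Nontrivial κ] [IsReduced κ] {p : ℕ} (hp : p.Prime) [CharP k p]
    (hk : ∀ a : k, ∃ b : k, b ^ p = a) {V W : Submodule K F} (hV : R.OrthOn V) (hW : R.OrthOn W)
    (hVW : V ^ p ≤ W) {f : F} (hf : f ∈ W) (hfO : f ∈ R.O) :
    ∃ y ∈ V, y ∈ R.O ∧ ∃ (c : A) (r : F) (ρ : κ), R.IsRed r ρ ∧ r ∈ W ∧
      f = y ^ p + algebraMap K F c * r ∧
      (c = 0 ∨ ∀ y' ∈ V, ∀ z, R.IsRed y' z → ρ ≠ z ^ p) := by
  classical
  haveI : Fact p.Prime := ⟨hp⟩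
  haveI := R.charP_alg p
  obtain ⟨n, e, eb, he, heV⟩ := hV
  have heV' : ∀ i, e i ∈ V := fun i => by rw [← heV]; exact Submodule.subset_span ⟨i, rfl⟩
  have hmon : ∀ α : Fin n → ℕ, ∑ i, α i = p → ∏ i, e i ^ α i ∈ W := by
    intro α hα
    have h1 := prod_pow_mem_pow heV' univ α
    rw [hα] at h1
    exact hVW h1
  let T : Finset (Fin n → ℕ) := (univ.piAntidiag p).filter fun α => ∀ i, α i ≠ p
  have hT : ∀ α ∈ T, ∑ i, α i = p ∧ ∀ i, α i ≠ p := by
    intro α hα
    rw [mem_filter, mem_piAntidiag] at hα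
    exact ⟨hα.1.1, hα.2⟩
  obtain ⟨t, c, r, ρ, hr, hrW, hfeq, hor⟩ := solveGen hp.pos (he.pow hp hk) hW
    (fun i => hVW (Submodule.pow_mem_pow V (heV' i) p)) T (fun α hα => (hT α hα).1.le)
    (fun α => (Nat.multinomial univ α : A)) (fun α hα => by
      rw [map_natCast, CharP.cast_eq_zero_iff k p]
      exact dvd_multinomial hp (hT α hα).1 (hT α hα).2)
    (fun α => ∏ i, e i ^ α i) (fun α hα => hmon α (hT α hα).1)
    (fun α _ => prod_mem fun i _ => pow_mem (he.isRed i).mem _) hf hfO
  refine ⟨∑ i, algebraMap K F (t i) * e i, ?_, (he.isRed_sum' univ t).mem, c, r, ρ, hr, hrW, ?_, ?_⟩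
  · refine Submodule.sum_mem _ fun i _ => ?_
    rw [← Algebra.smul_def]
    exact V.smul_mem _ (heV' i)
  · rw [hfeq]
    congr 1
    rw [sum_pow_eq_sum_piAntidiag, sum_piAntidiag_split hp.pos]
    congr 1
    · refine sum_congr rfl fun i _ => ?_
      rw [multinomial_single, prod_eq_single i]
      · rw [Pi.single_eq_same, mul_pow, Nat.cast_one, one_mul, ← map_pow]
        rfl
      · intro j _ hj
        rw [Pi.single_eq_of_ne hj, pow_zero]
      · intro h; exact absurd (mem_univ i) h
    · refine sum_congr rfl fun α _ => ?_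
      push_cast
      simp only [mul_pow, prod_mul_distrib]
      ring
  · rcases hor with h | h
    · exact Or.inl h
    · right
      intro y' hy' z hz hρ
      apply h
      rw [← heV] at hy'
      have h1 := he.red_mem_span hy' hz
      obtain ⟨d, hd⟩ := (Submodule.mem_span_range_iff_exists_fun k).1 h1
      rw [hρ, ← hd, sum_pow_char p]
      refine Submodule.sum_mem _ fun i _ => ?_
      rw [smul_pow]
      exact Submodule.smul_mem _ _ (Submodule.subset_span ⟨i, rfl⟩)

end PreRed

end Fermat.Agent.Ord
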