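import Fermat.Agent.Ord.RRU
import Fermat.Agent.Ord.Solve
import Fermat.Agent.Ord.Pow

/-!
# Kummer classes trivial modulo `w ^ p` at the generic point: the chart computation
-/

set_option autoImplicit false
set_option linter.unusedSectionVars false
set_option linter.style.haveILetI false

open Finset Module IntermediateField Polynomial

namespace Fermat.Agent.Ord

open Fermat.Agent.Red
open Fermat.Agent.GoodRed (IsInt Lm)

section AS

variable {K : Type*} [Field K] {F : Type*} [Field F] [Algebra K F]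

theorem isInt_of_monic_eq {x : F} {n : ℕ} (a : ℕ → F) (ha : ∀ j < n, IsInt K x (a j)) {s : F}
    (h : s ^ n = ∑ j ∈ range n, a j * s ^ j) : IsInt K x s := by
  classical
  let S := integralClosure (Algebra.adjoin K {x}) F
  let q : S[X] := ∑ j ∈ range n, if hj : j < n then C (⟨a j, ha j hj⟩ : S) * X ^ j else 0
  have hq : q.degree < (n : ℕ) := by
    rw [← mem_degreeLT]
    refine Submodule.sum_mem _ fun j hj => ?_
    rw [Finset.mem_range] at hj
    rw [dif_pos hj, mem_degreeLT]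
    exact (degree_C_mul_X_pow_le _ _).trans_lt (by exact_mod_cast hj)
  have hs : IsIntegral S s := by
    refine ⟨X ^ n - q, monic_X_pow_sub hq, ?_⟩
    rw [eval₂_sub, eval₂_pow, eval₂_X, h, sub_eq_zero, eval₂_finsetSum]
    refine sum_congr rfl fun j hj => ?_
    rw [Finset.mem_range] at hj
    rw [dif_pos hj, eval₂_mul, eval₂_pow, eval₂_X, eval₂_C]
    rfl
  exact isIntegral_trans (R := Algebra.adjoin K {x}) (A := S) s hs

/-- Artin-Schreier closure of the spaces `Lm` -/
theorem mem_Lm_of_artinSchreier {x : F} {p b : ℕ} (hp : 2 ≤ p) {z : F}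
    (h : z ^ p - z ∈ Lm K x (p * b)) : z ∈ Lm K x b := by
  rw [GoodRed.mem_Lm] at h ⊢
  obtain ⟨h1, h2⟩ := h
  refine ⟨isInt_of_monic_eq (n := p) (fun j => if j = 0 then z ^ p - z else if j = 1 then 1 else 0)
    (fun j _ => ?_) ?_, isInt_of_monic_eq (n := p) (fun j => if j = 0 then
      x⁻¹ ^ (p * b) * (z ^ p - z) else if j = 1 then x⁻¹ ^ ((p - 1) * b) else 0) (fun j _ => ?_) ?_⟩
  · by_cases hj : j = 0
    · simp only [hj, if_true]; exact h1
    · by_cases hj1 : j = 1
      · simp only [hj1, one_ne_zero, if_true, if_false]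
        exact isIntegral_one
      · simp only [hj, hj1, if_false]; exact isIntegral_zero
  · obtain ⟨m, rfl⟩ : ∃ m, p = m + 1 + 1 := ⟨p - 2, by omega⟩
    rw [sum_range_succ', sum_range_succ', sum_eq_zero]
    · simp
    · intro j _
      simp
  · by_cases hj : j = 0
    · simp only [hj, if_true]; exact h2
    · by_cases hj1 : j = 1
      · simp only [hj1, one_ne_zero, if_true, if_false]
        exact (GoodRed.isInt_self _).pow _
      · simp only [hj, hj1, if_false]; exact isIntegral_zero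
  · obtain ⟨m, rfl⟩ : ∃ m, p = m + 1 + 1 := ⟨p - 2, by omega⟩
    rw [sum_range_succ', sum_range_succ', sum_eq_zero]
    · simp only [if_true, zero_add, pow_zero, mul_one, pow_one, Nat.add_sub_cancel,
        one_ne_zero, if_false]
      rw [mul_pow, ← pow_mul, mul_comm b (m + 1 + 1)]
      have : x⁻¹ ^ ((m + 1 + 1) * b) = x⁻¹ ^ ((m + 1) * b) * x⁻¹ ^ b := by
        rw [← pow_add]; congr 1; ring
      rw [this]
      ring
    · intro j _
      simp

end AS

variable {K k : Type*} [Field K] [Field k] {A : ValuationSubring K} {π : A →+* k}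
  {F Fk : Type*} [Field F] [Algebra K F] [Field Fk] [Algebra k Fk]
  {R : ConstRed A π F Fk} {x : F} {xb : Fk}

theorem isRed_lin {p : ℕ} (hp : p.Prime) {w y s : F} {yb sb : Fk} (hw : R.IsRed w 0)
    (hy : R.IsRed y yb) (hs : R.IsRed s sb) :
    R.IsRed (lin p w y s) (yb ^ (p - 1) * sb) := by
  rw [← lin_zero hp yb sb, lin, lin]
  refine ConstRed.isRed_sum _ fun j _ => ?_
  have hn : R.IsRed ((cdiv p (j + 1) : ℕ) : F) ((cdiv p (j + 1) : ℕ) : Fk) := by
    have := R.isRed_coe ((cdiv p (j + 1) : ℕ) : A)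
    simpa using this
  exact ((hn.mul (hw.pow j)).mul (hy.pow _)).mul (hs.pow _)

theorem one_mem_Lm (b : ℕ) : (1 : F) ∈ Lm K x b := Lm_mono (Nat.zero_le b) Lm_one

theorem Lm_pow_le {b : ℕ} (n : ℕ) : Lm K x b ^ n ≤ Lm K x (n * b) := by
  induction n with
  | zero =>
    rw [Submodule.pow_zero, Nat.zero_mul, Submodule.one_le]
    exact Lm_one
  | succ n ih =>
    rw [Submodule.pow_succ, Nat.succ_mul, Submodule.mul_le]
    intro f hf g hg
    exact Lm_mul (ih hf) hg

theorem eq_one_of_pow_eq_one {p : ℕ} [Fact p.Prime] [CharP Fk p] {z : Fk} (h : z ^ p = 1) :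
    z = 1 := by
  have h1 : (z - 1) ^ p = 0 := by rw [sub_pow_char, h, one_pow, sub_self]
  exact sub_eq_zero.1 (pow_eq_zero_iff (Fact.out : p.Prime).ne_zero |>.1 h1)

variable [IsAlgClosed K] [CharZero K] [IsAlgClosed k]

/-- **The chart computation.** -/
theorem exists_chart_aux (hc : GoodRed.IsCoord R x xb) (hπ : Function.Surjective π) {b : ℕ}
    (hdim : finrank k (Lm k xb b) ≤ finrank K (Lm K x b)) {p : ℕ} [CharP k p] (hp : p.Prime)
    {w : A} (hw : w ^ (p - 1) = -(p : A)) (hπw : π w = 0) {f Y m : F} (hf1 : R.IsRed f 1)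
    (hfL : f ∈ Lm K x (p * b)) (hf : f = Y ^ p * (1 + algebraMap K F w ^ p * m))
    (hm : R.IsRed m 0) :
    ∃ y r s : F, R.IsRed y 1 ∧ R.IsRed r 0 ∧ R.IsRed s 0 ∧ y ∈ Lm K x b ∧ r ∈ Lm K x (p * b) ∧
      f = y ^ p + algebraMap K F w ^ p * r ∧ y - Y = algebraMap K F w * s := by
  classical
  haveI : Fact p.Prime := ⟨hp⟩
  haveI : CharP Fk p := charP_of_injective_algebraMap (algebraMap k Fk).injective p
  haveI := hc.finite
  haveI := hc.finite'
  haveI : FiniteDimensional K (Lm K x b) := GoodRed.finiteDimensional_Lm hc.transK b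
  haveI : FiniteDimensional K (Lm K x (p * b)) := GoodRed.finiteDimensional_Lm hc.transK _
  haveI : FiniteDimensional k (Lm k xb b) := by
    obtain ⟨ι', _, ⟨B'⟩⟩ := GoodRed.exists_redBasis (K := k) hc.trans (F := Fk)
    exact B'.finiteDimensional_Lm b
  have hred : Red.IsCoord R x xb := ⟨hc.isRed, hc.trans, hc.finite, hc.finite', hc.finrank_eq⟩
  have hOrth := PreRed.hasOrth_ofConstRed hred
  -- the constants
  set W : F := algebraMap K F w with hWdef
  have hW0 : R.IsRed W 0 := by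
    have := R.isRed_coe w
    rwa [hπw, map_zero] at this
  have hwK : (w : K) ^ (p - 1) = -(p : K) := by
    have := congrArg (Subtype.val) hw
    push_cast at this
    exact this
  have hW : W ^ (p - 1) = -(p : F) := by
    rw [hWdef, ← map_pow, hwK, map_neg, map_natCast]
  have hw0 : (w : K) ≠ 0 := by
    intro h0
    rw [h0, zero_pow (by have := hp.two_le; omega)] at hwK
    exact (Nat.cast_ne_zero.2 hp.ne_zero : (p : K) ≠ 0) (neg_eq_zero.1 hwK.symm)
  have hWne : W ≠ 0 := (_root_.map_ne_zero _).2 hw0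
  -- `Y` reduces to `1`
  have hden : R.IsRed (1 + W ^ p * m) 1 := by
    have := R.isRed_one.add ((hW0.pow p).mul hm)
    rwa [mul_zero, add_zero] at this
  have hden0 : 1 + W ^ p * m ≠ 0 := hden.ne_zero one_ne_zero
  have hYp : R.IsRed (Y ^ p) 1 := by
    have h1 := hf1.div hden one_ne_zero
    rw [div_one] at h1
    have h2 : f / (1 + W ^ p * m) = Y ^ p := by rw [hf]; field_simp
    rwa [h2] at h1
  have hY : R.IsRed Y 1 := by
    obtain ⟨z, hz⟩ := R.exists_isRed_of_mem (mem_of_pow_mem R.O hp.pos hYp.mem)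
    have := (hz.pow p).unique hYp
    rwa [eq_one_of_pow_eq_one this] at hz
  -- the best approximation
  obtain ⟨y, hyV, hyO, c, r, ρ, hr, hrW, hfeq, hor⟩ := PreRed.solve hp
    (fun a => IsAlgClosed.exists_pow_nat_eq a hp.pos)
    (hOrth (Lm K x b) (Module.Finite.iff_fg.1 inferInstance))
    (hOrth (Lm K x (p * b)) (Module.Finite.iff_fg.1 inferInstance))
    (Lm_pow_le p) hfL hf1.mem
  have hr' : R.IsRed r ρ := hr
  obtain ⟨yb, hyb⟩ := R.exists_isRed_of_mem hyO
  have hρL : ρ ∈ Lm k xb (p * b) := hc.mem_Lm hrW hr'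
  have hbar : yb ^ p + algebraMap k Fk (π c) * ρ = 1 := by
    have h1 := (hyb.pow p).add ((R.isRed_coe c).mul hr')
    rw [← hfeq] at h1
    exact h1.unique hf1
  -- `w ^ p` divides `c`
  obtain ⟨c', hc'⟩ : w ^ p ∣ c := by
    rcases ValuationRing.dvd_total (w ^ p) c with h | ⟨m', hm'⟩
    · exact h
    by_cases hu : IsUnit m'
    · obtain ⟨v, hv⟩ := hu.exists_right_inv
      exact ⟨v, by rw [hm', mul_assoc, hv, mul_one]⟩
    exfalso
    have hπm' : π m' = 0 := (R.pi_eq_zero_iff m').2 hu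
    have hcne : c ≠ 0 := by
      rintro rfl
      rw [zero_mul] at hm'
      exact hw0 (congrArg Subtype.val (pow_eq_zero_iff hp.ne_zero |>.1 hm'))
    have hor' := hor.resolve_left hcne
    by_cases hcu : IsUnit c
    · -- `c` is a unit
      have hπc : π c ≠ 0 := fun h0 => (R.pi_eq_zero_iff c).1 h0 hcu
      obtain ⟨e, he⟩ := IsAlgClosed.exists_pow_nat_eq ((π c)⁻¹) hp.pos
      obtain ⟨a, ha⟩ := hπ e
      refine hor' (algebraMap K F a * (1 - y)) ?_ (algebraMap k Fk e * (1 - yb)) ?_ ?_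
      · rw [← Algebra.smul_def]
        exact Submodule.smul_mem _ _ (Submodule.sub_mem _ (one_mem_Lm b) hyV)
      · have h1 := (R.isRed_coe a).mul (R.isRed_one.sub hyb)
        rw [ha] at h1
        exact h1
      · rw [mul_pow, ← map_pow, he, sub_pow_char, one_pow, ← hbar]
        have h1 : algebraMap k Fk (π c) ≠ 0 := (_root_.map_ne_zero _).2 hπc
        rw [map_inv₀]
        field_simp
        ring
    · -- `c` is not a unit: the power lemma
      have hπc : π c = 0 := (R.pi_eq_zero_iff c).2 hcu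
      rw [hπc, map_zero, zero_mul, add_zero] at hbar
      have hy1 : R.IsRed y 1 := by rwa [eq_one_of_pow_eq_one hbar] at hyb
      have hy0 : y ≠ 0 := hy1.ne_zero one_ne_zero
      have hu1 : R.IsRed ((r / y ^ p - algebraMap K F m' * m) / (1 + W ^ p * m)) ρ := by
        have h1 := ((hr'.div (hy1.pow p) (by rw [one_pow]; exact one_ne_zero)).sub
          ((R.isRed_coe m').mul hm)).div hden one_ne_zero
        rwa [one_pow, div_one, hπm', map_zero, mul_zero, sub_zero, div_one] at h1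
      have hWc : W ^ p = algebraMap K F c * algebraMap K F m' := by
        rw [hWdef, ← map_pow, ← map_mul]
        congr 1
        exact congrArg Subtype.val hm'
      obtain ⟨z, hz⟩ := exists_pow_eq_red R hp hwK (c := c)
        (fun h0 => hcne (Subtype.ext h0)) c.2 hπm' (congrArg Subtype.val hm') (g := Y / y) hu1 (by
          have h2 : Y ^ p = f / (1 + W ^ p * m) := by rw [hf]; field_simp
          rw [div_pow, h2, hfeq]
          have hyp0 : y ^ p ≠ 0 := pow_ne_zero _ hy0
          field_simp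
          rw [hWc]
          ring)
      have hzL : z ∈ Lm k xb b := mem_Lm_of_pow hp.pos (by rw [hz]; exact hρL)
      obtain ⟨y', hy'V, hy'z⟩ := hc.exists_lift hπ (Lm K x b) (Lm k xb b)
        (fun g hg gb hgb => hc.mem_Lm hg hgb) hdim hzL
      exact hor' y' hy'V z hy'z hz.symm
  -- the Artin-Schreier step
  have hπc : π c = 0 := by rw [hc', map_mul, map_pow, hπw, zero_pow hp.ne_zero, zero_mul]
  rw [hπc, map_zero, zero_mul, add_zero] at hbar
  have hy1 : R.IsRed y 1 := by rwa [eq_one_of_pow_eq_one hbar] at hyb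
  have hy0 : y ≠ 0 := hy1.ne_zero one_ne_zero
  obtain ⟨r1, hr1def⟩ : ∃ r1, r1 = algebraMap K F c' * r := ⟨_, rfl⟩
  have hr1 : R.IsRed r1 (algebraMap k Fk (π c') * ρ) := by
    rw [hr1def]; exact (R.isRed_coe c').mul hr'
  have hr1L : r1 ∈ Lm K x (p * b) := by
    rw [hr1def, ← Algebra.smul_def]; exact Submodule.smul_mem _ _ hrW
  have hfeq1 : f = y ^ p + W ^ p * r1 := by
    rw [hfeq, hr1def, ← mul_assoc]
    congr 2
    rw [hWdef, ← map_pow, ← map_mul]
    congr 1
    exact congrArg Subtype.val hc'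
  obtain ⟨ρ1, hρ1⟩ : ∃ ρ1, ρ1 = algebraMap k Fk (π c') * ρ := ⟨_, rfl⟩
  rw [← hρ1] at hr1
  have hρ1L : ρ1 ∈ Lm k xb (p * b) := hc.mem_Lm hr1L hr1
  obtain ⟨t, ht⟩ : ∃ t, t = (r1 / y ^ p - m) / (1 + W ^ p * m) := ⟨_, rfl⟩
  have htr : R.IsRed t ρ1 := by
    have h1 := ((hr1.div (hy1.pow p) (by rw [one_pow]; exact one_ne_zero)).sub hm).div hden
      one_ne_zero
    rw [ht]
    rwa [one_pow, div_one, sub_zero, div_one] at h1
  obtain ⟨v, hv⟩ : ∃ v, v = (Y / y - 1) / W := ⟨_, rfl⟩
  have hg : Y / y = 1 + W * v := by rw [hv, mul_div_cancel₀ _ hWne]; ring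
  have hgp : (Y / y) ^ p = 1 + W ^ p * t := by
    have h2 : Y ^ p = f / (1 + W ^ p * m) := by rw [hf]; field_simp
    rw [div_pow, h2, hfeq1, ht]
    have hyp0 : y ^ p ≠ 0 := pow_ne_zero _ hy0
    field_simp
    ring
  have hvp : v ^ p = t + lin p W 1 v := by
    rw [hg, add_mul_pow hp hW, one_pow] at hgp
    have h1 : W ^ p * (v ^ p - lin p W 1 v) = W ^ p * t := by linear_combination hgp
    have h2 := mul_left_cancel₀ (pow_ne_zero p hWne) h1
    linear_combination h2
  have hvO : v ∈ R.O := by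
    refine mem_of_monic_eq R.O hp.pos (fun j => if j = 0 then t else
      (cdiv p (j - 1 + 1) : F) * W ^ (j - 1)) (fun j _ => ?_) ?_
    · by_cases hj : j = 0
      · simp only [hj, if_true]; exact htr.mem
      · simp only [hj, if_false]
        exact mul_mem (natCast_mem _ _) (pow_mem hW0.mem _)
    · have h3 : range p = range ((p - 1) + 1) := by
        congr 1
        have := hp.pos
        omega
      rw [h3, sum_range_succ', hvp, add_comm, lin]
      simp only [Nat.add_eq_zero_iff, one_ne_zero, and_false, if_false, if_true, pow_zero, mul_one,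
        Nat.add_sub_cancel, one_pow]
  obtain ⟨vb, hvb⟩ := R.exists_isRed_of_mem hvO
  have hAS : vb ^ p - vb = ρ1 := by
    have h1 := (hvb.pow p)
    rw [hvp] at h1
    have h2 := htr.add (isRed_lin hp hW0 R.isRed_one hvb)
    have h3 := h1.unique h2
    rw [one_pow, one_mul] at h3
    linear_combination h3
  have hvbL : vb ∈ Lm k xb b := mem_Lm_of_artinSchreier hp.two_le (by rw [hAS]; exact hρ1L)
  obtain ⟨v1, hv1L, hv1⟩ := hc.exists_lift hπ (Lm K x b) (Lm k xb b)
    (fun g hg gb hgb => hc.mem_Lm hg hgb) hdim hvbL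
  have hWsmul : ∀ g : F, W * g = (w : K) • g := fun g => (Algebra.smul_def _ _).symm
  refine ⟨y + W * v1, r1 - v1 ^ p + lin p W y v1, v1 - y * v, ?_, ?_, ?_, ?_, ?_, ?_, ?_⟩
  · have := hy1.add (hW0.mul hv1)
    rwa [zero_mul, add_zero] at this
  · have h1 := (hr1.sub (hv1.pow p)).add (isRed_lin hp hW0 hy1 hv1)
    rw [one_pow, one_mul] at h1
    have h2 : ρ1 - vb ^ p + vb = 0 := by rw [← hAS]; ring
    rwa [h2] at h1
  · have := hv1.sub (hy1.mul hvb)
    rwa [one_mul, sub_self] at this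
  · rw [hWsmul]
    exact Submodule.add_mem _ hyV (Submodule.smul_mem _ _ hv1L)
  · refine Submodule.add_mem _ (Submodule.sub_mem _ hr1L (Lm_pow hv1L p)) ?_
    rw [lin]
    refine Submodule.sum_mem _ fun j hj => ?_
    rw [mem_range] at hj
    have h1 : (cdiv p (j + 1) : F) * W ^ j * y ^ (p - 1 - j) * v1 ^ (j + 1) =
        ((cdiv p (j + 1) : K) * (w : K) ^ j) • (y ^ (p - 1 - j) * v1 ^ (j + 1)) := by
      rw [Algebra.smul_def, map_mul, map_natCast, map_pow]
      ring
    rw [h1]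
    refine Submodule.smul_mem _ _ ?_
    have h2 := Lm_mul (Lm_pow hyV (p - 1 - j)) (Lm_pow hv1L (j + 1))
    have h3 : (p - 1 - j) * b + (j + 1) * b = p * b := by
      rw [← add_mul]
      congr 1
      omega
    rwa [h3] at h2
  · rw [hfeq1, add_mul_pow hp hW]
    ring
  · have h1 : Y = y + W * (y * v) := by
      have h2 : Y = y * (Y / y) := by field_simp
      rw [h2, hg]
      ring
    rw [h1]
    ring

/-- **The chart computation**, general form. -/
theorem exists_chart [FF.IsFnField K F] [FF.IsFnField k Fk] (hc : GoodRed.IsCoord R x xb)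
    (hπ : Function.Surjective π)
    (hdim : ∃ b0, ∀ b ≥ b0, finrank k (Lm k xb b) ≤ finrank K (Lm K x b)) {p : ℕ} [CharP k p]
    (hp : p.Prime) {w : A} (hw : w ^ (p - 1) = -(p : A)) (hπw : π w = 0) {f Y m : F}
    (hf1 : R.IsRed f 1) (hdiv : ∀ P : AlgebraicCurve.Place K F, (p : ℤ) ∣ P.ord f)
    (hf : f = Y ^ p * (1 + algebraMap K F w ^ p * m)) (hm : R.IsRed m 0) :
    ∃ (u y r s : F) (b : ℕ), R.IsRed u 1 ∧ R.IsRed y 1 ∧ R.IsRed r 0 ∧ R.IsRed s 0 ∧
      y ∈ Lm K x b ∧ r ∈ Lm K x (p * b) ∧ u ^ p * f = y ^ p + algebraMap K F w ^ p * r ∧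
      y - u * Y = algebraMap K F w * s := by
  obtain ⟨u, hu, b1, hb1⟩ := exists_unit hc hπ hdim hp.pos hf1 hdiv
  obtain ⟨b0, hb0⟩ := hdim
  have h1 := (hu.pow p).mul hf1
  rw [one_pow, one_mul] at h1
  obtain ⟨y, r, s, h2, h3, h4, h5, h6, h7, h8⟩ := exists_chart_aux hc hπ (b := max b0 b1)
    (hb0 _ (le_max_left _ _)) hp hw hπw (f := u ^ p * f) (Y := u * Y) (m := m) h1
    (Lm_mono (Nat.mul_le_mul_left p (le_max_right _ _)) hb1) (by rw [hf]; ring) hm
  exact ⟨u, y, r, s, _, hu, h2, h3, h4, h5, h6, h7, h8⟩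

end Fermat.Agent.Ord
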