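import Fermat.Agent.Ord.Pow
import Fermat.Agent.ESh.NormRed
import Fermat.Agent.FFM.LaurentInt
import Fermat.Agent.Top.HeckeNorm
import Mathlib.RingTheory.AdicCompletion.Completeness
import Mathlib.RingTheory.Henselian

/-!
# The Hecke norm on Laurent series, its contraction property, and integral closedness
-/

set_option autoImplicit false
set_option linter.unusedSectionVars false
set_option linter.style.haveILetI false

noncomputable section

open Finset ModularCurve Fermat.Agent.ModFn Fermat.Agent.Red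
open scoped nonZeroDivisors

namespace Fermat.Agent.Ord

/-! ## The operator `TT` -/

section TT

variable {R S : Type*} [CommRing R] [CommRing S] (p : ℕ) [NeZero p]

/-- the product `f(q^(p^2)) ∏ f(ζ^i q)` -/
def TX (ζ : Rˣ) (f : LaurentSeries R) : LaurentSeries R :=
  qExpand R (p ^ 2) f * ∏ i ∈ Finset.range p, twist (ζ ^ i) f

/-- the Hecke norm `f(q^p) ∏ f(ζ^i q^(1/p))` -/
def TT (ζ : Rˣ) (f : LaurentSeries R) : LaurentSeries R := contract p (TX p ζ f)

theorem contract_add (x y : LaurentSeries R) :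
    contract p (x + y) = contract p x + contract p y := by
  ext n
  simp

theorem contract_C_mul (c : R) (x : LaurentSeries R) :
    contract p (HahnSeries.C c * x) = HahnSeries.C c * contract p x := by
  ext n
  simp

theorem coeffMap_contract (φ : R →+* S) (x : LaurentSeries R) :
    coeffMap φ (contract p x) = contract p (coeffMap φ x) := by
  ext n
  simp

variable {p}

/-- the root of unity `ζ` is primitive in the naive sense -/
def PrimU (p : ℕ) (ζ : Rˣ) : Prop := ζ ^ p = 1 ∧ ∀ n : ℤ, ζ ^ n = 1 → (p : ℤ) ∣ n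

theorem PrimU.of_isPrimitiveRoot {ζ : Rˣ} (h : IsPrimitiveRoot (ζ : R) p) : PrimU p ζ := by
  rw [IsPrimitiveRoot.coe_units_iff] at h
  exact ⟨h.pow_eq_one, fun n hn => (h.zpow_eq_one_iff_dvd n).1 hn⟩

theorem TX_mul (ζ : Rˣ) (f g : LaurentSeries R) : TX p ζ (f * g) = TX p ζ f * TX p ζ g := by
  simp only [TX, map_mul, Finset.prod_mul_distrib]
  ring

theorem TX_one (ζ : Rˣ) : TX p ζ (1 : LaurentSeries R) = 1 := by
  simp [TX]

theorem map_TX (φ : R →+* S) (ζ : Rˣ) (f : LaurentSeries R) :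
    coeffMap φ (TX p ζ f) = TX p (Units.map φ.toMonoidHom ζ) (coeffMap φ f) := by
  rw [TX, TX, map_mul, ModFn.coeffMap_qExpand, map_prod]
  congr 1
  refine Finset.prod_congr rfl fun i _ => ?_
  rw [coeffMap_twist, map_pow]

theorem map_TT (φ : R →+* S) (ζ : Rˣ) (f : LaurentSeries R) :
    coeffMap φ (TT p ζ f) = TT p (Units.map φ.toMonoidHom ζ) (coeffMap φ f) := by
  rw [TT, coeffMap_contract, map_TX, TT]

theorem twist_TX {ζ : Rˣ} (hζ : ζ ^ p = 1) (f : LaurentSeries R) :
    twist ζ (TX p ζ f) = TX p ζ f := by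
  rw [TX, map_mul, map_prod]
  have h1 : twist ζ (qExpand R (p ^ 2) f) = qExpand R (p ^ 2) f := by
    apply ESh.twist_qExpand
    rw [pow_two, pow_mul, hζ, one_pow]
  rw [h1]
  congr 1
  have h2 : ∀ i ∈ Finset.range p, twist ζ (twist (ζ ^ i) f) = twist (ζ ^ (i + 1)) f := by
    intro i _
    rw [twist_twist, pow_succ, mul_comm]
  rw [Finset.prod_congr rfl h2]
  have h3 := Finset.prod_range_succ (fun i => twist (ζ ^ i) f) p
  have h4 := Finset.prod_range_succ' (fun i => twist (ζ ^ i) f) p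
  obtain ⟨m, hm⟩ : ∃ m, p = m + 1 := ⟨p - 1, by have := NeZero.pos p; omega⟩
  subst hm
  rw [Finset.prod_range_succ, hζ, Finset.prod_range_succ' (fun i => twist (ζ ^ i) f) m, pow_zero]

theorem TX_coeff [IsDomain R] {ζ : Rˣ} (hζ : PrimU p ζ) (f : LaurentSeries R) {n : ℤ}
    (hn : ¬ (p : ℤ) ∣ n) : (TX p ζ f).coeff n = 0 := by
  have h1 := congrArg (fun x : LaurentSeries R => x.coeff n) (twist_TX hζ.1 f)
  simp only [twist_coeff] at h1
  have h2 : (((ζ ^ n : Rˣ) : R) - 1) * (TX p ζ f).coeff n = 0 := by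
    rw [sub_mul, h1, one_mul, sub_self]
  rcases mul_eq_zero.1 h2 with h | h
  · exact absurd (hζ.2 n (Units.ext (by rw [sub_eq_zero.1 h, Units.val_one]))) hn
  · exact h

/-- the characterisation of `TT` -/
theorem qExpand_TT [IsDomain R] {ζ : Rˣ} (hζ : PrimU p ζ) (f : LaurentSeries R) :
    qExpand R p (TT p ζ f) = TX p ζ f :=
  qExpand_contract fun _ hn => TX_coeff hζ f hn

theorem TT_eq_of [IsDomain R] {ζ : Rˣ} (hζ : PrimU p ζ) {f g : LaurentSeries R}
    (h : qExpand R p g = TX p ζ f) : TT p ζ f = g :=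
  qExpand_injective (R := R) p (by rw [qExpand_TT hζ, h])

theorem TT_one (ζ : Rˣ) : TT p ζ (1 : LaurentSeries R) = 1 := by
  rw [TT, TX_one]
  have h1 : (1 : LaurentSeries R) = qExpand R p 1 := (map_one _).symm
  rw [h1, contract_qExpand]
  exact h1

theorem TT_mul [IsDomain R] {ζ : Rˣ} (hζ : PrimU p ζ) (f g : LaurentSeries R) :
    TT p ζ (f * g) = TT p ζ f * TT p ζ g :=
  TT_eq_of hζ (by rw [map_mul, qExpand_TT hζ, qExpand_TT hζ, TX_mul])

theorem TT_pow [IsDomain R] {ζ : Rˣ} (hζ : PrimU p ζ) (f : LaurentSeries R) (n : ℕ) :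
    TT p ζ (f ^ n) = TT p ζ f ^ n := by
  induction n with
  | zero => rw [pow_zero, pow_zero, TT_one]
  | succ n ih => rw [pow_succ, pow_succ, TT_mul hζ, ih]

theorem TT_iterate_mul [IsDomain R] {ζ : Rˣ} (hζ : PrimU p ζ) (f g : LaurentSeries R) (m : ℕ) :
    (TT p ζ)^[m] (f * g) = (TT p ζ)^[m] f * (TT p ζ)^[m] g := by
  induction m with
  | zero => rfl
  | succ m ih => rw [Function.iterate_succ_apply', Function.iterate_succ_apply',
      Function.iterate_succ_apply', ih, TT_mul hζ]

theorem TT_iterate_one (ζ : Rˣ) (m : ℕ) : (TT p ζ)^[m] (1 : LaurentSeries R) = 1 := by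
  induction m with
  | zero => rfl
  | succ m ih => rw [Function.iterate_succ_apply', ih, TT_one]

theorem TT_iterate_pow [IsDomain R] {ζ : Rˣ} (hζ : PrimU p ζ) (f : LaurentSeries R) (n m : ℕ) :
    (TT p ζ)^[m] (f ^ n) = (TT p ζ)^[m] f ^ n := by
  induction m with
  | zero => rfl
  | succ m ih => rw [Function.iterate_succ_apply', Function.iterate_succ_apply', ih, TT_pow hζ]

theorem TT_zero [IsDomain R] {ζ : Rˣ} (hζ : PrimU p ζ) : TT p ζ (0 : LaurentSeries R) = 0 :=
  TT_eq_of hζ (by simp [TX])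

theorem TX_ne_zero [IsDomain R] {ζ : Rˣ} {f : LaurentSeries R} (hf : f ≠ 0) :
    TX p ζ f ≠ 0 := by
  have h1 : qExpand R (p ^ 2) f ≠ 0 := fun h =>
    hf (qExpand_injective (R := R) (p ^ 2) (h.trans (map_zero _).symm))
  have h2 : ∏ i ∈ Finset.range p, twist (ζ ^ i) f ≠ 0 := by
    rw [Finset.prod_ne_zero_iff]
    intro i _ h
    exact hf (twist_injective _ (h.trans (map_zero _).symm))
  exact mul_ne_zero h1 h2

theorem TT_ne_zero [IsDomain R] {ζ : Rˣ} (hζ : PrimU p ζ) {f : LaurentSeries R} (hf : f ≠ 0) :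
    TT p ζ f ≠ 0 := by
  intro h
  have h1 := qExpand_TT hζ f
  rw [h, map_zero] at h1
  exact TX_ne_zero hf h1.symm

theorem twist_C (ζ : Rˣ) (c : R) : twist ζ (HahnSeries.C c : LaurentSeries R) = HahnSeries.C c := by
  ext n
  rw [twist_coeff]
  by_cases hn : n = 0
  · subst hn
    simp
  · simp [HahnSeries.coeff_single_of_ne hn]

theorem TT_C [IsDomain R] {ζ : Rˣ} (hζ : PrimU p ζ) (c : R) :
    TT p ζ (HahnSeries.C c : LaurentSeries R) = HahnSeries.C c ^ (p + 1) := by
  apply TT_eq_of hζ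
  rw [TX, qExpand_C, map_pow, qExpand_C]
  simp only [twist_C, Finset.prod_const, Finset.card_range]
  rw [pow_succ, mul_comm]

end TT

section TTField

open Fermat.Agent.Top

variable {K : Type*} [Field K] {p : ℕ} [NeZero p]

theorem TT_cst {ζ : Kˣ} (hζ : PrimU p ζ) (c : K) :
    TT p ζ (algebraMap K (LaurentSeries K) c) = algebraMap K (LaurentSeries K) (c ^ (p + 1)) := by
  rw [algebraMap_eq_C, algebraMap_eq_C, TT_C hζ, map_pow]

theorem TT_inv {ζ : Kˣ} (hζ : PrimU p ζ) (f : LaurentSeries K) : TT p ζ f⁻¹ = (TT p ζ f)⁻¹ := by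
  by_cases hf : f = 0
  · rw [hf, inv_zero, TT_zero hζ, inv_zero]
  · have h1 := TT_mul hζ f f⁻¹
    rw [mul_inv_cancel₀ hf, TT_one] at h1
    exact (inv_eq_of_mul_eq_one_right h1.symm).symm

theorem TT_div {ζ : Kˣ} (hζ : PrimU p ζ) (f g : LaurentSeries K) :
    TT p ζ (f / g) = TT p ζ f / TT p ζ g := by
  rw [div_eq_mul_inv, TT_mul hζ, TT_inv hζ, div_eq_mul_inv]

theorem isHeckeNorm_iff {ζ : Kˣ} (hζ : PrimU p ζ) {u u' : LaurentSeries K} :
    IsHeckeNorm p ζ u u' ↔ u' = TT p ζ u := by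
  constructor
  · intro h
    exact (TT_eq_of hζ h).symm
  · rintro rfl
    exact qExpand_TT hζ u

end TTField

/-! ## The contraction property -/

section Contraction

theorem prod_add_mul {S S' : Type*} [CommRing S] [CommRing S'] (φ : S →+* S') {c : S}
    (hc : φ c = 0) (x y : ℕ → S) {X Y : S'} (hx : ∀ i, φ (x i) = X) (hy : ∀ i, φ (y i) = Y)
    (n : ℕ) : ∃ E : S, ∏ i ∈ Finset.range n, (x i + c * y i) =
      ∏ i ∈ Finset.range n, x i + c * E ∧ φ E = n * Y * X ^ (n - 1) := by
  induction n with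
  | zero => exact ⟨0, by simp, by simp⟩
  | succ n ih =>
    obtain ⟨E, h1, h2⟩ := ih
    refine ⟨E * (x n + c * y n) + (∏ i ∈ Finset.range n, x i) * y n, ?_, ?_⟩
    · rw [Finset.prod_range_succ, h1, Finset.prod_range_succ]
      ring
    · rw [map_add, map_mul, map_mul, map_prod, map_add, map_mul, hc, h2, hx, hy]
      simp only [hx, Finset.prod_const, Finset.card_range]
      rcases Nat.eq_zero_or_pos n with rfl | hn
      · simp
      · obtain ⟨m, rfl⟩ : ∃ m, n = m + 1 := ⟨n - 1, by omega⟩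
        simp only [Nat.add_sub_cancel]
        push_cast
        ring

variable {K k : Type*} [Field K] [Field k] {A : ValuationSubring K} {π : A →+* k} {p : ℕ}

/-- roots of unity are in the valuation ring -/
theorem zeta_mem {ζ : Kˣ} (hp : p.Prime) (hζ : ζ ^ p = 1) : (ζ : K) ∈ A := by
  refine mem_of_pow_mem A hp.pos ?_
  rw [← Units.val_pow_eq_pow_val, hζ, Units.val_one]
  exact A.one_mem

/-- the root of unity as a unit of `A` -/
theorem exists_zetaA {ζ : Kˣ} (hp : p.Prime) (hζ : ζ ^ p = 1) [CharP k p] (π : A →+* k) :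
    ∃ ζA : Aˣ, Units.map A.subtype.toMonoidHom ζA = ζ ∧ ζA ^ p = 1 ∧
      Units.map π.toMonoidHom ζA = 1 := by
  have hp0 : p ≠ 0 := hp.ne_zero
  have h1 : (⟨(ζ : K), zeta_mem hp hζ⟩ : A) ^ p = 1 := Subtype.ext (by
    rw [SubmonoidClass.coe_pow]
    change (ζ : K) ^ p = 1
    rw [← Units.val_pow_eq_pow_val, hζ, Units.val_one])
  haveI : Fact p.Prime := ⟨hp⟩
  refine ⟨Units.ofPowEqOne _ p h1 hp0, Units.ext rfl, Units.ext h1, Units.ext ?_⟩
  change π ⟨(ζ : K), zeta_mem hp hζ⟩ = 1
  have h2 : (π ⟨(ζ : K), zeta_mem hp hζ⟩) ^ p = 1 := by rw [← map_pow, h1, map_one]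
  have h3 : (π ⟨(ζ : K), zeta_mem hp hζ⟩ - 1) ^ p = 0 := by
    rw [sub_pow_char, h2, one_pow, sub_self]
  exact sub_eq_zero.1 (pow_eq_zero_iff hp0 |>.1 h3)

theorem TT_iota [NeZero p] {ζ : Kˣ} {ζA : Aˣ} (h : Units.map A.subtype.toMonoidHom ζA = ζ)
    (x : LaurentSeries A) : TT p ζ (iotaA A x) = iotaA A (TT p ζA x) := by
  rw [iotaA, map_TT, h]

theorem contract_rho [NeZero p] [Fact p.Prime] [CharP k p] (x y : LaurentSeries k) :
    contract p (qExpand k (p ^ 2) x * y ^ p) =
      qExpand k p x * coeffMap (frobenius k p) y := by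
  rw [ESh.pow_eq_qExpand p y]
  have h1 : qExpand k (p ^ 2) x = qExpand k p (qExpand k p x) := by
    rw [qExpand_qExpand]
    exact qExpand_congr (by rw [pow_two]) x
  rw [h1, ← map_mul, contract_qExpand]

theorem TX_rho [NeZero p] [hp : Fact p.Prime] [CharP k p] {ζA : Aˣ}
    (h : Units.map π.toMonoidHom ζA = 1) (x : LaurentSeries A) :
    rhoA π (TX p ζA x) = qExpand k (p ^ 2) (rhoA π x) * (rhoA π x) ^ p := by
  rw [rhoA, map_TX, h, TX]
  simp only [one_pow, twist_one, Finset.prod_const, Finset.card_range]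

theorem TT_rho [NeZero p] [hp : Fact p.Prime] [CharP k p] {ζA : Aˣ}
    (h : Units.map π.toMonoidHom ζA = 1) (x : LaurentSeries A) :
    rhoA π (TT p ζA x) = qExpand k p (rhoA π x) * coeffMap (frobenius k p) (rhoA π x) := by
  rw [TT, rhoA, coeffMap_contract]
  have := TX_rho (p := p) h x
  rw [rhoA] at this
  rw [this, contract_rho]

theorem TT_contract_aux [NeZero p] [hp : Fact p.Prime] [CharP k p] {ζA : Aˣ}
    (h : Units.map π.toMonoidHom ζA = 1) {c : A} (hc : π c = 0) (a b : LaurentSeries A) :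
    ∃ E : LaurentSeries A, TT p ζA (b + HahnSeries.C c * a) =
      TT p ζA b + HahnSeries.C c * E ∧
      rhoA π E = qExpand k p (rhoA π a) * coeffMap (frobenius k p) (rhoA π b) := by
  have hcρ : rhoA π (HahnSeries.C c) = 0 := by
    rw [rhoA, coeffMap_single_zero, hc, map_zero]
  have htw : ∀ (x : LaurentSeries A) (i : ℕ), rhoA π (twist (ζA ^ i) x) = rhoA π x := by
    intro x i
    rw [rhoA, coeffMap_twist, map_pow, h, one_pow, twist_one]
  obtain ⟨E, hE1, hE2⟩ := prod_add_mul (rhoA π) hcρ (fun i => twist (ζA ^ i) b)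
    (fun i => twist (ζA ^ i) a) (htw b) (htw a) p
  have hE3 : rhoA π E = 0 := by
    have h1 : ((p : ℕ) : LaurentSeries k) = 0 := by
      rw [← map_natCast (algebraMap k (LaurentSeries k)), CharP.cast_eq_zero, map_zero]
    rw [hE2, h1, zero_mul, zero_mul]
  have hX : TX p ζA (b + HahnSeries.C c * a) = TX p ζA b + HahnSeries.C c *
      (qExpand A (p ^ 2) a * ∏ i ∈ Finset.range p, twist (ζA ^ i) b +
        qExpand A (p ^ 2) b * E + HahnSeries.C c * (qExpand A (p ^ 2) a * E)) := by
    rw [TX, TX]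
    simp only [map_add, map_mul, twist_C, qExpand_C]
    rw [hE1]
    ring
  refine ⟨contract p (qExpand A (p ^ 2) a * ∏ i ∈ Finset.range p, twist (ζA ^ i) b +
        qExpand A (p ^ 2) b * E + HahnSeries.C c * (qExpand A (p ^ 2) a * E)), ?_, ?_⟩
  · rw [TT, hX, contract_add, contract_C_mul, TT]
  · rw [rhoA, coeffMap_contract]
    have h2 : coeffMap π (qExpand A (p ^ 2) a * ∏ i ∈ Finset.range p, twist (ζA ^ i) b +
        qExpand A (p ^ 2) b * E + HahnSeries.C c * (qExpand A (p ^ 2) a * E)) =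
        qExpand k (p ^ 2) (rhoA π a) * (rhoA π b) ^ p := by
      rw [map_add, map_add, map_mul, map_mul, map_mul, hE3, hcρ, mul_zero, zero_mul, add_zero,
        add_zero, map_prod, ModFn.coeffMap_qExpand]
      congr 1
      rw [Finset.prod_congr rfl (fun i _ => htw b i), Finset.prod_const, Finset.card_range]
    rw [h2, contract_rho]

/-- **contraction** -/
theorem TT_contract [NeZero p] [hp : Fact p.Prime] [CharP k p] {ζ : Kˣ} (hζ : PrimU p ζ)
    {c : A} (hc : π c = 0) {u : LaurentSeries K} {ub : LaurentSeries k} (hu : GRed π u ub) :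
    ∃ u' : LaurentSeries K, TT p ζ (1 + algebraMap K (LaurentSeries K) c * u) =
      1 + algebraMap K (LaurentSeries K) c * u' ∧ GRed π u' (qExpand k p ub) := by
  obtain ⟨ζA, hζA1, hζA2, hζA3⟩ := exists_zetaA hp.out hζ.1 π
  obtain ⟨a, b, hb, h1, h2⟩ := hu
  obtain ⟨E, hE1, hE2⟩ := TT_contract_aux hζA3 hc a b
  have hb0 : b ≠ 0 := by
    rintro rfl
    exact hb (map_zero _)
  have hβ : rhoA π (TT p ζA b) ≠ 0 := by
    rw [TT_rho hζA3]
    refine mul_ne_zero (fun h => hb (qExpand_injective (R := k) p (h.trans (map_zero _).symm)))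
      (fun h => hb (coeffMap_injective (frobenius_inj k p) (h.trans (map_zero _).symm)))
  have hβ0 : iotaA A (TT p ζA b) ≠ 0 := by
    intro h
    have h3 : TT p ζA b = 0 := iotaA_injective (h.trans (map_zero _).symm)
    exact hβ (by rw [h3, map_zero])
  have hcι : iotaA A (HahnSeries.C c) = algebraMap K (LaurentSeries K) c := by
    rw [iotaA, coeffMap_single_zero, algebraMap_eq_C]
    rfl
  refine ⟨iotaA A E / iotaA A (TT p ζA b), ?_, E, TT p ζA b, hβ, ?_, ?_⟩
  · have h3 : (1 + algebraMap K (LaurentSeries K) c * u) * iotaA A b =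
        iotaA A (b + HahnSeries.C c * a) := by
      rw [map_add, map_mul, ← h1, hcι]
      ring
    have h4 := congrArg (TT p ζ) h3
    rw [TT_mul hζ, TT_iota hζA1, TT_iota hζA1, hE1, map_add, map_mul, hcι] at h4
    field_simp
    linear_combination h4
  · field_simp
  · rw [hE2, TT_rho hζA3, ← h2, map_mul]
    ring

theorem TT_contract_iterate [NeZero p] [hp : Fact p.Prime] [CharP k p] {ζ : Kˣ}
    (hζ : PrimU p ζ) {c : A} (hc : π c = 0) {u : LaurentSeries K} {ub : LaurentSeries k}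
    (hu : GRed π u ub) (M : ℕ) :
    ∃ u' : LaurentSeries K, (TT p ζ)^[M] (1 + algebraMap K (LaurentSeries K) c * u) =
      1 + algebraMap K (LaurentSeries K) c * u' ∧ GRed π u' ((qExpand k p)^[M] ub) := by
  induction M with
  | zero => exact ⟨u, rfl, hu⟩
  | succ M ih =>
    obtain ⟨u', h1, h2⟩ := ih
    obtain ⟨u'', h3, h4⟩ := TT_contract hζ hc h2
    refine ⟨u'', ?_, ?_⟩
    · rw [Function.iterate_succ_apply', h1, h3]
    · rw [Function.iterate_succ_apply']
      exact h4

/-- the reduction of `TT` -/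
theorem TT_gRed [NeZero p] [hp : Fact p.Prime] [CharP k p] {ζ : Kˣ} (hζ : PrimU p ζ)
    {f : LaurentSeries K} {z : LaurentSeries k} (h : GRed π f z) :
    GRed π (TT p ζ f) (qExpand k p z * coeffMap (frobenius k p) z) := by
  obtain ⟨ζA, hζA1, hζA2, hζA3⟩ := exists_zetaA hp.out hζ.1 π
  obtain ⟨a, b, hb, h1, h2⟩ := h
  refine ⟨TT p ζA a, TT p ζA b, ?_, ?_, ?_⟩
  · rw [TT_rho hζA3]
    refine mul_ne_zero (fun h => hb (qExpand_injective (R := k) p (h.trans (map_zero _).symm)))
      (fun h => hb (coeffMap_injective (frobenius_inj k p) (h.trans (map_zero _).symm)))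
  · rw [← TT_iota hζA1, ← TT_mul hζ, h1, TT_iota hζA1]
  · rw [TT_rho hζA3, TT_rho hζA3, ← h2, map_mul, map_mul]
    ring

/-- over a perfect field `q ↦ q ^ p` has values in the `p`-th powers -/
theorem exists_pow_eq_qExpand [NeZero p] [hp : Fact p.Prime] [CharP k p]
    (hk : ∀ a : k, ∃ b, b ^ p = a) (z : LaurentSeries k) :
    ∃ z' : LaurentSeries k, z' ^ p = qExpand k p z := by
  have hbij : Function.Bijective (frobenius k p) :=
    ⟨frobenius_inj k p, fun a => by
      obtain ⟨b, hb⟩ := hk a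
      exact ⟨b, by rw [frobenius_def, hb]⟩⟩
  let e : k ≃+* k := RingEquiv.ofBijective (frobenius k p) hbij
  refine ⟨coeffMap (e.symm : k →+* k) z, ?_⟩
  rw [ESh.pow_eq_qExpand p, coeffMap_coeffMap]
  congr 1
  have h1 : (frobenius k p).comp (e.symm : k →+* k) = RingHom.id k := by
    ext a
    exact e.apply_symm_apply a
  rw [coeffMap_congr h1, coeffMap_id]

theorem exists_pow_eq_qExpand_iterate [NeZero p] [hp : Fact p.Prime] [CharP k p]
    (hk : ∀ a : k, ∃ b, b ^ p = a) (z : LaurentSeries k) {M : ℕ} (hM : 0 < M) :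
    ∃ z' : LaurentSeries k, z' ^ p = (qExpand k p)^[M] z := by
  obtain ⟨m, rfl⟩ : ∃ m, M = m + 1 := ⟨M - 1, by omega⟩
  rw [Function.iterate_succ_apply']
  exact exists_pow_eq_qExpand hk _

end Contraction

/-! ## Fractions -/

section Frac

variable {K k : Type*} [Field K] [Field k] {A : ValuationSubring K} {π : A →+* k} {p : ℕ}

variable (A) in
/-- Laurent series which are quotients of series with coefficients in `A` -/
def IsFrac (f : LaurentSeries K) : Prop :=
  ∃ a b : LaurentSeries A, b ≠ 0 ∧ f * iotaA A b = iotaA A a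

variable {f g : LaurentSeries K}

theorem iotaA_ne_zero {b : LaurentSeries A} (hb : b ≠ 0) : iotaA A b ≠ 0 := fun h =>
  hb (iotaA_injective (h.trans (map_zero _).symm))

theorem IsFrac.add (hf : IsFrac A f) (hg : IsFrac A g) : IsFrac A (f + g) := by
  obtain ⟨a, b, hb, h1⟩ := hf
  obtain ⟨a', b', hb', h1'⟩ := hg
  exact ⟨a * b' + a' * b, b * b', mul_ne_zero hb hb', by
    rw [map_mul, map_add, map_mul, map_mul, ← h1, ← h1']; ring⟩

theorem IsFrac.mul (hf : IsFrac A f) (hg : IsFrac A g) : IsFrac A (f * g) := by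
  obtain ⟨a, b, hb, h1⟩ := hf
  obtain ⟨a', b', hb', h1'⟩ := hg
  exact ⟨a * a', b * b', mul_ne_zero hb hb', by rw [map_mul, map_mul, ← h1, ← h1']; ring⟩

theorem IsFrac.neg (hf : IsFrac A f) : IsFrac A (-f) := by
  obtain ⟨a, b, hb, h1⟩ := hf
  exact ⟨-a, b, hb, by rw [map_neg, ← h1]; ring⟩

theorem IsFrac.sub (hf : IsFrac A f) (hg : IsFrac A g) : IsFrac A (f - g) := by
  rw [sub_eq_add_neg]
  exact hf.add hg.neg

variable (A) in
theorem isFrac_iota (a : LaurentSeries A) : IsFrac A (iotaA A a) :=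
  ⟨a, 1, one_ne_zero, by rw [map_one, mul_one]⟩

variable (A) in
theorem isFrac_zero : IsFrac A (0 : LaurentSeries K) := by
  have := isFrac_iota A 0
  rwa [map_zero] at this

variable (A) in
theorem isFrac_one : IsFrac A (1 : LaurentSeries K) := by
  have := isFrac_iota A 1
  rwa [map_one] at this

theorem IsFrac.inv (hf : IsFrac A f) : IsFrac A f⁻¹ := by
  by_cases h0 : f = 0
  · rw [h0, inv_zero]
    exact isFrac_zero A
  obtain ⟨a, b, hb, h1⟩ := hf
  have ha : a ≠ 0 := by
    rintro rfl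
    rw [map_zero] at h1
    exact mul_ne_zero h0 (iotaA_ne_zero hb) h1
  refine ⟨b, a, ha, ?_⟩
  rw [← h1]
  field_simp

theorem IsFrac.div (hf : IsFrac A f) (hg : IsFrac A g) : IsFrac A (f / g) := by
  rw [div_eq_mul_inv]
  exact hf.mul hg.inv

theorem IsFrac.pow (hf : IsFrac A f) (n : ℕ) : IsFrac A (f ^ n) := by
  induction n with
  | zero => rw [pow_zero]; exact isFrac_one A
  | succ n ih => rw [pow_succ]; exact ih.mul hf

theorem IsFrac.prod {ι : Type*} (s : Finset ι) {F : ι → LaurentSeries K}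
    (h : ∀ i ∈ s, IsFrac A (F i)) : IsFrac A (∏ i ∈ s, F i) := by
  classical
  induction s using Finset.induction_on with
  | empty => rw [Finset.prod_empty]; exact isFrac_one A
  | insert i s hi ih =>
    rw [Finset.prod_insert hi]
    exact (h i (Finset.mem_insert_self _ _)).mul
      (ih fun j hj => h j (Finset.mem_insert_of_mem hj))

theorem IsFrac.sum {ι : Type*} (s : Finset ι) {F : ι → LaurentSeries K}
    (h : ∀ i ∈ s, IsFrac A (F i)) : IsFrac A (∑ i ∈ s, F i) := by
  classical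
  induction s using Finset.induction_on with
  | empty => rw [Finset.sum_empty]; exact isFrac_zero A
  | insert i s hi ih =>
    rw [Finset.sum_insert hi]
    exact (h i (Finset.mem_insert_self _ _)).add
      (ih fun j hj => h j (Finset.mem_insert_of_mem hj))

theorem isFrac_of_gRed {z : LaurentSeries k} (h : GRed π f z) : IsFrac A f := by
  obtain ⟨a, b, hb, h1, -⟩ := h
  exact ⟨a, b, fun h0 => hb (by rw [h0, map_zero]), h1⟩

variable (A) in
theorem isFrac_cst (c : K) : IsFrac A (algebraMap K (LaurentSeries K) c) := by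
  rw [algebraMap_eq_C]
  have hC : ∀ x : A, iotaA A (HahnSeries.C x) = HahnSeries.C (x : K) := fun x => by
    rw [iotaA, coeffMap_single_zero]
    rfl
  rcases A.mem_or_inv_mem c with h | h
  · exact ⟨HahnSeries.C ⟨c, h⟩, 1, one_ne_zero, by rw [map_one, mul_one, hC]⟩
  · by_cases hc : c = 0
    · rw [hc, map_zero]
      exact isFrac_zero A
    · refine ⟨1, HahnSeries.C ⟨c⁻¹, h⟩, ?_, ?_⟩
      · intro h0
        have h1 : iotaA A (HahnSeries.C (⟨c⁻¹, h⟩ : A)) = 0 := by rw [h0, map_zero]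
        rw [hC] at h1
        exact inv_ne_zero hc ((map_eq_zero (HahnSeries.C (Γ := ℤ) (R := K))).1 h1)
      · rw [hC, map_one, ← map_mul, mul_inv_cancel₀ hc, map_one]

theorem IsFrac.TT [NeZero p] [hp : Fact p.Prime] {ζ : Kˣ} (hζ : PrimU p ζ)
    (hf : IsFrac A f) : IsFrac A (Ord.TT p ζ f) := by
  have h1 : (⟨(ζ : K), zeta_mem hp.out hζ.1⟩ : A) ^ p = 1 := Subtype.ext (by
    rw [SubmonoidClass.coe_pow]
    change (ζ : K) ^ p = 1
    rw [← Units.val_pow_eq_pow_val, hζ.1, Units.val_one])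
  let ζA : Aˣ := Units.ofPowEqOne _ p h1 hp.out.ne_zero
  have hζA1 : Units.map A.subtype.toMonoidHom ζA = ζ := Units.ext rfl
  obtain ⟨a, b, hb, h2⟩ := hf
  refine ⟨Ord.TT p ζA a, Ord.TT p ζA b, ?_, ?_⟩
  · intro h
    have h3 : Ord.TT p ζ (iotaA A b) = 0 := by rw [TT_iota hζA1, h, map_zero]
    exact TT_ne_zero hζ (iotaA_ne_zero hb) h3
  · rw [← TT_iota hζA1, ← TT_mul hζ, h2, TT_iota hζA1]

theorem IsFrac.TT_iterate [NeZero p] [hp : Fact p.Prime] {ζ : Kˣ} (hζ : PrimU p ζ)
    (hf : IsFrac A f) (M : ℕ) : IsFrac A ((Ord.TT p ζ)^[M] f) := by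
  induction M with
  | zero => exact hf
  | succ M ih => rw [Function.iterate_succ_apply']; exact ih.TT hζ

/-- a fraction integral over `A((q))` is in `A((q))` -/
theorem exists_iota_of_isFrac (hr : FFM.RankOne A) (h : IsFrac A f)
    (hf : (iotaA A).IsIntegralElem f) : ∃ y : LaurentSeries A, iotaA A y = f := by
  obtain ⟨a, b, hb0, h1⟩ := h
  letI : Algebra (LaurentSeries A) (LaurentSeries K) := (iotaA A).toAlgebra
  have hint : IsIntegral (LaurentSeries A) f := hf
  obtain ⟨r, hr0, hr'⟩ := hint.isAlmostIntegral_of_exists_smul_mem_range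
    ⟨b, mem_nonZeroDivisors_of_ne_zero hb0, a, by
      rw [Algebra.smul_def, mul_comm]
      exact h1.symm⟩
  exact FFM.exists_iota_of_almost hr (nonZeroDivisors.ne_zero hr0) (f := f) fun n => by
    obtain ⟨w, hw⟩ := hr' n
    exact ⟨w, hw.trans (Algebra.smul_def _ _)⟩

/-- a common denominator with nonzero reduction -/
theorem exists_common_den (n : ℕ) (c : ℕ → LaurentSeries K) (cb : ℕ → LaurentSeries k)
    (hc : ∀ j < n, GRed π (c j) (cb j)) :
    ∃ β : LaurentSeries A, rhoA π β ≠ 0 ∧ ∀ j < n, ∃ a : LaurentSeries A,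
      c j * iotaA A β = iotaA A a := by
  induction n with
  | zero => exact ⟨1, by rw [map_one]; exact one_ne_zero, fun j hj => absurd hj (Nat.not_lt_zero _)⟩
  | succ n ih =>
    obtain ⟨β, hβ, h1⟩ := ih fun j hj => hc j (Nat.lt_succ_of_lt hj)
    obtain ⟨a, b, hb, h2, -⟩ := hc n (Nat.lt_succ_self n)
    refine ⟨β * b, by rw [map_mul]; exact mul_ne_zero hβ hb, fun j hj => ?_⟩
    rcases Nat.lt_succ_iff_lt_or_eq.1 hj with h | h
    · obtain ⟨a', ha'⟩ := h1 j h
      exact ⟨a' * b, by rw [map_mul, map_mul, ← ha']; ring⟩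
    · subst h
      exact ⟨a * β, by rw [map_mul, map_mul, ← h2]; ring⟩

/-- **integral closedness of the Gauss valuation ring** -/
theorem gRed_of_monic (hr : FFM.RankOne A) (hf : IsFrac A f) {n : ℕ} (_hn : 0 < n)
    (c : ℕ → LaurentSeries K) (cb : ℕ → LaurentSeries k) (hc : ∀ j < n, GRed π (c j) (cb j))
    (h : f ^ n = ∑ j ∈ Finset.range n, c j * f ^ j) : ∃ z, GRed π f z := by
  obtain ⟨β, hβ, hβc⟩ := exists_common_den n c cb hc
  choose! a ha using hβc
  have hmain : (f * iotaA A β) ^ n = ∑ j ∈ Finset.range n,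
      iotaA A (a j * β ^ (n - 1 - j)) * (f * iotaA A β) ^ j := by
    rw [mul_pow, h, Finset.sum_mul]
    refine Finset.sum_congr rfl fun j hj => ?_
    rw [Finset.mem_range] at hj
    rw [map_mul, ← ha j hj, map_pow, mul_pow]
    have h1 : n = 1 + (n - 1 - j) + j := by omega
    conv_lhs => rw [h1, pow_add, pow_add, pow_one]
    ring
  have hint : (iotaA A).IsIntegralElem (f * iotaA A β) := by
    letI : Algebra (LaurentSeries A) (LaurentSeries K) := (iotaA A).toAlgebra
    have h2 : IsIntegral (LaurentSeries A) (f * iotaA A β) := by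
      refine ⟨Polynomial.X ^ n - ∑ j ∈ Finset.range n,
        Polynomial.C (a j * β ^ (n - 1 - j)) * Polynomial.X ^ j, ?_, ?_⟩
      · apply Polynomial.monic_X_pow_sub
        refine lt_of_le_of_lt (Polynomial.degree_sum_le _ _) ?_
        rw [Finset.sup_lt_iff (by exact_mod_cast WithBot.bot_lt_coe n)]
        intro j hj
        rw [Finset.mem_range] at hj
        exact lt_of_le_of_lt (Polynomial.degree_C_mul_X_pow_le _ _) (by exact_mod_cast hj)
      · rw [Polynomial.eval₂_sub, Polynomial.eval₂_X_pow, Polynomial.eval₂_finsetSum, sub_eq_zero]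
        simp only [Polynomial.eval₂_mul, Polynomial.eval₂_C, Polynomial.eval₂_X_pow]
        exact hmain
    exact h2
  obtain ⟨y, hy⟩ := exists_iota_of_isFrac hr (hf.mul (isFrac_iota A β)) hint
  exact ⟨rhoA π y / rhoA π β, y, β, hβ, hy.symm, by field_simp⟩

theorem gRed_sum {ι : Type*} (s : Finset ι) (F : ι → LaurentSeries K) (Z : ι → LaurentSeries k)
    (h : ∀ i ∈ s, GRed π (F i) (Z i)) : GRed π (∑ i ∈ s, F i) (∑ i ∈ s, Z i) := by
  classical
  induction s using Finset.induction_on with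
  | empty => rw [Finset.sum_empty, Finset.sum_empty]; exact gRed_zero π
  | insert i s hi ih =>
    rw [Finset.sum_insert hi, Finset.sum_insert hi]
    exact (h i (Finset.mem_insert_self _ _)).add
      (ih fun j hj => h j (Finset.mem_insert_of_mem hj))

theorem GRed.pow' {z : LaurentSeries k} (h : GRed π f z) (n : ℕ) : GRed π (f ^ n) (z ^ n) := by
  induction n with
  | zero => rw [pow_zero, pow_zero]; exact gRed_one π
  | succ n ih => rw [pow_succ, pow_succ]; exact ih.mul h

theorem monic_eq_aux {F : Type*} [Field F] [Algebra K F] (hp : p.Prime) {w c c' d : K}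
    (hw : w ^ (p - 1) = -(p : K)) (hc0 : c ≠ 0) (hc' : c' ^ p = c) (hwd : w = c' * d) {s u : F}
    (hg : (1 + algebraMap K F c' * s) ^ p = 1 + algebraMap K F c * u) :
    s ^ p = u + ∑ j ∈ range (p - 1), algebraMap K F
      ((cdiv p (j + 1) : K) * c' ^ j * d ^ (p - 1)) * s ^ (j + 1) := by
  have hcF : algebraMap K F c' ^ p = algebraMap K F c := by rw [← map_pow, hc']
  have hpF : (p : F) = - (algebraMap K F c' * algebraMap K F d) ^ (p - 1) := by
    have : (p : F) = algebraMap K F (p : K) := by rw [map_natCast]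
    rw [this, show (p : K) = - w ^ (p - 1) by rw [hw, neg_neg], map_neg, map_pow, hwd, map_mul]
  have h1 : (algebraMap K F c) * s ^ p = algebraMap K F c * (u + ∑ j ∈ range (p - 1),
      algebraMap K F ((cdiv p (j + 1) : K) * c' ^ j * d ^ (p - 1)) * s ^ (j + 1)) := by
    rw [add_pow_eq hp, one_pow, hpF] at hg
    have h2 : - (algebraMap K F c' * algebraMap K F d) ^ (p - 1) * ∑ j ∈ range (p - 1),
        (cdiv p (j + 1) : F) * 1 ^ (p - 1 - j) * (algebraMap K F c' * s) ^ (j + 1) =
        - (algebraMap K F c * ∑ j ∈ range (p - 1),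
          algebraMap K F ((cdiv p (j + 1) : K) * c' ^ j * d ^ (p - 1)) * s ^ (j + 1)) := by
      rw [← hcF, mul_sum, mul_sum, ← sum_neg_distrib]
      refine sum_congr rfl fun j _ => ?_
      have h3 : p = (p - 1) + 1 := by have := hp.pos; omega
      have h4 : algebraMap K F c' ^ p = algebraMap K F c' ^ (p - 1) * algebraMap K F c' := by
        conv_lhs => rw [h3, pow_succ]
      rw [h4]
      simp only [map_mul, map_pow, map_natCast, one_pow, mul_one]
      ring
    rw [h2, mul_pow, hcF] at hg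
    rw [mul_add]
    linear_combination hg
  exact mul_left_cancel₀ ((map_ne_zero _).2 hc0) h1

theorem gRed_of_lin_monic (hr : FFM.RankOne A) (hp : p.Prime) {u s : LaurentSeries K}
    {ub : LaurentSeries k} (hu : GRed π u ub) (hsF : IsFrac A s) (e : ℕ → K)
    (he : ∀ j, GRed π (algebraMap K (LaurentSeries K) (e j)) 0)
    (hmon : s ^ p = u + ∑ j ∈ range (p - 1), algebraMap K (LaurentSeries K) (e j) * s ^ (j + 1)) :
    ∃ z : LaurentSeries k, GRed π s z ∧ z ^ p = ub := by
  have hsO : ∃ z, GRed π s z := by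
    refine gRed_of_monic hr hsF hp.pos (fun j => if j = 0 then u else
      algebraMap K (LaurentSeries K) (e (j - 1)))
      (fun j => if j = 0 then ub else 0) (fun j _ => ?_) ?_
    · by_cases hj : j = 0
      · simp only [hj, if_true]; exact hu
      · simp only [hj, if_false]; exact he _
    · have h3 : range p = range ((p - 1) + 1) := by
        congr 1
        have := hp.pos
        omega
      rw [h3, sum_range_succ', hmon, add_comm]
      simp only [Nat.add_eq_zero_iff, one_ne_zero, and_false, if_false, if_true, pow_zero, mul_one,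
        Nat.add_sub_cancel]
  obtain ⟨z, hz⟩ := hsO
  refine ⟨z, hz, ?_⟩
  have h1 := GRed.pow' hz p
  have h2 := hu.add (gRed_sum (range (p - 1)) (fun j => algebraMap K (LaurentSeries K)
      (e j) * s ^ (j + 1)) (fun j => 0 * z ^ (j + 1))
      fun j _ => (he j).mul (GRed.pow' hz (j + 1)))
  rw [← hmon] at h2
  rw [h1.unique h2, sum_eq_zero, add_zero]
  intro j _
  rw [zero_mul]

/-- **The power lemma** on Laurent series -/
theorem exists_pow_eq_of_gRed [IsAlgClosed K] (hr : FFM.RankOne A) (hp : p.Prime)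
    {w : K} (hw : w ^ (p - 1) = -(p : K)) {c : K} (hc0 : c ≠ 0) (hcA : c ∈ A)
    {m : A} (hm : π m = 0) (hcm : w ^ p = c * m)
    {u : LaurentSeries K} {ub : LaurentSeries k} (hu : GRed π u ub) (hgF : IsFrac A g)
    (hg : g ^ p = 1 + algebraMap K (LaurentSeries K) c * u) :
    ∃ z : LaurentSeries k, z ^ p = ub := by
  obtain ⟨c', hc'⟩ := IsAlgClosed.exists_pow_nat_eq c hp.pos
  have hc'0 : c' ≠ 0 := by
    rintro rfl
    rw [zero_pow hp.ne_zero] at hc'
    exact hc0 hc'.symm
  have hc'A : c' ∈ A := mem_of_pow_mem A hp.pos (hc' ▸ hcA)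
  obtain ⟨d, hd⟩ : ∃ d : K, d = w / c' := ⟨_, rfl⟩
  have hwd : w = c' * d := by rw [hd]; field_simp
  have hdm : d ^ p = m := by
    rw [hwd, mul_pow, hc'] at hcm
    exact mul_left_cancel₀ hc0 hcm
  have hdA : d ∈ A := mem_of_pow_mem A hp.pos (by rw [hdm]; exact m.2)
  have hdπ : π ⟨d, hdA⟩ = 0 := by
    have h1 : (π ⟨d, hdA⟩) ^ p = 0 := by
      rw [← map_pow]
      have : (⟨d, hdA⟩ : A) ^ p = m := Subtype.ext hdm
      rw [this, hm]
    exact pow_eq_zero_iff hp.ne_zero |>.1 h1
  obtain ⟨s, hs⟩ : ∃ s : LaurentSeries K, s = (g - 1) / algebraMap K (LaurentSeries K) c' :=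
    ⟨_, rfl⟩
  have hsF : IsFrac A s := by
    rw [hs]
    exact (hgF.sub (isFrac_one A)).div (isFrac_cst A c')
  have hc'F : algebraMap K (LaurentSeries K) c' ≠ 0 := (map_ne_zero _).2 hc'0
  have hgs : g = 1 + algebraMap K (LaurentSeries K) c' * s := by
    rw [hs, mul_div_cancel₀ _ hc'F, add_sub_cancel]
  rw [hgs] at hg
  have hmon := monic_eq_aux hp hw hc0 hc' hwd hg
  have hcoef : ∀ j, (cdiv p (j + 1) : K) * c' ^ j * d ^ (p - 1) ∈ A := fun j =>
    mul_mem (mul_mem (natCast_mem A _) (pow_mem hc'A _)) (pow_mem hdA _)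
  have hcoef0 : ∀ j, π ⟨_, hcoef j⟩ = 0 := by
    intro j
    have h1 : (⟨_, hcoef j⟩ : A) = (cdiv p (j + 1) : A) * ⟨c', hc'A⟩ ^ j * ⟨d, hdA⟩ ^ (p - 1) :=
      Subtype.ext (by push_cast; rfl)
    rw [h1, map_mul, map_pow π ⟨d, hdA⟩, hdπ, zero_pow (by have := hp.two_le; omega), mul_zero]
  obtain ⟨z, -, hz⟩ := gRed_of_lin_monic hr hp hu hsF _ (fun j => by
    have h1 := gRed_algebraMap π ⟨_, hcoef j⟩
    rw [hcoef0, map_zero] at h1
    exact h1) hmon
  exact ⟨z, hz⟩

end Frac

/-! ## Hensel's lemma in `A[[q]]` -/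

section Hensel

open Polynomial

/-- the polynomial `S ^ p - lin p w y S - r` -/
def henPoly {R : Type*} [CommRing R] (p : ℕ) (w y r : R) : R[X] :=
  X ^ p - (∑ j ∈ range (p - 1), C ((cdiv p (j + 1) : R) * w ^ j * y ^ (p - 1 - j)) * X ^ (j + 1) +
    C r)

theorem henPoly_degree_aux {R : Type*} [CommRing R] {p : ℕ} (hp : p.Prime)
    (w y r : R) : (∑ j ∈ range (p - 1), C ((cdiv p (j + 1) : R) * w ^ j * y ^ (p - 1 - j)) *
      X ^ (j + 1) + C r : R[X]).degree < (p : WithBot ℕ) := by
  refine lt_of_le_of_lt (degree_add_le _ _) (max_lt ?_ ?_)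
  · refine lt_of_le_of_lt (degree_sum_le _ _) ?_
    rw [Finset.sup_lt_iff (by exact_mod_cast WithBot.bot_lt_coe p)]
    intro j hj
    rw [Finset.mem_range] at hj
    exact lt_of_le_of_lt (degree_C_mul_X_pow_le _ _) (by
      exact_mod_cast (by omega : j + 1 < p))
  · exact lt_of_le_of_lt degree_C_le (by exact_mod_cast hp.pos)

theorem henPoly_monic {R : Type*} [CommRing R] {p : ℕ} (hp : p.Prime)
    (w y r : R) : (henPoly p w y r).Monic :=
  monic_X_pow_sub (henPoly_degree_aux hp w y r)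

theorem henPoly_degree {R : Type*} [CommRing R] [Nontrivial R] {p : ℕ} (hp : p.Prime)
    (w y r : R) : (henPoly p w y r).degree = p := by
  rw [henPoly, degree_sub_eq_left_of_degree_lt, degree_X_pow]
  rw [degree_X_pow]
  exact henPoly_degree_aux hp w y r

theorem eval_henPoly {R : Type*} [CommRing R] (p : ℕ) (w y r s : R) :
    (henPoly p w y r).eval s = s ^ p - (lin p w y s + r) := by
  simp [henPoly, lin, eval_finsetSum]

theorem map_henPoly {R S : Type*} [CommRing R] [CommRing S] (φ : R →+* S) (p : ℕ) (w y r : R) :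
    (henPoly p w y r).map φ = henPoly p (φ w) (φ y) (φ r) := by
  simp [henPoly, Polynomial.map_sum]

theorem map_eval_derivative_henPoly {R S : Type*} [CommRing R] [CommRing S] (φ : R →+* S)
    (p : ℕ) (w y r s : R) : φ ((derivative (henPoly p w y r)).eval s) =
      (derivative (henPoly p (φ w) (φ y) (φ r))).eval (φ s) := by
  rw [← map_henPoly, derivative_map, eval_map, eval₂_hom]

theorem eval_derivative_henPoly {R : Type*} [CommRing R] {p : ℕ} (hp : p.Prime)
    (hpR : (p : R) = 0) (y r s : R) :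
    (derivative (henPoly p 0 y r)).eval s = - y ^ (p - 1) := by
  obtain ⟨m, hm⟩ : ∃ m, p - 1 = m + 1 := ⟨p - 2, by have := hp.two_le; omega⟩
  have h1 : henPoly p 0 y r = X ^ p - (C (y ^ (p - 1)) * X + C r) := by
    rw [henPoly, hm, sum_range_succ', sum_eq_zero]
    · simp [cdiv_one hp]
    · intro j _
      simp
  rw [h1, derivative_sub, derivative_X_pow, derivative_add, derivative_C_mul, derivative_X,
    derivative_C, hpR, C_0, zero_mul, add_zero, mul_one, zero_sub, eval_neg, eval_C]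

variable {K k : Type*} [Field K] [Field k] {A : ValuationSubring K} {π : A →+* k} {p : ℕ}

theorem isUnit_of_map_ne_zero (hπ : ∀ a : A, π a = 0 ↔ ¬ IsUnit a) {a : A} (h : π a ≠ 0) :
    IsUnit a := by
  by_contra hu
  exact h ((hπ a).2 hu)

/-- **Hensel's lemma** in `A[[q]]` -/
theorem exists_hensel [IsAlgClosed K] (hπ : ∀ a : A, π a = 0 ↔ ¬ IsUnit a) [CharP k p]
    (hp : p.Prime) {w : A} (hw : π w = 0) (y r : PowerSeries A)
    (hy : π (PowerSeries.constantCoeff y) ≠ 0) :
    ∃ s : PowerSeries A, s ^ p = lin p (PowerSeries.C w) y s + r := by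
  classical
  set y0 := PowerSeries.constantCoeff y with hy0
  set r0 := PowerSeries.constantCoeff r with hr0
  -- the root of the constant terms
  obtain ⟨s0, hs0⟩ : ∃ s0 : A, (henPoly p w y0 r0).eval s0 = 0 := by
    have hdeg : ((henPoly p w y0 r0).map A.subtype).degree ≠ 0 := by
      rw [map_henPoly, henPoly_degree hp]
      exact_mod_cast hp.ne_zero
    obtain ⟨t, ht⟩ := IsAlgClosed.exists_root _ hdeg
    have htA : t ∈ A := by
      refine mem_of_monic_eq A hp.pos (fun j => if j = 0 then (r0 : K) else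
        ((cdiv p (j - 1 + 1) : K) * (w : K) ^ (j - 1) * (y0 : K) ^ (p - 1 - (j - 1))))
        (fun j _ => ?_) ?_
      · by_cases hj : j = 0
        · simp only [hj, if_true]; exact r0.2
        · simp only [hj, if_false]
          exact mul_mem (mul_mem (natCast_mem A _) (pow_mem w.2 _)) (pow_mem y0.2 _)
      · have h3 : range p = range ((p - 1) + 1) := by
          congr 1
          have := hp.pos
          omega
        rw [IsRoot.def, map_henPoly, eval_henPoly, sub_eq_zero] at ht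
        rw [h3, sum_range_succ', ht]
        simp only [Nat.add_eq_zero_iff, one_ne_zero, and_false, if_false, if_true, pow_zero,
          mul_one, Nat.add_sub_cancel]
        rfl
    refine ⟨⟨t, htA⟩, ?_⟩
    apply Subtype.ext
    have h6 : (((henPoly p w y0 r0).eval (⟨t, htA⟩ : A) : A) : K) =
        ((henPoly p w y0 r0).map A.subtype).eval t := by
      rw [eval_map]
      exact (hom_eval₂ _ (RingHom.id A) A.subtype _)
    rw [h6]
    exact ht
  -- Newton
  have hhens := IsAdicComplete.henselianRing (PowerSeries A)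
    (Ideal.span {(PowerSeries.X : PowerSeries A)})
  have hmem : ∀ f : PowerSeries A, f ∈ Ideal.span {(PowerSeries.X : PowerSeries A)} ↔
      PowerSeries.constantCoeff f = 0 := by
    intro f
    rw [Ideal.mem_span_singleton, PowerSeries.X_dvd_iff]
  obtain ⟨s, hs, -⟩ := hhens.is_henselian (henPoly p (PowerSeries.C w) y r)
    (henPoly_monic hp _ _ _) (PowerSeries.C s0) (by
      rw [hmem, eval_henPoly, map_sub, map_pow, map_add, map_lin,
        PowerSeries.constantCoeff_C, PowerSeries.constantCoeff_C, ← hy0, ← hr0, ← eval_henPoly]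
      exact hs0) (by
      apply IsUnit.map
      rw [PowerSeries.isUnit_iff_constantCoeff]
      apply isUnit_of_map_ne_zero hπ
      rw [map_eval_derivative_henPoly, map_eval_derivative_henPoly,
        PowerSeries.constantCoeff_C, PowerSeries.constantCoeff_C, hw,
        eval_derivative_henPoly hp (CharP.cast_eq_zero k p)]
      exact neg_ne_zero.2 (pow_ne_zero _ hy))
  refine ⟨s, ?_⟩
  rw [IsRoot.def, eval_henPoly, sub_eq_zero] at hs
  exact hs

end Hensel

end Fermat.Agent.Ord
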