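import Fermat.Agent.Ord.Lvl
import Fermat.Agent.Ord.Alg

/-!
# One step of the tower
-/

set_option autoImplicit false
set_option linter.unusedSectionVars false
set_option linter.style.haveILetI false

open Finset IntermediateField

namespace Fermat.Agent.Ord

open Fermat.Agent.GoodRed (IsInt Lm)

variable {K k : Type*} [Field K] [Field k] {A : ValuationSubring K} {π : A →+* k}
  {Ω Λ : Type*} [Field Ω] [Algebra K Ω] [Field Λ] [Algebra k Λ]

/-- `f` is a `p`-th power times an element which is trivial modulo `w ^ p` -/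
def Split (R : PreRed A π Ω Λ) (p : ℕ) (w : K) (F : IntermediateField K Ω) (f : Ω) : Prop :=
  ∃ Y ∈ F, ∃ m ∈ F, R.IsRed m 0 ∧ f = Y ^ p * (1 + algebraMap K Ω w ^ p * m)

variable {R : PreRed A π Ω Λ} {p : ℕ} {w : K}

/-- homomorphisms of `E` over `F` preserve integrality -/
def Stab (M : Amb R p w) (F E : IntermediateField K Ω) : Prop :=
  ∀ τ : E →+* Ω, (∀ z : E, τ z ∈ M.Q) → (∀ z : E, (z : Ω) ∈ F → τ z = z) →
    ∀ z : E, (z : Ω) ∈ R.O → τ z ∈ R.O

theorem Stab.refl (M : Amb R p w) (F : IntermediateField K Ω) : Stab M F F := by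
  intro τ _ h z hz
  rw [h z z.2]
  exact hz

/-- data for a step of the tower -/
structure StepData (M : Amb R p w) (E : IntermediateField K Ω) (κ : IntermediateField k Λ)
    (g y r s : Ω) (rb sb : Λ) : Prop where
  y_mem : y ∈ E
  r_mem : r ∈ E
  hy : R.IsRed y 1
  hr : R.IsRed r rb
  rb_mem : rb ∈ κ
  g_mem : g ∈ E
  g_eq : g = y ^ p + algebraMap K Ω w ^ p * r
  s_Q : s ∈ M.Q
  hs : s ^ p = lin p (algebraMap K Ω w) y s + r
  hsb : R.IsRed s sb
  hsb_eq : sb ^ p = sb + rb
  sb_not : sb ∉ κ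

/-- the coefficients of the equation of `s` -/
def qs (p : ℕ) (W y r : Ω) (i : ℕ) : Ω :=
  if i = 0 then r else (cdiv p i : Ω) * W ^ (i - 1) * y ^ (p - i)

theorem sum_qs {p : ℕ} (hp : p.Prime) {W y r s : Ω} (hs : s ^ p = lin p W y s + r) :
    s ^ p = ∑ i ∈ range p, qs p W y r i * s ^ i := by
  obtain ⟨m, hm⟩ : ∃ m, p = m + 1 := ⟨p - 1, by have := hp.pos; omega⟩
  have h1 : range p = range (m + 1) := by rw [hm]
  rw [h1, sum_range_succ', hs, lin]
  have h2 : p - 1 = m := by omega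
  rw [h2]
  congr 1
  · refine sum_congr rfl fun j hj => ?_
    rw [qs, if_neg (Nat.succ_ne_zero j), Nat.add_sub_cancel]
    congr 3
    omega
  · rw [qs, if_pos rfl, pow_zero, mul_one]

/-- the coefficients of the Artin–Schreier equation -/
def qb (rb : Λ) (i : ℕ) : Λ := if i = 0 then rb else if i = 1 then 1 else 0

theorem sum_qb {p : ℕ} (hp : p.Prime) {rb sb : Λ} (hs : sb ^ p = sb + rb) :
    sb ^ p = ∑ i ∈ range p, qb rb i * sb ^ i := by
  obtain ⟨m, hm⟩ : ∃ m, p = m + 1 + 1 := ⟨p - 2, by have := hp.two_le; omega⟩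
  have h1 : range p = range (m + 1 + 1) := by rw [hm]
  rw [h1, sum_range_succ', sum_range_succ', sum_eq_zero, hs]
  · simp [qb]
  · intro j _
    simp [qb]

section General

variable {F E : IntermediateField K Ω}

theorem indep_comb {E : IntermediateField K Ω} {s : Ω} {n : ℕ} (h : Indep E s n) {c d : ℕ → Ω}
    (hc : ∀ i < n, c i ∈ E) (hd : ∀ i < n, d i ∈ E)
    (heq : ∑ i ∈ range n, c i * s ^ i = ∑ i ∈ range n, d i * s ^ i) : ∀ i < n, c i = d i := by
  classical
  intro i hi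
  have h1 := h (fun j => if j < n then c j - d j else 0) (fun j => by
    by_cases hj : j < n
    · simp only [hj, if_true]; exact sub_mem (hc j hj) (hd j hj)
    · simp only [hj, if_false]; exact zero_mem _) (by
    rw [← sub_eq_zero, ← sum_sub_distrib] at heq
    rw [← heq]
    refine sum_congr rfl fun j hj => ?_
    rw [if_pos (mem_range.1 hj)]
    ring) i hi
  simp only [hi, if_true] at h1
  exact sub_eq_zero.1 h1

theorem indep_of_le {s : Ω} {n : ℕ} (h : Indep E s n) (hle : F ≤ E) : Indep F s n :=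
  fun c hc h0 => h c (fun i => hle (hc i)) h0

/-- Independence from the degree -/
theorem indep_of_relfinrank {s g : Ω} {n : ℕ} (hn : 0 < n) (hg : s ^ n = g) (hgE : g ∈ E)
    (h : relfinrank E (ext E s) = n) : Indep E s n := by
  intro c hc h0 i hi
  have hint : IsIntegral E s := by
    refine ⟨Polynomial.X ^ n - Polynomial.C ⟨g, hgE⟩, Polynomial.monic_X_pow_sub_C _ hn.ne', ?_⟩
    rw [← Polynomial.aeval_def, map_sub, map_pow, Polynomial.aeval_X, Polynomial.aeval_C, hg]
    exact sub_self _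
  have hd : (minpoly E s).natDegree = n := by
    rw [← h, relfinrank_eq_finrank_of_le (le_ext E s), ← IntermediateField.adjoin.finrank hint]
    rfl
  obtain ⟨c', hc'⟩ : ∃ c' : ℕ → E, ∀ i, (c' i : Ω) = c i := ⟨fun i => ⟨c i, hc i⟩, fun _ => rfl⟩
  let P : Polynomial E := ∑ i ∈ range n, Polynomial.C (c' i) * Polynomial.X ^ i
  have hPs : Polynomial.aeval s P = 0 := by
    rw [map_sum, ← h0]
    refine sum_congr rfl fun i _ => ?_
    rw [map_mul, Polynomial.aeval_C, map_pow, Polynomial.aeval_X, ← hc' i]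
    rfl
  have hP0 : P = 0 := by
    by_contra hP
    have h1 : P.degree < n := by
      refine (Polynomial.degree_sum_le _ _).trans_lt ?_
      refine (Finset.sup_lt_iff (WithBot.bot_lt_coe n)).2 fun i hi => ?_
      refine (Polynomial.degree_C_mul_X_pow_le i _).trans_lt ?_
      exact WithBot.coe_lt_coe.2 (Finset.mem_range.1 hi)
    have h2 := (Polynomial.natDegree_lt_iff_degree_lt hP).2 h1
    have h3 := Polynomial.natDegree_le_of_dvd (minpoly.dvd E s hPs) hP
    omega
  have hPc : P.coeff i = c' i := by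
    simp only [P, Polynomial.finsetSum_coeff, Polynomial.coeff_C_mul, Polynomial.coeff_X_pow]
    rw [sum_eq_single i]
    · simp
    · intro j _ hj
      rw [if_neg (Ne.symm hj), mul_zero]
    · intro h; exact absurd (mem_range.2 hi) h
  rw [hP0, Polynomial.coeff_zero] at hPc
  rw [← hc' i, ← hPc]
  rfl

end General

namespace StepData

variable {M : Amb R p w} {E : IntermediateField K Ω} {κ : IntermediateField k Λ}
  {g y r s : Ω} {rb sb : Λ} (D : StepData M E κ g y r s rb sb)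

include D

theorem qs_mem (i : ℕ) : qs p (algebraMap K Ω w) y r i ∈ E := by
  rw [qs]
  split_ifs
  · exact D.r_mem
  · exact mul_mem (mul_mem (_root_.natCast_mem _ _) (pow_mem (E.algebraMap_mem w) _)) (pow_mem D.y_mem _)

theorem qb_mem (i : ℕ) : qb rb i ∈ κ := by
  rw [qb]
  split_ifs
  · exact D.rb_mem
  · exact one_mem _
  · exact zero_mem _

theorem spans : Spans E (ext E s) s p := spans_ext D.qs_mem (sum_qs M.hp D.hs)

theorem spansb : Spans κ (ext κ sb) sb p := spans_ext D.qb_mem (sum_qb M.hp D.hsb_eq)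

theorem indepb [CharP k p] : Indep κ sb p := by
  haveI := R.charP_alg p
  exact indep_artinSchreier M.hp D.rb_mem D.hsb_eq D.sb_not

theorem isRed_sum {c : ℕ → Ω} {z : ℕ → Λ} (h : ∀ i < p, R.IsRed (c i) (z i)) :
    R.IsRed (∑ i ∈ range p, c i * s ^ i) (∑ i ∈ range p, z i * sb ^ i) :=
  PreRed.isRed_sum _ fun i hi => (h i (mem_range.1 hi)).mul (D.hsb.pow i)

/-- scaling of combinations -/
theorem exists_scale [CharP k p] (L : SubRed R E κ) {c : ℕ → Ω} (hc : ∀ i, c i ∈ E)
    (h0 : ∃ i < p, c i ≠ 0) : ∃ γ : K, γ ≠ 0 ∧ ∃ z : ℕ → Λ, (∀ i, z i ∈ κ) ∧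
      (∀ i < p, R.IsRed (algebraMap K Ω γ * c i) (z i)) ∧
      R.IsRed (algebraMap K Ω γ * ∑ i ∈ range p, c i * s ^ i) (∑ i ∈ range p, z i * sb ^ i) ∧
      ∑ i ∈ range p, z i * sb ^ i ≠ 0 := by
  classical
  obtain ⟨γ, hγ, z, hz, i0, hi0, hzi0⟩ := L.scale_comb hc h0
  let z' : ℕ → Λ := fun i => if i < p then z i else 0
  have hz' : ∀ i < p, z' i = z i := fun i hi => if_pos hi
  have hzκ : ∀ i, z' i ∈ κ := by
    intro i
    by_cases hi : i < p
    · rw [hz' i hi]; exact (hz i hi).1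
    · simp only [z', hi, if_false]; exact zero_mem _
  have hzr : ∀ i < p, R.IsRed (algebraMap K Ω γ * c i) (z' i) := fun i hi => by
    rw [hz' i hi]; exact (hz i hi).2
  refine ⟨γ, hγ, z', hzκ, hzr, ?_, ?_⟩
  · have h1 := D.isRed_sum hzr
    rwa [show ∑ i ∈ range p, algebraMap K Ω γ * c i * s ^ i =
      algebraMap K Ω γ * ∑ i ∈ range p, c i * s ^ i by
        rw [mul_sum]; exact sum_congr rfl fun i _ => by ring] at h1
  · intro h
    have := D.indepb z' hzκ h i0 hi0
    rw [hz' i0 hi0] at this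
    exact hzi0 this

theorem indep [CharP k p] (L : SubRed R E κ) : Indep E s p := by
  intro c hc h0
  by_contra hne
  push Not at hne
  obtain ⟨γ, -, z, -, -, h1, h2⟩ := D.exists_scale L hc hne
  rw [h0, mul_zero] at h1
  exact h2 (h1.unique R.isRed_zero)

/-- coefficients of integral elements are integral -/
theorem coef [CharP k p] (L : SubRed R E κ) {c : ℕ → Ω} (hc : ∀ i, c i ∈ E) {zb : Λ}
    (h : R.IsRed (∑ i ∈ range p, c i * s ^ i) zb) : ∃ z : ℕ → Λ, (∀ i, z i ∈ κ) ∧
      (∀ i < p, R.IsRed (c i) (z i)) ∧ zb = ∑ i ∈ range p, z i * sb ^ i := by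
  by_cases h0 : ∃ i < p, c i ≠ 0
  · obtain ⟨γ, hγ, z, hz, hzr, h1, h2⟩ := D.exists_scale L hc h0
    have hγ' : algebraMap K Ω γ ≠ 0 := (map_ne_zero _).2 hγ
    have h3 : algebraMap K Ω γ⁻¹ * (algebraMap K Ω γ * ∑ i ∈ range p, c i * s ^ i) ∈ R.O := by
      rw [← mul_assoc, ← map_mul, inv_mul_cancel₀ hγ, map_one, one_mul]
      exact h.mem
    have h4 := R.mem_of_mem h1 h2 h3
    have h5 : ∀ i < p, R.IsRed (c i) (algebraMap k Λ (π ⟨γ⁻¹, h4⟩) * z i) := by
      intro i hi
      have h6 := (R.isRed_coe ⟨γ⁻¹, h4⟩).mul (hzr i hi)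
      have h7 : algebraMap K Ω γ⁻¹ * (algebraMap K Ω γ * c i) = c i := by
        rw [← mul_assoc, ← map_mul, inv_mul_cancel₀ hγ, map_one, one_mul]
      change R.IsRed (algebraMap K Ω γ⁻¹ * (algebraMap K Ω γ * c i)) _ at h6
      rwa [h7] at h6
    exact ⟨fun i => algebraMap k Λ (π ⟨γ⁻¹, h4⟩) * z i,
      fun i => mul_mem (κ.algebraMap_mem _) (hz i), h5, h.unique (D.isRed_sum h5)⟩
  · push Not at h0
    have h5 : ∀ i < p, R.IsRed (c i) 0 := fun i hi => by rw [h0 i hi]; exact R.isRed_zero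
    refine ⟨fun _ => 0, fun _ => zero_mem _, h5, h.unique (D.isRed_sum h5)⟩

theorem subRed [CharP k p] (L : SubRed R E κ) : SubRed R (ext E s) (ext κ sb) where
  red_mem := by
    intro f hf z hz
    obtain ⟨c, hc, rfl⟩ := D.spans f hf
    obtain ⟨z', hz', -, rfl⟩ := D.coef L hc hz
    exact sum_mem fun i _ => mul_mem (le_ext κ sb (hz' i)) (pow_mem (self_mem_ext κ sb) i)
  lift := by
    intro z hz
    obtain ⟨c, hc, rfl⟩ := D.spansb z hz
    choose f hf hfz using fun i => L.lift (c i) (hc i)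
    exact ⟨∑ i ∈ range p, f i * s ^ i,
      sum_mem fun i _ => mul_mem (le_ext E s (hf i)) (pow_mem (self_mem_ext E s) i),
      D.isRed_sum fun i _ => hfz i⟩
  scale := by
    intro f hf hf0
    obtain ⟨c, hc, rfl⟩ := D.spans f hf
    have h0 : ∃ i < p, c i ≠ 0 := by
      by_contra h
      push Not at h
      exact hf0 (sum_eq_zero fun i hi => by rw [h i (mem_range.1 hi), zero_mul])
    obtain ⟨γ, hγ, z, -, -, h1, h2⟩ := D.exists_scale L hc h0
    exact ⟨γ, hγ, _, h2, h1⟩

theorem ext_Q (h : ∀ f ∈ E, f ∈ M.Q) : ∀ f ∈ ext E s, f ∈ M.Q := by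
  intro f hf
  obtain ⟨c, hc, rfl⟩ := D.spans f hf
  exact sum_mem fun i _ => mul_mem (h _ (hc i)) (pow_mem D.s_Q i)

/-- the field `κ'` also has a `p`-basis `t` -/
theorem pbasis [CharP k p] {t : Λ}
    (h : ∀ z ∈ κ, ∃ e : ℕ → Λ, (∀ i, e i ∈ κ) ∧ z = ∑ i ∈ range p, e i ^ p * t ^ i) :
    ∀ z ∈ ext κ sb, ∃ e : ℕ → Λ, (∀ i, e i ∈ ext κ sb) ∧ z = ∑ i ∈ range p, e i ^ p * t ^ i := by
  haveI : Fact p.Prime := ⟨M.hp⟩
  haveI := R.charP_alg p
  intro z hz
  obtain ⟨c, hc, rfl⟩ := D.spansb z hz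
  -- `sb = sb ^ p - rb`
  have h1 : ∀ i, c i * sb ^ i = ∑ m ∈ range (i + 1),
      (c i * (i.choose m : Λ) * (-rb) ^ (i - m)) * (sb ^ m) ^ p := by
    intro i
    have e1 : sb = sb ^ p + -rb := by rw [D.hsb_eq]; ring
    conv_lhs => rw [e1, add_pow, mul_sum]
    refine sum_congr rfl fun m _ => ?_
    rw [← pow_mul, ← pow_mul, mul_comm p m]
    ring
  have h2 : ∀ i m, ∃ e : ℕ → Λ, (∀ l, e l ∈ κ) ∧
      c i * (i.choose m : Λ) * (-rb) ^ (i - m) = ∑ l ∈ range p, e l ^ p * t ^ l := fun i m =>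
    h _ (mul_mem (mul_mem (hc i) (_root_.natCast_mem _ _)) (pow_mem (neg_mem D.rb_mem) _))
  choose e he heq using h2
  refine ⟨fun l => ∑ i ∈ range p, ∑ m ∈ range (i + 1), e i m l * sb ^ m, fun l =>
    sum_mem fun i _ => sum_mem fun m _ => mul_mem (le_ext κ sb (he i m l))
      (pow_mem (self_mem_ext κ sb) m), ?_⟩
  have h3 : ∀ l, (∑ i ∈ range p, ∑ m ∈ range (i + 1), e i m l * sb ^ m) ^ p =
      ∑ i ∈ range p, ∑ m ∈ range (i + 1), e i m l ^ p * (sb ^ m) ^ p := by
    intro l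
    rw [sum_pow_char p]
    refine sum_congr rfl fun i _ => ?_
    rw [sum_pow_char p]
    exact sum_congr rfl fun m _ => mul_pow _ _ _
  simp only [h3, sum_mul]
  rw [sum_comm]
  refine sum_congr rfl fun i _ => ?_
  rw [h1 i, sum_comm]
  refine sum_congr rfl fun m _ => ?_
  rw [heq i m, sum_mul]
  exact sum_congr rfl fun l _ => by ring

theorem relfinrank_eq [CharP k p] (L : SubRed R E κ) : relfinrank E (ext E s) = p :=
  relfinrank_ext D.qs_mem (sum_qs M.hp D.hs) (D.indep L)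

theorem relfinrank_eqb [CharP k p] : relfinrank κ (ext κ sb) = p :=
  relfinrank_ext D.qb_mem (sum_qb M.hp D.hsb_eq) D.indepb

/-- **the next level, without the dimension formula** -/
theorem lvl0 [CharP k p] {x : Ω} {xb t : Λ} (L : Lvl0 M x xb t E κ) :
    Lvl0 M x xb t (ext E s) (ext κ sb) :=
  { D.subRed L.toSubRed with
    x_mem := le_ext E s L.x_mem
    xb_mem := le_ext κ sb L.xb_mem
    x_B := L.x_B
    isRed_x := L.isRed_x
    trans := L.trans
    E_Q := D.ext_Q L.E_Q
    fin := by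
      rw [← relfinrank_mul_relfinrank (Red.adjoin_simple_le_of_mem L.x_mem) (le_ext E s),
        D.relfinrank_eq L.toSubRed]
      exact Nat.mul_pos L.fin M.hp.pos
    fin_eq := by
      rw [← relfinrank_mul_relfinrank (Red.adjoin_simple_le_of_mem L.x_mem) (le_ext E s),
        ← relfinrank_mul_relfinrank (Red.adjoin_simple_le_of_mem L.xb_mem) (le_ext κ sb),
        D.relfinrank_eq L.toSubRed, D.relfinrank_eqb, L.fin_eq]
    pbasis := D.pbasis L.pbasis }

/-- stability under homomorphisms -/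
theorem stab [CharP k p] (L : SubRed R E κ) {F : IntermediateField K Ω}
    (h : Stab M F E) : Stab M F (ext E s) := by
  intro τ hQ hF z hz
  have hW : τ ⟨algebraMap K Ω w, (ext E s).algebraMap_mem w⟩ = algebraMap K Ω w :=
    hF _ (F.algebraMap_mem w)
  let τE : E →+* Ω := τ.comp (IntermediateField.inclusion (le_ext E s)).toRingHom
  have hE : ∀ u : Ω, ∀ hu : u ∈ E, u ∈ R.O → τ ⟨u, le_ext E s hu⟩ ∈ R.O := fun u hu hO =>
    h τE (fun z => hQ _) (fun z hz => hF _ hz) ⟨u, hu⟩ hO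
  let S : ext E s := ⟨s, self_mem_ext E s⟩
  let Y : ext E s := ⟨y, le_ext E s D.y_mem⟩
  let Rr : ext E s := ⟨r, le_ext E s D.r_mem⟩
  let W' : ext E s := ⟨algebraMap K Ω w, (ext E s).algebraMap_mem w⟩
  have hS : S ^ p = lin p W' Y S + Rr := by
    apply Subtype.ext
    have e1 : ((lin p W' Y S : ext E s) : Ω) = lin p (algebraMap K Ω w) y s :=
      map_lin (algebraMap (ext E s) Ω) p W' Y S
    change s ^ p = ((lin p W' Y S : ext E s) : Ω) + r
    rw [e1]
    exact D.hs
  have hτS : τ S ^ p = lin p (algebraMap K Ω w) (τ Y) (τ S) + τ Rr := by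
    rw [← map_pow, hS, map_add, map_lin τ, hW]
  have hSO : τ S ∈ R.O := M.mem_of_lin (hQ S) (hE y D.y_mem D.hy.mem) (hE r D.r_mem D.hr.mem) hτS
  obtain ⟨c, hc, hzc⟩ := D.spans z z.2
  obtain ⟨zb, hzb⟩ := R.exists_isRed_of_mem hz
  rw [hzc] at hzb
  obtain ⟨cb, -, hcr, -⟩ := D.coef L hc hzb
  have h1 : z = ∑ i ∈ range p, (⟨c i, le_ext E s (hc i)⟩ : ext E s) * S ^ i := by
    apply Subtype.ext
    rw [hzc, AddSubmonoidClass.coe_finsetSum]
    rfl
  rw [h1, map_sum]
  refine sum_mem fun i hi => ?_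
  rw [map_mul, map_pow]
  exact mul_mem (hE _ (hc i) (hcr i (mem_range.1 hi)).mem) (pow_mem hSO i)

/-! ### the `p`-th root -/

theorem root_pow : (y + algebraMap K Ω w * s) ^ p = g := by
  rw [add_mul_pow M.hp M.W_pow, D.hs, D.g_eq]
  ring

theorem isRed_root : R.IsRed (y + algebraMap K Ω w * s) 1 := by
  have := D.hy.add (M.isRed_w.mul D.hsb)
  rwa [zero_mul, add_zero] at this

theorem root_mem : y + algebraMap K Ω w * s ∈ ext E s :=
  add_mem (le_ext E s D.y_mem) (mul_mem ((ext E s).algebraMap_mem w) (self_mem_ext E s))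

theorem ext_root : ext E (y + algebraMap K Ω w * s) = ext E s := by
  have hW := M.W_ne
  apply le_antisymm
  · intro z hz
    rw [mem_ext] at hz ⊢
    have h1 : IntermediateField.adjoin E {y + algebraMap K Ω w * s} ≤
        IntermediateField.adjoin E {s} :=
      IntermediateField.adjoin_simple_le_iff.2 D.root_mem
    exact h1 hz
  · intro z hz
    rw [mem_ext] at hz ⊢
    have h1 : IntermediateField.adjoin E {s} ≤
        IntermediateField.adjoin E {y + algebraMap K Ω w * s} := by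
      refine IntermediateField.adjoin_simple_le_iff.2 ?_
      change s ∈ ext E (y + algebraMap K Ω w * s)
      have h3 := div_mem (sub_mem (self_mem_ext E (y + algebraMap K Ω w * s))
        (le_ext E (y + algebraMap K Ω w * s) D.y_mem))
        ((ext E (y + algebraMap K Ω w * s)).algebraMap_mem w)
      have h2 : ((y + algebraMap K Ω w * s) - y) / algebraMap K Ω w = s := by
        field_simp
        ring
      rwa [h2] at h3
    exact h1 hz

theorem indep_root [CharP k p] (L : SubRed R E κ) : Indep E (y + algebraMap K Ω w * s) p := by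
  refine indep_of_relfinrank M.hp.pos D.root_pow D.g_mem ?_
  rw [D.ext_root]
  exact D.relfinrank_eq L

theorem spans_root : Spans E (ext E s) (y + algebraMap K Ω w * s) p := by
  rw [← D.ext_root]
  refine spans_ext (q := fun i => if i = 0 then g else 0) (fun i => ?_) ?_
  · split_ifs
    · exact D.g_mem
    · exact zero_mem _
  · rw [D.root_pow, sum_eq_single 0]
    · simp
    · intro i _ hi; simp [hi]
    · intro h; exact absurd (mem_range.2 M.hp.pos) h

end StepData

end Fermat.Agent.Ord
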