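import Fermat.Agent.Ord.Amb
import Fermat.Agent.GoodRed.Main
import Fermat.Agent.Red.GaussRes
import Fermat.Agent.Red.ChartGenus

/-!
# Constant reductions of subfields of the ambient field
-/

set_option autoImplicit false
set_option linter.unusedSectionVars false
set_option linter.style.haveILetI false

open Finset IntermediateField Polynomial

namespace Fermat.Agent.Ord

open Fermat.Agent.GoodRed (IsInt Lm)

variable {K k : Type*} [Field K] [Field k] {A : ValuationSubring K} {π : A →+* k}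
  {Ω Λ : Type*} [Field Ω] [Algebra K Ω] [Field Λ] [Algebra k Λ]

/-- the reduction restricts well to the subfields `E` and `κ` -/
structure SubRed (R : PreRed A π Ω Λ) (E : IntermediateField K Ω) (κ : IntermediateField k Λ) :
    Prop where
  red_mem : ∀ f ∈ E, ∀ z, R.IsRed f z → z ∈ κ
  lift : ∀ z ∈ κ, ∃ f ∈ E, R.IsRed f z
  scale : ∀ f ∈ E, f ≠ 0 → ∃ c : K, c ≠ 0 ∧ ∃ z, z ≠ 0 ∧ R.IsRed (algebraMap K Ω c * f) z

namespace SubRed

variable {R : PreRed A π Ω Λ} {E : IntermediateField K Ω} {κ : IntermediateField k Λ}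

/-- the valuation ring of the subfield -/
def valRing (h : SubRed R E κ)
    (hinv : ∀ (f : Ω) (z : Λ), R.IsRed f z → z ≠ 0 → R.IsRed f⁻¹ z⁻¹) : ValuationSubring E :=
  { R.O.comap (algebraMap E Ω) with
    mem_or_inv_mem' := by
      intro f
      by_cases hf : (f : Ω) = 0
      · left
        change (f : Ω) ∈ R.O
        rw [hf]
        exact R.O.zero_mem
      obtain ⟨c, hc, z, hz, hcf⟩ := h.scale f f.2 hf
      have hc' : algebraMap K Ω c ≠ 0 := (_root_.map_ne_zero _).2 hc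
      rcases A.mem_or_inv_mem c with hA | hA
      · right
        change ((f⁻¹ : E) : Ω) ∈ R.O
        have h1 := (R.isRed_coe ⟨c, hA⟩).mul (hinv _ _ hcf hz)
        have h2 : algebraMap K Ω c * (algebraMap K Ω c * f)⁻¹ = ((f⁻¹ : E) : Ω) := by
          rw [mul_inv, ← mul_assoc, mul_inv_cancel₀ hc', one_mul]
          rfl
        rw [← h2]
        exact h1.mem
      · left
        change (f : Ω) ∈ R.O
        have h1 := (R.isRed_coe ⟨c⁻¹, hA⟩).mul hcf
        have h2 : algebraMap K Ω c⁻¹ * (algebraMap K Ω c * f) = (f : Ω) := by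
          rw [← mul_assoc, ← map_mul, inv_mul_cancel₀ hc, map_one, one_mul]
        rw [← h2]
        exact h1.mem }

variable {hinv : ∀ (f : Ω) (z : Λ), R.IsRed f z → z ≠ 0 → R.IsRed f⁻¹ z⁻¹}

theorem mem_valRing {h : SubRed R E κ} {f : E} : f ∈ h.valRing hinv ↔ (f : Ω) ∈ R.O := Iff.rfl

/-- the inclusion of valuation rings -/
def inclO (h : SubRed R E κ)
    (hinv : ∀ (f : Ω) (z : Λ), R.IsRed f z → z ≠ 0 → R.IsRed f⁻¹ z⁻¹) :
    h.valRing hinv →+* R.O where
  toFun f := ⟨((f : E) : Ω), f.2⟩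
  map_one' := rfl
  map_mul' _ _ := rfl
  map_zero' := rfl
  map_add' _ _ := rfl

theorem coe_inclO (h : SubRed R E κ) (f : h.valRing hinv) :
    ((h.inclO hinv f : R.O) : Ω) = ((f : E) : Ω) := rfl

/-- the residue map of the subfield -/
def resMap (h : SubRed R E κ)
    (hinv : ∀ (f : Ω) (z : Λ), R.IsRed f z → z ≠ 0 → R.IsRed f⁻¹ z⁻¹) :
    h.valRing hinv →+* κ :=
  (R.red.comp (h.inclO hinv)).codRestrict κ.toSubfield
    (fun f => h.red_mem _ (f : E).2 _ ⟨f.2, rfl⟩)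

theorem coe_resMap (h : SubRed R E κ) (f : h.valRing hinv) :
    ((h.resMap hinv f : κ) : Λ) = R.red ⟨((f : E) : Ω), f.2⟩ := rfl

/-- the constant reduction of the subfield -/
def constRed (h : SubRed R E κ)
    (hinv : ∀ (f : Ω) (z : Λ), R.IsRed f z → z ≠ 0 → R.IsRed f⁻¹ z⁻¹) : Red.ConstRed A π E κ where
  O := h.valRing hinv
  algebraMap_mem_iff a := by
    rw [mem_valRing]
    constructor
    · intro ha
      change algebraMap K Ω a ∈ R.O at ha
      exact R.mem_of_mem R.isRed_one one_ne_zero (by rwa [mul_one])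
    · intro ha
      exact R.algebraMap_mem ⟨a, ha⟩
  red := h.resMap hinv
  red_surjective := by
    rintro ⟨z, hz⟩
    obtain ⟨f, hf, hfz⟩ := h.lift z hz
    exact ⟨⟨⟨f, hf⟩, hfz.mem⟩, Subtype.ext (by rw [coe_resMap]; exact hfz.2)⟩
  red_eq_zero_iff := by
    intro f
    have h1 : R.IsRed ((f : E) : Ω) ((h.resMap hinv f : κ) : Λ) := ⟨f.2, (h.coe_resMap f).symm⟩
    constructor
    · intro h0 hu
      obtain ⟨g, hg⟩ := hu.exists_right_inv
      have h2 : R.IsRed ((g : E) : Ω) ((h.resMap hinv g : κ) : Λ) := ⟨g.2, (h.coe_resMap g).symm⟩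
      have h3 := h1.mul h2
      have h4 : ((f : E) : Ω) * ((g : E) : Ω) = 1 :=
        congrArg (fun z : h.valRing hinv => ((z : E) : Ω)) hg
      rw [h0, h4] at h3
      have h5 : (((0 : κ) : Λ)) * ((h.resMap hinv g : κ) : Λ) = 0 := zero_mul _
      rw [h5] at h3
      exact one_ne_zero (R.isRed_one.unique h3)
    · intro hu
      by_contra h0
      have h2 : ((h.resMap hinv f : κ) : Λ) ≠ 0 := fun h => h0 (Subtype.ext h)
      have h3 := hinv _ _ h1 h2
      apply hu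
      have hf0 : (f : E) ≠ 0 := by
        intro hf
        have h5 : ((f : E) : Ω) = 0 := by rw [hf]; rfl
        rw [h5] at h1
        exact h2 (h1.unique R.isRed_zero)
      exact IsUnit.of_mul_eq_one ⟨(f : E)⁻¹, h3.mem⟩ (Subtype.ext (mul_inv_cancel₀ hf0))
  red_algebraMap a := Subtype.ext (by
    rw [coe_resMap]
    exact R.red_algebraMap a)
  exists_scale := by
    intro f hf
    have hf' : (f : Ω) ≠ 0 := fun h => hf (Subtype.ext h)
    obtain ⟨c, hc, z, hz, hcf⟩ := h.scale f f.2 hf'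
    exact ⟨c, hc, hcf.mem, (hinv _ _ hcf hz).mem⟩

theorem isRed_constRed {h : SubRed R E κ} {f : E} {z : κ} :
    (h.constRed hinv).IsRed f z ↔ R.IsRed (f : Ω) (z : Λ) := by
  constructor
  · rintro ⟨h1, h2⟩
    have h3 := congrArg Subtype.val h2
    exact ⟨h1, h3⟩
  · rintro ⟨h1, h2⟩
    exact ⟨h1, Subtype.ext h2⟩

/-- simultaneous scaling -/
theorem scale_comb (h : SubRed R E κ) {p : ℕ} {c : ℕ → Ω} (hc : ∀ i, c i ∈ E)
    (h0 : ∃ i < p, c i ≠ 0) : ∃ γ : K, γ ≠ 0 ∧ ∃ z : ℕ → Λ,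
      (∀ i < p, z i ∈ κ ∧ R.IsRed (algebraMap K Ω γ * c i) (z i)) ∧ ∃ i < p, z i ≠ 0 := by
  classical
  have h1 : ∀ i, ∃ d : K, (c i = 0 → d = 0) ∧ (c i ≠ 0 → d ≠ 0 ∧ ∃ z, z ≠ 0 ∧
      R.IsRed (algebraMap K Ω d⁻¹ * c i) z) := by
    intro i
    by_cases hi : c i = 0
    · exact ⟨0, fun _ => rfl, fun h => absurd hi h⟩
    · obtain ⟨d, hd, z, hz, hdz⟩ := h.scale _ (hc i) hi
      exact ⟨d⁻¹, fun h => absurd h hi, fun _ => ⟨inv_ne_zero hd, z, hz, by rwa [inv_inv]⟩⟩
  choose d hd0 hd1 using h1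
  obtain ⟨i, hi, hci⟩ := h0
  obtain ⟨j, hj, hj0, hjm⟩ := Red.exists_max A (range p) d
    ⟨i, mem_range.2 hi, (hd1 i hci).1⟩
  have hcj : c j ≠ 0 := fun h => hj0 (hd0 j h)
  have h2 : ∀ i < p, ∃ z, z ∈ κ ∧ R.IsRed (algebraMap K Ω (d j)⁻¹ * c i) z := by
    intro i hi
    by_cases h3 : c i = 0
    · refine ⟨0, κ.zero_mem, ?_⟩
      rw [h3, mul_zero]
      exact R.isRed_zero
    · obtain ⟨hdi, z, hz, hdz⟩ := hd1 i h3
      have h4 := (R.isRed_coe ⟨d i / d j, hjm i (mem_range.2 hi)⟩).mul hdz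
      have h5 : algebraMap K Ω (d i / d j) * (algebraMap K Ω (d i)⁻¹ * c i) =
          algebraMap K Ω (d j)⁻¹ * c i := by
        rw [← mul_assoc, ← map_mul]
        congr 2
        field_simp
      change R.IsRed (algebraMap K Ω (d i / d j) * (algebraMap K Ω (d i)⁻¹ * c i)) _ at h4
      rw [h5] at h4
      exact ⟨_, h.red_mem _ (E.mul_mem (E.algebraMap_mem _) (hc i)) _ h4, h4⟩
  choose! z hz using h2
  refine ⟨(d j)⁻¹, inv_ne_zero hj0, z, hz, j, mem_range.1 hj, ?_⟩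
  obtain ⟨-, z', hz', hdz⟩ := hd1 j hcj
  rw [((hz j (mem_range.1 hj)).2).unique hdz]
  exact hz'

end SubRed

/-! ### integrality and subfields -/

section Int

variable {L N : Type*} [Field L] [Field N] [Algebra L N]

theorem isInt_iff {x f : N} : IsInt L x f ↔ ∃ (d : ℕ) (q : ℕ → L[X]),
    f ^ d + ∑ i ∈ range d, aeval x (q i) * f ^ i = 0 := by
  constructor
  · rintro ⟨P, hP, h0⟩
    choose q hq using fun i => FF.exists_poly x (P.coeff i)
    refine ⟨P.natDegree, q, ?_⟩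
    rw [eval₂_eq_sum_range, sum_range_succ, hP.coeff_natDegree, map_one, one_mul, add_comm] at h0
    rw [← h0]
    congr 1
    exact sum_congr rfl fun i _ => by rw [← hq]; rfl
  · rintro ⟨d, q, h⟩
    exact GoodRed.isIntegral_of_equation d q h

theorem isInt_coe {E : IntermediateField L N} {x f : E} :
    IsInt L (x : N) (f : N) ↔ IsInt L x f := by
  have key : ∀ q : L[X], aeval (x : N) q = ((aeval x q : E) : N) := fun q =>
    (Polynomial.aeval_algebraMap_apply N x q)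
  rw [isInt_iff, isInt_iff]
  constructor
  · rintro ⟨d, q, h⟩
    refine ⟨d, q, Subtype.ext ?_⟩
    push_cast
    rw [← h]
    simp only [key]
  · rintro ⟨d, q, h⟩
    refine ⟨d, q, ?_⟩
    have := congrArg (Subtype.val) h
    push_cast at this
    rw [← this]
    simp only [key]

/-- the bounded part of a subfield -/
def U (x : N) (E : IntermediateField L N) (b : ℕ) : Submodule L N :=
  Lm L x b ⊓ Subalgebra.toSubmodule E.toSubalgebra

theorem mem_U {x : N} {E : IntermediateField L N} {b : ℕ} {f : N} :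
    f ∈ U x E b ↔ f ∈ Lm L x b ∧ f ∈ E := Iff.rfl

theorem mem_Lm_coe {E : IntermediateField L N} {x f : E} {b : ℕ} :
    (f : N) ∈ Lm L (x : N) b ↔ f ∈ Lm L x b := by
  rw [GoodRed.mem_Lm, GoodRed.mem_Lm, ← isInt_coe, ← isInt_coe]
  rfl

theorem map_Lm (E : IntermediateField L N) (x : E) (b : ℕ) :
    (Lm L x b).map E.val.toLinearMap = U (x : N) E b := by
  ext f
  constructor
  · rintro ⟨g, hg, rfl⟩
    exact ⟨mem_Lm_coe.2 hg, g.2⟩
  · rintro ⟨h1, h2⟩
    exact ⟨⟨f, h2⟩, mem_Lm_coe.1 h1, rfl⟩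

theorem finrank_U (E : IntermediateField L N) (x : E) (b : ℕ) :
    Module.finrank L (U (x : N) E b) = Module.finrank L (Lm L x b) := by
  rw [← map_Lm]
  exact ((Submodule.equivMapOfInjective E.val.toLinearMap
    (fun a b h => Subtype.ext h) (Lm L x b)).finrank_eq).symm

/-- the spaces `Lm` form a filtration -/
theorem Lm_mono {x : N} {a b : ℕ} (h : a ≤ b) : Lm L x a ≤ Lm L x b := by
  intro f hf
  rw [GoodRed.mem_Lm] at hf ⊢
  refine ⟨hf.1, ?_⟩
  obtain ⟨c, rfl⟩ := Nat.exists_eq_add_of_le' h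
  rw [pow_add, mul_assoc]
  exact ((GoodRed.isInt_self _).pow c).mul hf.2

theorem Lm_mul {x : N} {a b : ℕ} {f g : N} (hf : f ∈ Lm L x a) (hg : g ∈ Lm L x b) :
    f * g ∈ Lm L x (a + b) := by
  rw [GoodRed.mem_Lm] at hf hg ⊢
  refine ⟨hf.1.mul hg.1, ?_⟩
  have := hf.2.mul hg.2
  rwa [show x⁻¹ ^ a * f * (x⁻¹ ^ b * g) = x⁻¹ ^ (a + b) * (f * g) by ring] at this

theorem Lm_one {x : N} : (1 : N) ∈ Lm L x 0 := by
  rw [GoodRed.mem_Lm]
  have h1 : ∀ y : N, IsInt L y 1 := fun y => by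
    have := GoodRed.isInt_algebraMap (K := L) y 1
    rwa [map_one] at this
  exact ⟨h1 x, by rw [pow_zero, one_mul]; exact h1 _⟩

theorem Lm_pow {x : N} {a : ℕ} {f : N} (hf : f ∈ Lm L x a) (n : ℕ) : f ^ n ∈ Lm L x (n * a) := by
  induction n with
  | zero => rw [pow_zero, Nat.zero_mul]; exact Lm_one
  | succ n ih =>
    rw [pow_succ, Nat.succ_mul]
    exact Lm_mul ih hf

theorem IsInt.of_pow {x f : N} {n : ℕ} (hn : 0 < n) (h : IsInt L x (f ^ n)) : IsInt L x f :=
  IsIntegral.of_pow hn h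

/-- closure under roots -/
theorem mem_Lm_of_pow {x : N} {n a : ℕ} {f : N} (hn : 0 < n) (hf : f ^ n ∈ Lm L x (n * a)) :
    f ∈ Lm L x a := by
  rw [GoodRed.mem_Lm] at hf ⊢
  refine ⟨IsInt.of_pow hn hf.1, IsInt.of_pow hn ?_⟩
  have := hf.2
  rwa [mul_comm n a, pow_mul, ← mul_pow] at this

theorem U_mono {x : N} {E : IntermediateField L N} {a b : ℕ} (h : a ≤ b) : U x E a ≤ U x E b :=
  inf_le_inf_right _ (Lm_mono h)

theorem U_pow_le {x : N} {E : IntermediateField L N} {a : ℕ} (n : ℕ) :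
    U x E a ^ n ≤ U x E (n * a) := by
  induction n with
  | zero =>
    rw [Submodule.pow_zero, Nat.zero_mul, Submodule.one_le]
    exact ⟨Lm_one, E.one_mem⟩
  | succ n ih =>
    rw [Submodule.pow_succ, Nat.succ_mul, Submodule.mul_le]
    intro f hf g hg
    exact ⟨Lm_mul (ih hf).1 hg.1, E.mul_mem (ih hf).2 hg.2⟩

end Int

end Fermat.Agent.Ord
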