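import Fermat.Agent.Ord.Alg
import Fermat.Agent.Ord.SubRed

/-!
# Artin–Schreier extensions: upper bound for the spaces `U`
-/

set_option autoImplicit false
set_option linter.unusedSectionVars false
set_option linter.style.haveILetI false

open Finset IntermediateField Polynomial

namespace Fermat.Agent.Ord

open Fermat.Agent.GoodRed (IsInt Lm)

section LinAlg

variable {F V : Type*} [Field F] [AddCommGroup V] [Module F V] [FiniteDimensional F V]

theorem finrank_ker_pow_le (N : V →ₗ[F] V) (n : ℕ) :
    Module.finrank F (LinearMap.ker (N ^ n)) ≤ n * Module.finrank F (LinearMap.ker N) := by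
  induction n with
  | zero =>
    have h : LinearMap.ker (N ^ 0) = ⊥ := by
      rw [pow_zero]
      exact LinearMap.ker_eq_bot.2 (fun a b h => h)
    rw [h, finrank_bot, Nat.zero_mul]
  | succ n ih =>
    let g : LinearMap.ker (N ^ (n + 1)) →ₗ[F] V := N.domRestrict _
    have h1 := g.finrank_range_add_finrank_ker
    have h2 : LinearMap.range g ≤ LinearMap.ker (N ^ n) := by
      rintro _ ⟨x, rfl⟩
      rw [LinearMap.mem_ker]
      have h3 : ∀ y : V, (N ^ (n + 1)) y = (N ^ n) (N y) := fun y => by rw [pow_succ]; rfl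
      exact (h3 x).symm.trans x.2
    have h3 := Submodule.finrank_mono h2
    have h4 : Module.finrank F (LinearMap.ker g) ≤ Module.finrank F (LinearMap.ker N) := by
      let i : LinearMap.ker g →ₗ[F] LinearMap.ker N :=
        { toFun := fun x => ⟨((x : LinearMap.ker (N ^ (n + 1))) : V), x.2⟩
          map_add' := fun _ _ => rfl
          map_smul' := fun _ _ => rfl }
      refine LinearMap.finrank_le_finrank_of_injective (f := i) fun x y h => ?_
      exact Subtype.ext (Subtype.ext (congrArg (fun z : LinearMap.ker N => (z : V)) h))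
    rw [Nat.succ_mul]
    omega

theorem finrank_le_mul_ker {N : V →ₗ[F] V} {n : ℕ} (hN : N ^ n = 0) :
    Module.finrank F V ≤ n * Module.finrank F (LinearMap.ker N) := by
  have h := finrank_ker_pow_le N n
  have h1 : LinearMap.ker (N ^ n) = ⊤ := by rw [hN]; exact LinearMap.ker_zero
  rwa [h1, finrank_top] at h

theorem finrank_le_of_forall_mem {F A B : Type*} [Field F] [AddCommGroup A] [Module F A]
    [AddCommGroup B] [Module F B] (W : Submodule F A) (U : Submodule F B) [FiniteDimensional F U]
    (g : A →ₗ[F] B) (hg : Function.Injective g) (h : ∀ z ∈ W, g z ∈ U) :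
    Module.finrank F W ≤ Module.finrank F U := by
  let i : W →ₗ[F] U := LinearMap.codRestrict U (g.comp W.subtype) (fun z => h z z.2)
  refine LinearMap.finrank_le_finrank_of_injective (f := i) fun x y hxy => ?_
  exact Subtype.ext (hg (congrArg Subtype.val hxy))

end LinAlg

section Aut

variable {K Ω : Type*} [Field K] [Field Ω] [Algebra K Ω] {E E' : IntermediateField K Ω}

theorem eq_zero_of_indep {s : Ω} {p : ℕ} (hI : Indep E s p) {Q : E[X]} (hQ : Q.natDegree < p)
    (h0 : aeval s Q = 0) : Q = 0 := by
  rw [aeval_def, eval₂_eq_sum_range' _ hQ] at h0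
  have h1 := hI (fun i => ((Q.coeff i : E) : Ω)) (fun i => (Q.coeff i).2) h0
  ext i
  by_cases hi : i < p
  · rw [h1 i hi, coeff_zero]; rfl
  · rw [coeff_eq_zero_of_natDegree_lt (by omega), coeff_zero]

/-- Artin–Schreier automorphisms -/
theorem exists_autAS {p : ℕ} (hp : p.Prime) [CharP Ω p] (hle : E ≤ E') {s r : Ω} (hsE : s ∈ E')
    (hrE : r ∈ E) (hs : s ^ p = s + r) (hI : Indep E s p) (hS : Spans E E' s p) :
    ∃ τ : E' →+* E', (∀ z : E', (z : Ω) ∈ E → τ z = z) ∧
      (∀ z : E', τ z = z → (z : Ω) ∈ E) ∧ ∀ z : E', (τ ^ p) z = z := by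
  classical
  haveI : Fact p.Prime := ⟨hp⟩
  letI : Algebra E E' := (IntermediateField.inclusion hle).toRingHom.toAlgebra
  haveI : IsScalarTower E E' Ω := IsScalarTower.of_algebraMap_eq fun x => rfl
  haveI : CharP E p := (algebraMap E Ω).charP (algebraMap E Ω).injective p
  haveI : CharP E' p := (algebraMap E' Ω).charP (algebraMap E' Ω).injective p
  let G : E' := ⟨s, hsE⟩
  let R : E := ⟨r, hrE⟩
  have hG : G ^ p = G + algebraMap E E' R := Subtype.ext hs
  have hli : LinearIndependent E (fun i : Fin p => G ^ (i : ℕ)) := by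
    rw [Fintype.linearIndependent_iff]
    intro c hc i
    have h1 := hI (fun j => if h : j < p then ((c ⟨j, h⟩ : E) : Ω) else 0) (fun j => by
      by_cases h : j < p
      · simp only [h, dif_pos]; exact (c ⟨j, h⟩).2
      · simp only [h, dif_neg, not_false_eq_true]; exact zero_mem _) (by
      have h2 := congrArg (Subtype.val) hc
      rw [AddSubmonoidClass.coe_finsetSum] at h2
      rw [Finset.sum_range, ← show ((0 : E') : Ω) = 0 from rfl, ← h2]
      refine sum_congr rfl fun j _ => ?_
      rw [dif_pos j.2, Algebra.smul_def]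
      rfl) i i.2
    rw [dif_pos i.2] at h1
    exact Subtype.ext h1
  have hsp : ⊤ ≤ Submodule.span E (Set.range fun i : Fin p => G ^ (i : ℕ)) := by
    intro z _
    obtain ⟨c, hc, hz⟩ := hS z z.2
    have h1 : z = ∑ i : Fin p, (⟨c i, hc i⟩ : E) • G ^ (i : ℕ) := by
      apply Subtype.ext
      rw [hz, Finset.sum_range, AddSubmonoidClass.coe_finsetSum]
      refine sum_congr rfl fun i _ => ?_
      rw [Algebra.smul_def]
      rfl
    rw [h1]
    exact Submodule.sum_mem _ fun i _ => Submodule.smul_mem _ _ (Submodule.subset_span ⟨i, rfl⟩)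
  let pb : PowerBasis E E' :=
    { gen := G
      dim := p
      basis := Module.Basis.mk hli hsp
      basis_eq_pow := fun i => by rw [Module.Basis.mk_apply] }
  have hQd1 : (X + C R : E[X]).degree < p := by
    rw [degree_X_add_C]
    exact_mod_cast hp.one_lt
  have hQm : (X ^ p - (X + C R) : E[X]).Monic := monic_X_pow_sub hQd1
  have hQd : (X ^ p - (X + C R) : E[X]).natDegree = p := by
    rw [natDegree_sub_eq_left_of_natDegree_lt, natDegree_X_pow]
    rw [natDegree_X_add_C, natDegree_X_pow]
    exact hp.one_lt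
  have hmin : minpoly E G = X ^ p - (X + C R) := by
    have h1 : (minpoly E pb.gen).natDegree = p := pb.natDegree_minpoly
    have h2 : aeval G (X ^ p - (X + C R) : E[X]) = 0 := by
      rw [map_sub, map_pow, map_add, aeval_X, aeval_C, hG, sub_self]
    have h3 := minpoly.dvd E G h2
    exact eq_of_monic_of_dvd_of_natDegree_le (minpoly.monic pb.isIntegral_gen) hQm h3
      (by rw [hQd]; exact h1.ge) |>.symm
  have hroot : aeval (G + 1) (minpoly E pb.gen) = 0 := by
    change aeval (G + 1) (minpoly E G) = 0
    rw [hmin, map_sub, map_pow, map_add, aeval_X, aeval_C, add_pow_char, one_pow, hG]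
    ring
  let τ : E' →ₐ[E] E' := pb.lift (G + 1) hroot
  have hτG : τ G = G + 1 := pb.lift_gen _ hroot
  have hτP : ∀ P : E[X], τ (aeval G P) = aeval G (P.comp (X + 1)) := by
    intro P
    rw [← aeval_algHom_apply, hτG, aeval_comp, map_add, aeval_X, map_one]
  -- every element is a polynomial of small degree
  have hpoly : ∀ z : E', ∃ P : E[X], P.degree < p ∧ z = aeval G P := by
    intro z
    obtain ⟨c, hc, hz⟩ := hS z z.2
    refine ⟨∑ i ∈ range p, C ⟨c i, hc i⟩ * X ^ i, ?_, ?_⟩
    · refine (degree_sum_le _ _).trans_lt ?_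
      refine (Finset.sup_lt_iff (WithBot.bot_lt_coe p)).2 fun i hi => ?_
      refine (degree_C_mul_X_pow_le i _).trans_lt ?_
      exact WithBot.coe_lt_coe.2 (Finset.mem_range.1 hi)
    · apply Subtype.ext
      rw [hz, map_sum, AddSubmonoidClass.coe_finsetSum]
      refine sum_congr rfl fun i _ => ?_
      rw [map_mul, aeval_C, map_pow, aeval_X]
      rfl
  have hcoe : ∀ P : E[X], ((aeval G P : E') : Ω) = aeval s P := fun P =>
    (Polynomial.aeval_algebraMap_apply Ω G P).symm
  refine ⟨(τ : E' →+* E'), fun z hz => ?_, fun z hz => ?_, fun z => ?_⟩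
  · have h1 : z = algebraMap E E' ⟨z, hz⟩ := Subtype.ext rfl
    rw [h1]
    exact τ.commutes _
  · obtain ⟨P, hPd, rfl⟩ := hpoly z
    have hz' : τ (aeval G P) = aeval G P := hz
    rw [hτP] at hz'
    have hdeg : (P.comp (X + 1)).degree < p := by
      by_cases hP0 : P = 0
      · rw [hP0, zero_comp, degree_zero]; exact WithBot.bot_lt_coe p
      · have h1 : (X + 1 : E[X]) = X + C 1 := by rw [C_1]
        rw [h1]
        have h2 : (P.comp (X + C 1)).natDegree = P.natDegree := by
          rw [natDegree_comp, natDegree_X_add_C, mul_one]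
        by_cases h3 : P.comp (X + C 1) = 0
        · rw [h3, degree_zero]; exact WithBot.bot_lt_coe p
        · rw [degree_eq_natDegree h3, h2, ← degree_eq_natDegree hP0]
          exact hPd
    have h0 : P.comp (X + 1) - P = 0 := by
      have hd : (P.comp (X + 1) - P).degree < p :=
        (degree_sub_le _ _).trans_lt (max_lt hdeg hPd)
      by_contra hne
      refine hne (eq_zero_of_indep hI ((natDegree_lt_iff_degree_lt hne).2 hd) ?_)
      rw [← hcoe, map_sub, hz', sub_self]; rfl
    have heval : ∀ n : ℕ, P.eval (n : E) = P.eval 0 := by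
      intro n
      induction n with
      | zero => rw [Nat.cast_zero]
      | succ n ih =>
        rw [← ih]
        have h1 := congrArg (eval (n : E)) (sub_eq_zero.mp h0)
        rw [eval_comp, eval_add, eval_X, eval_one] at h1
        rw [Nat.cast_succ]
        exact h1
    have hPC : P = C (P.eval 0) := by
      have hcard : ((range p).image (fun i : ℕ => (i : E))).card = p := by
        rw [Finset.card_image_of_injOn, card_range]
        intro a ha b hb hab
        have ha' : a ∈ Set.Iio p := by simpa using ha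
        have hb' : b ∈ Set.Iio p := by simpa using hb
        exact CharP.natCast_injOn_Iio E p ha' hb' hab
      refine eq_of_degree_sub_lt_of_eval_finset_eq ((range p).image (fun i : ℕ => (i : E))) ?_ ?_
      · rw [hcard]
        refine (degree_sub_le _ _).trans_lt (max_lt hPd ?_)
        exact degree_C_le.trans_lt (by exact_mod_cast hp.pos)
      · intro x hx
        obtain ⟨n, -, rfl⟩ := Finset.mem_image.1 hx
        rw [eval_C, heval]
    rw [hPC, aeval_C]
    exact (P.eval 0).2
  · obtain ⟨P, -, rfl⟩ := hpoly z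
    have hn : ∀ n : ℕ, ((τ : E' →+* E') ^ n) (aeval G P) = aeval (G + n) P := by
      intro n
      induction n generalizing P with
      | zero => rw [pow_zero, Nat.cast_zero, add_zero]; rfl
      | succ n ih =>
        rw [pow_succ]
        change ((τ : E' →+* E') ^ n) (τ (aeval G P)) = _
        rw [hτP, ih, aeval_comp, map_add, aeval_X, map_one]
        congr 2
        push_cast
        ring
    rw [hn, CharP.cast_eq_zero, add_zero]

end Aut

section Main

variable {k Λ : Type*} [Field k] [Field Λ] [Algebra k Λ] {κ : IntermediateField k Λ} {p : ℕ}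

theorem IsInt.map' {L N N' : Type*} [Field L] [Field N] [Field N'] [Algebra L N] [Algebra L N']
    (f : N →ₐ[L] N') {x y : N} (h : IsInt L x y) : IsInt L (f x) (f y) := by
  rw [isInt_iff] at h ⊢
  obtain ⟨d, q, h⟩ := h
  refine ⟨d, q, ?_⟩
  have h1 := congrArg f h
  rw [map_add, map_pow, map_sum, map_zero] at h1
  rw [← h1]
  congr 1
  refine sum_congr rfl fun i _ => ?_
  rw [map_mul, map_pow, aeval_algHom_apply]

theorem finrank_le_of_aut {F A : Type*} [Field F] [Field A] [Algebra F A] {p : ℕ} [Fact p.Prime]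
    [CharP F p] (τ : A →ₐ[F] A) (W : Submodule F A) [FiniteDimensional F W]
    (hW : ∀ z ∈ W, τ.toLinearMap z ∈ W) (hτ : ∀ z, (τ ^ p) z = z) :
    Module.finrank F W ≤
      p * Module.finrank F (W ⊓ LinearMap.ker (τ.toLinearMap - 1) : Submodule F A) := by
  by_cases hn : Nontrivial W
  swap
  · have h : Subsingleton W := not_nontrivial_iff_subsingleton.mp hn
    rw [Module.finrank_zero_of_subsingleton]
    exact Nat.zero_le _
  let T : Module.End F W := τ.toLinearMap.restrict hW
  have hT : ∀ z : W, ((T z : W) : A) = τ (z : A) := fun z => rfl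
  have hTp : T ^ p = 1 := by
    apply LinearMap.ext
    intro z
    apply Subtype.ext
    have h1 : ∀ n : ℕ, ∀ z : W, (((T ^ n) z : W) : A) = (τ ^ n) (z : A) := by
      intro n
      induction n with
      | zero => intro z; rfl
      | succ n ih =>
        intro z
        rw [pow_succ, pow_succ]
        exact ih (T z)
    rw [h1, hτ]
    rfl
  have hchar : CharP (Module.End F W) p :=
    charP_of_injective_algebraMap (algebraMap F (Module.End F W)).injective p
  have hN : (T - 1) ^ p = 0 := by
    have h := sub_pow_char_of_commute (R := Module.End F W) (x := T) (y := 1) (p := p)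
      (Commute.one_right T)
    rw [h, hTp, one_pow, sub_self]
  refine (finrank_le_mul_ker hN).trans (Nat.mul_le_mul_left p ?_)
  let i : LinearMap.ker (T - 1) →ₗ[F] (W ⊓ LinearMap.ker (τ.toLinearMap - 1) : Submodule F A) :=
    LinearMap.codRestrict _ (W.subtype.comp (Submodule.subtype _)) (fun z => by
      have hz : T (z : W) = z := sub_eq_zero.mp z.2
      have hz2 : τ ((z : W) : A) = ((z : W) : A) := congrArg Subtype.val hz
      refine ⟨(z : W).2, ?_⟩
      exact sub_eq_zero.mpr hz2)
  have hi : Function.Injective i := by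
    intro x y h
    have h1 : (((x : W)) : A) = ((y : W) : A) :=
      congrArg (fun z : (W ⊓ LinearMap.ker (τ.toLinearMap - 1) : Submodule F A) => (z : A)) h
    exact Subtype.ext (Subtype.ext h1)
  exact LinearMap.finrank_le_finrank_of_injective hi

theorem finrank_U_le_of_aut [CharP k p] (hp : p.Prime) {E' : IntermediateField k Λ} (hle : κ ≤ E')
    (τ : E' →+* E') (hτ1 : ∀ z : E', (z : Λ) ∈ κ → τ z = z)
    (hτ2 : ∀ z : E', τ z = z → (z : Λ) ∈ κ) (hτ3 : ∀ z : E', (τ ^ p) z = z) {xb : Λ}
    (hxb : xb ∈ κ) (b : ℕ) :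
    Module.finrank k (U xb E' b) ≤ p * Module.finrank k (U xb κ b) := by
  classical
  haveI : Fact p.Prime := ⟨hp⟩
  by_cases hV : Module.Finite k (U xb E' b)
  swap
  · rw [Module.finrank_of_not_finite hV]; exact Nat.zero_le _
  let x' : E' := ⟨xb, hle hxb⟩
  have hU : Module.finrank k (U xb E' b) = Module.finrank k (Lm k x' b) :=
    finrank_U E' x' b
  have hfinL : Module.Finite k (Lm k x' b) := by
    have h1 : (Lm k x' b).map E'.val.toLinearMap = U xb E' b := map_Lm E' x' b
    have e := Submodule.equivMapOfInjective E'.val.toLinearMap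
      (fun a b h => Subtype.ext h) (Lm k x' b)
    have h2 : Module.Finite k ((Lm k x' b).map E'.val.toLinearMap) := by rw [h1]; exact hV
    exact Module.Finite.equiv e.symm
  have hle' : U xb κ b ≤ U xb E' b := fun f hf => ⟨hf.1, hle hf.2⟩
  have hfinκ : Module.Finite k (U xb κ b) := Submodule.finiteDimensional_of_le hle'
  -- the automorphism is `k`-linear
  let τk : E' →ₐ[k] E' :=
    { (τ : E' →+* E') with
      commutes' := fun a => hτ1 _ (κ.algebraMap_mem a) }
  have hτk : ∀ z, τk z = τ z := fun z => rfl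
  have hτx : τk x' = x' := hτ1 _ hxb
  have hmem : ∀ z ∈ Lm k x' b, τk.toLinearMap z ∈ Lm k x' b := by
    intro z hz
    rw [GoodRed.mem_Lm] at hz ⊢
    refine ⟨?_, ?_⟩
    · have := IsInt.map' τk hz.1
      rwa [hτx] at this
    · have := IsInt.map' τk hz.2
      rwa [map_mul, map_pow, map_inv₀, hτx] at this
  have hτp : ∀ z : E', (τk ^ p) z = z := by
    have h1 : ∀ (n : ℕ) (z : E'), (τk ^ n) z = (τ ^ n) z := by
      intro n
      induction n with
      | zero => intro z; rfl
      | succ n ih =>
        intro z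
        rw [pow_succ, pow_succ]
        exact ih (τ z)
    intro z
    rw [h1, hτ3]
  have h1 := finrank_le_of_aut (F := k) (A := E') (p := p) τk (Lm k x' b) hmem hτp
  rw [hU]
  refine h1.trans (Nat.mul_le_mul_left p ?_)
  refine finrank_le_of_forall_mem _ _ E'.val.toLinearMap (fun a b h => Subtype.ext h) ?_
  intro z hz
  obtain ⟨hz1, hz2⟩ := Submodule.mem_inf.mp hz
  rw [LinearMap.mem_ker, LinearMap.sub_apply, Module.End.one_apply, sub_eq_zero] at hz2
  have hz3 : τ z = z := hz2
  exact mem_U.2 ⟨(mem_Lm_coe (E := E') (x := x') (f := z) (b := b)).2 hz1, hτ2 z hz3⟩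

theorem finrank_U_ext_le [CharP k p] [CharP Λ p] [IsAlgClosed k] (hp : p.Prime) {xb : Λ}
    (hxb : xb ∈ κ) (htr : Transcendental k xb) (hfin : 0 < relfinrank k⟮xb⟯ κ) {s r : Λ}
    (hr : r ∈ κ) (hs : s ^ p = s + r) (hsκ : s ∉ κ) (b : ℕ) :
    Module.finrank k (U xb (ext κ s) b) ≤ p * Module.finrank k (U xb κ b) := by
  classical
  haveI : Fact p.Prime := ⟨hp⟩
  have hI : Indep κ s p := indep_artinSchreier hp hr hs hsκ
  have hS : Spans κ (ext κ s) s p := by
    refine spans_ext (q := fun i => if i = 0 then r else if i = 1 then 1 else 0) (fun i => ?_) ?_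
    · show (if i = 0 then r else if i = 1 then 1 else 0) ∈ κ
      split_ifs
      · exact hr
      · exact one_mem _
      · exact zero_mem _
    · rw [hs]
      obtain ⟨n, rfl⟩ := Nat.exists_eq_add_of_le hp.two_le
      rw [add_comm 2 n, sum_range_succ', sum_range_succ']
      simp
  obtain ⟨τ, hτ1, hτ2, hτ3⟩ := exists_autAS hp (le_ext κ s) (self_mem_ext κ s) hr hs hI hS
  exact finrank_U_le_of_aut hp (le_ext κ s) τ hτ1 hτ2 hτ3 hxb b

end Main

end Fermat.Agent.Ord
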