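import Fermat.Agent.Ord.Step
import Fermat.Agent.Ord.Upper

/-!
# The tower of `p`-power roots
-/

set_option autoImplicit false
set_option linter.unusedSectionVars false
set_option linter.style.haveILetI false

open Finset IntermediateField

namespace Fermat.Agent.Ord

open Fermat.Agent.GoodRed (IsInt Lm)

variable {K k : Type*} [Field K] [Field k] {A : ValuationSubring K} {π : A →+* k}
  {Ω Λ : Type*} [Field Ω] [Algebra K Ω] [Field Λ] [Algebra k Λ]

variable {R : PreRed A π Ω Λ} {p : ℕ} {w : K}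

section Aut

variable {E : IntermediateField K Ω}

theorem iterate_mem {τ : E →+* E} (hO : ∀ z : E, (z : Ω) ∈ R.O → ((τ z : E) : Ω) ∈ R.O) (n : ℕ)
    {z : E} (hz : (z : Ω) ∈ R.O) : ((τ^[n] z : E) : Ω) ∈ R.O := by
  induction n with
  | zero => exact hz
  | succ n ih => rw [Function.iterate_succ_apply']; exact hO _ ih

theorem iterate_inv (τ : E →+* E) (n : ℕ) (z : E) : τ^[n] z⁻¹ = (τ^[n] z)⁻¹ := by
  induction n with
  | zero => rfl
  | succ n ih => rw [Function.iterate_succ_apply', ih, map_inv₀, Function.iterate_succ_apply']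

/-- an automorphism preserving integrality also preserves the maximal ideal -/
theorem isRed_zero_of_pres (M : Amb R p w) {τ : E →+* E}
    (hO : ∀ z : E, (z : Ω) ∈ R.O → ((τ z : E) : Ω) ∈ R.O) {m : ℕ} (hm : 0 < m)
    (hτ : ∀ z, τ^[m] z = z) {z : E} (hz : R.IsRed (z : Ω) 0) : R.IsRed ((τ z : E) : Ω) 0 := by
  obtain ⟨z', hz'⟩ := R.exists_isRed_of_mem (hO z hz.mem)
  by_cases h0 : z' = 0
  · rwa [h0] at hz'
  exfalso
  have h1 := M.inv _ _ hz' h0
  have h2 : (((τ z)⁻¹ : E) : Ω) ∈ R.O := h1.mem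
  have h3 := iterate_mem hO (m - 1) h2
  have h4 : τ^[m - 1] (τ z)⁻¹ = z⁻¹ := by
    rw [iterate_inv, ← Function.iterate_succ_apply, Nat.succ_eq_add_one, Nat.sub_add_cancel hm, hτ]
  rw [h4] at h3
  obtain ⟨u, hu⟩ := R.exists_isRed_of_mem h3
  have h5 := hz.mul hu
  have hz0 : z ≠ 0 := by
    rintro rfl
    rw [map_zero] at hz'
    exact h0 (hz'.unique R.isRed_zero)
  have h6 : (z : Ω) * ((z⁻¹ : E) : Ω) = 1 := congrArg Subtype.val (mul_inv_cancel₀ hz0)
  rw [h6, zero_mul] at h5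
  exact one_ne_zero (R.isRed_one.unique h5)

theorem isRed_iterate_zero (M : Amb R p w) {τ : E →+* E}
    (hO : ∀ z : E, (z : Ω) ∈ R.O → ((τ z : E) : Ω) ∈ R.O) {m : ℕ} (hm : 0 < m)
    (hτ : ∀ z, τ^[m] z = z) (n : ℕ) {z : E} (hz : R.IsRed (z : Ω) 0) :
    R.IsRed ((τ^[n] z : E) : Ω) 0 := by
  induction n with
  | zero => exact hz
  | succ n ih =>
    rw [Function.iterate_succ_apply']
    exact isRed_zero_of_pres M hO hm hτ ih

theorem iterate_add (τ : E →+* E) (n : ℕ) (z z' : E) : τ^[n] (z + z') = τ^[n] z + τ^[n] z' := by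
  induction n with
  | zero => rfl
  | succ n ih => rw [Function.iterate_succ_apply', ih, map_add, Function.iterate_succ_apply',
      Function.iterate_succ_apply']

/-- almost invariant elements -/
theorem isRed_iterate (M : Amb R p w) {τ : E →+* E}
    (hO : ∀ z : E, (z : Ω) ∈ R.O → ((τ z : E) : Ω) ∈ R.O) {m : ℕ} (hm : 0 < m)
    (hτ : ∀ z, τ^[m] z = z) {z : E} {zb : Λ} (hz : R.IsRed (z : Ω) zb)
    (h : R.IsRed (((τ z - z : E)) : Ω) 0) (n : ℕ) : R.IsRed ((τ^[n] z : E) : Ω) zb := by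
  induction n with
  | zero => exact hz
  | succ n ih =>
    have h1 : τ^[n + 1] z = τ^[n] z + τ^[n] (τ z - z) := by
      rw [← iterate_add, Function.iterate_succ_apply]
      congr 1
      ring
    rw [h1]
    have h2 := ih.add (isRed_iterate_zero M hO hm hτ n h)
    rwa [add_zero] at h2

/-- Kummer automorphisms have finite order -/
theorem iterate_aut {F : IntermediateField K Ω} {g : Ω} {n : ℕ} (hgE : g ∈ E)
    (hS : Spans F E g n) {ζ : K} (hζ : ζ ^ n = 1) {τ : E →+* E}
    (hF : ∀ z : E, (z : Ω) ∈ F → τ z = z)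
    (hτ : ((τ ⟨g, hgE⟩ : E) : Ω) = algebraMap K Ω ζ * g) (hle : F ≤ E) (z : E) :
    τ^[n] z = z := by
  let G : E := ⟨g, hgE⟩
  let Z : E := ⟨algebraMap K Ω ζ, E.algebraMap_mem ζ⟩
  have hZ : τ Z = Z := hF Z (F.algebraMap_mem ζ)
  have hG : τ G = Z * G := Subtype.ext hτ
  obtain ⟨c, hc, hz⟩ := hS z z.2
  have h1 : z = ∑ i ∈ range n, (⟨c i, hle (hc i)⟩ : E) * G ^ i := by
    apply Subtype.ext
    rw [hz, AddSubmonoidClass.coe_finsetSum]
    rfl
  have h2 : ∀ j : ℕ, τ^[j] z = ∑ i ∈ range n, (⟨c i, hle (hc i)⟩ : E) * (Z ^ j * G) ^ i := by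
    intro j
    induction j with
    | zero => simpa using h1
    | succ j ih =>
      rw [Function.iterate_succ_apply', ih, map_sum]
      refine sum_congr rfl fun i _ => ?_
      rw [map_mul, map_pow, map_mul, map_pow, hZ, hG, hF ⟨c i, hle (hc i)⟩ (hc i), pow_succ Z j,
        mul_assoc (Z ^ j)]
  have hZn : Z ^ n = 1 := Subtype.ext (by
    change algebraMap K Ω ζ ^ n = 1
    rw [← map_pow, hζ, map_one])
  rw [h2 n, hZn, one_mul]
  exact h1.symm

end Aut

section Const

variable (M : Amb R p w)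

include M

/-- `(η - 1) / w` is a unit for `η ≠ 1` a `p`-th root of unity -/
theorem not_isRed_zero_of_root {η : K} (hη : η ^ p = 1) (hη1 : η ≠ 1) {e : K}
    (he : η = 1 + w * e) : ¬ R.IsRed (algebraMap K Ω e) 0 := by
  intro h0
  have hp := M.hp
  have he0 : algebraMap K Ω e ≠ 0 := by
    intro h
    rw [(map_eq_zero _).1 h, mul_zero, add_zero] at he
    exact hη1 he
  obtain ⟨m, hm⟩ : ∃ m, p - 1 = m + 1 := ⟨p - 2, by have := hp.two_le; omega⟩
  have h1 : (1 + algebraMap K Ω w * algebraMap K Ω e) ^ p = 1 := by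
    rw [← map_mul, ← map_one (algebraMap K Ω), ← map_add, ← he, ← map_pow, hη, map_one]
  rw [add_mul_pow hp M.W_pow, one_pow] at h1
  have h2 : (algebraMap K Ω e) ^ p = lin p (algebraMap K Ω w) 1 (algebraMap K Ω e) := by
    have h3 : algebraMap K Ω w ^ p * ((algebraMap K Ω e) ^ p -
      lin p (algebraMap K Ω w) 1 (algebraMap K Ω e)) = 0 := by linear_combination h1
    exact sub_eq_zero.1 ((mul_eq_zero.1 h3).resolve_left (pow_ne_zero _ M.W_ne))
  have h3 : (algebraMap K Ω e) ^ (p - 1) = ∑ j ∈ range (p - 1), (cdiv p (j + 1) : Ω) *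
      algebraMap K Ω w ^ j * (algebraMap K Ω e) ^ j := by
    apply mul_left_cancel₀ he0
    rw [← pow_succ', Nat.sub_add_cancel hp.one_le, h2, lin, mul_sum]
    exact sum_congr rfl fun j _ => by rw [one_pow]; ring
  have h4 := PreRed.isRed_sum (R := R) (range (p - 1))
    (y := fun j => (cdiv p (j + 1) : Ω) * algebraMap K Ω w ^ j * (algebraMap K Ω e) ^ j)
    (z := fun j => (cdiv p (j + 1) : Λ) * 0 ^ j * 0 ^ j) (fun j _ => by
      have h5 : R.IsRed (cdiv p (j + 1) : Ω) (cdiv p (j + 1) : Λ) := by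
        have := R.isRed_coe (cdiv p (j + 1) : A)
        simpa using this
      exact (h5.mul (M.isRed_w.pow j)).mul (h0.pow j))
  rw [← h3] at h4
  have h5 := (h0.pow (p - 1)).unique h4
  rw [hm, sum_range_succ', sum_eq_zero] at h5
  · simp [cdiv_one hp] at h5
  · intro j _
    simp

/-- elements with `z ^ p = z` are natural numbers -/
theorem exists_natCast [CharP k p] {z : Λ} (hz : z ^ p = z) : ∃ l : ℕ, (l : Λ) = z := by
  haveI : Fact p.Prime := ⟨M.hp⟩
  haveI := R.charP_alg p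
  have h1 := (Subfield.mem_bot_iff_pow_eq_self (p := p) (F := Λ) (x := z)).2 hz
  rw [← ZMod.fieldRange_castHom_eq_bot p] at h1
  obtain ⟨l, hl⟩ := h1
  refine ⟨l.val, ?_⟩
  rw [← hl, ZMod.castHom_apply, ZMod.natCast_val]

theorem isRed_natCast (l : ℕ) : R.IsRed (l : Ω) (l : Λ) := by
  have := R.isRed_coe (l : A)
  simpa using this

end Const

namespace StepData

variable {M : Amb R p w} {E : IntermediateField K Ω} {κ : IntermediateField k Λ}
  {g y r s : Ω} {rb sb : Λ} (D : StepData M E κ g y r s rb sb)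

include D

/-- **The root is not split**: norm argument -/
theorem nonsplit_root [IsAlgClosed K] [CharZero K] [CharP k p] (L : SubRed R E κ)
    (hEQ : ∀ f ∈ E, f ∈ M.Q) : ¬ Split R p w (ext E s) (y + algebraMap K Ω w * s) := by
  classical
  rintro ⟨Y, hY, m, hm, hm0, hsplit⟩
  have hp := M.hp
  haveI : NeZero (p : K) := ⟨by exact_mod_cast hp.ne_zero⟩
  haveI := R.charP_alg p
  obtain ⟨ζ, hζ⟩ := HasEnoughRootsOfUnity.exists_primitiveRoot K p
  obtain ⟨τ, hτE, hτg, -⟩ := exists_aut (le_ext E s) hp.pos D.root_mem D.g_mem D.root_pow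
    (D.indep_root L) D.spans_root hζ
  have hQ := D.ext_Q hEQ
  have hO : ∀ z : ext E s, (z : Ω) ∈ R.O → ((τ z : ext E s) : Ω) ∈ R.O :=
    D.stab L (Stab.refl M E) ((algebraMap (ext E s) Ω).comp τ) (fun z => hQ _ (τ z).2)
      (fun z hz => congrArg Subtype.val (hτE z hz))
  have hord : ∀ z, τ^[p] z = z := iterate_aut D.root_mem D.spans_root hζ.pow_eq_one hτE hτg
    (le_ext E s)
  set g' : Ω := y + algebraMap K Ω w * s with hg'
  have hg'1 : R.IsRed g' 1 := D.isRed_root
  have hg'0 : g' ≠ 0 := M.ne_of_isRed hg'1 one_ne_zero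
  let Y' : ext E s := ⟨Y, hY⟩
  let m' : ext E s := ⟨m, hm⟩
  have hY0 : Y ≠ 0 := by
    rintro rfl
    rw [zero_pow hp.ne_zero, zero_mul] at hsplit
    exact hg'0 hsplit
  have hY'0 : Y' ≠ 0 := fun h => hY0 (congrArg Subtype.val h)
  obtain ⟨ξ, hξ⟩ := IsAlgClosed.exists_pow_nat_eq ζ hp.pos
  have hζ0 : ζ ≠ 0 := hζ.ne_zero hp.ne_zero
  have hξ0 : ξ ≠ 0 := by
    rintro rfl
    rw [zero_pow hp.ne_zero] at hξ
    exact hζ0 hξ.symm
  have hξΩ : algebraMap K Ω ξ ≠ 0 := (map_ne_zero _).2 hξ0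
  have hζΩ : algebraMap K Ω ζ ≠ 0 := (map_ne_zero _).2 hζ0
  let Z : ext E s := ⟨algebraMap K Ω ξ, (ext E s).algebraMap_mem ξ⟩
  let W' : ext E s := ⟨algebraMap K Ω w, (ext E s).algebraMap_mem w⟩
  have hτZ : τ Z = Z := hτE Z (E.algebraMap_mem ξ)
  have hτW : τ W' = W' := hτE W' (E.algebraMap_mem w)
  -- the element `θ`
  have hτsplit : algebraMap K Ω ζ * g' = ((τ Y' : ext E s) : Ω) ^ p *
      (1 + algebraMap K Ω w ^ p * ((τ m' : ext E s) : Ω)) := by
    have h1 : (⟨g', D.root_mem⟩ : ext E s) = Y' ^ p * (1 + W' ^ p * m') := Subtype.ext hsplit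
    have h2 := congrArg τ h1
    rw [map_mul, map_pow, map_add, map_one, map_mul, map_pow, hτW] at h2
    have h3 := congrArg Subtype.val h2
    rw [hτg] at h3
    exact h3
  have hτm0 : R.IsRed ((τ m' : ext E s) : Ω) 0 := isRed_zero_of_pres M hO hp.pos hord hm0
  have hden : R.IsRed (1 + algebraMap K Ω w ^ p * ((τ m' : ext E s) : Ω)) 1 := by
    have := R.isRed_one.add ((M.isRed_w.pow p).mul hτm0)
    rwa [mul_zero, add_zero] at this
  have hden0 := M.ne_of_isRed hden one_ne_zero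
  let θ : ext E s := τ Y' / Y'
  set q : Ω := (θ : Ω) / algebraMap K Ω ξ with hq
  have hθv : (θ : Ω) = ((τ Y' : ext E s) : Ω) / Y := rfl
  have hqp : q ^ p = 1 + algebraMap K Ω w ^ p * ((m - ((τ m' : ext E s) : Ω)) /
      (1 + algebraMap K Ω w ^ p * ((τ m' : ext E s) : Ω))) := by
    have h1 : q ^ p * (1 + algebraMap K Ω w ^ p * ((τ m' : ext E s) : Ω)) =
        1 + algebraMap K Ω w ^ p * m := by
      rw [hq, hθv, div_pow, div_pow, ← map_pow, hξ]
      have h2 : ((τ Y' : ext E s) : Ω) ^ p *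
          (1 + algebraMap K Ω w ^ p * ((τ m' : ext E s) : Ω)) =
          algebraMap K Ω ζ * (Y ^ p * (1 + algebraMap K Ω w ^ p * m)) := by
        rw [← hτsplit, ← hsplit]
      field_simp
      linear_combination h2
    rw [eq_div_of_mul_eq hden0 h1]
    field_simp
    ring
  have hqE : q ∈ ext E s := div_mem θ.2 ((ext E s).algebraMap_mem ξ)
  have hred : R.IsRed ((m - ((τ m' : ext E s) : Ω)) /
      (1 + algebraMap K Ω w ^ p * ((τ m' : ext E s) : Ω))) 0 := by
    have := M.isRed_div (hm0.sub hτm0) hden one_ne_zero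
    rwa [sub_zero, zero_div] at this
  obtain ⟨v, -, vb, hqv, hv, hvb⟩ := M.exists_root (hQ q hqE) hred hqp
  rw [add_zero] at hvb
  obtain ⟨l, hl⟩ := exists_natCast M hvb
  have hvE : v ∈ ext E s := by
    have h1 : v = (q - 1) / algebraMap K Ω w := by
      rw [hqv]
      have := M.W_ne
      field_simp
      ring
    rw [h1]
    exact div_mem (sub_mem hqE (one_mem _)) ((ext E s).algebraMap_mem w)
  let v' : ext E s := ⟨v, hvE⟩
  have hl' : ∀ n : ℕ, R.IsRed ((τ^[n] v' : ext E s) : Ω) vb := by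
    apply isRed_iterate M hO hp.pos hord hv
    have h1 : R.IsRed (((v' - (l : ext E s) : ext E s)) : Ω) 0 := by
      have h2 := hv.sub (isRed_natCast (R := R) M l)
      rwa [hl, sub_self] at h2
    have h2 := isRed_zero_of_pres M hO hp.pos hord h1
    rw [map_sub, map_natCast] at h2
    have h3 := h2.sub h1
    rw [sub_self] at h3
    have h4 : ((τ v' - (l : ext E s) : ext E s) : Ω) - ((v' - (l : ext E s) : ext E s) : Ω) =
        ((τ v' - v' : ext E s) : Ω) := by
      push_cast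
      ring
    rwa [h4] at h3
  -- the product
  have hθ : θ = Z * (1 + W' * v') := by
    apply Subtype.ext
    change (θ : Ω) = algebraMap K Ω ξ * (1 + algebraMap K Ω w * v)
    rw [← hqv, hq]
    field_simp
  have hθn : ∀ n, τ^[n] θ = Z * (1 + W' * τ^[n] v') := by
    intro n
    induction n with
    | zero => exact hθ
    | succ n ih =>
      rw [Function.iterate_succ_apply', ih, map_mul, map_add, map_one, map_mul, hτZ, hτW,
        ← Function.iterate_succ_apply' τ n v']
  have htel : ∀ n, (∏ i ∈ range n, τ^[i] θ) * Y' = τ^[n] Y' := by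
    intro n
    induction n with
    | zero => simp
    | succ n ih =>
      have h1 : τ^[n] θ * τ^[n] Y' = τ^[n + 1] Y' := by
        rw [Function.iterate_succ_apply]
        have h2 : θ * Y' = τ Y' := div_mul_cancel₀ _ hY'0
        rw [← h2]
        clear ih h2
        induction n with
        | zero => rfl
        | succ n ih => rw [Function.iterate_succ_apply', Function.iterate_succ_apply',
            Function.iterate_succ_apply', ← map_mul, ih]
      rw [prod_range_succ, mul_assoc, mul_comm (τ^[n] θ), ← mul_assoc, ih, mul_comm, h1]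
  have hprod : ∀ n : ℕ, ∃ e : Ω, R.IsRed e ((n : Λ) * vb) ∧
      ((∏ i ∈ range n, τ^[i] θ : ext E s) : Ω) =
        algebraMap K Ω ξ ^ n * (1 + algebraMap K Ω w * e) := by
    intro n
    induction n with
    | zero => exact ⟨0, by simpa using R.isRed_zero, by simp⟩
    | succ n ih =>
      obtain ⟨e, he, hpe⟩ := ih
      refine ⟨e + ((τ^[n] v' : ext E s) : Ω) + algebraMap K Ω w * (e *
        ((τ^[n] v' : ext E s) : Ω)), ?_, ?_⟩
      · have := (he.add (hl' n)).add (M.isRed_w.mul (he.mul (hl' n)))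
        rw [zero_mul, add_zero] at this
        rwa [show ((n + 1 : ℕ) : Λ) * vb = (n : Λ) * vb + vb by push_cast; ring]
      · rw [prod_range_succ]
        change ((∏ i ∈ range n, τ^[i] θ : ext E s) : Ω) * ((τ^[n] θ : ext E s) : Ω) = _
        rw [hpe, hθn n]
        change algebraMap K Ω ξ ^ n * (1 + algebraMap K Ω w * e) * (algebraMap K Ω ξ *
          (1 + algebraMap K Ω w * ((τ^[n] v' : ext E s) : Ω))) = _
        ring
  obtain ⟨e, he, hpe⟩ := hprod p
  have h1 : ∏ i ∈ range p, τ^[i] θ = 1 := by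
    have := htel p
    rw [hord] at this
    exact mul_right_cancel₀ hY'0 (this.trans (one_mul _).symm)
  rw [h1, ← map_pow, hξ] at hpe
  rw [CharP.cast_eq_zero, zero_mul] at he
  -- contradiction
  have hζinv : ζ⁻¹ ^ p = 1 := by rw [inv_pow, hζ.pow_eq_one, inv_one]
  have hζinv1 : ζ⁻¹ ≠ 1 := by
    intro h
    have h2 : ζ = 1 := inv_eq_one.1 h
    rw [h2] at hζ
    exact hp.one_lt.ne' (hζ.unique IsPrimitiveRoot.one)
  have h3 : ζ⁻¹ = 1 + w * ((ζ⁻¹ - 1) / w) := by
    have := M.w_ne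
    field_simp
    ring
  apply not_isRed_zero_of_root M hζinv hζinv1 h3
  have h4 : algebraMap K Ω ((ζ⁻¹ - 1) / w) = e := by
    have h5 : (1 : Ω) = algebraMap K Ω ζ * (1 + algebraMap K Ω w * e) := hpe
    have h6 := M.W_ne
    rw [map_div₀, map_sub, map_inv₀, map_one]
    field_simp
    linear_combination h5
  rwa [h4]

end StepData

end Fermat.Agent.Ord
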