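import Fermat.Agent.Ord.Tower

/-!
# The tower of `p`-power roots: induction
-/

set_option autoImplicit false
set_option linter.unusedSectionVars false
set_option linter.style.haveILetI false

open Finset IntermediateField Module

namespace Fermat.Agent.Ord

open Fermat.Agent.GoodRed (IsInt Lm)

variable {K k : Type*} [Field K] [Field k] {A : ValuationSubring K} {π : A →+* k}
  {Ω Λ : Type*} [Field Ω] [Algebra K Ω] [Field Λ] [Algebra k Λ]

variable {R : PreRed A π Ω Λ} {p : ℕ} {w : K}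

/-- lower bound for the dimension -/
theorem sum_finrank_le {F E : IntermediateField K Ω} {g f : Ω} {m : ℕ} (hm : 0 < m)
    (hg : g ^ m = f) (hgE : g ∈ E) (hle : F ≤ E) (hI : Indep F g m) {x : Ω} {b : ℕ}
    [FiniteDimensional K (U x E b)] (V : Fin m → Submodule K Ω)
    [∀ j, FiniteDimensional K (V j)]
    (hV : ∀ j, ∀ h ∈ V j, h ∈ F ∧ f ^ (j : ℕ) * h ^ m ∈ Lm K x (m * b)) :
    ∑ j, finrank K (V j) ≤ finrank K (U x E b) := by
  classical
  let φ : (∀ j, V j) →ₗ[K] Ω := ∑ j : Fin m, (LinearMap.mulLeft K (g ^ (j : ℕ))).comp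
    ((V j).subtype.comp (LinearMap.proj j))
  have hφ : ∀ h : ∀ j, V j, φ h = ∑ j : Fin m, g ^ (j : ℕ) * (h j : Ω) := by
    intro h
    simp [φ, LinearMap.sum_apply]
  have hmem : ∀ h : ∀ j, V j, φ h ∈ U x E b := by
    intro h
    rw [hφ]
    refine Submodule.sum_mem _ fun j _ => ?_
    obtain ⟨h1, h2⟩ := hV j (h j) (h j).2
    refine mem_U.2 ⟨mem_Lm_of_pow hm ?_, mul_mem (pow_mem hgE _) (hle h1)⟩
    rwa [mul_pow, ← pow_mul, mul_comm (j : ℕ) m, pow_mul, hg]
  let ψ : (∀ j, V j) →ₗ[K] U x E b := φ.codRestrict _ hmem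
  have hinj : Function.Injective ψ := by
    rw [← LinearMap.ker_eq_bot, LinearMap.ker_eq_bot']
    intro h h0
    have h1 : φ h = 0 := congrArg Subtype.val h0
    rw [hφ] at h1
    have h2 := hI (fun j => if hj : j < m then ((h ⟨j, hj⟩ : V ⟨j, hj⟩) : Ω) else 0) (fun j => by
      by_cases hj : j < m
      · simp only [hj, dif_pos]; exact (hV _ _ (h ⟨j, hj⟩).2).1
      · simp only [hj, dif_neg, not_false_eq_true]; exact zero_mem _) (by
      rw [Finset.sum_range, ← h1]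
      refine sum_congr rfl fun j _ => ?_
      rw [dif_pos j.2, mul_comm])
    funext j
    have h3 := h2 j j.2
    rw [dif_pos j.2] at h3
    exact Subtype.ext h3
  have h1 := LinearMap.finrank_le_finrank_of_injective hinj
  rwa [finrank_pi_fintype] at h1

/-- the lower bound hypothesis -/
def LowHyp (p : ℕ) (x : Ω) (F : IntermediateField K Ω) (f : Ω) (i : ℕ) : Prop :=
  ∀ j < p ^ i, ∃ b0, ∀ b ≥ b0, ∃ V : Submodule K Ω, FiniteDimensional K V ∧
    finrank K (U x F b) ≤ finrank K V ∧ ∀ h ∈ V, h ∈ F ∧ f ^ j * h ^ (p ^ i) ∈ Lm K x (p ^ i * b)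

theorem Lvl0.finiteDimensional_U [IsAlgClosed K] {M : Amb R p w} {x : Ω} {xb t : Λ}
    {E : IntermediateField K Ω} {κ : IntermediateField k Λ} (L : Lvl0 M x xb t E κ) (b : ℕ) :
    FiniteDimensional K (U x E b) := by
  haveI := L.finiteDimensional b
  have h1 := map_Lm E ⟨x, L.x_mem⟩ b
  change _ = U x E b at h1
  rw [← h1]
  infer_instance

theorem LowHyp.exists_le [IsAlgClosed K] {M : Amb R p w} {x : Ω} {xb t : Λ}
    {F E : IntermediateField K Ω} {κ : IntermediateField k Λ} (L : Lvl0 M x xb t E κ) {f g : Ω}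
    {i : ℕ} (h : LowHyp p x F f i) (hg : g ^ (p ^ i) = f) (hgE : g ∈ E) (hle : F ≤ E)
    (hI : Indep F g (p ^ i)) :
    ∃ b0, ∀ b ≥ b0, p ^ i * finrank K (U x F b) ≤ finrank K (U x E b) := by
  classical
  choose! b0 hb0 using h
  refine ⟨(range (p ^ i)).sup b0, fun b hb => ?_⟩
  have h1 : ∀ j : Fin (p ^ i), b0 j ≤ b := fun j =>
    (Finset.le_sup (f := b0) (mem_range.2 j.2)).trans hb
  choose V hV1 hV2 hV3 using fun j : Fin (p ^ i) => hb0 j j.2 b (h1 j)
  haveI := hV1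
  haveI := L.finiteDimensional_U b
  have h2 := sum_finrank_le (pow_pos M.hp.pos i) hg hgE hle hI V hV3
  refine le_trans ?_ h2
  have h3 : ∑ _j : Fin (p ^ i), finrank K (U x F b) ≤ ∑ j, finrank K (V j) :=
    Finset.sum_le_sum fun j _ => hV2 j
  simpa using h3

/-- the `i`-th level of the tower -/
structure Tow (M : Amb R p w) (x : Ω) (xb t : Λ) (F : IntermediateField K Ω)
    (κ₀ : IntermediateField k Λ) (f : Ω) (i : ℕ) (E : IntermediateField K Ω)
    (κ : IntermediateField k Λ) (g : Ω) : Prop where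
  lvl : Lvl M x xb t E κ
  hle : F ≤ E
  g_mem : g ∈ E
  g_pow : g ^ (p ^ i) = f
  g_red : R.IsRed g 1
  g_int : ∃ b, g ∈ Lm K x b
  indep : Indep F g (p ^ i)
  spans : Spans F E g (p ^ i)
  stab : Stab M F E
  up : ∀ b, finrank k (U xb κ b) ≤ p ^ i * finrank k (U xb κ₀ b)
  nonsplit : ¬ Split R p w E g

variable {M : Amb R p w} {x : Ω} {xb t : Λ} {F : IntermediateField K Ω}
  {κ₀ : IntermediateField k Λ}

theorem Tow.zero (L : Lvl M x xb t F κ₀) {f : Ω} (hf : f ∈ F) (hf1 : R.IsRed f 1) {b₁ : ℕ}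
    (hfb : f ∈ Lm K x b₁) (hns : ¬ Split R p w F f) : Tow M x xb t F κ₀ f 0 F κ₀ f where
  lvl := L
  hle := le_rfl
  g_mem := hf
  g_pow := by rw [pow_zero, pow_one]
  g_red := hf1
  g_int := ⟨b₁, hfb⟩
  indep := by
    intro c _ h0 i hi
    rw [pow_zero] at h0 hi
    rw [sum_range_one, pow_zero, mul_one] at h0
    have : i = 0 := by omega
    rw [this]
    exact h0
  spans := by
    intro z hz
    refine ⟨fun i => if i = 0 then z else 0, fun i => ?_, ?_⟩
    · by_cases h : i = 0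
      · simp only [h, if_true]; exact hz
      · simp only [h, if_false]; exact zero_mem _
    · rw [pow_zero, sum_range_one]; simp
  stab := Stab.refl M F
  up b := by rw [pow_zero, one_mul]
  nonsplit := hns

variable {f g : Ω} {i : ℕ} {E : IntermediateField K Ω} {κ : IntermediateField k Λ}

/-- the normal form gives data for a step -/
theorem Tow.exists_stepData [IsAlgClosed K] [IsAlgClosed k] [CharP k p]
    (hs : Function.Surjective π) (ht : ∀ e : ℕ → Λ, ∑ i ∈ range p, e i ^ p * t ^ i = 0 →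
    ∀ i < p, e i = 0) (T : Tow M x xb t F κ₀ f i E κ g) {H : Ω} (hH : H ∈ M.Q)
    (hT : M.T g = g * H ^ p) : ∃ y r s rb sb, StepData M E κ g y r s rb sb := by
  have L := T.lvl
  obtain ⟨b1, hb1⟩ := T.g_int
  obtain ⟨b, y, r, hy, hr, hy1, hrO, hg⟩ := L.exists_normalForm hs ht
    (mem_U.2 ⟨hb1, T.g_mem⟩) T.g_red hH hT
  have hyE := (mem_U.1 hy).2
  have hrE := (mem_U.1 hr).2
  have hyB : y ∈ M.B := L.isInt_B hyE hy1.mem (GoodRed.mem_Lm.1 (mem_U.1 hy).1).1
  have hrB : r ∈ M.B := L.isInt_B hrE hrO (GoodRed.mem_Lm.1 (mem_U.1 hr).1).1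
  obtain ⟨s, hsB, hseq⟩ := M.hensel y hyB r hrB hy1
  obtain ⟨rb, hrb⟩ := R.exists_isRed_of_mem hrO
  obtain ⟨sb, hsb⟩ := R.exists_isRed_of_mem (M.B_O hsB)
  have hsbeq : sb ^ p = sb + rb := by
    have h1 := (M.isRed_lin hy1 hsb).add hrb
    rw [← hseq] at h1
    rw [(hsb.pow p).unique h1, one_pow, one_mul]
  refine ⟨y, r, s, rb, sb, ⟨hyE, hrE, hy1, hrb, L.red_mem r hrE rb hrb, T.g_mem, hg, M.B_Q s hsB,
    hseq, hsb, hsbeq, ?_⟩⟩
  intro hsbκ
  apply T.nonsplit
  obtain ⟨v, hv, hvs⟩ := L.lift sb hsbκ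
  set Y : Ω := y + algebraMap K Ω w * v with hY
  have hYE : Y ∈ E := add_mem hyE (mul_mem (E.algebraMap_mem w) hv)
  have hY1 : R.IsRed Y 1 := by
    have := hy1.add (M.isRed_w.mul hvs)
    rwa [zero_mul, add_zero] at this
  have hY0 := M.ne_of_isRed hY1 one_ne_zero
  have hμ : R.IsRed ((s - v) / Y) 0 := by
    have := M.isRed_div (hsb.sub hvs) hY1 one_ne_zero
    rwa [sub_self, zero_div] at this
  obtain ⟨m, hm, hm0⟩ := M.pow_one_add hμ
  rw [zero_pow M.hp.ne_zero, sub_zero] at hm0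
  have hgeq : g = Y ^ p * (1 + algebraMap K Ω w ^ p * m) := by
    rw [← hm, ← mul_pow]
    have h1 : Y * (1 + algebraMap K Ω w * ((s - v) / Y)) = y + algebraMap K Ω w * s := by
      rw [hY]
      rw [hY] at hY0
      field_simp
      ring
    rw [h1, add_mul_pow M.hp M.W_pow, hseq, hg]
    ring
  refine ⟨Y, hYE, m, ?_, hm0, hgeq⟩
  have hW := M.W_ne
  have h2 : m = (g / Y ^ p - 1) / algebraMap K Ω w ^ p := by
    rw [hgeq]
    field_simp
    ring
  rw [h2]
  exact div_mem (sub_mem (div_mem T.g_mem (pow_mem hYE _)) (one_mem _))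
    (pow_mem (E.algebraMap_mem w) _)

/-- the next level -/
theorem Tow.succ [IsAlgClosed K] [CharZero K] [IsAlgClosed k] [CharP k p]
    (L₀ : Lvl M x xb t F κ₀) (T : Tow M x xb t F κ₀ f i E κ g)
    (hLow : LowHyp p x F f (i + 1)) {y r s : Ω} {rb sb : Λ}
    (D : StepData M E κ g y r s rb sb) :
    Tow M x xb t F κ₀ f (i + 1) (ext E s) (ext κ sb) (y + algebraMap K Ω w * s) := by
  haveI := R.charP_alg p
  have L := T.lvl
  have L0 := D.lvl0 L.toLvl0
  have hpow : (y + algebraMap K Ω w * s) ^ (p ^ (i + 1)) = f := by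
    rw [pow_succ', pow_mul, D.root_pow, T.g_pow]
  have hle : F ≤ ext E s := T.hle.trans (le_ext E s)
  have hind : Indep F (y + algebraMap K Ω w * s) (p ^ (i + 1)) := by
    rw [pow_succ]
    exact Indep.trans D.root_pow T.g_mem T.hle T.indep (D.indep_root L.toSubRed)
  have hup : ∀ b, finrank k (U xb (ext κ sb) b) ≤ p ^ (i + 1) * finrank k (U xb κ₀ b) := by
    intro b
    have hfin : 0 < relfinrank k⟮xb⟯ κ := by rw [← L.fin_eq]; exact L.fin
    refine (finrank_U_ext_le M.hp L.xb_mem L.trans hfin D.rb_mem D.hsb_eq D.sb_not b).trans ?_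
    rw [pow_succ', mul_assoc]
    exact Nat.mul_le_mul_left _ (T.up b)
  exact
  { lvl :=
    { L0 with
      dim := by
        obtain ⟨b0, hb0⟩ := L₀.dim
        obtain ⟨b1, hb1⟩ := hLow.exists_le L0 hpow D.root_mem hle hind
        refine ⟨max b0 b1, fun b hb => (hup b).trans ((Nat.mul_le_mul_left _
          (hb0 b (le_trans (le_max_left _ _) hb))).trans (hb1 b (le_trans (le_max_right _ _) hb)))⟩ }
    hle := hle
    g_mem := D.root_mem
    g_pow := hpow
    g_red := D.isRed_root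
    g_int := by
      obtain ⟨b, hb⟩ := T.g_int
      refine ⟨b, mem_Lm_of_pow M.hp.pos ?_⟩
      rw [D.root_pow]
      exact Lm_mono (Nat.le_mul_of_pos_left _ M.hp.pos) hb
    indep := hind
    spans := by
      rw [pow_succ]
      exact Spans.trans D.root_pow T.spans D.spans_root
    stab := D.stab L.toSubRed T.stab
    up := hup
    nonsplit := D.nonsplit_root L.toSubRed L.E_Q }

/-- roots of unity of the large field are constants -/
theorem exists_root_of_unity {n : ℕ} [NeZero n] {ζ : K} (hζ : IsPrimitiveRoot ζ n) {η : Ω}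
    (hη : η ^ n = 1) : ∃ ξ : K, ξ ^ n = 1 ∧ algebraMap K Ω ξ = η := by
  have h1 : IsPrimitiveRoot (algebraMap K Ω ζ) n := hζ.map_of_injective (algebraMap K Ω).injective
  obtain ⟨j, -, hj⟩ := h1.eq_pow_of_pow_eq_one hη
  exact ⟨ζ ^ j, by rw [← pow_mul, mul_comm, pow_mul, hζ.pow_eq_one, one_pow],
    by rw [map_pow, hj]⟩

/-- **existence of the tower** -/
theorem exists_tow [IsAlgClosed K] [CharZero K] [IsAlgClosed k] [CharP k p]
    (L₀ : Lvl M x xb t F κ₀) (hs : Function.Surjective π)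
    (ht : ∀ e : ℕ → Λ, ∑ i ∈ range p, e i ^ p * t ^ i = 0 → ∀ i < p, e i = 0)
    {n : ℕ} {f H : Ω} (hf : f ∈ F) (hf1 : R.IsRed f 1) {b₁ : ℕ}
    (hfb : f ∈ Lm K x b₁) (hns : ¬ Split R p w F f) (hH : H ∈ M.Q)
    (hT : M.T f = f * H ^ (p ^ (n + 1))) (hLow : ∀ i ≤ n, LowHyp p x F f i) (i : ℕ) (hi : i ≤ n) :
    ∃ E κ g H', Tow M x xb t F κ₀ f i E κ g ∧ H' ∈ M.Q ∧
      M.T g = g * H' ^ (p ^ (n + 1 - i)) := by
  have hp := M.hp
  haveI : NeZero p := ⟨hp.ne_zero⟩
  haveI : NeZero (p : K) := ⟨by exact_mod_cast hp.ne_zero⟩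
  induction i with
  | zero => exact ⟨F, κ₀, f, H, Tow.zero L₀ hf hf1 hfb hns, hH, hT⟩
  | succ i ih =>
    obtain ⟨E, κ, g, H', T, hH', hT'⟩ := ih (by omega)
    have e1 : n + 1 - i = (n + 1 - (i + 1)) + 1 := by omega
    obtain ⟨y, r, s, rb, sb, D⟩ := T.exists_stepData hs ht (H := H' ^ (p ^ (n + 1 - (i + 1))))
      (pow_mem hH' _) (by rw [hT', ← pow_mul, ← pow_succ, ← e1])
    have T' := T.succ L₀ (hLow (i + 1) hi) D
    set g' := y + algebraMap K Ω w * s with hg'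
    have hg'0 : g' ≠ 0 := M.ne_of_isRed T'.g_red one_ne_zero
    have hg0 : g ≠ 0 := M.ne_of_isRed T.g_red one_ne_zero
    have hTg0 := M.T_ne_zero hg0
    have hH'0 : H' ≠ 0 := by
      rintro rfl
      rw [hT', zero_pow (pow_pos hp.pos _).ne', mul_zero] at hTg0
      exact hTg0 rfl
    have hpw : M.T g' ^ p = (g' * H' ^ (p ^ (n + 1 - (i + 1)))) ^ p := by
      rw [← map_pow, D.root_pow, mul_pow, D.root_pow, ← pow_mul, ← pow_succ, ← e1, hT']
    set η : Ω := M.T g' / (g' * H' ^ (p ^ (n + 1 - (i + 1)))) with hη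
    have hd0 : g' * H' ^ (p ^ (n + 1 - (i + 1))) ≠ 0 := mul_ne_zero hg'0 (pow_ne_zero _ hH'0)
    have hηp : η ^ p = 1 := by
      rw [hη, div_pow, hpw, div_self (pow_ne_zero _ hd0)]
    obtain ⟨ζ, hζ⟩ := HasEnoughRootsOfUnity.exists_primitiveRoot K p
    obtain ⟨ξ, -, hξ⟩ := exists_root_of_unity hζ hηp
    obtain ⟨c, hc⟩ := IsAlgClosed.exists_pow_nat_eq ξ (pow_pos hp.pos (n + 1 - (i + 1)))
    refine ⟨_, _, g', algebraMap K Ω c * H', T', M.Q.mul_mem (M.alg_mem c) hH', ?_⟩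
    rw [mul_pow, ← map_pow, hc, hξ, hη]
    field_simp

end Fermat.Agent.Ord
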