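import Fermat.Agent.Ord.Tower2

/-!
# The tower of `p`-power roots: the action of an automorphism of the constants
-/

set_option autoImplicit false
set_option linter.unusedSectionVars false
set_option linter.style.haveILetI false

open Finset IntermediateField Module

namespace Fermat.Agent.Ord

open Fermat.Agent.GoodRed (IsInt Lm)

variable {K k : Type*} [Field K] [Field k] {A : ValuationSubring K} {π : A →+* k}
  {Ω Λ : Type*} [Field Ω] [Algebra K Ω] [Field Λ] [Algebra k Λ]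

variable {R : PreRed A π Ω Λ} {p : ℕ} {w : K}

theorem one_add_pow_eq (M : Amb R p w) {v : Ω} {vb : Λ} (hv : R.IsRed v vb) (n : ℕ) :
    ∃ e, R.IsRed e ((n : Λ) * vb) ∧
      (1 + algebraMap K Ω w * v) ^ n = 1 + algebraMap K Ω w * e := by
  induction n with
  | zero => exact ⟨0, by simpa using R.isRed_zero, by simp⟩
  | succ n ih =>
    obtain ⟨e, he, h⟩ := ih
    refine ⟨e + v + algebraMap K Ω w * (e * v), ?_, ?_⟩
    · have := (he.add hv).add (M.isRed_w.mul (he.mul hv))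
      rw [zero_mul, add_zero] at this
      rwa [show ((n + 1 : ℕ) : Λ) * vb = (n : Λ) * vb + vb by push_cast; ring]
    · rw [pow_succ, h]; ring

theorem isRed_one_add (M : Amb R p w) {v : Ω} (hv : v ∈ R.O) :
    R.IsRed (1 + algebraMap K Ω w * v) 1 := by
  obtain ⟨vb, hvb⟩ := R.exists_isRed_of_mem hv
  have := R.isRed_one.add (M.isRed_w.mul hvb)
  rwa [zero_mul, add_zero] at this

theorem one_add_ne_zero (M : Amb R p w) {v : Ω} (hv : v ∈ R.O) :
    1 + algebraMap K Ω w * v ≠ 0 := M.ne_of_isRed (isRed_one_add M hv) one_ne_zero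

theorem isRed_one_add_pow (M : Amb R p w) {v : Ω} (hv : v ∈ R.O) :
    R.IsRed (1 + algebraMap K Ω w ^ p * v) 1 := by
  obtain ⟨vb, hvb⟩ := R.exists_isRed_of_mem hv
  have := R.isRed_one.add ((M.isRed_w.pow p).mul hvb)
  rwa [zero_pow M.hp.ne_zero, zero_mul, add_zero] at this

theorem one_add_pow_ne_zero (M : Amb R p w) {v : Ω} (hv : v ∈ R.O) :
    1 + algebraMap K Ω w ^ p * v ≠ 0 := M.ne_of_isRed (isRed_one_add_pow M hv) one_ne_zero

theorem hom_ext_of_spans {F E : IntermediateField K Ω} (hle : F ≤ E) {g : Ω} {n : ℕ}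
    (hg : g ∈ E) (hS : Spans F E g n) {S : Type*} [Semiring S] {φ ψ : E →+* S}
    (hF : ∀ z : E, (z : Ω) ∈ F → φ z = ψ z) (hgg : φ ⟨g, hg⟩ = ψ ⟨g, hg⟩) (z : E) :
    φ z = ψ z := by
  obtain ⟨c, hc, hz⟩ := hS z z.2
  have h1 : z = ∑ i ∈ range n, (⟨c i, hle (hc i)⟩ : E) * (⟨g, hg⟩ : E) ^ i := by
    apply Subtype.ext
    rw [hz, AddSubmonoidClass.coe_finsetSum]
    rfl
  rw [h1, map_sum, map_sum]
  refine sum_congr rfl fun i _ => ?_
  rw [map_mul, map_mul, map_pow, map_pow, hgg, hF ⟨c i, hle (hc i)⟩ (hc i)]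

/-- the action on `w` -/
theorem exists_mul_w (M : Amb R p w) {ζ : K} (hζ : IsPrimitiveRoot ζ p)
    {σ : Ω →+* Ω} {σK : K →+* K} (hσK : ∀ c, σ (algebraMap K Ω c) = algebraMap K Ω (σK c))
    (hσR : ∀ f z, R.IsRed f z → R.IsRed (σ f) z) {a : ℕ} (ha : σK ζ = ζ ^ a) :
    ∃ e : Ω, σ (algebraMap K Ω w) = algebraMap K Ω w * e ∧ R.IsRed e (a : Λ) := by
  have hp := M.hp
  obtain ⟨v, -, vb, hζv, hvr, -⟩ := M.exists_root (g := algebraMap K Ω ζ) (r := 0) (rb := 0)
    (M.alg_mem _) R.isRed_zero (by rw [mul_zero, add_zero, ← map_pow, hζ.pow_eq_one, map_one])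
  have hζ1 : ζ ≠ 1 := hζ.ne_one hp.one_lt
  have hζε : ζ = 1 + w * ((ζ - 1) / w) := by rw [mul_div_cancel₀ _ M.w_ne]; ring
  have hvε : algebraMap K Ω ((ζ - 1) / w) = v := by
    have h1 := M.W_ne
    rw [map_div₀, map_sub, map_one, hζv]
    field_simp
    ring
  have hvb0 : vb ≠ 0 := by
    rintro rfl
    exact not_isRed_zero_of_root M hζ.pow_eq_one hζ1 hζε (hvε ▸ hvr)
  obtain ⟨ea, hea, hpow⟩ := one_add_pow_eq M hvr a
  have h1 : σ (algebraMap K Ω ζ) = (algebraMap K Ω ζ) ^ a := by rw [hσK, ha, map_pow]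
  rw [hζv, hpow, map_add, map_one, map_mul] at h1
  have h2 : σ (algebraMap K Ω w) * σ v = algebraMap K Ω w * ea := add_left_cancel h1
  have hσv := hσR _ _ hvr
  have hσv0 := M.ne_of_isRed hσv hvb0
  refine ⟨ea / σ v, by rw [← mul_div_assoc, ← h2, mul_div_cancel_right₀ _ hσv0], ?_⟩
  have := M.isRed_div hea hσv hvb0
  rwa [mul_div_cancel_right₀ _ hvb0] at this

/-- the norm argument -/
theorem pow_mem_of_almost_fixed (M : Amb R p w) {F E : IntermediateField K Ω}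
    {κ₀ : IntermediateField k Λ} (L : SubRed R F κ₀) {τ : E →+* E}
    (hO : ∀ z : E, (z : Ω) ∈ R.O → ((τ z : E) : Ω) ∈ R.O) {m : ℕ} (hm : 0 < m)
    (hτ : ∀ z, τ^[m] z = z) (hfix : ∀ z : E, τ z = z → (z : Ω) ∈ F) {z : E} {zb : Λ}
    (hz : R.IsRed (z : Ω) zb) (h : R.IsRed (((τ z - z : E)) : Ω) 0) : zb ^ m ∈ κ₀ := by
  classical
  obtain ⟨l, rfl⟩ : ∃ l, m = l + 1 := ⟨m - 1, by omega⟩
  set P : E := ∏ j ∈ range (l + 1), τ^[j] z with hP
  have h1 : τ P = P := by
    rw [hP, map_prod]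
    simp only [← Function.iterate_succ_apply' τ]
    rw [prod_range_succ, hτ, prod_range_succ']
    rfl
  have h2 := hfix P h1
  have h3 : (P : Ω) = ∏ j ∈ range (l + 1), ((τ^[j] z : E) : Ω) := by
    rw [hP]
    exact map_prod (algebraMap E Ω) _ _
  have h4 := PreRed.isRed_prod (R := R) (range (l + 1)) (y := fun j => ((τ^[j] z : E) : Ω))
    (z := fun _ => zb) (fun j _ => isRed_iterate M hO hm hτ hz h j)
  rw [← h3, prod_const, card_range] at h4
  exact L.red_mem _ h2 _ h4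

/-- iterates of the Artin–Schreier equation -/
theorem artinSchreier_iterate {κ₀ : IntermediateField k Λ} (hp : p.Prime) [CharP Λ p] {s r : Λ}
    (hr : r ∈ κ₀) (hs : s ^ p = s + r) (n : ℕ) : s ^ (p ^ n) - s ∈ κ₀ := by
  haveI : Fact p.Prime := ⟨hp⟩
  induction n with
  | zero => rw [pow_zero, pow_one, sub_self]; exact zero_mem _
  | succ n ih =>
    have h1 : s ^ (p ^ (n + 1)) - s = (s ^ (p ^ n) - s) ^ p + r := by
      rw [sub_pow_char (p := p), ← pow_mul, ← pow_succ, hs]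
      ring
    rw [h1]
    exact add_mem (pow_mem ih p) hr

end Fermat.Agent.Ord
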